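/-
GATE-E / RISK-4 R4-J (K2) (helper50): `U_q² = 1` on `ker (β ⊗ K)` for flat coefficients `K`, and the
eigenvalue corollary `u² = 1`.

* `baseChange_eq_of_ker` : an identity between two endomorphisms valid on `ker f` stays valid on
  `ker (f ⊗ K)` for `K` flat (`Module.Flat.ker_lTensor_eq`);
* `latT_baseChange_sq_of_betaP` : `K` flat over `ℤ`, `y ∈ K ⊗ Λ_{N q}` with `(β ⊗ K) y = 0`
  ⟹ `(U_q ⊗ K) ((U_q ⊗ K) y) = y`  (`GM/B5/UqSquare.latT_latT_eq_of_betaP_eq_zero ⊗ K`);
* `latT_baseChange_sq_of_cores` : the same with the two components `cores ⊗ K`, `cores_δ ⊗ K`;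
* `eigenvalue_sq_eq_one` : `K` a field (any flat domain with torsion-free tensor is enough; we
  state it for a field), `y ≠ 0`, `(U_q ⊗ K) y = u • y`, `(β ⊗ K) y = 0` ⟹ `u * u = 1`, hence
  `u = 1 ∨ u = -1`.
-/
import Mathlib
import Fermat.Agent.GM.B5.UqSquare
import Fermat.Agent.GM.B5.EquivLat

set_option autoImplicit false
set_option linter.unusedSectionVars false

open TensorProduct
open CongruenceSubgroup
open Fermat.Agent.S16_helper49
open Fermat.Agent.GM.B
open Fermat.Agent.GJ.J2.Lat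

namespace Fermat.Agent.GE9.PNew.UqSqOmega

/-! ### abstract flat base change of identities on a kernel -/

section Abstract

variable {R : Type*} [CommRing R] (K : Type*) [CommRing K] [Algebra R K] [Module.Flat R K]
variable {M M' : Type*} [AddCommGroup M] [AddCommGroup M'] [Module R M] [Module R M']

/-- flat base change of a kernel: every element of `ker (f ⊗ K)` comes from `K ⊗ ker f`. -/
theorem exists_of_baseChange_eq_zero (f : M →ₗ[R] M') (y : K ⊗[R] M)
    (hy : f.baseChange K y = 0) :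
    ∃ w : K ⊗[R] LinearMap.ker f, (LinearMap.ker f).subtype.baseChange K w = y := by
  have hmem : y ∈ LinearMap.ker (TensorProduct.AlgebraTensorModule.lTensor K K f) := hy
  rw [Module.Flat.ker_lTensor_eq] at hmem
  obtain ⟨w, hw⟩ := hmem
  exact ⟨w, hw⟩

/-- an identity between endomorphisms valid on `ker f` stays valid on `ker (f ⊗ K)`, `K` flat. -/
theorem baseChange_eq_of_ker (f : M →ₗ[R] M') (u v : M →ₗ[R] M)
    (h : ∀ z, f z = 0 → u z = v z) (y : K ⊗[R] M) (hy : f.baseChange K y = 0) :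
    u.baseChange K y = v.baseChange K y := by
  obtain ⟨w, rfl⟩ := exists_of_baseChange_eq_zero K f y hy
  have hcomp : u ∘ₗ (LinearMap.ker f).subtype = v ∘ₗ (LinearMap.ker f).subtype := by
    ext z
    exact h z.1 z.2
  have e1 : u.baseChange K ((LinearMap.ker f).subtype.baseChange K w)
      = (u ∘ₗ (LinearMap.ker f).subtype).baseChange K w := by
    rw [LinearMap.baseChange_comp]; rfl
  have e2 : v.baseChange K ((LinearMap.ker f).subtype.baseChange K w)
      = (v ∘ₗ (LinearMap.ker f).subtype).baseChange K w := by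
    rw [LinearMap.baseChange_comp]; rfl
  rw [e1, e2, hcomp]

/-- involution on `ker f` ⟹ involution on `ker (f ⊗ K)`. -/
theorem baseChange_baseChange_eq_of_ker (f : M →ₗ[R] M') (u : M →ₗ[R] M)
    (h : ∀ z, f z = 0 → u (u z) = z) (y : K ⊗[R] M) (hy : f.baseChange K y = 0) :
    u.baseChange K (u.baseChange K y) = y := by
  have := baseChange_eq_of_ker K f (u ∘ₗ u) LinearMap.id (fun z hz => h z hz) y hy
  rw [LinearMap.baseChange_comp, LinearMap.baseChange_id] at this
  exact this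

omit [Module.Flat R K] in
/-- an element of `K ⊗ (A × B)` vanishes as soon as its two components do. -/
theorem eq_zero_of_fst_snd {A B : Type*} [AddCommGroup A] [AddCommGroup B] [Module R A]
    [Module R B] (z : K ⊗[R] (A × B))
    (h1 : (LinearMap.fst R A B).baseChange K z = 0)
    (h2 : (LinearMap.snd R A B).baseChange K z = 0) : z = 0 := by
  have hid : (LinearMap.inl R A B ∘ₗ LinearMap.fst R A B
      + LinearMap.inr R A B ∘ₗ LinearMap.snd R A B) = LinearMap.id := by
    ext x <;> simp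
  have h := congrArg (fun g : (A × B) →ₗ[R] (A × B) => g.baseChange K z) hid
  simp only [LinearMap.baseChange_add, LinearMap.baseChange_comp, LinearMap.baseChange_id,
    LinearMap.add_apply, LinearMap.comp_apply, LinearMap.id_apply] at h
  rw [h1, h2, map_zero, map_zero, add_zero] at h
  exact h.symm

omit [Module.Flat R K] in
/-- base change of a product map vanishes iff both components vanish. -/
theorem prod_baseChange_eq_zero {A B : Type*} [AddCommGroup A] [AddCommGroup B] [Module R A]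
    [Module R B] (f : M →ₗ[R] A) (g : M →ₗ[R] B) (y : K ⊗[R] M)
    (h1 : f.baseChange K y = 0) (h2 : g.baseChange K y = 0) :
    (f.prod g).baseChange K y = 0 := by
  apply eq_zero_of_fst_snd K
  · have : (LinearMap.fst R A B).baseChange K ((f.prod g).baseChange K y)
        = ((LinearMap.fst R A B) ∘ₗ (f.prod g)).baseChange K y := by
      rw [LinearMap.baseChange_comp]; rfl
    rw [this, LinearMap.fst_prod, h1]
  · have : (LinearMap.snd R A B).baseChange K ((f.prod g).baseChange K y)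
        = ((LinearMap.snd R A B) ∘ₗ (f.prod g)).baseChange K y := by
      rw [LinearMap.baseChange_comp]; rfl
    rw [this, LinearMap.snd_prod, h2]

end Abstract

/-! ### `U_q² = 1` on `ker (β ⊗ K)` -/

section Inst

variable {N q : ℕ} [Fact q.Prime] (hqN : ¬ q ∣ N) [NeZero (N * q)] (hq : q.Prime)
variable (K : Type*) [CommRing K] [Module.Flat ℤ K]

/-- **(K2), operator form**: `(U_q ⊗ K)² = 1` on `ker (β ⊗ K)`, for `K` flat over `ℤ`. -/
theorem latT_baseChange_sq_of_betaP (y : K ⊗[ℤ] Lam (N * q))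
    (hy : (betaP ℤ hqN).toIntLinearMap.baseChange K y = 0) :
    (latT (N * q) (⟨q, hq⟩ : Nat.Primes)).baseChange K
      ((latT (N * q) (⟨q, hq⟩ : Nat.Primes)).baseChange K y) = y :=
  baseChange_baseChange_eq_of_ker K (betaP ℤ hqN).toIntLinearMap
    (latT (N * q) (⟨q, hq⟩ : Nat.Primes))
    (fun z hz => Fermat.Agent.GM.B5.latT_latT_eq_of_betaP_eq_zero hqN hq z hz) y hy

theorem betaP_toIntLinearMap_eq :
    (betaP ℤ hqN).toIntLinearMap
      = ((coresP ℤ hqN).toIntLinearMap).prod ((coresDP ℤ hqN).toIntLinearMap) := by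
  ext z <;> rfl

omit [Module.Flat ℤ K] in
/-- `(β ⊗ K) y = 0` from the two components. -/
theorem betaP_baseChange_eq_zero_of_cores (y : K ⊗[ℤ] Lam (N * q))
    (h1 : (coresP ℤ hqN).toIntLinearMap.baseChange K y = 0)
    (h2 : (coresDP ℤ hqN).toIntLinearMap.baseChange K y = 0) :
    (betaP ℤ hqN).toIntLinearMap.baseChange K y = 0 := by
  rw [betaP_toIntLinearMap_eq]
  exact prod_baseChange_eq_zero K _ _ y h1 h2

/-- **(K2), component form**. -/
theorem latT_baseChange_sq_of_cores (y : K ⊗[ℤ] Lam (N * q))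
    (h1 : (coresP ℤ hqN).toIntLinearMap.baseChange K y = 0)
    (h2 : (coresDP ℤ hqN).toIntLinearMap.baseChange K y = 0) :
    (latT (N * q) (⟨q, hq⟩ : Nat.Primes)).baseChange K
      ((latT (N * q) (⟨q, hq⟩ : Nat.Primes)).baseChange K y) = y :=
  latT_baseChange_sq_of_betaP hqN hq K y (betaP_baseChange_eq_zero_of_cores hqN K y h1 h2)

end Inst

/-! ### the eigenvalue corollary -/

section Eigen

variable {N q : ℕ} [Fact q.Prime] (hqN : ¬ q ∣ N) [NeZero (N * q)] (hq : q.Prime)
variable (K : Type*) [Field K] [Module.Flat ℤ K]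

/-- **(K2), eigenvalue form**: a `U_q`-eigenvector `y ≠ 0` in `ker (β ⊗ K)` has `u² = 1`. -/
theorem eigenvalue_sq_eq_one (y : K ⊗[ℤ] Lam (N * q)) (hy0 : y ≠ 0) (u : K)
    (hu : (latT (N * q) (⟨q, hq⟩ : Nat.Primes)).baseChange K y = u • y)
    (hy : (betaP ℤ hqN).toIntLinearMap.baseChange K y = 0) : u * u = 1 := by
  have h := latT_baseChange_sq_of_betaP hqN hq K y hy
  rw [hu, map_smul, hu, smul_smul] at h
  have h' : (u * u - 1) • y = 0 := by rw [sub_smul, one_smul, h, sub_self]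
  rcases smul_eq_zero.mp h' with h0 | h0
  · exact sub_eq_zero.mp h0
  · exact absurd h0 hy0

theorem eigenvalue_eq_one_or_neg_one (y : K ⊗[ℤ] Lam (N * q)) (hy0 : y ≠ 0) (u : K)
    (hu : (latT (N * q) (⟨q, hq⟩ : Nat.Primes)).baseChange K y = u • y)
    (hy : (betaP ℤ hqN).toIntLinearMap.baseChange K y = 0) : u = 1 ∨ u = -1 :=
  mul_self_eq_one_iff.mp (eigenvalue_sq_eq_one hqN hq K y hy0 u hu hy)

/-- component form of `eigenvalue_sq_eq_one`. -/
theorem eigenvalue_sq_eq_one_of_cores (y : K ⊗[ℤ] Lam (N * q)) (hy0 : y ≠ 0) (u : K)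
    (hu : (latT (N * q) (⟨q, hq⟩ : Nat.Primes)).baseChange K y = u • y)
    (h1 : (coresP ℤ hqN).toIntLinearMap.baseChange K y = 0)
    (h2 : (coresDP ℤ hqN).toIntLinearMap.baseChange K y = 0) : u * u = 1 :=
  eigenvalue_sq_eq_one hqN hq K y hy0 u hu (betaP_baseChange_eq_zero_of_cores hqN K y h1 h2)

/-- for a field of characteristic zero the flatness hypothesis is automatic. -/
theorem eigenvalue_sq_eq_one_of_charZero (F : Type*) [Field F] [CharZero F]
    (y : F ⊗[ℤ] Lam (N * q)) (hy0 : y ≠ 0) (u : F)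
    (hu : (latT (N * q) (⟨q, hq⟩ : Nat.Primes)).baseChange F y = u • y)
    (hy : (betaP ℤ hqN).toIntLinearMap.baseChange F y = 0) : u * u = 1 :=
  eigenvalue_sq_eq_one hqN hq F y hy0 u hu hy

end Eigen

/-! ### non-occurrence form (the shape of the `q`-new case of the trichotomy) -/

section NonOcc

variable {N q : ℕ} [Fact q.Prime] (hqN : ¬ q ∣ N) [NeZero N] [NeZero (N * q)]

/-- `cores ∘ T_l = T_l ∘ cores` on the lattices, `l ∤ N q`. -/
theorem coresP_comp_latT (l : Nat.Primes) (hl : ¬ (l : ℕ) ∣ N * q) :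
    (coresP ℤ hqN).toIntLinearMap ∘ₗ latT (N * q) l
      = latT N l ∘ₗ (coresP ℤ hqN).toIntLinearMap := by
  ext1 z
  have h := congrArg Prod.fst (Fermat.Agent.GM.B5.betaP_latT hqN l hl z)
  exact h

/-- `cores_δ ∘ T_l = T_l ∘ cores_δ` on the lattices, `l ∤ N q`. -/
theorem coresDP_comp_latT (l : Nat.Primes) (hl : ¬ (l : ℕ) ∣ N * q) :
    (coresDP ℤ hqN).toIntLinearMap ∘ₗ latT (N * q) l
      = latT N l ∘ₗ (coresDP ℤ hqN).toIntLinearMap := by
  ext1 z
  have h := congrArg Prod.snd (Fermat.Agent.GM.B5.betaP_latT hqN l hl z)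
  exact h

variable (K : Type*) [CommRing K]

theorem coresP_baseChange_latT (l : Nat.Primes) (hl : ¬ (l : ℕ) ∣ N * q)
    (y : K ⊗[ℤ] Lam (N * q)) :
    (coresP ℤ hqN).toIntLinearMap.baseChange K ((latT (N * q) l).baseChange K y)
      = (latT N l).baseChange K ((coresP ℤ hqN).toIntLinearMap.baseChange K y) := by
  have h := congrArg (fun g : Lam (N * q) →ₗ[ℤ] Lam N => g.baseChange K y)
    (coresP_comp_latT hqN l hl)
  simpa only [LinearMap.baseChange_comp, LinearMap.comp_apply] using h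

theorem coresDP_baseChange_latT (l : Nat.Primes) (hl : ¬ (l : ℕ) ∣ N * q)
    (y : K ⊗[ℤ] Lam (N * q)) :
    (coresDP ℤ hqN).toIntLinearMap.baseChange K ((latT (N * q) l).baseChange K y)
      = (latT N l).baseChange K ((coresDP ℤ hqN).toIntLinearMap.baseChange K y) := by
  have h := congrArg (fun g : Lam (N * q) →ₗ[ℤ] Lam N => g.baseChange K y)
    (coresDP_comp_latT hqN l hl)
  simpa only [LinearMap.baseChange_comp, LinearMap.comp_apply] using h

/-- `cores ⊗ K` maps anemic eigenvectors of level `N q` to anemic eigenvectors of level `N`. -/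
theorem coresP_baseChange_eigen (B : Set ℕ)
    (hB : ∀ l : Nat.Primes, (l : ℕ) ∉ B → ¬ (l : ℕ) ∣ N * q) (lam : Nat.Primes → K)
    (y : K ⊗[ℤ] Lam (N * q))
    (hy : ∀ l : Nat.Primes, (l : ℕ) ∉ B → (latT (N * q) l).baseChange K y = lam l • y)
    (l : Nat.Primes) (hl : (l : ℕ) ∉ B) :
    (latT N l).baseChange K ((coresP ℤ hqN).toIntLinearMap.baseChange K y)
      = lam l • (coresP ℤ hqN).toIntLinearMap.baseChange K y := by
  rw [← coresP_baseChange_latT hqN K l (hB l hl), hy l hl, map_smul]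

theorem coresDP_baseChange_eigen (B : Set ℕ)
    (hB : ∀ l : Nat.Primes, (l : ℕ) ∉ B → ¬ (l : ℕ) ∣ N * q) (lam : Nat.Primes → K)
    (y : K ⊗[ℤ] Lam (N * q))
    (hy : ∀ l : Nat.Primes, (l : ℕ) ∉ B → (latT (N * q) l).baseChange K y = lam l • y)
    (l : Nat.Primes) (hl : (l : ℕ) ∉ B) :
    (latT N l).baseChange K ((coresDP ℤ hqN).toIntLinearMap.baseChange K y)
      = lam l • (coresDP ℤ hqN).toIntLinearMap.baseChange K y := by
  rw [← coresDP_baseChange_latT hqN K l (hB l hl), hy l hl, map_smul]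

end NonOcc

section NonOccEigen

variable {N q : ℕ} [Fact q.Prime] (hqN : ¬ q ∣ N) [NeZero N] [NeZero (N * q)] (hq : q.Prime)
variable (K : Type*) [Field K] [Module.Flat ℤ K]

include hqN in
/-- **(K2), non-occurrence form**: if the anemic system `lam` (off `B ⊇ primes (N q)`) does NOT
occur at level `N`, every nonzero anemic eigenvector of level `N q` which is a `U_q`-eigenvector
has `U_q`-eigenvalue `u` with `u² = 1`. -/
theorem eigenvalue_sq_eq_one_of_nonocc (B : Set ℕ)
    (hB : ∀ l : Nat.Primes, (l : ℕ) ∉ B → ¬ (l : ℕ) ∣ N * q) (lam : Nat.Primes → K)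
    (hnonocc : ∀ x : K ⊗[ℤ] Lam N,
      (∀ l : Nat.Primes, (l : ℕ) ∉ B → (latT N l).baseChange K x = lam l • x) → x = 0)
    (y : K ⊗[ℤ] Lam (N * q)) (hy0 : y ≠ 0)
    (hy : ∀ l : Nat.Primes, (l : ℕ) ∉ B → (latT (N * q) l).baseChange K y = lam l • y)
    (u : K) (hu : (latT (N * q) (⟨q, hq⟩ : Nat.Primes)).baseChange K y = u • y) :
    u * u = 1 :=
  eigenvalue_sq_eq_one_of_cores hqN hq K y hy0 u hu
    (hnonocc _ (coresP_baseChange_eigen hqN K B hB lam y hy))
    (hnonocc _ (coresDP_baseChange_eigen hqN K B hB lam y hy))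

/-- the same in the `OldQ/Final` spelling of levels: `L = M₀ * b`, `b : Nat.Primes`. -/
theorem eigenvalue_sq_eq_one_of_nonocc_level {L M₀ : ℕ} [NeZero L] [NeZero M₀] (b : Nat.Primes)
    (hbM : ¬ (b : ℕ) ∣ M₀) (hL : L = M₀ * b) (B : Set ℕ)
    (hB : ∀ l : Nat.Primes, (l : ℕ) ∉ B → ¬ (l : ℕ) ∣ L) (lam : Nat.Primes → K)
    (hnonocc : ∀ x : K ⊗[ℤ] Lam M₀,
      (∀ l : Nat.Primes, (l : ℕ) ∉ B → (latT M₀ l).baseChange K x = lam l • x) → x = 0)
    (y : K ⊗[ℤ] Lam L) (hy0 : y ≠ 0)
    (hy : ∀ l : Nat.Primes, (l : ℕ) ∉ B → (latT L l).baseChange K y = lam l • y)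
    (u : K) (hu : (latT L b).baseChange K y = u • y) :
    u * u = 1 := by
  subst hL
  have : Fact (b : ℕ).Prime := ⟨b.2⟩
  exact eigenvalue_sq_eq_one_of_nonocc hbM b.2 K B hB lam hnonocc y hy0 hy u hu

end NonOccEigen

end Fermat.Agent.GE9.PNew.UqSqOmega
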