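/-
GATE-E (S59) / RISK-4 (e9) (helper31): **the EXPOSED image carrier** — the module fields of a stage
carrier OUT of the existential of `GE9/Stage/CarrierAbs.exists_carrier`.

Setting (model-free: no full algebra `Af`, no maximal ideal — `L` is the ALREADY-CUT local part):
`𝒪` a complete DVR (finite residue field, characteristic `0`), `L` a finite free `𝒪`-module,
`A` a commutative ring (the anemic Hecke algebra: reduced, finite over `ℤ`) acting on `L` through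
`tw : A →+* End_𝒪 L`, a residual character `θ` with `Fact (LocHyp 𝒪 θ tw)`.  The carrier is
`T' := ImageRing.TQ 𝒪 θ tw` (local, finite free, generated by `chi 𝒪 θ tw : A →+* T'`), acting
on `L` through the FAITHFUL `ImageRing.act`.

* `moduleTQ`, `isScalarTower_TQ`, `chi_smul`, `mkQ_smul`, `eq_zero_of_forall_smul_eq_zero`
  (faithfulness = the `ev` of `PNew/DepthFaith` is `ImageRing.act`, `act_injective`);
* `eigenHom`, `chiO`, `twO_eigen`, `pointTQ`, `pointTQ_chi` : the modular point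
  `πO' : T' →ₐ[𝒪] 𝒪` of a joint eigenvector;
* `twO_selfAdjoint` : a `tw`-self-adjoint pairing is `T'`-adjoint;
* **`exposed_fields`** : pairing `Bf` (`tw`-self-adjoint, right non-degenerate), `b : Fin d → L`
  independent joint eigenvectors with character `χ`, `hold` (every `χ`-eigenvector lies in
  `span b`)  ⟹  `πO'` with `πO' (chi t) = χ t`, `η_{T'} ≠ 0`, `hadj`,
  `span b = torPO πO' L`, and (M1) — the binders `(πO' hη' Bf hadj hnd b hli hspan)` of
  `PNew/StageFreeRT.stage_free_of_rtNum` / helper16's `StepNewCore` at `T' := TQ 𝒪 θ tw`,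
  `π' := chi 𝒪 θ tw`, `hgen := adjoin_range_chi`.
-/
import Mathlib
import Fermat.Agent.GB.B4.Datum.ImageRing
import Fermat.Agent.GE9.NumCrit.ModForm.EtaBridge
import Fermat.Agent.GE9.NumCrit.ModForm.StageFree
import Fermat.Agent.GE9.Ind.EtaNe
import Fermat.Agent.GS.Pet.DatumAlg

set_option autoImplicit false
set_option linter.unusedSectionVars false
set_option linter.unusedVariables false
set_option linter.style.haveILetI false

noncomputable section

namespace Fermat.Agent.GE9.PNew.CarrierExp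

open TensorProduct IsLocalRing Submodule
open Fermat.Agent.GB.B4.Datum.ImageRing Fermat.Agent.GB.B4.Datum.Carrier
  Fermat.Agent.GE9.Eta Fermat.Agent.GE9.NumCrit Fermat.Agent.GE9.NumCrit.ModForm
  Fermat.Agent.GE9.Ind

/-! ### the action of the image ring -/

section Mod

variable (𝒪 : Type) [CommRing 𝒪] [IsLocalRing 𝒪] {A : Type} [CommRing A]
  {L : Type} [AddCommGroup L] [Module 𝒪 L]
  (θ : A →+* ResidueField 𝒪) (tw : A →+* Module.End 𝒪 L)

/-- the tautological module structure of the image ring `TQ 𝒪 θ tw` on `L` (through the faithful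
`ImageRing.act`). -/
@[reducible] def moduleTQ : Module (TQ 𝒪 θ tw) L :=
  Module.compHom L (act 𝒪 θ tw).toRingHom

theorem smulTQ_def (t : TQ 𝒪 θ tw) (x : L) :
    letI := moduleTQ 𝒪 θ tw
    t • x = act 𝒪 θ tw t x := rfl

theorem isScalarTower_TQ :
    letI := moduleTQ 𝒪 θ tw
    IsScalarTower 𝒪 (TQ 𝒪 θ tw) L :=
  letI := moduleTQ 𝒪 θ tw
  ⟨fun c t x => by
    show act 𝒪 θ tw (c • t) x = c • act 𝒪 θ tw t x
    rw [map_smul]
    rfl⟩

theorem mkQ_smul (a : 𝒪 ⊗[ℤ] A) (x : L) :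
    letI := moduleTQ 𝒪 θ tw
    mkQ 𝒪 θ tw a • x = twO 𝒪 tw a x := rfl

theorem chi_smul (t : A) (x : L) :
    letI := moduleTQ 𝒪 θ tw
    chi 𝒪 θ tw t • x = tw t x := by
  letI := moduleTQ 𝒪 θ tw
  show act 𝒪 θ tw (chi 𝒪 θ tw t) x = tw t x
  rw [act_chi]

/-- **faithfulness**: the image ring acts faithfully. -/
theorem eq_zero_of_forall_smul_eq_zero (t : TQ 𝒪 θ tw)
    (h : letI := moduleTQ 𝒪 θ tw
      ∀ x : L, t • x = 0) : t = 0 := by
  apply act_injective 𝒪 θ tw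
  rw [map_zero]
  exact LinearMap.ext fun x => h x

end Mod

/-! ### the modular point of a joint eigenvector -/

section Point

variable {𝒪 : Type} [CommRing 𝒪] [IsDomain 𝒪] {A : Type} [CommRing A]
  {L : Type} [AddCommGroup L] [Module 𝒪 L] [Module.IsTorsionFree 𝒪 L]
  (tw : A →+* Module.End 𝒪 L)

/-- the eigencharacter of a nonzero joint eigenvector of the `tw t`, as a ring hom. -/
def eigenHom (χ : A → 𝒪) {x : L} (hx0 : x ≠ 0) (hx : ∀ t : A, tw t x = χ t • x) : A →+* 𝒪 :=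
  have hinj := smul_left_injective 𝒪 hx0
  { toFun := χ
    map_one' := hinj (by
      show χ 1 • x = (1 : 𝒪) • x
      rw [← hx, map_one, one_smul, Module.End.one_apply])
    map_mul' := fun a a' => hinj (by
      show χ (a * a') • x = (χ a * χ a') • x
      rw [← hx, map_mul, Module.End.mul_apply, hx a', map_smul, hx a, smul_smul, mul_comm])
    map_zero' := hinj (by
      show χ 0 • x = (0 : 𝒪) • x
      rw [← hx, map_zero, zero_smul, LinearMap.zero_apply])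
    map_add' := fun a a' => hinj (by
      show χ (a + a') • x = (χ a + χ a') • x
      rw [← hx, map_add, LinearMap.add_apply, add_smul, hx, hx]) }

@[simp] theorem eigenHom_apply (χ : A → 𝒪) {x : L} (hx0 : x ≠ 0)
    (hx : ∀ t : A, tw t x = χ t • x) (t : A) : eigenHom tw χ hx0 hx t = χ t := rfl

variable (𝒪) in
/-- the `𝒪`-linear extension of a character `A →+* 𝒪` to `𝒪 ⊗[ℤ] A`. -/
def chiO (χr : A →+* 𝒪) : 𝒪 ⊗[ℤ] A →ₐ[𝒪] 𝒪 :=
  Algebra.TensorProduct.lift (Algebra.ofId 𝒪 𝒪) χr.toIntAlgHom (fun _ _ => Commute.all _ _)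

theorem chiO_tmul (χr : A →+* 𝒪) (c : 𝒪) (t : A) : chiO 𝒪 χr (c ⊗ₜ t) = c * χr t := by
  rw [chiO, Algebra.TensorProduct.lift_tmul]
  rfl

variable [IsLocalRing 𝒪]

/-- on a joint eigenvector the whole of `𝒪 ⊗ A` acts through the character. -/
theorem twO_eigen (χr : A →+* 𝒪) {x : L} (hx : ∀ t : A, tw t x = χr t • x)
    (a : 𝒪 ⊗[ℤ] A) : twO 𝒪 tw a x = chiO 𝒪 χr a • x := by
  induction a using TensorProduct.induction_on with
  | zero => rw [map_zero, map_zero, zero_smul, LinearMap.zero_apply]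
  | tmul c t =>
    rw [twO_tmul, chiO_tmul, LinearMap.smul_apply, hx, smul_smul]
  | add a b ha hb => rw [map_add, map_add, LinearMap.add_apply, ha, hb, add_smul]

variable (θ : A →+* ResidueField 𝒪)

/-- **the modular point** `πO' : TQ 𝒪 θ tw →ₐ[𝒪] 𝒪` of a nonzero joint eigenvector. -/
def pointTQ (χr : A →+* 𝒪) {x : L} (hx0 : x ≠ 0) (hx : ∀ t : A, tw t x = χr t • x) :
    TQ 𝒪 θ tw →ₐ[𝒪] 𝒪 :=
  Ideal.Quotient.liftₐ (RingHom.ker (twO 𝒪 tw)) (chiO 𝒪 χr) (fun a ha => by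
    rw [RingHom.mem_ker] at ha
    have h1 : chiO 𝒪 χr a • x = 0 := by
      rw [← twO_eigen tw χr hx a, ha, LinearMap.zero_apply]
    exact (smul_eq_zero.mp h1).resolve_right hx0)

theorem pointTQ_mkQ (χr : A →+* 𝒪) {x : L} (hx0 : x ≠ 0) (hx : ∀ t : A, tw t x = χr t • x)
    (a : 𝒪 ⊗[ℤ] A) : pointTQ tw θ χr hx0 hx (mkQ 𝒪 θ tw a) = chiO 𝒪 χr a := rfl

theorem pointTQ_chi (χr : A →+* 𝒪) {x : L} (hx0 : x ≠ 0) (hx : ∀ t : A, tw t x = χr t • x)
    (t : A) : pointTQ tw θ χr hx0 hx (chi 𝒪 θ tw t) = χr t := by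
  rw [chi_apply, pointTQ_mkQ, chiO_tmul, one_mul]

/-- a `tw`-self-adjoint pairing is self-adjoint for the whole of `𝒪 ⊗ A`. -/
theorem twO_selfAdjoint (Bf : L →ₗ[𝒪] L →ₗ[𝒪] 𝒪)
    (hsa : ∀ (t : A) (x y : L), Bf (tw t x) y = Bf x (tw t y)) (a : 𝒪 ⊗[ℤ] A) (x y : L) :
    Bf (twO 𝒪 tw a x) y = Bf x (twO 𝒪 tw a y) := by
  induction a using TensorProduct.induction_on with
  | zero => simp
  | tmul c t =>
    rw [twO_tmul, LinearMap.smul_apply, LinearMap.smul_apply, map_smul, LinearMap.smul_apply,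
      map_smul, hsa]
  | add a b ha hb =>
    rw [map_add, LinearMap.add_apply, LinearMap.add_apply, map_add, LinearMap.add_apply, map_add,
      ha, hb]

end Point

/-! ### the exposed fields -/

section Fields

variable {𝒪 : Type} [CommRing 𝒪] [IsDomain 𝒪] [IsDiscreteValuationRing 𝒪]
  [IsAdicComplete (maximalIdeal 𝒪) 𝒪] [Finite (ResidueField 𝒪)] [CharZero 𝒪]
  {A : Type} [CommRing A] [IsReduced A] [Module.Finite ℤ A]
  {L : Type} [AddCommGroup L] [Module 𝒪 L] [Module.Finite 𝒪 L] [Module.Free 𝒪 L] [Nontrivial L]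
  (θ : A →+* ResidueField 𝒪) (tw : A →+* Module.End 𝒪 L) [Fact (LocHyp 𝒪 θ tw)]

/-- **the exposed fields of the image carrier** (`T' := TQ 𝒪 θ tw`, `π' := chi 𝒪 θ tw`,
module structure `moduleTQ`): the modular point, `η ≠ 0`, `T'`-adjointness, `span b = L[𝔭]` and
(M1). -/
theorem exposed_fields (Bf : L →ₗ[𝒪] L →ₗ[𝒪] 𝒪)
    (hsa : ∀ (t : A) (x y : L), Bf (tw t x) y = Bf x (tw t y))
    (hnd : ∀ w : L, (∀ z : L, Bf z w = 0) → w = 0)
    {d : ℕ} (hd : d ≠ 0) (b : Fin d → L) (hli : LinearIndependent 𝒪 b)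
    (χ : A → 𝒪) (hb : ∀ (t : A) (i : Fin d), tw t (b i) = χ t • b i)
    (hold : ∀ x : L, (∀ t : A, tw t x = χ t • x) → x ∈ span 𝒪 (Set.range b)) :
    letI := moduleTQ 𝒪 θ tw
    haveI := isScalarTower_TQ 𝒪 θ tw
    ∃ πO' : TQ 𝒪 θ tw →ₐ[𝒪] 𝒪, (∀ t : A, πO' (chi 𝒪 θ tw t) = χ t) ∧ etaIdeal πO' ≠ ⊥ ∧
      (∀ (t : TQ 𝒪 θ tw) (x y : L), Bf (t • x) y = Bf x (t • y)) ∧
      span 𝒪 (Set.range b) = torPO πO' L ∧
      Nat.card (CongMod Bf (span 𝒪 (Set.range b))) ≤ etaCard πO' ^ d := by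
  letI := moduleTQ 𝒪 θ tw
  haveI := isScalarTower_TQ 𝒪 θ tw
  set i0 : Fin d := ⟨0, Nat.pos_of_ne_zero hd⟩ with hi0
  have hx0 : b i0 ≠ 0 := hli.ne_zero i0
  set χr : A →+* 𝒪 := eigenHom tw χ hx0 (fun t => hb t i0) with hχr
  have hbr : ∀ (t : A) (i : Fin d), tw t (b i) = χr t • b i := fun t i => hb t i
  set πO' : TQ 𝒪 θ tw →ₐ[𝒪] 𝒪 := pointTQ tw θ χr hx0 (fun t => hbr t i0) with hπO'
  have hpt : ∀ t : A, πO' (chi 𝒪 θ tw t) = χ t := fun t =>
    pointTQ_chi tw θ χr hx0 (fun t => hbr t i0) t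
  -- reducedness and `η ≠ 0`
  haveI : IsReduced (TQ 𝒪 θ tw) :=
    Fermat.Agent.GS.Pet.DatumAlg.isReduced_of_adjoin_range (O := 𝒪) _ (adjoin_range_chi 𝒪 θ tw)
  have hη : etaIdeal πO' ≠ ⊥ := etaIdeal_ne_bot_of_finite πO'
  haveI : Finite (𝒪 ⧸ etaIdeal πO') := finite_quotient_of_ne_bot _ hη
  -- adjointness
  have hadj : ∀ (t : TQ 𝒪 θ tw) (x y : L), Bf (t • x) y = Bf x (t • y) := by
    intro t x y
    obtain ⟨a, rfl⟩ := mkQ_surjective 𝒪 θ tw t
    exact twO_selfAdjoint tw Bf hsa a x y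
  -- `span b = L[𝔭]`
  have hspan : span 𝒪 (Set.range b) = torPO πO' L := by
    apply le_antisymm
    · rw [Submodule.span_le]
      rintro _ ⟨i, rfl⟩
      show b i ∈ torP πO' L
      intro t ht
      obtain ⟨a, rfl⟩ := mkQ_surjective 𝒪 θ tw t
      show twO 𝒪 tw a (b i) = 0
      rw [twO_eigen tw χr (fun t => hbr t i) a]
      have h1 : chiO 𝒪 χr a = 0 := ht
      rw [h1, zero_smul]
    · intro x hx
      refine hold x fun t => ?_
      have h1 := smul_eq_of_mem_torP πO' (L := L) hx (chi 𝒪 θ tw t)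
      rw [hpt] at h1
      rw [← h1]
      exact (chi_smul 𝒪 θ tw t x).symm
  haveI := noZeroSMulDivisors_of_isTorsionFree 𝒪 (TQ 𝒪 θ tw)
  exact ⟨πO', hpt, hη, hadj, hspan, hM1_of_eta_ne_bot Bf hadj hnd hη b hli hspan⟩

end Fields

end Fermat.Agent.GE9.PNew.CarrierExp
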