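/-
GATE-E / S59, RISK-4 = PNEW-STAGE, leaf **R4-C** of helper80's PLAN v1 (board 7564) (helper16):
**the depth ideal of the `p`-new base point `g` against the FLAT Hecke rings is `Σ`-independent.**

`X_n : RTData ρbar (condFL 𝒪 p Smin Sg)` (an `R = T` datum of the FLAT engine at the stage `Sg`),
`X_0 : RTData ρbar (condFL 𝒪 p Smin ∅)` (the minimal flat `R = T`), `ρ_g : GaloisRepAdic 𝒪` a lift
of `ρbar` which is unramified at the primes of `Sg ∖ Smin` (NOTHING else is asked of `ρ_g`: no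
condition at `p`, none at `Smin`), `A` a coefficient ring which is a QUOTIENT of `𝒪`
(`algebraMap 𝒪 A` onto; application `A = 𝒪 ⧸ c`, `c` a proper ideal), and a point
`φ : X_n.T →ₐ[𝒪] A` with the Frobenius characteristic polynomials of `ρ_g ⊗ A` outside a finite set
`B`.  THEN there is a point `ψ : X_0.T →ₐ[𝒪] A` with the Frobenius characteristic polynomials of
`ρ_g ⊗ A` at EVERY `ℓ ∤ X_0.N`, `ℓ ∉ X_0.S`.

Proof: push `ρ^univ_n` to `A` along `φ ∘ φ_n` (onto, because `𝒪 → A` is) — still of type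
`𝒟^{fl}_{Sg}` (`GP/Tan/BaseChangeCond`, surjective base change); Chebotarev + Carayol
(`CotGrowth.isEquiv_of_charpoly_frob_eq`) identify it with `ρ_g ⊗ A`; so `ρ_g ⊗ A` is of type
`𝒟^{fl}_{Sg}` (`GP/Tan/CondIsEquiv`) and unramified at `Sg ∖ Smin`, i.e. of type `𝒟^{fl}_∅`; the
universal property of `X_0.D` and `φ_0` bijective give `ψ`.

* `condFL_empty_of_unramified`   : `𝒟^{fl}_{Sg}` + unramified at `Sg ∖ Smin` ⟹ `𝒟^{fl}_∅`;
* `condFL_of_isEquiv`, `condFL_baseChangeAlong_of_surjective` : transport of `condFL`;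
* **`exists_hom_of_univ`**       : the statement on universal rings;
* **`exists_point_mod_of_stage`**: the statement on `RTData` (Hecke eigenvalues);
* `exists_point_mod_ideal`       : the same at `A = 𝒪 ⧸ c`, `c ≠ ⊤` (all instances discharged);
* `exists_point_mod_of_rtNum`    : the same for `RTNum` stages.
-/
import Mathlib
import Fermat.Agent.GE9.CotGrowth.Same
import Fermat.Agent.GP.Tan.CondIsEquiv
import Fermat.Agent.S53_helper15.LimitRing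

set_option autoImplicit false
set_option linter.unusedSectionVars false
set_option linter.style.haveILetI false

namespace Fermat.Agent.GE9.PNew.Depth

open IsLocalRing Polynomial CuspForm Fermat.Agent.GE.Graph Fermat.Agent.GE9.CotGrowth

/-- `G_ℚ`. -/
local notation "GQ" => (AlgebraicClosure ℚ ≃ₐ[ℚ] AlgebraicClosure ℚ)

/-- `ℚ̄`. -/
local notation "Qb" => AlgebraicClosure ℚ

/-! ### transport of `condFL` -/

section Cond

variable {𝒪 : Type} [CommRing 𝒪] {p : ℕ} {Smin Sg : Finset ℕ}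
  {A : Type} [CommRing A] [IsLocalRing A] [Algebra 𝒪 A]

/-- `𝒟^{fl}_{Sg}` + unramified at `Sg ∖ Smin` ⟹ `𝒟^{fl}_∅`. -/
theorem condFL_empty_of_unramified {ρ : GaloisRepAdic A} (h : condFL 𝒪 p Smin Sg ρ)
    (hunr : ∀ q ∈ Sg, q.Prime → q ∉ Smin → ρ.IsUnramifiedAt q) : condFL 𝒪 p Smin ∅ ρ := by
  refine ⟨⟨h.1.1, h.1.2.1, fun q hq hqS => ?_⟩, h.2⟩
  rw [Finset.union_empty] at hqS
  by_cases hqSg : q ∈ Sg
  · exact hunr q hqSg hq hqS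
  · refine h.1.2.2 q hq fun hmem => ?_
    rcases Finset.mem_union.mp hmem with h1 | h1
    · exact hqS h1
    · exact hqSg h1

/-- `condFL` is invariant under equivalence. -/
theorem condFL_of_isEquiv {ρ ρ' : GaloisRepAdic A} (he : ρ.IsEquiv ρ')
    (h : condFL 𝒪 p Smin Sg ρ) : condFL 𝒪 p Smin Sg ρ' :=
  ⟨⟨Fermat.Agent.GP.Tan.Cocycle.detIsCyclotomic_of_isEquiv he h.1.1,
      Fermat.Agent.GP.Tan.isFlatAt_of_isEquiv he h.1.2.1,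
      fun q hq hqT => Fermat.Agent.GP.Tan.Cocycle.isUnramifiedAt_of_isEquiv he (h.1.2.2 q hq hqT)⟩,
    fun q hq hqp hne =>
      Fermat.Agent.GP.Loc.UnipGlue.isUnipotentOnInertiaAt_of_isEquiv he (h.2 q hq hqp hne)⟩

/-- `condFL` is stable under SURJECTIVE base change. -/
theorem condFL_baseChangeAlong_of_surjective {B : Type} [CommRing B] [IsLocalRing B] [Algebra 𝒪 B]
    (φ : A →+* B) (hφ : IsLocalHom φ) (hsurj : Function.Surjective φ) {ρ : GaloisRepAdic A}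
    (h : condFL 𝒪 p Smin Sg ρ) : condFL 𝒪 p Smin Sg (ρ.baseChangeAlong φ hφ) :=
  Fermat.Agent.GP.Tan.s56FlatCond_baseChangeAlong_of_surjective (𝒪 := 𝒪) p Smin (Smin ∪ Sg) φ hφ
    hsurj h

end Cond

/-! ### the statement on universal rings -/

section Core

variable {𝒪 : Type} [CommRing 𝒪] [IsDomain 𝒪] [IsDiscreteValuationRing 𝒪]
  [IsAdicComplete (maximalIdeal 𝒪) 𝒪]
  {ρbar : ResidualGaloisRep (ResidueField 𝒪)} {p : ℕ} {Smin Sg : Finset ℕ}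
  {A : Type} [CommRing A] [IsLocalRing A] [IsNoetherianRing A]
  [IsAdicComplete (maximalIdeal A) A] [Algebra 𝒪 A] [IsLocalHom (algebraMap 𝒪 A)]

/-- a quotient of `𝒪` has its residue field covered by `𝒪`. -/
theorem residue_cover_of_surjective (hA : Function.Surjective (algebraMap 𝒪 A)) :
    Function.Surjective (residue A ∘ algebraMap 𝒪 A) :=
  (residue_surjective (R := A)).comp hA

/-- `ρ_g ⊗ A` is a lift of `ρbar`. -/
theorem residual_baseChange_point (ρg : GaloisRepAdic 𝒪)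
    (hres : ρg.residual.IsEquiv (ρbar.baseChangeAlong (ResidueField.map (algebraMap 𝒪 𝒪)))) :
    (ρg.baseChangeAlong (algebraMap 𝒪 A) inferInstance).residual.IsEquiv
      (ρbar.baseChangeAlong (ResidueField.map (algebraMap 𝒪 A))) := by
  have h := Fermat.Agent.GP.Tan.UnivInj.residual_baseChangeAlong_isEquiv ρg (algebraMap 𝒪 A)
    inferInstance ρbar (ResidueField.map (algebraMap 𝒪 𝒪)) hres
  have e : (ResidueField.map (algebraMap 𝒪 A)).comp (ResidueField.map (algebraMap 𝒪 𝒪)) =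
      ResidueField.map (algebraMap 𝒪 A) := by
    ext x
    obtain ⟨a, rfl⟩ := residue_surjective x
    rw [RingHom.comp_apply, ResidueField.map_residue, ResidueField.map_residue,
      ResidueField.map_residue]
    rfl
  rw [e] at h
  exact h

/-- **R4-C on universal rings.**  A point `f : R^{fl}_{Sg} → A` (`A` a quotient of `𝒪`) whose
Galois representation has the Frobenius characteristic polynomials of `ρ_g ⊗ A` outside `B`,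
`ρ_g` unramified at `Sg ∖ Smin` ⟹ `ρ_g ⊗ A` is a point of `R^{fl}_∅`. -/
theorem exists_hom_of_univ
    (Dn : GaloisRep.DeformationRingData 𝒪 ρbar (condFL 𝒪 p Smin Sg))
    (D0 : GaloisRep.DeformationRingData 𝒪 ρbar (condFL 𝒪 p Smin ∅))
    (hA : Function.Surjective (algebraMap 𝒪 A))
    (ρg : GaloisRepAdic 𝒪)
    (hres : ρg.residual.IsEquiv (ρbar.baseChangeAlong (ResidueField.map (algebraMap 𝒪 𝒪))))
    (hunr : ∀ q ∈ Sg, q.Prime → q ∉ Smin → ρg.IsUnramifiedAt q)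
    (f : Dn.R →ₐ[𝒪] A) (hf : IsLocalHom (f : Dn.R →+* A)) (B : Finset ℕ)
    (hfrob : ∀ ℓ : ℕ, ℓ.Prime → ℓ ∉ B → ∀ P : ValuationSubring Qb, P.LiesOverPrime ℓ →
      ∀ σ : GQ, P.IsFrobeniusAt σ ℓ →
        LinearMap.charpoly ((Dn.ρ.baseChangeAlong (f : Dn.R →+* A) hf).ρ σ) =
          (LinearMap.charpoly (ρg.ρ σ)).map (algebraMap 𝒪 A)) :
    ∃ (f0 : D0.R →ₐ[𝒪] A) (hf0 : IsLocalHom (f0 : D0.R →+* A)),
      (D0.ρ.baseChangeAlong (f0 : D0.R →+* A) hf0).IsEquiv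
        (ρg.baseChangeAlong (algebraMap 𝒪 A) inferInstance) := by
  have hAres := residue_cover_of_surjective (𝒪 := 𝒪) (A := A) hA
  have hresA := residual_baseChange_point (A := A) ρg hres
  have hresf := Fermat.Agent.GP.Tan.UnivInj.residual_baseChangeAlong_univ Dn f hf
  -- Chebotarev + Carayol
  have heq : (Dn.ρ.baseChangeAlong (f : Dn.R →+* A) hf).IsEquiv
      (ρg.baseChangeAlong (algebraMap 𝒪 A) inferInstance) := by
    refine isEquiv_of_charpoly_frob_eq _ _ ρbar Dn.absIrr (ResidueField.map (algebraMap 𝒪 A))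
      hresf hresA B fun ℓ hℓ hℓB P hP σ hσ => ?_
    rw [hfrob ℓ hℓ hℓB P hP σ hσ, charpoly_baseChangeAlongE]
  -- `f` is onto
  have hfs : Function.Surjective (f : Dn.R →+* A) := fun a => by
    obtain ⟨x, rfl⟩ := hA a
    exact ⟨algebraMap 𝒪 Dn.R x, f.commutes x⟩
  have h𝒟n : condFL 𝒪 p Smin Sg (Dn.ρ.baseChangeAlong (f : Dn.R →+* A) hf) :=
    condFL_baseChangeAlong_of_surjective (f : Dn.R →+* A) hf hfs Dn.isOfType
  have h𝒟g : condFL 𝒪 p Smin Sg (ρg.baseChangeAlong (algebraMap 𝒪 A) inferInstance) :=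
    condFL_of_isEquiv heq h𝒟n
  have h𝒟0 : condFL 𝒪 p Smin ∅ (ρg.baseChangeAlong (algebraMap 𝒪 A) inferInstance) :=
    condFL_empty_of_unramified h𝒟g fun q hq hqp hqS =>
      Fermat.Agent.GP.Tan.isUnramifiedAt_baseChangeAlong _ _ (hunr q hq hqp hqS)
  obtain ⟨f0, ⟨hf0, he0⟩, -⟩ := D0.universal A hAres _ h𝒟0 hresA
  exact ⟨f0, hf0, he0⟩

end Core

/-! ### the statement on `R = T` data -/

section RT

variable {𝒪 : Type} [CommRing 𝒪] [IsDomain 𝒪] [IsDiscreteValuationRing 𝒪]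
  [IsAdicComplete (maximalIdeal 𝒪) 𝒪]
  {ρbar : ResidualGaloisRep (ResidueField 𝒪)} {p : ℕ} {Smin Sg : Finset ℕ}
  {A : Type} [CommRing A] [IsLocalRing A] [IsNoetherianRing A]
  [IsAdicComplete (maximalIdeal A) A] [Algebra 𝒪 A] [IsLocalHom (algebraMap 𝒪 A)]

/-- the Frobenius characteristic polynomial of the push-forward of `ρ^univ` along `ψ ∘ φ`. -/
theorem charpoly_point {𝒟 : DefCondE 𝒪} (X' : RTData ρbar 𝒟) (ψ : X'.T →ₐ[𝒪] A)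
    (hψ : IsLocalHom ((ψ.comp X'.φ : X'.D.R →ₐ[𝒪] A) : X'.D.R →+* A))
    (ℓ : ℕ) (hℓ : ℓ.Prime) (hℓN : ¬ ℓ ∣ X'.N) (hℓS : ℓ ∉ X'.S)
    (P : ValuationSubring Qb) (hP : P.LiesOverPrime ℓ) (σ : GQ) (hσ : P.IsFrobeniusAt σ ℓ) :
    LinearMap.charpoly
        ((X'.D.ρ.baseChangeAlong ((ψ.comp X'.φ : X'.D.R →ₐ[𝒪] A) : X'.D.R →+* A) hψ).ρ σ) =
      X ^ 2 - C (ψ (X'.π (heckeAlgebra.T hℓ hℓN hℓS))) * X + C ((ℓ : A)) := by
  have h1 := X'.charpoly_frob ℓ hℓ hℓN hℓS P hP σ hσ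
  rw [← charpoly_eq_of_isEquivE X'.φ_ρ σ, charpoly_baseChangeAlongE] at h1
  have hcomp : ((ψ.comp X'.φ : X'.D.R →ₐ[𝒪] A) : X'.D.R →+* A) =
      (ψ : X'.T →+* A).comp (X'.φ : X'.D.R →+* X'.T) := rfl
  rw [charpoly_baseChangeAlongE, hcomp, ← Polynomial.map_map, h1]
  simp only [Polynomial.map_sub, Polynomial.map_add, Polynomial.map_mul, Polynomial.map_pow,
    Polynomial.map_X, Polynomial.map_C, map_natCast, RingHom.coe_coe, Polynomial.map_natCast]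

/-- **R4-C** (`exists_point_mod_of_stage`).  `X_n`, `X_0` flat `R = T` data at `Sg`, `∅`; `A` a
quotient of `𝒪`; `ρ_g` a lift of `ρbar` unramified at `Sg ∖ Smin`; a point `φ : X_n.T → A` with the
Frobenius characteristic polynomials of `ρ_g ⊗ A` outside `B` ⟹ a point `ψ : X_0.T → A` with the
Frobenius characteristic polynomials of `ρ_g ⊗ A` at every `ℓ ∤ X_0.N`, `ℓ ∉ X_0.S`. -/
theorem exists_point_mod_of_stage
    (Xn : RTData ρbar (condFL 𝒪 p Smin Sg)) (X0 : RTData ρbar (condFL 𝒪 p Smin ∅))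
    (hA : Function.Surjective (algebraMap 𝒪 A))
    (ρg : GaloisRepAdic 𝒪)
    (hres : ρg.residual.IsEquiv (ρbar.baseChangeAlong (ResidueField.map (algebraMap 𝒪 𝒪))))
    (hunr : ∀ q ∈ Sg, q.Prime → q ∉ Smin → ρg.IsUnramifiedAt q)
    (φ : Xn.T →ₐ[𝒪] A) (B : Finset ℕ)
    (hB : ∀ ℓ : ℕ, ℓ.Prime → ℓ ∉ B → ¬ ℓ ∣ Xn.N ∧ ℓ ∉ Xn.S)
    (hφ : ∀ (ℓ : ℕ) (hℓ : ℓ.Prime) (hℓN : ¬ ℓ ∣ Xn.N) (hℓS : ℓ ∉ Xn.S), ℓ ∉ B →
      ∀ P : ValuationSubring Qb, P.LiesOverPrime ℓ → ∀ σ : GQ, P.IsFrobeniusAt σ ℓ →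
        (LinearMap.charpoly (ρg.ρ σ)).map (algebraMap 𝒪 A) =
          X ^ 2 - C (φ (Xn.π (heckeAlgebra.T hℓ hℓN hℓS))) * X + C ((ℓ : A))) :
    ∃ ψ : X0.T →ₐ[𝒪] A,
      ∀ (ℓ : ℕ) (hℓ : ℓ.Prime) (hℓN : ¬ ℓ ∣ X0.N) (hℓS : ℓ ∉ X0.S),
        ∀ P : ValuationSubring Qb, P.LiesOverPrime ℓ → ∀ σ : GQ, P.IsFrobeniusAt σ ℓ →
          (LinearMap.charpoly (ρg.ρ σ)).map (algebraMap 𝒪 A) =
            X ^ 2 - C (ψ (X0.π (heckeAlgebra.T hℓ hℓN hℓS))) * X + C ((ℓ : A)) := by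
  have hAres := residue_cover_of_surjective (𝒪 := 𝒪) (A := A) hA
  have hf : IsLocalHom ((φ.comp Xn.φ : Xn.D.R →ₐ[𝒪] A) : Xn.D.R →+* A) :=
    Fermat.Agent.GP.Tan.UnivInj.isLocalHom_of_residue_cover hAres _
  obtain ⟨f0, hf0, he0⟩ := exists_hom_of_univ Xn.D X0.D hA ρg hres hunr (φ.comp Xn.φ) hf B
    (fun ℓ hℓ hℓB P hP σ hσ => by
      obtain ⟨hℓN, hℓS⟩ := hB ℓ hℓ hℓB
      rw [charpoly_point Xn φ hf ℓ hℓ hℓN hℓS P hP σ hσ, hφ ℓ hℓ hℓN hℓS hℓB P hP σ hσ])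
  let e0 : X0.D.R ≃ₐ[𝒪] X0.T := AlgEquiv.ofBijective X0.φ X0.φ_bijective
  let ψ : X0.T →ₐ[𝒪] A := f0.comp (e0.symm : X0.T →ₐ[𝒪] X0.D.R)
  have hψφ : ψ.comp X0.φ = f0 := by
    ext x
    show f0 (e0.symm (e0 x)) = f0 x
    rw [AlgEquiv.symm_apply_apply]
  have hψ : IsLocalHom ((ψ.comp X0.φ : X0.D.R →ₐ[𝒪] A) : X0.D.R →+* A) := by
    rw [hψφ]; exact hf0
  refine ⟨ψ, fun ℓ hℓ hℓN hℓS P hP σ hσ => ?_⟩
  rw [← charpoly_point X0 ψ hψ ℓ hℓ hℓN hℓS P hP σ hσ]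
  have h1 : LinearMap.charpoly ((X0.D.ρ.baseChangeAlong
      ((ψ.comp X0.φ : X0.D.R →ₐ[𝒪] A) : X0.D.R →+* A) hψ).ρ σ) =
      LinearMap.charpoly ((X0.D.ρ.baseChangeAlong (f0 : X0.D.R →+* A) hf0).ρ σ) := by
    rw [charpoly_baseChangeAlongE, charpoly_baseChangeAlongE, hψφ]
  rw [h1, charpoly_eq_of_isEquivE he0 σ, charpoly_baseChangeAlongE]

/-- **R4-C for `RTNum` stages** (the numerical invariant is not used). -/
theorem exists_point_mod_of_rtNum {d : ℕ}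
    (Yn : Fermat.Agent.GE9.Ind.RTNum ρbar (condFL 𝒪 p Smin Sg) d)
    (Y0 : Fermat.Agent.GE9.Ind.RTNum ρbar (condFL 𝒪 p Smin ∅) d)
    (hA : Function.Surjective (algebraMap 𝒪 A))
    (ρg : GaloisRepAdic 𝒪)
    (hres : ρg.residual.IsEquiv (ρbar.baseChangeAlong (ResidueField.map (algebraMap 𝒪 𝒪))))
    (hunr : ∀ q ∈ Sg, q.Prime → q ∉ Smin → ρg.IsUnramifiedAt q)
    (φ : Yn.rt.T →ₐ[𝒪] A) (B : Finset ℕ)
    (hB : ∀ ℓ : ℕ, ℓ.Prime → ℓ ∉ B → ¬ ℓ ∣ Yn.rt.N ∧ ℓ ∉ Yn.rt.S)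
    (hφ : ∀ (ℓ : ℕ) (hℓ : ℓ.Prime) (hℓN : ¬ ℓ ∣ Yn.rt.N) (hℓS : ℓ ∉ Yn.rt.S), ℓ ∉ B →
      ∀ P : ValuationSubring Qb, P.LiesOverPrime ℓ → ∀ σ : GQ, P.IsFrobeniusAt σ ℓ →
        (LinearMap.charpoly (ρg.ρ σ)).map (algebraMap 𝒪 A) =
          X ^ 2 - C (φ (Yn.rt.π (heckeAlgebra.T hℓ hℓN hℓS))) * X + C ((ℓ : A))) :
    ∃ ψ : Y0.rt.T →ₐ[𝒪] A,
      ∀ (ℓ : ℕ) (hℓ : ℓ.Prime) (hℓN : ¬ ℓ ∣ Y0.rt.N) (hℓS : ℓ ∉ Y0.rt.S),
        ∀ P : ValuationSubring Qb, P.LiesOverPrime ℓ → ∀ σ : GQ, P.IsFrobeniusAt σ ℓ →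
          (LinearMap.charpoly (ρg.ρ σ)).map (algebraMap 𝒪 A) =
            X ^ 2 - C (ψ (Y0.rt.π (heckeAlgebra.T hℓ hℓN hℓS))) * X + C ((ℓ : A)) :=
  exists_point_mod_of_stage Yn.rt Y0.rt hA ρg hres hunr φ B hB hφ

end RT

/-! ### `A = 𝒪 ⧸ c` -/

section Ideal

variable {𝒪 : Type} [CommRing 𝒪] [IsDomain 𝒪] [IsDiscreteValuationRing 𝒪]
  [IsAdicComplete (maximalIdeal 𝒪) 𝒪]
  {ρbar : ResidualGaloisRep (ResidueField 𝒪)} {p : ℕ} {Smin Sg : Finset ℕ}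

/-- **R4-C at `A = 𝒪 ⧸ c`**, `c` a proper ideal (all instances discharged). -/
theorem exists_point_mod_ideal
    (Xn : RTData ρbar (condFL 𝒪 p Smin Sg)) (X0 : RTData ρbar (condFL 𝒪 p Smin ∅))
    (c : Ideal 𝒪) (hc : c ≠ ⊤)
    (ρg : GaloisRepAdic 𝒪)
    (hres : ρg.residual.IsEquiv (ρbar.baseChangeAlong (ResidueField.map (algebraMap 𝒪 𝒪))))
    (hunr : ∀ q ∈ Sg, q.Prime → q ∉ Smin → ρg.IsUnramifiedAt q)
    (φ : Xn.T →ₐ[𝒪] 𝒪 ⧸ c) (B : Finset ℕ)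
    (hB : ∀ ℓ : ℕ, ℓ.Prime → ℓ ∉ B → ¬ ℓ ∣ Xn.N ∧ ℓ ∉ Xn.S)
    (hφ : ∀ (ℓ : ℕ) (hℓ : ℓ.Prime) (hℓN : ¬ ℓ ∣ Xn.N) (hℓS : ℓ ∉ Xn.S), ℓ ∉ B →
      ∀ P : ValuationSubring Qb, P.LiesOverPrime ℓ → ∀ σ : GQ, P.IsFrobeniusAt σ ℓ →
        (LinearMap.charpoly (ρg.ρ σ)).map (algebraMap 𝒪 (𝒪 ⧸ c)) =
          X ^ 2 - C (φ (Xn.π (heckeAlgebra.T hℓ hℓN hℓS))) * X + C ((ℓ : 𝒪 ⧸ c))) :
    ∃ ψ : X0.T →ₐ[𝒪] 𝒪 ⧸ c,
      ∀ (ℓ : ℕ) (hℓ : ℓ.Prime) (hℓN : ¬ ℓ ∣ X0.N) (hℓS : ℓ ∉ X0.S),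
        ∀ P : ValuationSubring Qb, P.LiesOverPrime ℓ → ∀ σ : GQ, P.IsFrobeniusAt σ ℓ →
          (LinearMap.charpoly (ρg.ρ σ)).map (algebraMap 𝒪 (𝒪 ⧸ c)) =
            X ^ 2 - C (ψ (X0.π (heckeAlgebra.T hℓ hℓN hℓS))) * X + C ((ℓ : 𝒪 ⧸ c)) := by
  haveI : IsLocalRing (𝒪 ⧸ c) := Fermat.Agent.S53_helper15.isLocalRing_quotient c hc
  haveI : IsAdicComplete (maximalIdeal (𝒪 ⧸ c)) (𝒪 ⧸ c) :=
    Fermat.Agent.S53_helper15.isAdicComplete_quotient c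
  haveI : IsLocalHom (algebraMap 𝒪 (𝒪 ⧸ c)) :=
    Fermat.Agent.S53_helper15.isLocalHom_quotient_mk c hc
  exact exists_point_mod_of_stage Xn X0 Ideal.Quotient.mk_surjective ρg hres hunr φ B hB hφ

end Ideal

end Fermat.Agent.GE9.PNew.Depth
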