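/-
GATE-E (S59) / RISK-4 = PNEW-STAGE, leaf R4-C' of helper80's PLAN v1 (7564) (helper87).
Pure algebra (Mathlib only): **the depth ideal `g (Ann_𝕋 A_n)` of the base point does not depend on
the stage `n`**, from R4-C (`GE9/PNew/Depth.exists_point_mod_of_stage`, helper16) as a HYPOTHESIS.

Setting.  `O` a commutative ring, `𝕋` a commutative `O`-algebra generated by a family `x i`
(`𝕋 = O[T_ℓ : ℓ ∉ S₀]`), `g : 𝕋 →ₐ[O] O` the eigencharacter of the base point (`T_ℓ ↦ a_ℓ(g)`),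
`A₀`, `Aₙ` two `𝕋`-modules (the flat stage modules at `Σ = ∅` and at `Σₙ`) with carriers
`π₀ : 𝕋 → T₀`, `πₙ : 𝕋 ↠ Tₙ` (`T₀` acts faithfully on `A₀`: `Ann_𝕋 A₀ ≤ ker π₀`; the action on `Aₙ`
factors through `Tₙ`: `ker πₙ ≤ Ann_𝕋 Aₙ`).

R4-C in carrier form, at ONE ideal `c` (`PointAt`): a point `φ : Tₙ →ₐ[O] O ⧸ c` with
`φ (πₙ (x i)) = g (x i) mod c` yields a point `ψ : T₀ →ₐ[O] O ⧸ c` with `ψ (π₀ (x i)) = g (x i) mod c`.
`PointsHyp` = `PointAt` at every proper `c`; `PointsHyp'` = at every proper NONZERO `c` (the Artinian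
test algebras `O ⧸ c` of helper31's `DepthPush`), enough when `O` is a DVR (`sep_of_dvr`).

* `map_le_of_pointAt`            : `PointAt c`, `g (Iₙ) ≤ c` ⟹ `g (I₀) ≤ c`  (`I₀ ≤ ker π₀`, `ker πₙ ≤ Iₙ`);
* `map_le_map_of_points(')`      : `g (I₀) ≤ g (Iₙ)`;
* `map_annihilator_le_of_points(')`, `_quot` : the same with `I₀ = Ann_𝕋 A₀`, `Iₙ = Ann_𝕋 Aₙ`
  (`_quot`: canonical carriers `𝕋 ⧸ Ann`);
* `hJ_of_depth`                  : **`Ideal.map g J ≤ Ideal.map g (Ann_𝕋 Aₙ)` for `J ≤ Ann_𝕋 A₀`** — the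
  binder `hJ` of helper21's `KerHecke.card_congMod_ker_growth_hecke` VERBATIM
  (`J := Ann_𝕋 A_{n-1}`; `Ann_𝕋 A_{n-1} ≤ Ann_𝕋 A₀` by `annihilator_le_of_injective/_surjective`);
* `le_ker_sup_of_map_le`, `le_ker_sup_annihilator` : form (ii) of 7564: `J ≤ ker g ⊔ Ann_𝕋 Aₙ`;
* `map_annihilator_eq`           : `g (Ann A₀) = g (Ann Aₙ)` when also `Ann Aₙ ≤ Ann A₀`.
-/
import Mathlib

set_option autoImplicit false

namespace Fermat.Agent.GE9.PNew.DepthAnn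

variable {O : Type*} [CommRing O] {𝕋 : Type*} [CommRing 𝕋] [Algebra O 𝕋]

/-- **R4-C in carrier form at one ideal `c`**: a point of the stage-`n` carrier over `O ⧸ c` with
the values of `g` on the generators descends to a point of the base carrier with the same values. -/
def PointAt (g : 𝕋 →ₐ[O] O) {ι : Type*} (x : ι → 𝕋)
    {T₀ Tₙ : Type*} [CommRing T₀] [Algebra O T₀] [CommRing Tₙ] [Algebra O Tₙ]
    (π₀ : 𝕋 →ₐ[O] T₀) (πₙ : 𝕋 →ₐ[O] Tₙ) (c : Ideal O) : Prop :=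
  ∀ φ : Tₙ →ₐ[O] O ⧸ c,
    (∀ i, φ (πₙ (x i)) = Ideal.Quotient.mk c (g (x i))) →
    ∃ ψ : T₀ →ₐ[O] O ⧸ c, ∀ i, ψ (π₀ (x i)) = Ideal.Quotient.mk c (g (x i))

/-- R4-C at every proper ideal. -/
def PointsHyp (g : 𝕋 →ₐ[O] O) {ι : Type*} (x : ι → 𝕋)
    {T₀ Tₙ : Type*} [CommRing T₀] [Algebra O T₀] [CommRing Tₙ] [Algebra O Tₙ]
    (π₀ : 𝕋 →ₐ[O] T₀) (πₙ : 𝕋 →ₐ[O] Tₙ) : Prop :=
  ∀ c : Ideal O, c ≠ ⊤ → PointAt g x π₀ πₙ c

/-- R4-C at every proper NONZERO ideal (`O ⧸ c` an Artinian test algebra when `O` is a DVR). -/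
def PointsHyp' (g : 𝕋 →ₐ[O] O) {ι : Type*} (x : ι → 𝕋)
    {T₀ Tₙ : Type*} [CommRing T₀] [Algebra O T₀] [CommRing Tₙ] [Algebra O Tₙ]
    (π₀ : 𝕋 →ₐ[O] T₀) (πₙ : 𝕋 →ₐ[O] Tₙ) : Prop :=
  ∀ c : Ideal O, c ≠ ⊥ → c ≠ ⊤ → PointAt g x π₀ πₙ c

/-- the elements lying in every proper nonzero ideal vanish. -/
def Sep (O : Type*) [CommRing O] : Prop :=
  ∀ a : O, (∀ c : Ideal O, c ≠ ⊥ → c ≠ ⊤ → a ∈ c) → a = 0

/-- a discrete valuation ring is separated in the sense of `Sep` (Krull intersection). -/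
theorem sep_of_dvr (O : Type*) [CommRing O] [IsDomain O] [IsDiscreteValuationRing O] : Sep O := by
  intro a ha
  have hm : IsLocalRing.maximalIdeal O ≠ ⊥ := IsDiscreteValuationRing.not_a_field O
  have hmt : IsLocalRing.maximalIdeal O ≠ ⊤ := Ideal.IsPrime.ne_top'
  have h1 : ∀ k : ℕ, a ∈ IsLocalRing.maximalIdeal O ^ k := by
    intro k
    rcases Nat.eq_zero_or_pos k with rfl | hk
    · rw [pow_zero, Ideal.one_eq_top]; trivial
    · refine ha _ ?_ ?_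
      · rw [← Ideal.zero_eq_bot]
        exact pow_ne_zero k (by rwa [Ideal.zero_eq_bot])
      · intro htop
        apply hmt
        rw [eq_top_iff, ← htop]
        exact Ideal.pow_le_self hk.ne'
  have h2 : a ∈ ⨅ k : ℕ, IsLocalRing.maximalIdeal O ^ k := by
    rw [Ideal.mem_iInf]; exact h1
  rw [Ideal.iInf_pow_eq_bot_of_isLocalRing _ hmt] at h2
  exact h2

section Carrier

variable (g : 𝕋 →ₐ[O] O) {ι : Type*} (x : ι → 𝕋)
  {T₀ Tₙ : Type*} [CommRing T₀] [Algebra O T₀] [CommRing Tₙ] [Algebra O Tₙ]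
  (π₀ : 𝕋 →ₐ[O] T₀) (πₙ : 𝕋 →ₐ[O] Tₙ)

/-- **the core**: R4-C at `c` moves `g (Iₙ) ≤ c` to `g (I₀) ≤ c`. -/
theorem map_le_of_pointAt (hx : Algebra.adjoin O (Set.range x) = ⊤)
    (hπₙ : Function.Surjective πₙ) (c : Ideal O) (hC : PointAt g x π₀ πₙ c)
    (I₀ Iₙ : Ideal 𝕋) (h₀ : ∀ s ∈ I₀, π₀ s = 0) (hₙ : ∀ s : 𝕋, πₙ s = 0 → s ∈ Iₙ)
    (hc : Ideal.map (g : 𝕋 →+* O) Iₙ ≤ c) :
    Ideal.map (g : 𝕋 →+* O) I₀ ≤ c := by
  -- the point `mk c ∘ g` of `𝕋`, descended to `Tₙ`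
  let γ : 𝕋 →ₐ[O] O ⧸ c := (Ideal.Quotient.mkₐ O c).comp g
  have hγ : ∀ s : 𝕋, γ s = Ideal.Quotient.mk c (g s) := fun _ => rfl
  have hker : RingHom.ker πₙ.toRingHom ≤ RingHom.ker γ.toRingHom := by
    intro s hs
    have hs' : πₙ s = 0 := hs
    have h1 : (g : 𝕋 →+* O) s ∈ c := hc (Ideal.mem_map_of_mem _ (hₙ s hs'))
    show γ s = 0
    rw [hγ]
    exact Ideal.Quotient.eq_zero_iff_mem.mpr h1
  let φ : Tₙ →ₐ[O] O ⧸ c := AlgHom.liftOfSurjective πₙ hπₙ γ hker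
  have hφ : ∀ s : 𝕋, φ (πₙ s) = γ s := fun s => AlgHom.liftOfSurjective_apply πₙ hπₙ γ hker s
  obtain ⟨ψ, hψ⟩ := hC φ (fun i => by rw [hφ, hγ])
  -- `ψ ∘ π₀ = mk c ∘ g` on the generators, hence everywhere
  have heq : ψ.comp π₀ = γ := by
    refine AlgHom.ext_of_adjoin_eq_top hx ?_
    rintro _ ⟨i, rfl⟩
    show ψ (π₀ (x i)) = γ (x i)
    rw [hψ i, hγ]
  rw [Ideal.map_le_iff_le_comap]
  intro s hs
  rw [Ideal.mem_comap]
  have h1 : γ s = 0 := by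
    rw [← heq]
    show ψ (π₀ s) = 0
    rw [h₀ s hs, map_zero]
  rw [hγ] at h1
  exact Ideal.Quotient.eq_zero_iff_mem.mp h1

/-- **depth-ideal constancy, carrier form** (R4-C at every proper ideal). -/
theorem map_le_map_of_points (hx : Algebra.adjoin O (Set.range x) = ⊤)
    (hπₙ : Function.Surjective πₙ) (hC : PointsHyp g x π₀ πₙ)
    (I₀ Iₙ : Ideal 𝕋) (h₀ : ∀ s ∈ I₀, π₀ s = 0) (hₙ : ∀ s : 𝕋, πₙ s = 0 → s ∈ Iₙ) :
    Ideal.map (g : 𝕋 →+* O) I₀ ≤ Ideal.map (g : 𝕋 →+* O) Iₙ := by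
  by_cases htop : Ideal.map (g : 𝕋 →+* O) Iₙ = ⊤
  · rw [htop]; exact le_top
  · exact map_le_of_pointAt g x π₀ πₙ hx hπₙ _ (hC _ htop) I₀ Iₙ h₀ hₙ le_rfl

/-- **depth-ideal constancy, carrier form** (R4-C at every proper NONZERO ideal, `O` separated). -/
theorem map_le_map_of_points' (hsep : Sep O) (hx : Algebra.adjoin O (Set.range x) = ⊤)
    (hπₙ : Function.Surjective πₙ) (hC : PointsHyp' g x π₀ πₙ)
    (I₀ Iₙ : Ideal 𝕋) (h₀ : ∀ s ∈ I₀, π₀ s = 0) (hₙ : ∀ s : 𝕋, πₙ s = 0 → s ∈ Iₙ) :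
    Ideal.map (g : 𝕋 →+* O) I₀ ≤ Ideal.map (g : 𝕋 →+* O) Iₙ := by
  by_cases htop : Ideal.map (g : 𝕋 →+* O) Iₙ = ⊤
  · rw [htop]; exact le_top
  by_cases hbot : Ideal.map (g : 𝕋 →+* O) Iₙ = ⊥
  · -- `g (Iₙ) = 0`: every proper nonzero `c` contains `g (I₀)`, hence `g (I₀) = 0`
    rw [hbot, Ideal.map_le_iff_le_comap]
    intro s hs
    rw [Ideal.mem_comap, Ideal.mem_bot]
    refine hsep _ (fun c hc0 hc1 => ?_)
    have h1 := map_le_of_pointAt g x π₀ πₙ hx hπₙ c (hC c hc0 hc1) I₀ Iₙ h₀ hₙ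
      (by rw [hbot]; exact bot_le)
    exact h1 (Ideal.mem_map_of_mem _ hs)
  · exact map_le_of_pointAt g x π₀ πₙ hx hπₙ _ (hC _ hbot htop) I₀ Iₙ h₀ hₙ le_rfl

end Carrier

section Modules

variable (g : 𝕋 →ₐ[O] O) {ι : Type*} (x : ι → 𝕋)
  {A₀ Aₙ : Type*} [AddCommGroup A₀] [Module 𝕋 A₀] [AddCommGroup Aₙ] [Module 𝕋 Aₙ]

/-- **depth-ideal constancy**: `g (Ann_𝕋 A₀) ≤ g (Ann_𝕋 Aₙ)`, carriers `T₀` (faithful on `A₀`) and
`Tₙ` (the action on `Aₙ` factors through it); R4-C at every proper ideal. -/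
theorem map_annihilator_le_of_points
    {T₀ Tₙ : Type*} [CommRing T₀] [Algebra O T₀] [CommRing Tₙ] [Algebra O Tₙ]
    (π₀ : 𝕋 →ₐ[O] T₀) (πₙ : 𝕋 →ₐ[O] Tₙ)
    (hx : Algebra.adjoin O (Set.range x) = ⊤) (hπₙ : Function.Surjective πₙ)
    (hC : PointsHyp g x π₀ πₙ)
    (h₀ : ∀ s : 𝕋, (∀ y : A₀, s • y = 0) → π₀ s = 0)
    (hₙ : ∀ s : 𝕋, πₙ s = 0 → ∀ y : Aₙ, s • y = 0) :
    Ideal.map (g : 𝕋 →+* O) (Module.annihilator 𝕋 A₀) ≤
      Ideal.map (g : 𝕋 →+* O) (Module.annihilator 𝕋 Aₙ) :=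
  map_le_map_of_points g x π₀ πₙ hx hπₙ hC _ _
    (fun s hs => h₀ s (fun y => Module.mem_annihilator.mp hs y))
    (fun s hs => Module.mem_annihilator.mpr (hₙ s hs))

/-- the same from R4-C at the proper NONZERO ideals, `O` separated (e.g. a DVR: `sep_of_dvr`). -/
theorem map_annihilator_le_of_points' (hsep : Sep O)
    {T₀ Tₙ : Type*} [CommRing T₀] [Algebra O T₀] [CommRing Tₙ] [Algebra O Tₙ]
    (π₀ : 𝕋 →ₐ[O] T₀) (πₙ : 𝕋 →ₐ[O] Tₙ)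
    (hx : Algebra.adjoin O (Set.range x) = ⊤) (hπₙ : Function.Surjective πₙ)
    (hC : PointsHyp' g x π₀ πₙ)
    (h₀ : ∀ s : 𝕋, (∀ y : A₀, s • y = 0) → π₀ s = 0)
    (hₙ : ∀ s : 𝕋, πₙ s = 0 → ∀ y : Aₙ, s • y = 0) :
    Ideal.map (g : 𝕋 →+* O) (Module.annihilator 𝕋 A₀) ≤
      Ideal.map (g : 𝕋 →+* O) (Module.annihilator 𝕋 Aₙ) :=
  map_le_map_of_points' g x π₀ πₙ hsep hx hπₙ hC _ _
    (fun s hs => h₀ s (fun y => Module.mem_annihilator.mp hs y))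
    (fun s hs => Module.mem_annihilator.mpr (hₙ s hs))

/-- the canonical carrier `𝕋 ⧸ Ann_𝕋 A` as an `O`-algebra quotient map. -/
abbrev carrierMap (A : Type*) [AddCommGroup A] [Module 𝕋 A] :
    𝕋 →ₐ[O] 𝕋 ⧸ Module.annihilator 𝕋 A :=
  Ideal.Quotient.mkₐ O (Module.annihilator 𝕋 A)

/-- **depth-ideal constancy, canonical carriers** `Tₖ = 𝕋 ⧸ Ann_𝕋 Aₖ`. -/
theorem map_annihilator_le_of_points_quot
    (hx : Algebra.adjoin O (Set.range x) = ⊤)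
    (hC : PointsHyp g x (carrierMap (O := O) (𝕋 := 𝕋) A₀) (carrierMap (O := O) (𝕋 := 𝕋) Aₙ)) :
    Ideal.map (g : 𝕋 →+* O) (Module.annihilator 𝕋 A₀) ≤
      Ideal.map (g : 𝕋 →+* O) (Module.annihilator 𝕋 Aₙ) :=
  map_le_map_of_points g x _ _ hx Ideal.Quotient.mk_surjective hC _ _
    (fun _ hs => Ideal.Quotient.eq_zero_iff_mem.mpr hs)
    (fun _ hs => Ideal.Quotient.eq_zero_iff_mem.mp hs)

/-- canonical carriers, R4-C at the proper NONZERO ideals, `O` separated. -/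
theorem map_annihilator_le_of_points_quot' (hsep : Sep O)
    (hx : Algebra.adjoin O (Set.range x) = ⊤)
    (hC : PointsHyp' g x (carrierMap (O := O) (𝕋 := 𝕋) A₀) (carrierMap (O := O) (𝕋 := 𝕋) Aₙ)) :
    Ideal.map (g : 𝕋 →+* O) (Module.annihilator 𝕋 A₀) ≤
      Ideal.map (g : 𝕋 →+* O) (Module.annihilator 𝕋 Aₙ) :=
  map_le_map_of_points' g x _ _ hsep hx Ideal.Quotient.mk_surjective hC _ _
    (fun _ hs => Ideal.Quotient.eq_zero_iff_mem.mpr hs)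
    (fun _ hs => Ideal.Quotient.eq_zero_iff_mem.mp hs)

/-- **the binder `hJ` of `KerHecke.card_congMod_ker_growth_hecke`** from the depth inequality:
for `J ≤ Ann_𝕋 A₀` (e.g. `J = Ann_𝕋 A_{n-1}`), `g J ≤ g (Ann_𝕋 Aₙ)`. -/
theorem hJ_of_depth
    (hdepth : Ideal.map (g : 𝕋 →+* O) (Module.annihilator 𝕋 A₀) ≤
      Ideal.map (g : 𝕋 →+* O) (Module.annihilator 𝕋 Aₙ))
    (J : Ideal 𝕋) (hJ₀ : J ≤ Module.annihilator 𝕋 A₀) :
    Ideal.map (g : 𝕋 →+* O) J ≤ Ideal.map (g : 𝕋 →+* O) (Module.annihilator 𝕋 Aₙ) :=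
  (Ideal.map_mono hJ₀).trans hdepth

/-- form (ii) of 7564: `g J ≤ g I` ⟹ `J ≤ ker g ⊔ I`. -/
theorem le_ker_sup_of_map_le (J I : Ideal 𝕋)
    (h : Ideal.map (g : 𝕋 →+* O) J ≤ Ideal.map (g : 𝕋 →+* O) I) :
    J ≤ RingHom.ker (g : 𝕋 →+* O) ⊔ I := by
  have hsurj : Function.Surjective (g : 𝕋 →+* O) := fun o =>
    ⟨algebraMap O 𝕋 o, by
      show g (algebraMap O 𝕋 o) = o
      rw [AlgHom.commutes]; rfl⟩
  intro s hs
  have h1 : (g : 𝕋 →+* O) s ∈ Ideal.map (g : 𝕋 →+* O) I := h (Ideal.mem_map_of_mem _ hs)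
  obtain ⟨s', hs', hss'⟩ := (Ideal.mem_map_iff_of_surjective _ hsurj).mp h1
  have h2 : s - s' ∈ RingHom.ker (g : 𝕋 →+* O) := by
    rw [RingHom.mem_ker, map_sub, hss', sub_self]
  have : s = (s - s') + s' := by ring
  rw [this]
  exact Ideal.add_mem _ (Ideal.mem_sup_left h2) (Ideal.mem_sup_right hs')

/-- **(ii) of helper80 7564**: `J ≤ ker g ⊔ Ann_𝕋 Aₙ` for `J ≤ Ann_𝕋 A₀`. -/
theorem le_ker_sup_annihilator
    (hdepth : Ideal.map (g : 𝕋 →+* O) (Module.annihilator 𝕋 A₀) ≤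
      Ideal.map (g : 𝕋 →+* O) (Module.annihilator 𝕋 Aₙ))
    (J : Ideal 𝕋) (hJ₀ : J ≤ Module.annihilator 𝕋 A₀) :
    J ≤ RingHom.ker (g : 𝕋 →+* O) ⊔ Module.annihilator 𝕋 Aₙ :=
  le_ker_sup_of_map_le g J _ (hJ_of_depth g hdepth J hJ₀)

/-- equality of the depth ideals when moreover `Ann_𝕋 Aₙ ≤ Ann_𝕋 A₀` (`A₀` a sub or a quotient of
`Aₙ`). -/
theorem map_annihilator_eq
    (hdepth : Ideal.map (g : 𝕋 →+* O) (Module.annihilator 𝕋 A₀) ≤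
      Ideal.map (g : 𝕋 →+* O) (Module.annihilator 𝕋 Aₙ))
    (hle : Module.annihilator 𝕋 Aₙ ≤ Module.annihilator 𝕋 A₀) :
    Ideal.map (g : 𝕋 →+* O) (Module.annihilator 𝕋 A₀) =
      Ideal.map (g : 𝕋 →+* O) (Module.annihilator 𝕋 Aₙ) :=
  le_antisymm hdepth (Ideal.map_mono hle)

end Modules

section Ann

variable {X Y : Type*} [AddCommGroup X] [Module 𝕋 X] [AddCommGroup Y] [Module 𝕋 Y]

/-- `Ann X ≤ Ann Y` when `Y` is a `𝕋`-linear quotient of `X`. -/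
theorem annihilator_le_of_surjective (f : X →ₗ[𝕋] Y) (hf : Function.Surjective f) :
    Module.annihilator 𝕋 X ≤ Module.annihilator 𝕋 Y := by
  intro s hs
  rw [Module.mem_annihilator] at hs ⊢
  intro y
  obtain ⟨z, rfl⟩ := hf y
  rw [← map_smul, hs z, map_zero]

/-- `Ann X ≤ Ann Y` when `Y` embeds `𝕋`-linearly into `X`. -/
theorem annihilator_le_of_injective (f : Y →ₗ[𝕋] X) (hf : Function.Injective f) :
    Module.annihilator 𝕋 X ≤ Module.annihilator 𝕋 Y := by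
  intro s hs
  rw [Module.mem_annihilator] at hs ⊢
  intro y
  apply hf
  rw [map_smul, hs (f y), map_zero]

/-- additive form, for transfer maps which are only known to commute with each `s ∈ 𝕋`
(`f (s • z) = s • f z`), e.g. `O`-linear Hecke-equivariant maps. -/
theorem annihilator_le_of_surjective' (f : X →+ Y) (hfs : ∀ (s : 𝕋) (z : X), f (s • z) = s • f z)
    (hf : Function.Surjective f) : Module.annihilator 𝕋 X ≤ Module.annihilator 𝕋 Y := by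
  intro s hs
  rw [Module.mem_annihilator] at hs ⊢
  intro y
  obtain ⟨z, rfl⟩ := hf y
  rw [← hfs, hs z, map_zero]

/-- additive form of `annihilator_le_of_injective`. -/
theorem annihilator_le_of_injective' (f : Y →+ X) (hfs : ∀ (s : 𝕋) (z : Y), f (s • z) = s • f z)
    (hf : Function.Injective f) : Module.annihilator 𝕋 X ≤ Module.annihilator 𝕋 Y := by
  intro s hs
  rw [Module.mem_annihilator] at hs ⊢
  intro y
  apply hf
  rw [hfs, hs (f y), map_zero]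

end Ann

end Fermat.Agent.GE9.PNew.DepthAnn
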