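/-
GATE-E / S59, RISK-4 = PNEW-STAGE (helper16): **the plug R4-C ⟹ R4-C'**.

`GE9/PNew/Depth.exists_point_mod_ideal` (R4-C, Frobenius characteristic polynomials on `RTData`)
delivers the hypotheses `PointAt` / `PointsHyp` / `PointsHyp'` of helper87's
`GE9/PNew/DepthAnn` (R4-C', carrier form) for

* `𝕋 := MvPolynomial (PIdx S0) 𝒪`, `PIdx S0 = {l // l.Prime ∧ l ∉ S0}`, `x l := X l`,
* `g := aeval lam`, `lam l` = the trace of `ρ_g (Frob_l)`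
  (`charpoly ρ_g(Frob_l) = X² − lam l · X + l`),
* `πₖ := carrier Xₖ S0 _ : X l ↦ Xₖ.π (T_l)` for the two flat `R = T` data `X_n`, `X_0`
  (`S0` a FINITE set containing the primes dividing the levels and the removed primes).

* `carrier`, `carrier_X`;
* **`pointAt_of_stage`**   : `PointAt (aeval lam) X (carrier X0) (carrier Xn) c` for every proper `c`;
* `pointsHyp_of_stage`, `pointsHyp'_of_stage`;
* **`map_annihilator_le_of_stage`** : depth-ideal constancy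
  `g (Ann_𝕋 A₀) ≤ g (Ann_𝕋 Aₙ)` for `𝕋`-modules `A₀`, `Aₙ` on which `𝕋` acts through the two carriers
  (faithfully on `A₀`), `carrier Xn` onto; feed it to `DepthAnn.hJ_of_depth` to get the binder `hJ`
  of helper21's `KerHecke.card_congMod_ker_growth_hecke`.
-/
import Mathlib
import Fermat.Agent.GE9.PNew.Depth
import Fermat.Agent.GE9.PNew.DepthAnn
import Fermat.Agent.Common_helper32.FrobeniusExists

set_option autoImplicit false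
set_option linter.unusedSectionVars false

namespace Fermat.Agent.GE9.PNew.DepthPlug

open IsLocalRing Polynomial CuspForm Fermat.Agent.GE.Graph Fermat.Agent.GE9.PNew.Depth
  Fermat.Agent.GE9.PNew.DepthAnn

/-- `G_ℚ`. -/
local notation "GQ" => (AlgebraicClosure ℚ ≃ₐ[ℚ] AlgebraicClosure ℚ)

/-- `ℚ̄`. -/
local notation "Qb" => AlgebraicClosure ℚ

/-- the primes outside `S0`. -/
abbrev PIdx (S0 : Finset ℕ) : Type := {l : ℕ // l.Prime ∧ l ∉ S0}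

variable {𝒪 : Type} [CommRing 𝒪] [IsDomain 𝒪] [IsDiscreteValuationRing 𝒪]
  [IsAdicComplete (maximalIdeal 𝒪) 𝒪]
  {ρbar : ResidualGaloisRep (ResidueField 𝒪)}

/-- **the carrier map** `𝒪[X_l : l ∉ S0] → X'.T`, `X_l ↦ X'.π (T_l)`. -/
noncomputable def carrier {𝒟 : DefCondE 𝒪} (X' : RTData ρbar 𝒟) (S0 : Finset ℕ)
    (hS : ∀ l : ℕ, l.Prime → l ∉ S0 → ¬ l ∣ X'.N ∧ l ∉ X'.S) :
    MvPolynomial (PIdx S0) 𝒪 →ₐ[𝒪] X'.T :=
  MvPolynomial.aeval fun l : PIdx S0 =>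
    X'.π (heckeAlgebra.T l.2.1 (hS l l.2.1 l.2.2).1 (hS l l.2.1 l.2.2).2)

theorem carrier_X {𝒟 : DefCondE 𝒪} (X' : RTData ρbar 𝒟) (S0 : Finset ℕ)
    (hS : ∀ l : ℕ, l.Prime → l ∉ S0 → ¬ l ∣ X'.N ∧ l ∉ X'.S) (l : PIdx S0) :
    carrier X' S0 hS (MvPolynomial.X l) =
      X'.π (heckeAlgebra.T l.2.1 (hS l l.2.1 l.2.2).1 (hS l l.2.1 l.2.2).2) := by
  unfold carrier
  rw [MvPolynomial.aeval_X]

variable {p : ℕ} {Smin Sg : Finset ℕ}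

/-- the linear coefficient of `X² − C a X + C b`. -/
theorem coeff_one_quadratic {R : Type*} [CommRing R] (a b : R) :
    (X ^ 2 - C a * X + C b : R[X]).coeff 1 = -a := by
  simp [coeff_C]

/-- **R4-C ⟹ `PointAt`** at every proper ideal `c`. -/
theorem pointAt_of_stage
    (Xn : RTData ρbar (condFL 𝒪 p Smin Sg)) (X0 : RTData ρbar (condFL 𝒪 p Smin ∅))
    (S0 : Finset ℕ)
    (hSn : ∀ l : ℕ, l.Prime → l ∉ S0 → ¬ l ∣ Xn.N ∧ l ∉ Xn.S)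
    (hS0 : ∀ l : ℕ, l.Prime → l ∉ S0 → ¬ l ∣ X0.N ∧ l ∉ X0.S)
    (ρg : GaloisRepAdic 𝒪)
    (hres : ρg.residual.IsEquiv (ρbar.baseChangeAlong (ResidueField.map (algebraMap 𝒪 𝒪))))
    (hunr : ∀ q ∈ Sg, q.Prime → q ∉ Smin → ρg.IsUnramifiedAt q)
    (lam : PIdx S0 → 𝒪)
    (hlam : ∀ (l : PIdx S0) (P : ValuationSubring Qb), P.LiesOverPrime l → ∀ σ : GQ,
      P.IsFrobeniusAt σ l →
        LinearMap.charpoly (ρg.ρ σ) = X ^ 2 - C (lam l) * X + C (((l : ℕ) : 𝒪)))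
    (c : Ideal 𝒪) (hc : c ≠ ⊤) :
    PointAt (MvPolynomial.aeval lam : MvPolynomial (PIdx S0) 𝒪 →ₐ[𝒪] 𝒪)
      (MvPolynomial.X : PIdx S0 → MvPolynomial (PIdx S0) 𝒪)
      (carrier X0 S0 hS0) (carrier Xn S0 hSn) c := by
  intro φ hφ
  -- the characteristic polynomials of `ρ_g` modulo `c`
  have hmap : ∀ (l : PIdx S0) (P : ValuationSubring Qb), P.LiesOverPrime l → ∀ σ : GQ,
      P.IsFrobeniusAt σ l →
        (LinearMap.charpoly (ρg.ρ σ)).map (algebraMap 𝒪 (𝒪 ⧸ c)) =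
          X ^ 2 - C (Ideal.Quotient.mk c (lam l)) * X + C (((l : ℕ) : 𝒪 ⧸ c)) := by
    intro l P hP σ hσ
    rw [hlam l P hP σ hσ]
    simp only [Polynomial.map_sub, Polynomial.map_add, Polynomial.map_mul, Polynomial.map_pow,
      Polynomial.map_X, Polynomial.map_C, map_natCast, Polynomial.map_natCast,
      Ideal.Quotient.algebraMap_eq]
  obtain ⟨ψ, hψ⟩ := exists_point_mod_ideal Xn X0 c hc ρg hres hunr φ S0 hSn
    (fun ℓ hℓ hℓN hℓS hℓB P hP σ hσ => by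
      have h1 := hmap ⟨ℓ, hℓ, hℓB⟩ P hP σ hσ
      have h2 := hφ ⟨ℓ, hℓ, hℓB⟩
      rw [carrier_X, MvPolynomial.aeval_X] at h2
      rw [h1, ← h2])
  refine ⟨ψ, fun l => ?_⟩
  obtain ⟨P, σ, hP, hσ⟩ := Fermat.Agent.Common_helper32.exists_isFrobeniusAt l l.2.1
  have h1 := hmap l P hP σ hσ
  have h2 := hψ l l.2.1 (hS0 l l.2.1 l.2.2).1 (hS0 l l.2.1 l.2.2).2 P hP σ hσ
  rw [h1] at h2
  have h3 := congrArg (fun f : (𝒪 ⧸ c)[X] => f.coeff 1) h2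
  simp only [coeff_one_quadratic, neg_inj] at h3
  rw [carrier_X, MvPolynomial.aeval_X]
  exact h3.symm

/-- **R4-C ⟹ `PointsHyp`**. -/
theorem pointsHyp_of_stage
    (Xn : RTData ρbar (condFL 𝒪 p Smin Sg)) (X0 : RTData ρbar (condFL 𝒪 p Smin ∅))
    (S0 : Finset ℕ)
    (hSn : ∀ l : ℕ, l.Prime → l ∉ S0 → ¬ l ∣ Xn.N ∧ l ∉ Xn.S)
    (hS0 : ∀ l : ℕ, l.Prime → l ∉ S0 → ¬ l ∣ X0.N ∧ l ∉ X0.S)
    (ρg : GaloisRepAdic 𝒪)
    (hres : ρg.residual.IsEquiv (ρbar.baseChangeAlong (ResidueField.map (algebraMap 𝒪 𝒪))))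
    (hunr : ∀ q ∈ Sg, q.Prime → q ∉ Smin → ρg.IsUnramifiedAt q)
    (lam : PIdx S0 → 𝒪)
    (hlam : ∀ (l : PIdx S0) (P : ValuationSubring Qb), P.LiesOverPrime l → ∀ σ : GQ,
      P.IsFrobeniusAt σ l →
        LinearMap.charpoly (ρg.ρ σ) = X ^ 2 - C (lam l) * X + C (((l : ℕ) : 𝒪))) :
    PointsHyp (MvPolynomial.aeval lam : MvPolynomial (PIdx S0) 𝒪 →ₐ[𝒪] 𝒪)
      (MvPolynomial.X : PIdx S0 → MvPolynomial (PIdx S0) 𝒪)
      (carrier X0 S0 hS0) (carrier Xn S0 hSn) :=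
  fun c hc => pointAt_of_stage Xn X0 S0 hSn hS0 ρg hres hunr lam hlam c hc

/-- **R4-C ⟹ `PointsHyp'`**. -/
theorem pointsHyp'_of_stage
    (Xn : RTData ρbar (condFL 𝒪 p Smin Sg)) (X0 : RTData ρbar (condFL 𝒪 p Smin ∅))
    (S0 : Finset ℕ)
    (hSn : ∀ l : ℕ, l.Prime → l ∉ S0 → ¬ l ∣ Xn.N ∧ l ∉ Xn.S)
    (hS0 : ∀ l : ℕ, l.Prime → l ∉ S0 → ¬ l ∣ X0.N ∧ l ∉ X0.S)
    (ρg : GaloisRepAdic 𝒪)
    (hres : ρg.residual.IsEquiv (ρbar.baseChangeAlong (ResidueField.map (algebraMap 𝒪 𝒪))))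
    (hunr : ∀ q ∈ Sg, q.Prime → q ∉ Smin → ρg.IsUnramifiedAt q)
    (lam : PIdx S0 → 𝒪)
    (hlam : ∀ (l : PIdx S0) (P : ValuationSubring Qb), P.LiesOverPrime l → ∀ σ : GQ,
      P.IsFrobeniusAt σ l →
        LinearMap.charpoly (ρg.ρ σ) = X ^ 2 - C (lam l) * X + C (((l : ℕ) : 𝒪))) :
    PointsHyp' (MvPolynomial.aeval lam : MvPolynomial (PIdx S0) 𝒪 →ₐ[𝒪] 𝒪)
      (MvPolynomial.X : PIdx S0 → MvPolynomial (PIdx S0) 𝒪)
      (carrier X0 S0 hS0) (carrier Xn S0 hSn) :=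
  fun c _ hc => pointAt_of_stage Xn X0 S0 hSn hS0 ρg hres hunr lam hlam c hc

/-- `𝒪[X_l]` is generated by the `X_l`. -/
theorem adjoin_X_eq_top (S0 : Finset ℕ) :
    Algebra.adjoin 𝒪 (Set.range (MvPolynomial.X : PIdx S0 → MvPolynomial (PIdx S0) 𝒪)) = ⊤ :=
  MvPolynomial.adjoin_range_X

/-- **depth-ideal constancy** for the polynomial Hecke algebra `𝕋 = 𝒪[X_l : l ∉ S0]`, the base point
`g = aeval lam`, and two `𝕋`-modules `A₀`, `Aₙ` on which `𝕋` acts through `carrier X0` (faithfully)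
and `carrier Xn` (onto `Xn.T`). -/
theorem map_annihilator_le_of_stage
    (Xn : RTData ρbar (condFL 𝒪 p Smin Sg)) (X0 : RTData ρbar (condFL 𝒪 p Smin ∅))
    (S0 : Finset ℕ)
    (hSn : ∀ l : ℕ, l.Prime → l ∉ S0 → ¬ l ∣ Xn.N ∧ l ∉ Xn.S)
    (hS0 : ∀ l : ℕ, l.Prime → l ∉ S0 → ¬ l ∣ X0.N ∧ l ∉ X0.S)
    (ρg : GaloisRepAdic 𝒪)
    (hres : ρg.residual.IsEquiv (ρbar.baseChangeAlong (ResidueField.map (algebraMap 𝒪 𝒪))))
    (hunr : ∀ q ∈ Sg, q.Prime → q ∉ Smin → ρg.IsUnramifiedAt q)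
    (lam : PIdx S0 → 𝒪)
    (hlam : ∀ (l : PIdx S0) (P : ValuationSubring Qb), P.LiesOverPrime l → ∀ σ : GQ,
      P.IsFrobeniusAt σ l →
        LinearMap.charpoly (ρg.ρ σ) = X ^ 2 - C (lam l) * X + C (((l : ℕ) : 𝒪)))
    (hπn : Function.Surjective (carrier Xn S0 hSn))
    {A₀ Aₙ : Type*} [AddCommGroup A₀] [Module (MvPolynomial (PIdx S0) 𝒪) A₀]
    [AddCommGroup Aₙ] [Module (MvPolynomial (PIdx S0) 𝒪) Aₙ]
    (h₀ : ∀ s : MvPolynomial (PIdx S0) 𝒪, (∀ y : A₀, s • y = 0) → carrier X0 S0 hS0 s = 0)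
    (hₙ : ∀ s : MvPolynomial (PIdx S0) 𝒪, carrier Xn S0 hSn s = 0 → ∀ y : Aₙ, s • y = 0) :
    Ideal.map ((MvPolynomial.aeval lam : MvPolynomial (PIdx S0) 𝒪 →ₐ[𝒪] 𝒪) :
        MvPolynomial (PIdx S0) 𝒪 →+* 𝒪) (Module.annihilator (MvPolynomial (PIdx S0) 𝒪) A₀) ≤
      Ideal.map ((MvPolynomial.aeval lam : MvPolynomial (PIdx S0) 𝒪 →ₐ[𝒪] 𝒪) :
        MvPolynomial (PIdx S0) 𝒪 →+* 𝒪) (Module.annihilator (MvPolynomial (PIdx S0) 𝒪) Aₙ) :=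
  map_annihilator_le_of_points _ _ _ _ (adjoin_X_eq_top S0) hπn
    (pointsHyp_of_stage Xn X0 S0 hSn hS0 ρg hres hunr lam hlam) h₀ hₙ

end Fermat.Agent.GE9.PNew.DepthPlug
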