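/-
GATE-E / S59, RISK-4 = PNEW-STAGE (helper16): **the carrier binders of `DepthPlug` / `DepthBase`.**

* `rtDataOfRaw` : an `R = T` datum at a CONCRETE carrier `T'` from the raw fields of a stage
  (`RawFL.exists_raw_of_defRing` + `φ'` bijective from `ModForm.stage_free` / `Ind.step`) — the
  numerics-free part of `RTNum.ofRaw`; all projections reduce by `rfl`;
* `map_mem_adjoin_T` : if every prime of the level is removed (`q ∣ N → q ∈ S`) and the good primes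
  outside `S` avoid `S0`, then `π t ∈ 𝒪[π T_l : l ∉ S0]` for every `t ∈ 𝕋_S(N)` (the Hecke algebra
  is generated by the `T_l`);
* **`carrier_surjective`** : `hgen : Algebra.adjoin 𝒪 (Set.range X'.π) = ⊤` ⟹ the binder `hπn` of
  `DepthPlug.map_annihilator_le_of_stage` / `DepthBase.map_annihilator_le_of_base`.
-/
import Mathlib
import Fermat.Agent.GE9.PNew.DepthPlug

set_option autoImplicit false
set_option linter.unusedSectionVars false

namespace Fermat.Agent.GE9.PNew.DepthCarrier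

open IsLocalRing Polynomial CuspForm Fermat.Agent.GE.Graph Fermat.Agent.GE9.PNew.DepthPlug

/-- `G_ℚ`. -/
local notation "GQ" => (AlgebraicClosure ℚ ≃ₐ[ℚ] AlgebraicClosure ℚ)

variable {𝒪 : Type} [CommRing 𝒪] [IsDomain 𝒪] [IsDiscreteValuationRing 𝒪]
  [IsAdicComplete (maximalIdeal 𝒪) 𝒪]
  {ρbar : ResidualGaloisRep (ResidueField 𝒪)}

/-- **an `R = T` datum at a concrete carrier** from the raw fields of a stage. -/
def rtDataOfRaw {𝒟 : DefCondE 𝒪} (D : GaloisRep.DeformationRingData 𝒪 ρbar 𝒟)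
    {N : ℕ} [NeZero N] {S : Set ℕ} {T : Type} [CommRing T] [IsLocalRing T] [Algebra 𝒪 T]
    (π : heckeAlgebra N 2 S →+* T) (ρT : GaloisRepAdic T)
    (hcp : ∀ (q : ℕ) (hq : q.Prime) (hqN : ¬ q ∣ N) (hqS : q ∉ S),
      ∀ A : ValuationSubring (AlgebraicClosure ℚ), A.LiesOverPrime q →
        ∀ σ : GQ, A.IsFrobeniusAt σ q →
          LinearMap.charpoly (ρT.ρ σ) =
            X ^ 2 - C (π (heckeAlgebra.T hq hqN hqS)) * X + C ((q : T)))
    (φ : D.R →ₐ[𝒪] T) (hφ : Function.Bijective φ) (φ_local : IsLocalHom (φ : D.R →+* T))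
    (φ_ρ : (D.ρ.baseChangeAlong (φ : D.R →+* T) φ_local).IsEquiv ρT) : RTData ρbar 𝒟 where
  N := N
  S := S
  T := T
  π := π
  ρT := ρT
  charpoly_frob := hcp
  D := D
  φ := φ
  φ_bijective := hφ
  φ_local := φ_local
  φ_ρ := φ_ρ

section Gen

variable {N : ℕ} [NeZero N] {S : Set ℕ} {T : Type} [CommRing T] [Algebra 𝒪 T]

/-- the Hecke algebra is generated by the `T_l` when every prime of the level is removed. -/
theorem map_mem_adjoin_T (π : heckeAlgebra N 2 S →+* T) (S0 : Finset ℕ)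
    (hS : ∀ l : ℕ, l.Prime → l ∉ S0 → ¬ l ∣ N ∧ l ∉ S)
    (h1 : ∀ l : ℕ, l.Prime → ¬ l ∣ N → l ∉ S → l ∉ S0)
    (h2 : ∀ q : ℕ, q.Prime → q ∣ N → q ∈ S) (t : heckeAlgebra N 2 S) :
    π t ∈ Algebra.adjoin 𝒪 (Set.range fun l : PIdx S0 =>
      π (heckeAlgebra.T l.2.1 (hS l l.2.1 l.2.2).1 (hS l l.2.1 l.2.2).2)) := by
  set B : Subalgebra 𝒪 T := Algebra.adjoin 𝒪 (Set.range fun l : PIdx S0 =>
      π (heckeAlgebra.T l.2.1 (hS l l.2.1 l.2.2).1 (hS l l.2.1 l.2.2).2)) with hB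
  -- the subring of `𝕋_S(N)` of elements mapped into `B`
  let C : Subalgebra ℤ (heckeAlgebra N 2 S) := subalgebraOfSubring (B.toSubring.comap π)
  have hC : ∀ x : heckeAlgebra N 2 S, x ∈ C ↔ π x ∈ B := fun _ => Iff.rfl
  have htop : (⊤ : Subalgebra ℤ (heckeAlgebra N 2 S)) ≤ C := by
    have hadj : Algebra.adjoin ℤ (((↑) : heckeAlgebra N 2 S →
        Module.End ℂ (CuspForm (CongruenceSubgroup.Gamma0 N) 2)) ⁻¹' heckeGenerators N 2 S) = ⊤ :=
      Algebra.adjoin_adjoin_coe_preimage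
    rw [← hadj]
    refine Algebra.adjoin_le ?_
    intro x hx
    rw [SetLike.mem_coe, hC]
    rcases hx with ⟨ℓ, hℓ, hℓN, hℓS, hxe⟩ | ⟨q, hqN, hq, hqS, -⟩
    · have hx' : x = heckeAlgebra.T hℓ hℓN hℓS := Subtype.ext hxe
      rw [hx']
      exact Algebra.subset_adjoin ⟨⟨ℓ, hℓ, h1 ℓ hℓ hℓN hℓS⟩, rfl⟩
    · exact absurd (h2 q hq hqN) hqS
  exact (hC t).mp (htop (Algebra.mem_top (x := t)))

end Gen

/-- **`hπn`**: the carrier map `𝒪[X_l : l ∉ S0] → X'.T` is onto as soon as `X'.T` is generated by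
the image of the Hecke algebra, every prime of the level is removed, and the good primes outside
`X'.S` avoid `S0`. -/
theorem carrier_surjective {𝒟 : DefCondE 𝒪} (X' : RTData ρbar 𝒟) (S0 : Finset ℕ)
    (hS : ∀ l : ℕ, l.Prime → l ∉ S0 → ¬ l ∣ X'.N ∧ l ∉ X'.S)
    (h1 : ∀ l : ℕ, l.Prime → ¬ l ∣ X'.N → l ∉ X'.S → l ∉ S0)
    (h2 : ∀ q : ℕ, q.Prime → q ∣ X'.N → q ∈ X'.S)
    (hgen : Algebra.adjoin 𝒪 (Set.range X'.π) = ⊤) :
    Function.Surjective (carrier X' S0 hS) := by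
  have hrange : (carrier X' S0 hS).range = Algebra.adjoin 𝒪 (Set.range fun l : PIdx S0 =>
      X'.π (heckeAlgebra.T l.2.1 (hS l l.2.1 l.2.2).1 (hS l l.2.1 l.2.2).2)) := by
    unfold carrier
    exact (Algebra.adjoin_range_eq_range_aeval 𝒪 _).symm
  have htop : Algebra.adjoin 𝒪 (Set.range fun l : PIdx S0 =>
      X'.π (heckeAlgebra.T l.2.1 (hS l l.2.1 l.2.2).1 (hS l l.2.1 l.2.2).2)) = ⊤ := by
    rw [eq_top_iff, ← hgen]
    refine Algebra.adjoin_le ?_
    rintro _ ⟨t, rfl⟩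
    exact map_mem_adjoin_T X'.π S0 hS h1 h2 t
  intro y
  have hy : y ∈ (carrier X' S0 hS).range := by rw [hrange, htop]; exact Algebra.mem_top
  exact hy

end Fermat.Agent.GE9.PNew.DepthCarrier
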