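/-
GATE-E / RISK-4 (PNEW-STAGE), leaf R4-J core (helper80): **the rank binder of the module form of the
numerical criterion** (`hrank : finrank O L ≤ d * finrank O T` of
`GE9/NumCrit/ModForm/Free.free_of_card_Omega_eq`), Mathlib only.

`O` a commutative ring, `T` a commutative `O`-algebra, finite free over `O`, `L` a `T`-module finite
free over `O`, `Ω` an algebraically closed field over `O` such that `Ω ⊗[O] T` is REDUCED (for a
Hecke carrier: `GS/Pet/DatumAlg.isReduced_of_adjoin` with `K := Ω`).  If every joint eigenspace of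
`T` in `Ω ⊗[O] L` (for a character `χ : T →ₐ[O] Ω`) has dimension `≤ d`, then
`finrank O L ≤ d * finrank O T`.

Proof: `Ω ⊗[O] T` reduced ⟹ every `t ⊗ 1` is a semisimple endomorphism of `V := Ω ⊗[O] L`
(squarefree minimal polynomial); commuting semisimple endomorphisms over an algebraically closed
field are simultaneously diagonalisable (`Mathlib/LinearAlgebra/Eigenspace/Pi`); the characters that
occur are `O`-algebra homs, and distinct algebra homs `T → Ω` are `Ω`-linearly independent in
`T →ₗ[O] Ω`, of dimension `finrank O T` (Dedekind).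

* `actΩ`, `actΩ_tmul` : the action of `T` on `Ω ⊗[O] L`;
* `eigΩ χ` : the joint eigenspace;
* `isSemisimple_actΩ`;
* `iSup_eigΩ_eq_top`, `iSupIndep_eigΩ`;
* `card_algHom_le_finrank`;
* **`finrank_le_mul_of_eigen`**.
-/
import Mathlib

set_option autoImplicit false

open Module TensorProduct

namespace Fermat.Agent.GE9.PNew.RankBound

section Act

variable (O : Type*) {T : Type*} (L Ω : Type*) [CommRing O] [CommRing T] [Algebra O T]
  [AddCommGroup L] [Module O L] [Module T L] [IsScalarTower O T L]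
  [Field Ω] [Algebra O Ω]

/-- the action of `T` on `Ω ⊗[O] L`, as an `O`-algebra hom -/
noncomputable def actΩ : T →ₐ[O] Module.End Ω (Ω ⊗[O] L) :=
  (Module.End.baseChangeHom O Ω L).comp (Algebra.lsmul O O L)

variable {L Ω}

theorem actΩ_tmul (t : T) (c : Ω) (x : L) :
    actΩ O L Ω t (c ⊗ₜ[O] x) = c ⊗ₜ[O] (t • x) := by
  show ((Algebra.lsmul O O L t).baseChange Ω) (c ⊗ₜ[O] x) = c ⊗ₜ[O] (t • x)
  rw [LinearMap.baseChange_tmul]
  rfl

theorem actΩ_commute (s t : T) : Commute (actΩ O L Ω s) (actΩ O L Ω t) := by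
  rw [commute_iff_eq, ← map_mul, ← map_mul, mul_comm]

variable (L Ω)

/-- the joint eigenspace of a family of eigenvalues -/
noncomputable def eigΩ (χ : T → Ω) : Submodule Ω (Ω ⊗[O] L) :=
  ⨅ t : T, Module.End.eigenspace (actΩ O L Ω t) (χ t)

variable {L Ω}

theorem mem_eigΩ {χ : T → Ω} {v : Ω ⊗[O] L} :
    v ∈ eigΩ O L Ω χ ↔ ∀ t : T, actΩ O L Ω t v = χ t • v := by
  simp [eigΩ]

/-- the `Ω`-algebra hom `Ω ⊗[O] T → End_Ω (Ω ⊗[O] L)` -/
noncomputable def actTensor : Ω ⊗[O] T →ₐ[Ω] Module.End Ω (Ω ⊗[O] L) :=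
  Algebra.TensorProduct.lift (Algebra.ofId Ω (Module.End Ω (Ω ⊗[O] L))) (actΩ O L Ω)
    (fun c t => by
      rw [Algebra.ofId_apply]
      exact Algebra.commutes c (actΩ O L Ω t))

theorem actTensor_one_tmul (t : T) :
    actTensor O (L := L) (Ω := Ω) ((1 : Ω) ⊗ₜ[O] t) = actΩ O L Ω t := by
  refine (Algebra.TensorProduct.lift_tmul _ _ _ (1 : Ω) t).trans ?_
  rw [map_one, one_mul]

end Act

section Main

variable {O T L Ω : Type*} [CommRing O] [CommRing T] [Algebra O T]
  [AddCommGroup L] [Module O L] [Module T L] [IsScalarTower O T L]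
  [Field Ω] [Algebra O Ω]

/-- **every `t ⊗ 1` is semisimple** when `Ω ⊗[O] T` is reduced and finite over `Ω`. -/
theorem isSemisimple_actΩ [Module.Finite O T] [IsReduced (Ω ⊗[O] T)] (t : T) :
    (actΩ O L Ω t).IsSemisimple := by
  set x : Ω ⊗[O] T := (1 : Ω) ⊗ₜ[O] t with hx
  have hint : IsIntegral Ω x := IsIntegral.of_finite Ω x
  have hsq : Squarefree (minpoly Ω x) :=
    (minpoly.isRadical Ω x).squarefree (minpoly.ne_zero hint)
  refine Module.End.isSemisimple_of_squarefree_aeval_eq_zero hsq ?_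
  rw [← actTensor_one_tmul O (L := L) (Ω := Ω) t, ← hx, Polynomial.aeval_algHom_apply,
    minpoly.aeval, map_zero]

variable [IsAlgClosed Ω] [Module.Finite O L]

/-- **simultaneous diagonalisation.** -/
theorem iSup_eigΩ_eq_top [Module.Finite O T] [IsReduced (Ω ⊗[O] T)] :
    ⨆ χ : T → Ω, eigΩ O L Ω χ = ⊤ := by
  have h1 : ⨆ χ : T → Ω, ⨅ t, (actΩ O L Ω t).maxGenEigenspace (χ t) = ⊤ :=
    Module.End.iSup_iInf_maxGenEigenspace_eq_top_of_iSup_maxGenEigenspace_eq_top_of_commute
      (fun t => actΩ O L Ω t) (fun s t _ => actΩ_commute O s t)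
      (fun t => Module.End.iSup_maxGenEigenspace_eq_top _)
  rw [← h1]
  refine iSup_congr fun χ => iInf_congr fun t => ?_
  exact ((isSemisimple_actΩ t).isFinitelySemisimple.maxGenEigenspace_eq_eigenspace (χ t)).symm

omit [IsAlgClosed Ω] [Module.Finite O L] in
/-- the joint eigenspaces are independent. -/
theorem iSupIndep_eigΩ [Module.Finite O T] [IsReduced (Ω ⊗[O] T)] :
    iSupIndep fun χ : T → Ω => eigΩ O L Ω χ := by
  have h1 : iSupIndep fun χ : T → Ω => ⨅ t, (actΩ O L Ω t).maxGenEigenspace (χ t) :=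
    Module.End.independent_iInf_maxGenEigenspace_of_forall_mapsTo (fun t => actΩ O L Ω t)
      (fun s t φ => Module.End.mapsTo_maxGenEigenspace_of_comm (actΩ_commute O t s) φ)
  have h2 : (fun χ : T → Ω => eigΩ O L Ω χ) =
      fun χ : T → Ω => ⨅ t, (actΩ O L Ω t).maxGenEigenspace (χ t) := by
    funext χ
    refine iInf_congr fun t => ?_
    exact ((isSemisimple_actΩ t).isFinitelySemisimple.maxGenEigenspace_eq_eigenspace (χ t)).symm
  rw [h2]
  exact h1

omit [IsAlgClosed Ω] [Module.Finite O L] in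
/-- a family of eigenvalues with a non-zero joint eigenvector is an `O`-algebra hom. -/
theorem exists_algHom_of_eigΩ_ne_bot {χ : T → Ω} (h : eigΩ O L Ω χ ≠ ⊥) :
    ∃ ψ : T →ₐ[O] Ω, ∀ t, ψ t = χ t := by
  obtain ⟨v, hv, hv0⟩ := (Submodule.ne_bot_iff _).mp h
  have hv' := (mem_eigΩ O).mp hv
  have key : ∀ a b : Ω, a • v = b • v → a = b := by
    intro a b hab
    have : (a - b) • v = 0 := by
      have h1 : (a - b) • v = a • v - b • v := sub_smul a b v
      rw [h1, hab, sub_self]
    rcases smul_eq_zero.mp this with h | h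
    · exact sub_eq_zero.mp h
    · exact absurd h hv0
  refine ⟨{ toFun := χ, map_one' := ?_, map_mul' := ?_, map_zero' := ?_, map_add' := ?_,
            commutes' := ?_ }, fun t => rfl⟩
  · apply key
    rw [← hv', map_one, Module.End.one_apply, one_smul]
  · intro s t
    apply key
    rw [← hv', map_mul, Module.End.mul_apply, hv' t, map_smul, hv' s, smul_smul, mul_comm]
  · apply key
    rw [← hv', map_zero, LinearMap.zero_apply, zero_smul]
  · intro s t
    apply key
    rw [← hv', map_add, LinearMap.add_apply, hv' s, hv' t, add_smul]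
  · intro o
    apply key
    rw [← hv', AlgHom.commutes, Module.algebraMap_end_apply, algebraMap_smul]

omit [IsAlgClosed Ω] [Module.Finite O L] [AddCommGroup L] [Module O L] [Module T L]
  [IsScalarTower O T L] in
/-- **Dedekind**: there are at most `finrank O T` algebra homs `T → Ω`. -/
theorem card_algHom_le_finrank [Module.Finite O T] [Module.Free O T] {ι : Type*} [Fintype ι]
    (ψ : ι → (T →ₐ[O] Ω)) (hψ : Function.Injective ψ) :
    Fintype.card ι ≤ finrank O T := by
  classical
  have : Nontrivial O := RingHom.domain_nontrivial (algebraMap O Ω)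
  have hli : LinearIndependent Ω (fun i => (ψ i).toLinearMap) :=
    (linearIndependent_algHom_toLinearMap O T Ω).comp ψ hψ
  let b := Module.Free.chooseBasis O T
  let e : (Module.Free.ChooseBasisIndex O T → Ω) ≃ₗ[Ω] (T →ₗ[O] Ω) := b.constr Ω
  have hfin : Module.Finite Ω (T →ₗ[O] Ω) := Module.Finite.equiv e
  have hrk : finrank Ω (T →ₗ[O] Ω) = finrank O T := by
    rw [← e.finrank_eq, Module.finrank_pi, Module.finrank_eq_card_chooseBasisIndex]
  rw [← hrk]
  exact hli.fintype_card_le_finrank

omit [IsAlgClosed Ω] [Module.Finite O L] [AddCommGroup L] [Module O L] [Module T L]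
  [IsScalarTower O T L] [CommRing T] [Algebra O T] [CommRing O] [Algebra O Ω] in
/-- the dimension of a finite supremum is at most the sum of the dimensions. -/
theorem finrank_finset_sup_le {V : Type*} [AddCommGroup V] [Module Ω V] [FiniteDimensional Ω V]
    {ι : Type*} (s : Finset ι) (p : ι → Submodule Ω V) :
    finrank Ω (s.sup p : Submodule Ω V) ≤ ∑ i ∈ s, finrank Ω (p i) := by
  classical
  induction s using Finset.induction_on with
  | empty => simp
  | insert a s ha ih =>
    rw [Finset.sup_insert, Finset.sum_insert ha]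
    exact (Submodule.finrank_add_le_finrank_add_finrank _ _).trans (Nat.add_le_add_left ih _)

/-- **The rank binder of (M2).** -/
theorem finrank_le_mul_of_eigen [Module.Finite O T] [Module.Free O T] [Module.Free O L]
    [IsReduced (Ω ⊗[O] T)] (d : ℕ)
    (hmult : ∀ χ : T →ₐ[O] Ω, finrank Ω (eigΩ O L Ω (fun t => χ t)) ≤ d) :
    finrank O L ≤ d * finrank O T := by
  classical
  have : Nontrivial O := RingHom.domain_nontrivial (algebraMap O Ω)
  have hV : finrank Ω (Ω ⊗[O] L) = finrank O L := Module.finrank_baseChange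
  have hind := iSupIndep_eigΩ (O := O) (T := T) (L := L) (Ω := Ω)
  let S : Type _ := {χ : T → Ω // eigΩ O L Ω χ ≠ ⊥}
  let E : S → Submodule Ω (Ω ⊗[O] L) := fun χ => eigΩ O L Ω χ.1
  let instS : Fintype S := hind.fintypeNeBotOfFiniteDimensional
  -- the characters that occur are algebra homs
  have hex : ∀ χ : S, ∃ ψ : T →ₐ[O] Ω, ∀ t, ψ t = χ.1 t := fun χ =>
    exists_algHom_of_eigΩ_ne_bot χ.2
  choose ψ hψ using hex
  have hψinj : Function.Injective ψ := by
    intro χ₁ χ₂ h
    apply Subtype.ext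
    funext t
    rw [← hψ χ₁ t, ← hψ χ₂ t, h]
  have hcard : Fintype.card S ≤ finrank O T := card_algHom_le_finrank ψ hψinj
  -- the whole space is the finite supremum
  have htop : (Finset.univ.sup E) = ⊤ := by
    rw [eq_top_iff, ← iSup_eigΩ_eq_top (O := O) (T := T) (L := L) (Ω := Ω)]
    refine iSup_le fun χ => ?_
    by_cases h : eigΩ O L Ω χ = ⊥
    · rw [h]; exact bot_le
    · have : E ⟨χ, h⟩ ≤ Finset.univ.sup E := Finset.le_sup (Finset.mem_univ _)
      exact this
  have h1 : finrank Ω (Ω ⊗[O] L) ≤ ∑ χ : S, finrank Ω (E χ) := by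
    have := finrank_finset_sup_le (Ω := Ω) Finset.univ E
    rwa [htop, finrank_top] at this
  have h2 : ∑ χ : S, finrank Ω (E χ) ≤ ∑ _χ : S, d := by
    refine Finset.sum_le_sum fun χ _ => ?_
    have h3 : (fun t => ψ χ t) = χ.1 := funext fun t => hψ χ t
    have := hmult (ψ χ)
    rwa [h3] at this
  rw [← hV]
  calc finrank Ω (Ω ⊗[O] L) ≤ ∑ _χ : S, d := h1.trans h2
    _ = Fintype.card S * d := by
      rw [Finset.sum_const, Finset.card_univ, smul_eq_mul]
    _ ≤ finrank O T * d := Nat.mul_le_mul_right d hcard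
    _ = d * finrank O T := mul_comm _ _

end Main

end Fermat.Agent.GE9.PNew.RankBound
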