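/-
GATE-E / RISK-4 (PNEW-STAGE), leaf R4-J (helper80): **the rank binder of (M2) for a Hecke carrier**.

`RankBound.finrank_le_mul_of_eigen` with its reducedness hypothesis discharged by helper57's
`GS/Pet/DatumAlg.isReduced_of_adjoin` (`K := Ω`): `T` an `O`-algebra generated by the image of a
reduced ring `A` finite over `ℤ` (`A := heckeAlgebra N 2 S`, `GS/Pet.isReduced_heckeAlgebra`), `Ω` an
algebraically closed field of characteristic `0` over `O`.

* `isReduced_tensor_of_adjoin_range`, `finite_tensor_of_adjoin_range`;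
* **`finrank_le_mul_of_adjoin_range`** : `hrank` in the spelling of
  `GE9/NumCrit/ModForm/Free.free_of_card_Omega_eq`.
-/
import Mathlib
import Fermat.Agent.GS.Pet.DatumAlg
import Fermat.Agent.GE9.PNew.RankBound

set_option autoImplicit false

open Module TensorProduct

namespace Fermat.Agent.GE9.PNew.RankBound

variable {A : Type*} [CommRing A] [IsReduced A] [Module.Finite ℤ A]
  {O T L Ω : Type*} [CommRing O] [CommRing T] [Algebra O T]
  [AddCommGroup L] [Module O L] [Module T L] [IsScalarTower O T L]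
  [Field Ω] [CharZero Ω] [Algebra O Ω]

/-- `Ω ⊗[O] T` is reduced for a carrier generated by a reduced ring finite over `ℤ`. -/
theorem isReduced_tensor_of_adjoin_range (π : A →+* T)
    (hπ : Algebra.adjoin O (Set.range π) = ⊤) : IsReduced (Ω ⊗[O] T) :=
  Fermat.Agent.GS.Pet.DatumAlg.isReduced_of_adjoin (K := Ω)
    (Fermat.Agent.GS.Pet.DatumAlg.toTensor Ω (O := O) π)
    (Fermat.Agent.GS.Pet.DatumAlg.adjoin_toTensor_eq_top Ω π hπ)

/-- **The rank binder `hrank` of (M2) for a Hecke carrier.** -/
theorem finrank_le_mul_of_adjoin_range [IsAlgClosed Ω] [Module.Finite O T] [Module.Free O T]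
    [Module.Finite O L] [Module.Free O L] (π : A →+* T)
    (hπ : Algebra.adjoin O (Set.range π) = ⊤) (d : ℕ)
    (hmult : ∀ χ : T →ₐ[O] Ω, finrank Ω (eigΩ O L Ω (fun t => χ t)) ≤ d) :
    finrank O L ≤ d * finrank O T := by
  have : IsReduced (Ω ⊗[O] T) := isReduced_tensor_of_adjoin_range (Ω := Ω) π hπ
  exact finrank_le_mul_of_eigen d hmult

end Fermat.Agent.GE9.PNew.RankBound
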