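/-
GATE-E / RISK-4 (PNEW-STAGE), leaf R4-J INSTANCE, part (J-a) (helper81): **the glue between the
joint eigenspaces of `GE9/PNew/RankBound` and anemic eigenvectors of `Ω ⊗[ℤ] Lam N`.**

`O` a commutative ring, `Ω` a field, flat over `O` (e.g. `O` a DVR, `O → Ω` injective),
`L ≤ O ⊗[ℤ] Lam N` an `O`-submodule (a local part), `T` a commutative `O`-algebra acting on `L`.

* `glue L : Ω ⊗[O] L →ₗ[Ω] Ω ⊗[ℤ] Lam N` : base change of the inclusion followed by
  `Ω ⊗[O] (O ⊗[ℤ] Lam N) ≃ Ω ⊗[ℤ] Lam N`; `glue_tmul`, **`glue_injective`** (flatness);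
* `glue_baseChange` : for an endomorphism `f` of `Lam N` whose base change to `O` preserves `L`
  and is given on `L` by the action of `t : T`:
  `glue (actΩ t v) = f.baseChange Ω (glue v)`;
* **`glue_mem_of_mem_eigΩ`** : `v ∈ eigΩ O L Ω χ` ⟹ `f.baseChange Ω (glue v) = χ t • glue v`
  (so `glue v` is an ANEMIC eigenvector of `Ω ⊗[ℤ] Lam N` for the `f = latT N l` realised in `T`);
* **`finrank_eigΩ_le`** : `finrank Ω (eigΩ O L Ω χ) ≤ finrank Ω E'` for every subspace
  `E' ≤ Ω ⊗[ℤ] Lam N` containing `glue (eigΩ χ)`.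
-/
import Mathlib
import Fermat.Agent.GE9.PNew.RankBound

set_option autoImplicit false

open scoped TensorProduct
open Module

namespace Fermat.Agent.GE9.PNew.RankGlue

open Fermat.Agent.GE9.PNew.RankBound

section Abstract

variable {O : Type*} [CommRing O] {Ω : Type*} [Field Ω] [Algebra O Ω]
  {Λ : Type*} [AddCommGroup Λ]

/-- the canonical identification `Ω ⊗[O] (O ⊗[ℤ] Λ) ≃ Ω ⊗[ℤ] Λ`. -/
noncomputable def cancel (O Ω Λ : Type*) [CommRing O] [Field Ω] [Algebra O Ω] [AddCommGroup Λ] :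
    Ω ⊗[O] (O ⊗[ℤ] Λ) ≃ₗ[Ω] Ω ⊗[ℤ] Λ :=
  TensorProduct.AlgebraTensorModule.cancelBaseChange ℤ O Ω Ω Λ

theorem cancel_tmul (c : Ω) (a : O) (m : Λ) :
    cancel O Ω Λ (c ⊗ₜ[O] (a ⊗ₜ[ℤ] m)) = (a • c) ⊗ₜ[ℤ] m :=
  TensorProduct.AlgebraTensorModule.cancelBaseChange_tmul ℤ O Ω c m a

/-- `cancel` intertwines the two base changes of an endomorphism of `Λ`. -/
theorem cancel_baseChange (f : Λ →ₗ[ℤ] Λ) (c : Ω) (z : O ⊗[ℤ] Λ) :
    cancel O Ω Λ (c ⊗ₜ[O] (f.baseChange O z)) = f.baseChange Ω (cancel O Ω Λ (c ⊗ₜ[O] z)) := by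
  induction z using TensorProduct.induction_on with
  | zero => simp
  | tmul a m =>
    rw [LinearMap.baseChange_tmul, cancel_tmul, cancel_tmul, LinearMap.baseChange_tmul]
  | add x y hx hy =>
    rw [map_add, TensorProduct.tmul_add, map_add, hx, hy, TensorProduct.tmul_add, map_add, map_add]

variable (L : Submodule O (O ⊗[ℤ] Λ))

/-- **the glue map** `Ω ⊗[O] L → Ω ⊗[ℤ] Λ`. -/
noncomputable def glue : Ω ⊗[O] L →ₗ[Ω] Ω ⊗[ℤ] Λ :=
  (cancel O Ω Λ).toLinearMap ∘ₗ (L.subtype.baseChange Ω)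

theorem glue_tmul (c : Ω) (x : L) :
    glue (Ω := Ω) L (c ⊗ₜ[O] x) = cancel O Ω Λ (c ⊗ₜ[O] (x : O ⊗[ℤ] Λ)) := by
  rw [glue, LinearMap.comp_apply, LinearMap.baseChange_tmul]
  rfl

/-- **the glue map is injective** (flatness of `Ω` over `O`). -/
theorem glue_injective [Module.Flat O Ω] : Function.Injective (glue (Ω := Ω) L) := by
  rw [glue, LinearMap.coe_comp]
  refine (cancel O Ω Λ).injective.comp ?_
  rw [LinearMap.baseChange_eq_ltensor]
  exact Module.Flat.lTensor_preserves_injective_linearMap L.subtype L.subtype_injective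

variable {T : Type*} [CommRing T] [Algebra O T] [Module T L] [IsScalarTower O T L]

/-- **equivariance of the glue map**: if `t : T` acts on `L` as the base change of `f`, then
`actΩ t` corresponds to `f.baseChange Ω`. -/
theorem glue_baseChange (f : Λ →ₗ[ℤ] Λ) (t : T)
    (ht : ∀ x : L, ((t • x : L) : O ⊗[ℤ] Λ) = f.baseChange O (x : O ⊗[ℤ] Λ))
    (v : Ω ⊗[O] L) :
    glue (Ω := Ω) L (actΩ O L Ω t v) = f.baseChange Ω (glue (Ω := Ω) L v) := by
  induction v using TensorProduct.induction_on with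
  | zero => simp
  | tmul c x =>
    rw [actΩ_tmul, glue_tmul, glue_tmul, ht, cancel_baseChange]
  | add x y hx hy => rw [map_add, map_add, hx, hy, map_add, map_add]

/-- **joint eigenvectors glue to eigenvectors of the base-changed operators.** -/
theorem glue_mem_of_mem_eigΩ (f : Λ →ₗ[ℤ] Λ) (t : T)
    (ht : ∀ x : L, ((t • x : L) : O ⊗[ℤ] Λ) = f.baseChange O (x : O ⊗[ℤ] Λ))
    (χ : T → Ω) {v : Ω ⊗[O] L} (hv : v ∈ eigΩ O L Ω χ) :
    f.baseChange Ω (glue (Ω := Ω) L v) = χ t • glue (Ω := Ω) L v := by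
  rw [← glue_baseChange L f t ht v, (mem_eigΩ O).mp hv t, map_smul]

/-- equivariance for an endomorphism preserving `L` (no element of `T` needed): the restriction
of `f.baseChange O` to `L`, base changed to `Ω`, corresponds to `f.baseChange Ω`. -/
theorem glue_restrict (f : Λ →ₗ[ℤ] Λ)
    (hf : ∀ x ∈ L, f.baseChange O x ∈ L) (v : Ω ⊗[O] L) :
    glue (Ω := Ω) L (((f.baseChange O).restrict hf).baseChange Ω v)
      = f.baseChange Ω (glue (Ω := Ω) L v) := by
  induction v using TensorProduct.induction_on with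
  | zero => simp
  | tmul c x =>
    rw [LinearMap.baseChange_tmul, glue_tmul, glue_tmul, LinearMap.coe_restrict_apply,
      cancel_baseChange]
  | add x y hx hy => rw [map_add, map_add, hx, hy, map_add, map_add]

/-- **the dimension bound**: the joint eigenspace is no bigger than any subspace of `Ω ⊗[ℤ] Λ`
containing its image (`Λ` finite over `ℤ`). -/
theorem finrank_eigΩ_le [Module.Flat O Ω] [Module.Finite ℤ Λ] (χ : T → Ω)
    (E' : Submodule Ω (Ω ⊗[ℤ] Λ))
    (hE' : ∀ v ∈ eigΩ O L Ω χ, glue (Ω := Ω) L v ∈ E') :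
    finrank Ω (eigΩ O L Ω χ) ≤ finrank Ω E' := by
  let g : eigΩ O L Ω χ →ₗ[Ω] E' :=
    ((glue (Ω := Ω) L).comp (eigΩ O L Ω χ).subtype).codRestrict E' (fun v => hE' v.1 v.2)
  refine LinearMap.finrank_le_finrank_of_injective (f := g) ?_
  intro v w hvw
  apply Subtype.ext
  apply glue_injective L
  exact congrArg Subtype.val hvw

end Abstract

end Fermat.Agent.GE9.PNew.RankGlue
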