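/-
GATE-E / RISK-4 (PNEW-STAGE), leaf R4-J INSTANCE, part (J-b) (helper81): **the binder `hmult`
(`d = 2`) of `GE9/PNew/RankBoundHecke.finrank_le_mul_of_adjoin_range` for an anemic Hecke carrier
acting on a local part `L ≤ O ⊗[ℤ] Lam N`**, in hypothesis form over

* `hU` : `U_q = 0` on `L` for the stage primes `q ∈ Sg` (helper63's (UQ-POLY) consumer), and
* the types of the bad primes `b ∈ S0 ∖ Sg` : (G) `b ∤ N`, or (R) `b ∥ N` and `ρ̄` ramified at `b`.

Route (helper63, board 7686/7769): over the field `Ω` every `y ∈ glue (eigΩ χ)` is an anemic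
eigenvector of `Ω ⊗[ℤ] Lam N` off `B := S0 ∖ Sg` for the system `lam₀ := χ(T_l)` off `S0`, `0` on `Sg`;
ONE call of `OldQ.Consumer.exists_full_system` (`O := Ω`) makes all of them FULL eigenvectors for ONE
system, and `Mult1.finrank_eigenTensorO_le_two` bounds the dimension by `2`.

* `nonOccAt_mono`, `nonOccAt_congr`, `nonOccAt_map` : formal properties of `Consumer.NonOccAt`;
* `nonOccAt_of_ramified_of_local` : the type (R) supplier OVER `Ω`, through a LOCAL carrier `T`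
  (`O' := T ⧸ ker χ` is a local ring with `p ∈ 𝔪`; `BaseR.nonOccAt_of_ramified` there, then `map`);
* **`finrank_le_two_of_anemic_types`** : (a) the field form;
* **`finrank_eigΩ_le_two_of_types`** : (b) the reduction of `hmult` to `hU` + `htype`;
* **`hmult_of_ramified`** : `hmult` VERBATIM (`∀ χ : T →ₐ[O] Ω, finrank Ω (eigΩ O L Ω (fun t => χ t)) ≤ 2`)
  from `hU` + the classification of `S0 ∖ Sg` into good / ramified primes;
* **`finrank_le_two_mul_of_ramified`** : the rank binder `hrank : finrank O L ≤ 2 * finrank O T` itself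
  (`Ω := AlgebraicClosure (FractionRing O)`, `O` a domain of characteristic `0`).
-/
import Mathlib
import Fermat.Agent.GE9.PNew.RankGlue
import Fermat.Agent.GE9.PNew.RankBoundHecke
import Fermat.Agent.GE9.OldQ.BaseR
import Fermat.Agent.GE9.Mult1.MainO

set_option autoImplicit false
set_option linter.unusedSectionVars false
set_option linter.style.haveILetI false

open scoped MatrixGroups TensorProduct
open CongruenceSubgroup CuspForm ModularFormClass Module WeierstrassCurve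
  WeierstrassCurve.Affine.Point
open scoped WeierstrassCurve.Affine

namespace Fermat.Agent.GE9.PNew.RankInst

open Fermat.Agent.GJ.J2.Lat Fermat.Agent.GM.End Fermat.Agent.GE9.Mult1
  Fermat.Agent.GE9.OldQ.Consumer Fermat.Agent.GE9.PNew.RankBound Fermat.Agent.GE9.PNew.RankGlue
  Fermat.Agent.GB.Setup.RhoBar

/-! ### formal properties of `NonOccAt` -/

section Formal

/-- `NonOccAt` is antitone in the bad set (a smaller `B` puts MORE conditions on the form). -/
theorem nonOccAt_mono {O : Type*} [CommRing O] {B B' : Finset ℕ} (hBB' : B ⊆ B')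
    (b : Nat.Primes) (lam₀ : Nat.Primes → O) (h : NonOccAt O B' b lam₀) : NonOccAt O B b lam₀ := by
  intro hint₀ τ hτ M' _ hbM' g hg
  exact h (fun l hl => hint₀ l (fun hlB => hl (hBB' hlB))) τ hτ M' hbM' g
    (fun l hl => hg l (fun hlB => hl (hBB' hlB)))

/-- `NonOccAt` only depends on the values of the system off `B`. -/
theorem nonOccAt_congr {O : Type*} [CommRing O] {B : Finset ℕ} (b : Nat.Primes)
    {lam₀ lam₁ : Nat.Primes → O} (hagree : ∀ l : Nat.Primes, (l : ℕ) ∉ B → lam₀ l = lam₁ l)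
    (h : NonOccAt O B b lam₀) : NonOccAt O B b lam₁ := by
  intro hint₁ τ hτ M' _ hbM' g hg
  refine h (fun l hl => by rw [hagree l hl]; exact hint₁ l hl) τ hτ M' hbM' g (fun l hl => ?_)
  rw [hg l hl]
  congr 2
  exact Subtype.ext (hagree l hl).symm

/-- `NonOccAt` transfers along an injective ring hom. -/
theorem nonOccAt_map {O' O : Type*} [CommRing O'] [CommRing O] (ι : O' →+* O)
    (hι : Function.Injective ι) {B : Finset ℕ} (b : Nat.Primes) (lam₀' : Nat.Primes → O')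
    (h : NonOccAt O' B b lam₀') : NonOccAt O B b (fun l => ι (lam₀' l)) := by
  intro hint₀ τ hτ M' _ hbM' g hg
  have hint' : ∀ l : Nat.Primes, (l : ℕ) ∉ B → IsIntegral ℤ (lam₀' l) := fun l hl =>
    (isIntegral_algHom_iff (ι.toIntAlgHom) hι).mp (hint₀ l hl)
  let κ : integralClosure ℤ O' →+* integralClosure ℤ O :=
    (ι.comp (integralClosure ℤ O').val.toRingHom).codRestrict (integralClosure ℤ O)
      (fun x => map_isIntegral_int ι x.2)
  have hκ : Function.Injective κ := by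
    intro x y hxy
    apply Subtype.ext
    apply hι
    exact congrArg Subtype.val hxy
  refine h hint' (τ.comp κ) (hτ.comp hκ) M' hbM' g (fun l hl => ?_)
  rw [hg l hl]
  rfl

end Formal

/-! ### the type (R) supplier over `Ω`, through a local carrier -/

section Ramified

variable {p : ℕ} [Fact p.Prime] {W : WeierstrassCurve ℤ}
  (hcard₁ : Nat.card (Submodule.torsionBy ℤ
    ((W.map (Int.castRingHom ℚ))⁄(AlgebraicClosure ℚ)).Point p) = p ^ 2)
  (hker : GaloisFactorsThroughFiniteLevel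
    (galoisRepModuleEnd (K := AlgebraicClosure ℚ) ℚ (W.map (Int.castRingHom ℚ)) p))

/-- **`NonOccAt` over a field `Ω` at a prime where `ρ̄` is ramified**, for a system which is the image
of a family `t` of a LOCAL ring `T` (`p ∈ 𝔪_T`, `t l ≡ a_l(W)` mod `𝔪_T` at the good primes off `B`)
under a ring hom `χ : T → Ω`. -/
theorem nonOccAt_of_ramified_of_local (hΔ : W.Δ ≠ 0) (hirr : W.ModRepIsIrreducible p)
    (htrans : ∃ σ : (AlgebraicClosure ℚ ≃ₐ[ℚ] AlgebraicClosure ℚ),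
      galoisRepModuleEnd (K := AlgebraicClosure ℚ) ℚ (W.map (Int.castRingHom ℚ)) p σ ≠ 1 ∧
        (galoisRepModuleEnd (K := AlgebraicClosure ℚ) ℚ (W.map (Int.castRingHom ℚ)) p σ - 1) ^ 2
          = 0)
    (k : Type) [Field k] [Algebra (ZMod p) k] (b : Nat.Primes) (hbp : (b : ℕ) ≠ p)
    (hram : ¬ ((rb p W hcard₁ hker).baseChange k).IsUnramifiedAt b)
    {T : Type} [CommRing T] [IsLocalRing T] (hpT : (p : T) ∈ IsLocalRing.maximalIdeal T)
    {Ω : Type*} [Field Ω] (χ : T →+* Ω) (B : Finset ℕ) (t : Nat.Primes → T)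
    (hcong : ∀ l : Nat.Primes, (l : ℕ) ∉ B → W.IsGoodPrimeFor l → (l : ℕ) ≠ p →
      t l - ((W.apOfModel l : ℤ) : T) ∈ IsLocalRing.maximalIdeal T) :
    NonOccAt Ω B b (fun l => χ (t l)) := by
  classical
  have hne : Nontrivial (T ⧸ RingHom.ker χ) :=
    Ideal.Quotient.nontrivial_iff.mpr (RingHom.ker_ne_top χ)
  have hsurj : Function.Surjective (Ideal.Quotient.mk (RingHom.ker χ)) :=
    Ideal.Quotient.mk_surjective
  haveI : IsLocalRing (T ⧸ RingHom.ker χ) :=
    IsLocalRing.of_surjective' (Ideal.Quotient.mk (RingHom.ker χ)) hsurj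
  haveI : IsLocalHom (Ideal.Quotient.mk (RingHom.ker χ)) :=
    IsLocalHom.of_surjective _ hsurj
  have hmem : ∀ x : T, x ∈ IsLocalRing.maximalIdeal T →
      Ideal.Quotient.mk (RingHom.ker χ) x ∈ IsLocalRing.maximalIdeal (T ⧸ RingHom.ker χ) :=
    fun x hx => _root_.map_nonunit (Ideal.Quotient.mk (RingHom.ker χ)) x hx
  have h1 : NonOccAt (T ⧸ RingHom.ker χ) B b
      (fun l => Ideal.Quotient.mk (RingHom.ker χ) (t l)) := by
    refine nonOccAt_of_ramified hcard₁ hker hΔ hirr htrans k b hbp hram ?_ B _ ?_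
    · have := hmem _ hpT
      rwa [_root_.map_natCast] at this
    · intro l hlB hgood hlp
      have := hmem _ (hcong l hlB hgood hlp)
      rwa [_root_.map_sub, _root_.map_intCast] at this
  have h2 := nonOccAt_map (RingHom.kerLift χ) (RingHom.kerLift_injective χ) b _ h1
  refine nonOccAt_congr b (fun l _ => ?_) h2
  exact RingHom.kerLift_mk χ (t l)

end Ramified

/-! ### (a) the field form -/

section Field

variable {N : ℕ} [NeZero N] {Ω : Type*} [Field Ω] [CharZero Ω]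

/-- **(a)** a space of anemic eigenvectors (off `B`) of `Ω ⊗[ℤ] Lam N`, all bad primes of types (G) /
(R), has dimension `≤ 2`. -/
theorem finrank_le_two_of_anemic_types (B : Finset ℕ) (lam₀ : Nat.Primes → Ω)
    (htype : ∀ b : Nat.Primes, (b : ℕ) ∈ B →
      ¬ (b : ℕ) ∣ N ∨ ((b : ℕ) ∣ N ∧ ¬ (b : ℕ) ^ 2 ∣ N ∧ NonOccAt Ω B b lam₀))
    (E : Submodule Ω (Ω ⊗[ℤ] Lam N))
    (hE : ∀ y ∈ E, ∀ l : Nat.Primes, (l : ℕ) ∉ B → (latT N l).baseChange Ω y = lam₀ l • y) :
    finrank Ω E ≤ 2 := by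
  haveI : Module.Finite ℤ (Lam N) := Fermat.Agent.GJ.J2.ZStruct.finite_parabolicHoms_int N
  obtain ⟨lam, -, hall⟩ := exists_full_system (N := N) (O := Ω) B lam₀ htype
  have hle : E ≤ eigenTensorO N Ω lam := fun y hy => mem_eigenTensorO.mpr (hall y (hE y hy))
  exact (Submodule.finrank_mono hle).trans (finrank_eigenTensorO_le_two lam)

end Field

/-! ### (b) the reduction of `hmult` -/

section Reduction

variable {N : ℕ} [NeZero N] {O : Type*} [CommRing O] {Ω : Type*} [Field Ω] [CharZero Ω]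
  [Algebra O Ω] [Module.Flat O Ω]
  (L : Submodule O (O ⊗[ℤ] Lam N)) {T : Type*} [CommRing T] [Algebra O T] [Module T L]
  [IsScalarTower O T L]

/-- the stage system: `χ (T_l)` off `Sg`, `0` on `Sg`. -/
noncomputable def stageSys (Sg : Finset ℕ) (tl : Nat.Primes → T) (χ : T → Ω) (l : Nat.Primes) : Ω :=
  if (l : ℕ) ∈ Sg then 0 else χ (tl l)

/-- **(b)** `hmult` from `hU` (the `U_q`, `q ∈ Sg`, vanish on `L`) and the types of the primes of
`S0 ∖ Sg`. -/
theorem finrank_eigΩ_le_two_of_types (S0 Sg : Finset ℕ) (tl : Nat.Primes → T)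
    (ht : ∀ l : Nat.Primes, (l : ℕ) ∉ S0 → ∀ x : L,
      ((tl l • x : L) : O ⊗[ℤ] Lam N) = (latT N l).baseChange O (x : O ⊗[ℤ] Lam N))
    (hU : ∀ q : Nat.Primes, (q : ℕ) ∈ Sg → ∀ x ∈ L, (latT N q).baseChange O x = 0)
    (χ : T → Ω)
    (htype : ∀ b : Nat.Primes, (b : ℕ) ∈ S0 \ Sg →
      ¬ (b : ℕ) ∣ N ∨ ((b : ℕ) ∣ N ∧ ¬ (b : ℕ) ^ 2 ∣ N ∧
        NonOccAt Ω (S0 \ Sg) b (stageSys Sg tl χ))) :
    finrank Ω (eigΩ O L Ω χ) ≤ 2 := by
  classical
  haveI : Module.Finite ℤ (Lam N) := Fermat.Agent.GJ.J2.ZStruct.finite_parabolicHoms_int N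
  -- the anemic eigenspace of `Ω ⊗[ℤ] Lam N`
  let E' : Submodule Ω (Ω ⊗[ℤ] Lam N) :=
    ⨅ l : {l : Nat.Primes // (l : ℕ) ∉ S0 \ Sg}, LinearMap.ker
      ((latT N l.1).baseChange Ω - stageSys Sg tl χ l.1 • (1 : Module.End Ω (Ω ⊗[ℤ] Lam N)))
  have hmemE' : ∀ y : Ω ⊗[ℤ] Lam N, y ∈ E' ↔ ∀ l : Nat.Primes, (l : ℕ) ∉ S0 \ Sg →
      (latT N l).baseChange Ω y = stageSys Sg tl χ l • y := by
    intro y
    simp only [E', Submodule.mem_iInf, LinearMap.mem_ker, LinearMap.sub_apply,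
      LinearMap.smul_apply, Module.End.one_apply, sub_eq_zero, Subtype.forall]
  refine (finrank_eigΩ_le L χ E' (fun v hv => ?_)).trans
    (finrank_le_two_of_anemic_types (S0 \ Sg) (stageSys Sg tl χ) htype E'
      (fun y hy => (hmemE' y).mp hy))
  rw [hmemE']
  intro l hl
  by_cases hlSg : (l : ℕ) ∈ Sg
  · -- `U_q = 0`
    have hf : ∀ x ∈ L, (latT N l).baseChange O x ∈ L := fun x hx => by
      rw [hU l hlSg x hx]
      exact L.zero_mem
    have h0 : ((latT N l).baseChange O).restrict hf = 0 := by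
      ext x
      rw [LinearMap.restrict_apply]
      exact hU l hlSg x.1 x.2
    have := glue_restrict (Ω := Ω) L (latT N l) hf v
    rw [h0, LinearMap.baseChange_zero, LinearMap.zero_apply, _root_.map_zero] at this
    rw [← this, stageSys, if_pos hlSg, zero_smul]
  · have hlS0 : (l : ℕ) ∉ S0 := fun h => hl (Finset.mem_sdiff.mpr ⟨h, hlSg⟩)
    rw [stageSys, if_neg hlSg]
    exact glue_mem_of_mem_eigΩ L (latT N l) (tl l) (ht l hlS0) χ hv

end Reduction

/-! ### `hmult` verbatim -/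

section Final

variable {p : ℕ} [Fact p.Prime] {W : WeierstrassCurve ℤ}
  (hcard₁ : Nat.card (Submodule.torsionBy ℤ
    ((W.map (Int.castRingHom ℚ))⁄(AlgebraicClosure ℚ)).Point p) = p ^ 2)
  (hker : GaloisFactorsThroughFiniteLevel
    (galoisRepModuleEnd (K := AlgebraicClosure ℚ) ℚ (W.map (Int.castRingHom ℚ)) p))

/-- **`hmult` (`d = 2`) of `finrank_le_mul_of_adjoin_range`** for a LOCAL anemic carrier `T` acting on
`L ≤ O ⊗[ℤ] Lam N`: the `T_l` (`l ∉ S0`) are realised by `tl l ∈ T`, congruent to `a_l(W)` mod `𝔪_T`;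
`U_q = 0` on `L` for `q ∈ Sg`; every `b ∈ S0 ∖ Sg` is prime to `N`, or `b ∥ N`, `b ≠ p` and `ρ̄` is
ramified at `b`. -/
theorem hmult_of_ramified (hΔ : W.Δ ≠ 0) (hirr : W.ModRepIsIrreducible p)
    (htrans : ∃ σ : (AlgebraicClosure ℚ ≃ₐ[ℚ] AlgebraicClosure ℚ),
      galoisRepModuleEnd (K := AlgebraicClosure ℚ) ℚ (W.map (Int.castRingHom ℚ)) p σ ≠ 1 ∧
        (galoisRepModuleEnd (K := AlgebraicClosure ℚ) ℚ (W.map (Int.castRingHom ℚ)) p σ - 1) ^ 2
          = 0)
    (k : Type) [Field k] [Algebra (ZMod p) k]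
    {N : ℕ} [NeZero N] {O : Type*} [CommRing O] {Ω : Type*} [Field Ω] [CharZero Ω]
    [Algebra O Ω] [Module.Flat O Ω]
    (L : Submodule O (O ⊗[ℤ] Lam N)) {T : Type} [CommRing T] [IsLocalRing T] [Algebra O T]
    [Module T L] [IsScalarTower O T L]
    (hpT : (p : T) ∈ IsLocalRing.maximalIdeal T)
    (S0 Sg : Finset ℕ) (hSg : Sg ⊆ S0) (tl : Nat.Primes → T)
    (ht : ∀ l : Nat.Primes, (l : ℕ) ∉ S0 → ∀ x : L,
      ((tl l • x : L) : O ⊗[ℤ] Lam N) = (latT N l).baseChange O (x : O ⊗[ℤ] Lam N))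
    (hcong : ∀ l : Nat.Primes, (l : ℕ) ∉ S0 → W.IsGoodPrimeFor l → (l : ℕ) ≠ p →
      tl l - ((W.apOfModel l : ℤ) : T) ∈ IsLocalRing.maximalIdeal T)
    (hU : ∀ q : Nat.Primes, (q : ℕ) ∈ Sg → ∀ x ∈ L, (latT N q).baseChange O x = 0)
    (hbad : ∀ b : Nat.Primes, (b : ℕ) ∈ S0 \ Sg →
      ¬ (b : ℕ) ∣ N ∨ ((b : ℕ) ∣ N ∧ ¬ (b : ℕ) ^ 2 ∣ N ∧ (b : ℕ) ≠ p ∧
        ¬ ((rb p W hcard₁ hker).baseChange k).IsUnramifiedAt b)) :
    ∀ χ : T →ₐ[O] Ω, finrank Ω (eigΩ O L Ω (fun t => χ t)) ≤ 2 := by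
  intro χ
  refine finrank_eigΩ_le_two_of_types L S0 Sg tl ht hU (fun t => χ t) (fun b hb => ?_)
  rcases hbad b hb with h | ⟨h1, h2, hbp, hram⟩
  · exact Or.inl h
  · refine Or.inr ⟨h1, h2, ?_⟩
    have h3 : NonOccAt Ω S0 b (fun l => (χ : T →+* Ω) (tl l)) :=
      nonOccAt_of_ramified_of_local hcard₁ hker hΔ hirr htrans k b hbp hram hpT
        (χ : T →+* Ω) S0 tl hcong
    refine nonOccAt_mono Finset.sdiff_subset b _ (nonOccAt_congr b (fun l hl => ?_) h3)
    have hlSg : (l : ℕ) ∉ Sg := fun h => hl (hSg h)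
    rw [stageSys, if_neg hlSg]
    rfl

/-- **the rank binder `hrank` (`d = 2`)**: `finrank_le_mul_of_adjoin_range` at
`Ω := AlgebraicClosure (FractionRing O)` with `hmult` discharged by `hmult_of_ramified`. -/
theorem finrank_le_two_mul_of_ramified (hΔ : W.Δ ≠ 0) (hirr : W.ModRepIsIrreducible p)
    (htrans : ∃ σ : (AlgebraicClosure ℚ ≃ₐ[ℚ] AlgebraicClosure ℚ),
      galoisRepModuleEnd (K := AlgebraicClosure ℚ) ℚ (W.map (Int.castRingHom ℚ)) p σ ≠ 1 ∧
        (galoisRepModuleEnd (K := AlgebraicClosure ℚ) ℚ (W.map (Int.castRingHom ℚ)) p σ - 1) ^ 2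
          = 0)
    (k : Type) [Field k] [Algebra (ZMod p) k]
    {N : ℕ} [NeZero N] {O : Type*} [CommRing O] [IsDomain O] [CharZero O]
    (L : Submodule O (O ⊗[ℤ] Lam N)) {T : Type} [CommRing T] [IsLocalRing T] [Algebra O T]
    [Module T L] [IsScalarTower O T L]
    [Module.Finite O T] [Module.Free O T] [Module.Finite O L] [Module.Free O L]
    {A : Type*} [CommRing A] [IsReduced A] [Module.Finite ℤ A] (π : A →+* T)
    (hπ : Algebra.adjoin O (Set.range π) = ⊤)
    (hpT : (p : T) ∈ IsLocalRing.maximalIdeal T)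
    (S0 Sg : Finset ℕ) (hSg : Sg ⊆ S0) (tl : Nat.Primes → T)
    (ht : ∀ l : Nat.Primes, (l : ℕ) ∉ S0 → ∀ x : L,
      ((tl l • x : L) : O ⊗[ℤ] Lam N) = (latT N l).baseChange O (x : O ⊗[ℤ] Lam N))
    (hcong : ∀ l : Nat.Primes, (l : ℕ) ∉ S0 → W.IsGoodPrimeFor l → (l : ℕ) ≠ p →
      tl l - ((W.apOfModel l : ℤ) : T) ∈ IsLocalRing.maximalIdeal T)
    (hU : ∀ q : Nat.Primes, (q : ℕ) ∈ Sg → ∀ x ∈ L, (latT N q).baseChange O x = 0)
    (hbad : ∀ b : Nat.Primes, (b : ℕ) ∈ S0 \ Sg →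
      ¬ (b : ℕ) ∣ N ∨ ((b : ℕ) ∣ N ∧ ¬ (b : ℕ) ^ 2 ∣ N ∧ (b : ℕ) ≠ p ∧
        ¬ ((rb p W hcard₁ hker).baseChange k).IsUnramifiedAt b)) :
    finrank O L ≤ 2 * finrank O T := by
  haveI : CharZero (FractionRing O) :=
    charZero_of_injective_algebraMap (IsFractionRing.injective O (FractionRing O))
  haveI : CharZero (AlgebraicClosure (FractionRing O)) :=
    charZero_of_injective_algebraMap
      (algebraMap (FractionRing O) (AlgebraicClosure (FractionRing O))).injective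
  haveI : Module.Flat O (AlgebraicClosure (FractionRing O)) :=
    Module.Flat.trans O (FractionRing O) (AlgebraicClosure (FractionRing O))
  exact finrank_le_mul_of_adjoin_range (Ω := AlgebraicClosure (FractionRing O)) π hπ 2
    (hmult_of_ramified hcard₁ hker hΔ hirr htrans k L hpT S0 Sg hSg tl ht hcong hU hbad)

end Final

end Fermat.Agent.GE9.PNew.RankInst
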