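/-
GATE-E / RISK-4 (PNEW-STAGE), leaf R4-J INSTANCE, last mile (helper81): **the rank binder `hrank`
(`d = 2`) of `GE9/PNew/FLStagePack.exists_flStage_pack` / `StageFreeRT.stage_free_of_rtNum` at the
concrete image carrier `T' := ImageRing.TQ 𝒪 θ tw`.**

`L ≤ 𝒪 ⊗[ℤ] Lam N` a local part (finite free over `𝒪`, nontrivial), `tw : 𝕋_{S0}(N) →+* End_𝒪 L` the
anemic action (`tw T_ℓ = T'_ℓ|L` for `ℓ ∤ N`, `ℓ ∉ S0`) with `LocHyp 𝒪 θ tw`,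
`θ T_ℓ = a_ℓ(W)` at the good primes, `p ∈ 𝔪_𝒪`; `U_q = 0` on `L` for the stage primes `q ∈ Sg`
(`GE9/OldQ/UqLoc.uq_eq_zero_of_mem_locPart`); every `b ∈ S0 ∖ Sg` prime to `N`, or `b ∥ N`, `b ≠ p`,
`ρ̄` ramified at `b`.  Then

  `finrank 𝒪 L ≤ 2 * finrank 𝒪 (TQ 𝒪 θ tw)`      (`hrank_TQ`),

by `RankInst.finrank_le_two_mul_of_ramified` at `T := TQ 𝒪 θ tw` (local: `isLocalRing_TQ`;
congruences: `residue_chi`; generation: `adjoin_range_chi`; module: `CarrierExp.moduleTQ`).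
-/
import Mathlib
import Fermat.Agent.GE9.PNew.RankInst
import Fermat.Agent.GE9.PNew.CarrierExp
import Fermat.Agent.GS.Pet.Reduced
import Fermat.Agent.S22

set_option autoImplicit false
set_option linter.unusedSectionVars false
set_option linter.style.haveILetI false

open scoped TensorProduct
open CuspForm IsLocalRing Module WeierstrassCurve WeierstrassCurve.Affine.Point
open scoped WeierstrassCurve.Affine

namespace Fermat.Agent.GE9.PNew.RankTQ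

open Fermat.Agent.GJ.J2.Lat Fermat.Agent.GB.Setup.RhoBar Fermat.Agent.GB.B4.Datum.ImageRing
  Fermat.Agent.GE9.PNew.CarrierExp Fermat.Agent.GE9.PNew.RankInst

variable {𝒪 : Type} [CommRing 𝒪] [IsDomain 𝒪] [IsDiscreteValuationRing 𝒪] [CharZero 𝒪]
  {p : ℕ} [Fact p.Prime] {W : WeierstrassCurve ℤ}
  (hcard₁ : Nat.card (Submodule.torsionBy ℤ
    ((W.map (Int.castRingHom ℚ))⁄(AlgebraicClosure ℚ)).Point p) = p ^ 2)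
  (hker : GaloisFactorsThroughFiniteLevel
    (galoisRepModuleEnd (K := AlgebraicClosure ℚ) ℚ (W.map (Int.castRingHom ℚ)) p))

open Classical in
/-- the family `T_l` in the image carrier (`0` at the primes dividing `N` or in `S0`). -/
noncomputable def tlTQ {N : ℕ} [NeZero N] {S0 : Finset ℕ} {M : Type} [AddCommGroup M] [Module 𝒪 M]
    (θ : heckeAlgebra N 2 (↑S0 : Set ℕ) →+* ResidueField 𝒪)
    (tw : heckeAlgebra N 2 (↑S0 : Set ℕ) →+* Module.End 𝒪 M) (l : Nat.Primes) : TQ 𝒪 θ tw :=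
  if h : ¬ (l : ℕ) ∣ N ∧ (l : ℕ) ∉ (↑S0 : Set ℕ) then
    chi 𝒪 θ tw (heckeAlgebra.T l.2 h.1 h.2) else 0

set_option maxHeartbeats 1000000 in
/-- **`hrank` (`d = 2`) at the image carrier.** -/
theorem hrank_TQ (hΔ : W.Δ ≠ 0) (hirr : W.ModRepIsIrreducible p)
    (htrans : ∃ σ : (AlgebraicClosure ℚ ≃ₐ[ℚ] AlgebraicClosure ℚ),
      galoisRepModuleEnd (K := AlgebraicClosure ℚ) ℚ (W.map (Int.castRingHom ℚ)) p σ ≠ 1 ∧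
        (galoisRepModuleEnd (K := AlgebraicClosure ℚ) ℚ (W.map (Int.castRingHom ℚ)) p σ - 1) ^ 2
          = 0)
    (k : Type) [Field k] [Algebra (ZMod p) k]
    {N : ℕ} [NeZero N] (L : Submodule 𝒪 (𝒪 ⊗[ℤ] Lam N))
    [Module.Finite 𝒪 L] [Module.Free 𝒪 L] [Nontrivial L]
    (S0 Sg : Finset ℕ) (hSg : Sg ⊆ S0) (hNS : ∀ r : ℕ, r.Prime → r ∣ N → r ∈ S0)
    (θ : heckeAlgebra N 2 (↑S0 : Set ℕ) →+* ResidueField 𝒪)
    (tw : heckeAlgebra N 2 (↑S0 : Set ℕ) →+* Module.End 𝒪 L) [Fact (LocHyp 𝒪 θ tw)]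
    (htw : ∀ (ℓ : ℕ) (hℓ : ℓ.Prime) (hℓN : ¬ ℓ ∣ N) (hℓS : ℓ ∉ (↑S0 : Set ℕ)) (x : L),
      ((tw (heckeAlgebra.T hℓ hℓN hℓS) x : L) : 𝒪 ⊗[ℤ] Lam N)
        = (latT N ⟨ℓ, hℓ⟩).baseChange 𝒪 (x : 𝒪 ⊗[ℤ] Lam N))
    (hp𝒪 : (p : 𝒪) ∈ maximalIdeal 𝒪)
    (hθ : ∀ (ℓ : ℕ) (hℓ : ℓ.Prime) (hℓN : ¬ ℓ ∣ N) (hℓS : ℓ ∉ (↑S0 : Set ℕ)),
      W.IsGoodPrimeFor ℓ → ℓ ≠ p →
        θ (heckeAlgebra.T hℓ hℓN hℓS) = ((W.apOfModel ℓ : ℤ) : ResidueField 𝒪))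
    (hU : ∀ q : Nat.Primes, (q : ℕ) ∈ Sg → ∀ x ∈ L, (latT N q).baseChange 𝒪 x = 0)
    (hbad : ∀ b : Nat.Primes, (b : ℕ) ∈ S0 \ Sg →
      ¬ (b : ℕ) ∣ N ∨ ((b : ℕ) ∣ N ∧ ¬ (b : ℕ) ^ 2 ∣ N ∧ (b : ℕ) ≠ p ∧
        ¬ ((rb p W hcard₁ hker).baseChange k).IsUnramifiedAt b)) :
    finrank 𝒪 L ≤ 2 * finrank 𝒪 (TQ 𝒪 θ tw) := by
  letI := moduleTQ 𝒪 θ tw
  haveI := isScalarTower_TQ 𝒪 θ tw
  haveI : IsReduced ↥(heckeAlgebra N 2 (↑S0 : Set ℕ)) :=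
    Fermat.Agent.GS.Pet.isReduced_heckeAlgebra N 2 (↑S0 : Set ℕ)
      (fun r hr hrN => Finset.mem_coe.mpr (hNS r hr hrN))
  haveI : Module.Finite ℤ ↥(heckeAlgebra N 2 (↑S0 : Set ℕ)) := Fermat.Agent.S22.result N 2 _
  -- the family `T_l` in the carrier
  have hgood : ∀ l : Nat.Primes, (l : ℕ) ∉ S0 →
      ¬ (l : ℕ) ∣ N ∧ (l : ℕ) ∉ (↑S0 : Set ℕ) := fun l hl =>
    ⟨fun h => hl (hNS l l.2 h), fun h => hl (Finset.mem_coe.mp h)⟩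
  have hpT : (p : TQ 𝒪 θ tw) ∈ maximalIdeal (TQ 𝒪 θ tw) := by
    have h := _root_.map_nonunit (algebraMap 𝒪 (TQ 𝒪 θ tw)) (p : 𝒪) hp𝒪
    rwa [_root_.map_natCast] at h
  have ht : ∀ l : Nat.Primes, (l : ℕ) ∉ S0 → ∀ x : L,
      (((tlTQ θ tw l) • x : L) : 𝒪 ⊗[ℤ] Lam N)
        = (latT N l).baseChange 𝒪 (x : 𝒪 ⊗[ℤ] Lam N) := by
    intro l hl x
    rw [tlTQ, dif_pos (hgood l hl), chi_smul]
    exact htw l l.2 (hgood l hl).1 (hgood l hl).2 x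
  have hcong : ∀ l : Nat.Primes, (l : ℕ) ∉ S0 → W.IsGoodPrimeFor l → (l : ℕ) ≠ p →
      tlTQ θ tw l - ((W.apOfModel l : ℤ) : TQ 𝒪 θ tw) ∈ maximalIdeal (TQ 𝒪 θ tw) := by
    intro l hl hgoodW hlp
    rw [tlTQ, dif_pos (hgood l hl), ← residue_eq_zero_iff, _root_.map_sub, _root_.map_intCast,
      residue_chi, hθ l l.2 (hgood l hl).1 (hgood l hl).2 hgoodW hlp, _root_.map_intCast, sub_self]
  exact finrank_le_two_mul_of_ramified (O := 𝒪) (T := TQ 𝒪 θ tw) hcard₁ hker hΔ hirr htrans k L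
    (chi 𝒪 θ tw) (adjoin_range_chi 𝒪 θ tw) hpT S0 Sg hSg (tlTQ θ tw) ht hcong hU hbad

end Fermat.Agent.GE9.PNew.RankTQ
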