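/-
GATE-E / RISK-4 PNEW, leaf PNEW-POINT (N2) (helper33): **annihilators of a sublattice commute with
flat base change** — the relative twin of `GJ/Tate/Faithful.tensorEnd_injective`.  Mathlib only.

`Λ` a finitely generated abelian group, `Λn ≤ Λ` a sublattice, `ι : T →ₗ[ℤ] End_ℤ Λ` an action,
`annSub ι Λn = {t | ι t = 0 on Λn}`.  For a `ℤ`-flat ring `R` and any `R`-linear
`F : R ⊗ T → End_R (R ⊗ Λ)` with `F (r ⊗ t) = r • (ι t) ⊗ R` (e.g. `tensorEndAlg R ι`,
`KumLevelData.heckeTensor R`):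

* `mem_range_of_kills` : if `F x` kills every `r ⊗ y`, `y ∈ Λn`, then
  `x ∈ range (R ⊗ annSub ι Λn → R ⊗ T)`;
* `eq_zero_of_kills` : hence every `R`-linear `L : R ⊗ T → P` with `L (r ⊗ t) = 0` for
  `t ∈ annSub ι Λn` vanishes on such `x`.

Consumer: the binder `hann` of `GalPkgSONewStmt` / `RawSO` / `StepSupplySO` ("every
`t₀ ∈ 𝒪 ⊗ 𝕋` killing `𝒪 ⊗ LamNew` is `0` in `T'`") follows, over ANY coefficient ring `𝒪` of
characteristic `0`, from the `ℤ`-level statement "`π' : 𝕋 → T'` kills `Ann_𝕋 (LamNew)`".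
-/
import Mathlib

set_option autoImplicit false

namespace Fermat.Agent.GE9.PNew.AnnFlat

open TensorProduct

section Defs

variable {Λ : Type*} [AddCommGroup Λ] {T : Type*} [AddCommGroup T]

/-- the restricted action `t ↦ (ι t)|_{Λn} : Λn → Λ`. -/
def resAct (ι : T →ₗ[ℤ] Module.End ℤ Λ) (Λn : Submodule ℤ Λ) : T →ₗ[ℤ] (Λn →ₗ[ℤ] Λ) :=
  (LinearMap.lcomp ℤ Λ Λn.subtype) ∘ₗ ι

theorem resAct_apply (ι : T →ₗ[ℤ] Module.End ℤ Λ) (Λn : Submodule ℤ Λ) (t : T) (y : Λn) :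
    resAct ι Λn t y = ι t (y : Λ) := rfl

/-- the annihilator of the sublattice `Λn` in `T`. -/
def annSub (ι : T →ₗ[ℤ] Module.End ℤ Λ) (Λn : Submodule ℤ Λ) : Submodule ℤ T :=
  LinearMap.ker (resAct ι Λn)

theorem mem_annSub {ι : T →ₗ[ℤ] Module.End ℤ Λ} {Λn : Submodule ℤ Λ} {t : T} :
    t ∈ annSub ι Λn ↔ ∀ y ∈ Λn, ι t y = 0 := by
  rw [annSub, LinearMap.mem_ker]
  constructor
  · intro h y hy
    have := LinearMap.congr_fun h ⟨y, hy⟩
    simpa [resAct_apply] using this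
  · intro h
    ext y
    exact h y y.2

end Defs

section Main

variable (R : Type*) [CommRing R] [Module.Flat ℤ R]
  {Λ : Type*} [AddCommGroup Λ] [Module.Finite ℤ Λ] {T : Type*} [AddCommGroup T]
  (ι : T →ₗ[ℤ] Module.End ℤ Λ) (Λn : Submodule ℤ Λ)

/-- `R ⊗ Hom_ℤ(Λn, Λ) ≃ Hom_R(R ⊗ Λn, R ⊗ Λ)`. -/
noncomputable def homBaseChangeEquiv :
    R ⊗[ℤ] (Λn →ₗ[ℤ] Λ) ≃ₗ[R] (R ⊗[ℤ] Λn →ₗ[R] R ⊗[ℤ] Λ) :=
  haveI : Module.FinitePresentation ℤ Λn := Module.finitePresentation_of_finite ℤ Λn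
  (Module.FinitePresentation.isBaseChange_map ℤ Λn Λ R).equiv

theorem homBaseChangeEquiv_tmul (r : R) (φ : Λn →ₗ[ℤ] Λ) :
    homBaseChangeEquiv R Λn (r ⊗ₜ φ) = r • φ.baseChange R :=
  haveI : Module.FinitePresentation ℤ Λn := Module.finitePresentation_of_finite ℤ Λn
  (Module.FinitePresentation.isBaseChange_map ℤ Λn Λ R).equiv_tmul r φ

/-- the restricted action after base change. -/
noncomputable def resActR : R ⊗[ℤ] T →ₗ[R] (R ⊗[ℤ] Λn →ₗ[R] R ⊗[ℤ] Λ) :=
  (homBaseChangeEquiv R Λn).toLinearMap ∘ₗ (resAct ι Λn).baseChange R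

theorem resActR_tmul (r : R) (t : T) :
    resActR R ι Λn (r ⊗ₜ t) = r • (resAct ι Λn t).baseChange R := by
  rw [resActR, LinearMap.comp_apply, LinearMap.baseChange_tmul]
  exact homBaseChangeEquiv_tmul R Λn r _

variable (F : R ⊗[ℤ] T →ₗ[R] Module.End R (R ⊗[ℤ] Λ))
  (hF : ∀ (r : R) (t : T), F (r ⊗ₜ t) = r • (ι t).baseChange R)

include hF in
/-- the restricted action is the action followed by restriction to `R ⊗ Λn`. -/
theorem resActR_eq (x : R ⊗[ℤ] T) :
    resActR R ι Λn x = (F x) ∘ₗ (Λn.subtype.baseChange R) := by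
  induction x using TensorProduct.induction_on with
  | zero => simp
  | tmul r t =>
    rw [resActR_tmul, hF]
    ext y
    simp [resAct_apply]
  | add a b ha hb => rw [map_add, map_add, ha, hb, LinearMap.add_comp]

include hF in
/-- **annihilators commute with flat base change**: an element of `R ⊗ T` killing `R ⊗ Λn` comes
from `R ⊗ Ann_T (Λn)`. -/
theorem mem_range_of_kills (x : R ⊗[ℤ] T)
    (hx : ∀ (r : R) (y : Λ), y ∈ Λn → F x (r ⊗ₜ y) = 0) :
    x ∈ LinearMap.range ((annSub ι Λn).subtype.lTensor R) := by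
  have h0 : resActR R ι Λn x = 0 := by
    rw [resActR_eq R ι Λn F hF x]
    refine TensorProduct.AlgebraTensorModule.curry_injective ?_
    ext y
    simpa using hx 1 y y.2
  have h1 : (resAct ι Λn).baseChange R x = 0 := by
    have h2 : (homBaseChangeEquiv R Λn) ((resAct ι Λn).baseChange R x) = 0 := h0
    exact (homBaseChangeEquiv R Λn).map_eq_zero_iff.mp h2
  have hex : Function.Exact ((annSub ι Λn).subtype.lTensor R) ((resAct ι Λn).lTensor R) :=
    Module.Flat.lTensor_exact R (LinearMap.exact_subtype_ker_map (resAct ι Λn))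
  exact (hex x).mp h1

include hF in
/-- **the consumer form**: an `R`-linear map killing `R ⊗ Ann_T (Λn)` vanishes on every element of
`R ⊗ T` which kills `R ⊗ Λn`. -/
theorem eq_zero_of_kills {P : Type*} [AddCommGroup P] [Module R P] (L : R ⊗[ℤ] T →ₗ[R] P)
    (hL : ∀ (r : R) (t : T), t ∈ annSub ι Λn → L (r ⊗ₜ t) = 0) (x : R ⊗[ℤ] T)
    (hx : ∀ (r : R) (y : Λ), y ∈ Λn → F x (r ⊗ₜ y) = 0) : L x = 0 := by
  obtain ⟨z, rfl⟩ := mem_range_of_kills R ι Λn F hF x hx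
  clear hx
  induction z using TensorProduct.induction_on with
  | zero => simp
  | tmul r t =>
    rw [LinearMap.lTensor_tmul]
    exact hL r t t.2
  | add a b ha hb => rw [map_add, map_add, ha, hb, add_zero]

end Main

end Fermat.Agent.GE9.PNew.AnnFlat
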