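/-
GATE-E (S59) / RISK-4 PNEW, leaf (N2) of helper33's plan, consumer form (helper75), on top of
helper33's `GE9/PNew/AnnFlat.lean`: **the binder `hann` of the strict-ordinary Galois package from
`tw` killing the annihilator of the sublattice.**

For `D : KumLevelData N S p` (lattice `D.Λ` with Hecke action `D.act`), a `ℤ`-flat coefficient ring
`R`, a subgroup `Λ' ≤ D.Λ` (application: `LamNew`):

* `mem_range_of_heckeTensor_kills` : `t₀ ∈ R ⊗ 𝕋` with `D.heckeTensor R t₀ (a ⊗ₜ x) = 0` for all `a`,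
  all `x ∈ Λ'` lies in the image of `R ⊗ Ann_𝕋(Λ')`;
* **`eq_zero_of_heckeTensor_kills`** : every `R`-linear `L : R ⊗ 𝕋 →ₗ[R] P` with `L (a ⊗ₜ s) = 0`
  whenever `s` kills `Λ'` vanishes at such `t₀`;
* **`algHom_eq_zero_of_heckeTensor_kills`** : the same for an `R`-algebra hom `Φ : R ⊗ 𝕋 →ₐ[R] TQ` and a
  ring hom `tw : 𝕋 →+* TQ` with `Φ (a ⊗ₜ s) = algebraMap R TQ a * tw s` (`= GalPkgSO.twO_tmul`) and
  `tw s = 0` for every `s` killing `Λ'` — this is `hann` of `GalPkgSO.exists_galRep_strict_of_ann` /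
  `GalPkgSONewStmt` / `StepSupplySO` / `RawSO` VERBATIM with `Φ := twO tw`.
-/
import Fermat.Agent.GJ.Tate.DatumOfLevels
import Fermat.Agent.GE9.PNew.AnnFlat

set_option autoImplicit false
set_option linter.unusedSectionVars false

noncomputable section

namespace Fermat.Agent.GE9.PNew.AnnFlatHecke

open TensorProduct CuspForm Fermat.Agent.GJ.Tate Fermat.Agent.GJ.Tate.Lim
open Fermat.Agent.GE9.PNew.AnnFlat

variable {N : ℕ} [NeZero N] {S : Finset ℕ} {p : ℕ} (D : KumLevelData N S p)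
variable (R : Type*) [CommRing R] [Module.Flat ℤ R] (Λ' : AddSubgroup D.Λ)

/-- the pure-tensor formula of the Hecke action, in the shape of `AnnFlat`'s binder `hF`. -/
theorem heckeTensor_toLinearMap_tmul (r : R) (t : heckeAlgebra N 2 (↑S : Set ℕ)) :
    (D.heckeTensor R).toLinearMap (r ⊗ₜ[ℤ] t) =
      r • (D.actAlg.toLinearMap t).baseChange R :=
  D.heckeTensor_tmul R r t

/-- membership in the annihilator of `Λ'` (as a `ℤ`-submodule), elementwise. -/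
theorem mem_annSub_iff (s : heckeAlgebra N 2 (↑S : Set ℕ)) :
    s ∈ annSub D.actAlg.toLinearMap (AddSubgroup.toIntSubmodule Λ') ↔ ∀ x ∈ Λ', D.act s x = 0 :=
  mem_annSub

/-- an element of `R ⊗ 𝕋` killing `R ⊗ Λ'` comes from `R ⊗ Ann_𝕋(Λ')`. -/
theorem mem_range_of_heckeTensor_kills (t₀ : R ⊗[ℤ] heckeAlgebra N 2 (↑S : Set ℕ))
    (ht₀ : ∀ (a : R), ∀ x ∈ Λ', D.heckeTensor R t₀ (a ⊗ₜ[ℤ] x) = 0) :
    t₀ ∈ LinearMap.range
      ((annSub D.actAlg.toLinearMap (AddSubgroup.toIntSubmodule Λ')).subtype.lTensor R) :=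
  mem_range_of_kills R D.actAlg.toLinearMap (AddSubgroup.toIntSubmodule Λ')
    (D.heckeTensor R).toLinearMap (heckeTensor_toLinearMap_tmul D R) t₀
    (fun a y hy => ht₀ a y hy)

/-- **linear consumer form.** -/
theorem eq_zero_of_heckeTensor_kills {P : Type*} [AddCommGroup P] [Module R P]
    (L : R ⊗[ℤ] heckeAlgebra N 2 (↑S : Set ℕ) →ₗ[R] P)
    (hL : ∀ (a : R) (s : heckeAlgebra N 2 (↑S : Set ℕ)),
      (∀ x ∈ Λ', D.act s x = 0) → L (a ⊗ₜ[ℤ] s) = 0)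
    (t₀ : R ⊗[ℤ] heckeAlgebra N 2 (↑S : Set ℕ))
    (ht₀ : ∀ (a : R), ∀ x ∈ Λ', D.heckeTensor R t₀ (a ⊗ₜ[ℤ] x) = 0) :
    L t₀ = 0 :=
  eq_zero_of_kills R D.actAlg.toLinearMap (AddSubgroup.toIntSubmodule Λ')
    (D.heckeTensor R).toLinearMap (heckeTensor_toLinearMap_tmul D R) L
    (fun a s hs => hL a s ((mem_annSub_iff D Λ' s).mp hs)) t₀ (fun a y hy => ht₀ a y hy)

/-- **the binder `hann`**: `Φ = twO tw` kills every `t₀` killing `R ⊗ Λ'` as soon as `tw` kills the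
annihilator of `Λ'` in the Hecke algebra. -/
theorem algHom_eq_zero_of_heckeTensor_kills {TQ : Type*} [CommRing TQ] [Algebra R TQ]
    (tw : heckeAlgebra N 2 (↑S : Set ℕ) →+* TQ)
    (Φ : R ⊗[ℤ] heckeAlgebra N 2 (↑S : Set ℕ) →ₐ[R] TQ)
    (hΦ : ∀ (a : R) (s : heckeAlgebra N 2 (↑S : Set ℕ)),
      Φ (a ⊗ₜ[ℤ] s) = algebraMap R TQ a * tw s)
    (htw : ∀ s : heckeAlgebra N 2 (↑S : Set ℕ), (∀ x ∈ Λ', D.act s x = 0) → tw s = 0)
    (t₀ : R ⊗[ℤ] heckeAlgebra N 2 (↑S : Set ℕ))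
    (ht₀ : ∀ (a : R), ∀ x ∈ Λ', D.heckeTensor R t₀ (a ⊗ₜ[ℤ] x) = 0) :
    Φ t₀ = 0 :=
  eq_zero_of_heckeTensor_kills D R Λ' Φ.toLinearMap
    (fun a s hs => by
      show Φ (a ⊗ₜ[ℤ] s) = 0
      rw [hΦ, htw s hs, mul_zero]) t₀ ht₀

end Fermat.Agent.GE9.PNew.AnnFlatHecke
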