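/-
GATE-E / S59, RISK-4 = PNEW-STAGE (helper16): **the base point `ρ_g` of R4-C from the SO side.**

`Xso : RTData ρbar (condSO 𝒪 p Smin ∅)` (the `p`-new minimal `R = T` datum, R4-G / E6-SO(b)) with an
`𝒪`-point `πO : Xso.T →ₐ[𝒪] 𝒪` (the base form `g`).  `pointRep Xso πO := ρ_T ⊗_{πO} 𝒪` is the Galois
representation `ρ_g`; it supplies ALL the `ρ_g`-binders of `Depth.exists_point_mod_ideal` /
`DepthPlug.pointAt_of_stage`:

* `pointRep_residual`   : `hres`  — `ρ_g` lifts `ρbar`;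
* `pointRep_charpoly`   : `hlam`  — `charpoly ρ_g(Frob_l) = X² − πO (π T_l) X + l`;
* `condSO_pointRep`     : `ρ_g` is of type `𝒟^{so}_Σ` (any `Σ`);
* `pointRep_unramified` : `hunr`  — for `Σ = ∅`, `ρ_g` is unramified outside `Smin`;
* **`pointsHyp_of_base`**, **`map_annihilator_le_of_base`** : `DepthPlug` with these binders
  discharged: `lam l := πO (Xso.π T_l)`.
-/
import Mathlib
import Fermat.Agent.GE9.PNew.DepthPlug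

set_option autoImplicit false
set_option linter.unusedSectionVars false

namespace Fermat.Agent.GE9.PNew.DepthBase

open IsLocalRing Polynomial CuspForm Fermat.Agent.GE.Graph Fermat.Agent.GE9.CotGrowth
  Fermat.Agent.GE9.PNew.Depth Fermat.Agent.GE9.PNew.DepthAnn Fermat.Agent.GE9.PNew.DepthPlug

/-- `G_ℚ`. -/
local notation "GQ" => (AlgebraicClosure ℚ ≃ₐ[ℚ] AlgebraicClosure ℚ)

/-- `ℚ̄`. -/
local notation "Qb" => AlgebraicClosure ℚ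

variable {𝒪 : Type} [CommRing 𝒪] [IsDomain 𝒪] [IsDiscreteValuationRing 𝒪]
  [IsAdicComplete (maximalIdeal 𝒪) 𝒪]
  {ρbar : ResidualGaloisRep (ResidueField 𝒪)}

/-- an augmentation of a local `𝒪`-algebra is a local homomorphism. -/
theorem isLocalHom_point {T : Type} [CommRing T] [IsLocalRing T] [Algebra 𝒪 T]
    (πO : T →ₐ[𝒪] 𝒪) : IsLocalHom (πO : T →+* 𝒪) :=
  Fermat.Agent.GP.Tan.UnivInj.isLocalHom_of_residue_cover
    (fun x => by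
      obtain ⟨y, rfl⟩ := residue_surjective x
      exact ⟨y, rfl⟩) πO

/-- **`ρ_g`**: the Galois representation at an `𝒪`-point of an `R = T` datum. -/
noncomputable def pointRep {𝒟 : DefCondE 𝒪} (X' : RTData ρbar 𝒟) (πO : X'.T →ₐ[𝒪] 𝒪) :
    GaloisRepAdic 𝒪 :=
  X'.ρT.baseChangeAlong (πO : X'.T →+* 𝒪) (isLocalHom_point πO)

/-- `hres`: `ρ_g` is a lift of `ρbar`. -/
theorem pointRep_residual {𝒟 : DefCondE 𝒪} (X' : RTData ρbar 𝒟) (πO : X'.T →ₐ[𝒪] 𝒪) :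
    (pointRep X' πO).residual.IsEquiv
      (ρbar.baseChangeAlong (ResidueField.map (algebraMap 𝒪 𝒪))) :=
  residual_point_isEquiv X'.D X'.ρT X'.φ X'.φ_local X'.φ_ρ πO (isLocalHom_point πO)

/-- `hlam`: the Frobenius characteristic polynomials of `ρ_g`. -/
theorem pointRep_charpoly {𝒟 : DefCondE 𝒪} (X' : RTData ρbar 𝒟) (πO : X'.T →ₐ[𝒪] 𝒪)
    (ℓ : ℕ) (hℓ : ℓ.Prime) (hℓN : ¬ ℓ ∣ X'.N) (hℓS : ℓ ∉ X'.S)
    (P : ValuationSubring Qb) (hP : P.LiesOverPrime ℓ) (σ : GQ) (hσ : P.IsFrobeniusAt σ ℓ) :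
    LinearMap.charpoly ((pointRep X' πO).ρ σ) =
      X ^ 2 - C (πO (X'.π (heckeAlgebra.T hℓ hℓN hℓS))) * X + C ((ℓ : 𝒪)) := by
  unfold pointRep
  rw [charpoly_baseChangeAlongE, X'.charpoly_frob ℓ hℓ hℓN hℓS P hP σ hσ]
  simp only [Polynomial.map_sub, Polynomial.map_add, Polynomial.map_mul, Polynomial.map_pow,
    Polynomial.map_X, Polynomial.map_C, map_natCast, RingHom.coe_coe, Polynomial.map_natCast]

section SO

variable {p : ℕ} {Smin Sig : Finset ℕ}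

/-- `condSO` is invariant under equivalence. -/
theorem condSO_of_isEquiv {A : Type} [CommRing A] [IsLocalRing A] [Algebra 𝒪 A]
    {ρ ρ' : GaloisRepAdic A} (he : ρ.IsEquiv ρ') (h : condSO 𝒪 p Smin Sig ρ) :
    condSO 𝒪 p Smin Sig ρ' :=
  ⟨⟨Fermat.Agent.GP.Tan.Cocycle.detIsCyclotomic_of_isEquiv he h.1.1,
      Fermat.Agent.GP.Tan.isStrictOrdinaryAt_of_isEquiv he h.1.2.1,
      fun q hq hqT => Fermat.Agent.GP.Tan.Cocycle.isUnramifiedAt_of_isEquiv he (h.1.2.2 q hq hqT)⟩,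
    fun q hq hqp hne =>
      Fermat.Agent.GP.Loc.UnipGlue.isUnipotentOnInertiaAt_of_isEquiv he (h.2 q hq hqp hne)⟩

/-- `condSO` is stable under base change along any local homomorphism. -/
theorem condSO_baseChangeAlong {A B : Type} [CommRing A] [IsLocalRing A] [Algebra 𝒪 A]
    [CommRing B] [IsLocalRing B] [Algebra 𝒪 B] (φ : A →+* B) (hφ : IsLocalHom φ)
    {ρ : GaloisRepAdic A} (h : condSO 𝒪 p Smin Sig ρ) :
    condSO 𝒪 p Smin Sig (ρ.baseChangeAlong φ hφ) :=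
  Fermat.Agent.GP.Tan.s56StrictCond_baseChangeAlong (𝒪 := 𝒪) p Smin (Smin ∪ Sig) φ hφ h

/-- `ρ_g` is of type `𝒟^{so}_Σ`. -/
theorem condSO_pointRep (Xso : RTData ρbar (condSO 𝒪 p Smin Sig)) (πO : Xso.T →ₐ[𝒪] 𝒪) :
    condSO 𝒪 p Smin Sig (pointRep Xso πO) := by
  have h1 : condSO 𝒪 p Smin Sig
      (Xso.D.ρ.baseChangeAlong (Xso.φ : Xso.D.R →+* Xso.T) Xso.φ_local) :=
    condSO_baseChangeAlong _ _ Xso.D.isOfType
  have h2 : condSO 𝒪 p Smin Sig Xso.ρT := condSO_of_isEquiv Xso.φ_ρ h1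
  exact condSO_baseChangeAlong _ _ h2

/-- `hunr`: for `Σ = ∅`, `ρ_g` is unramified outside `Smin`. -/
theorem pointRep_unramified (Xso : RTData ρbar (condSO 𝒪 p Smin ∅)) (πO : Xso.T →ₐ[𝒪] 𝒪)
    (q : ℕ) (hq : q.Prime) (hqS : q ∉ Smin) : (pointRep Xso πO).IsUnramifiedAt q :=
  (condSO_pointRep Xso πO).1.2.2 q hq (by rw [Finset.union_empty]; exact hqS)

variable {Sg : Finset ℕ}

/-- the eigenvalues of the base point. -/
noncomputable def lamOf (Xso : RTData ρbar (condSO 𝒪 p Smin ∅)) (πO : Xso.T →ₐ[𝒪] 𝒪)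
    (S0 : Finset ℕ) (hSso : ∀ l : ℕ, l.Prime → l ∉ S0 → ¬ l ∣ Xso.N ∧ l ∉ Xso.S) :
    PIdx S0 → 𝒪 :=
  fun l => πO (Xso.π (heckeAlgebra.T l.2.1 (hSso l l.2.1 l.2.2).1 (hSso l l.2.1 l.2.2).2))

/-- **R4-C ⟹ `PointsHyp`, base point from the SO side.** -/
theorem pointsHyp_of_base
    (Xn : RTData ρbar (condFL 𝒪 p Smin Sg)) (X0 : RTData ρbar (condFL 𝒪 p Smin ∅))
    (Xso : RTData ρbar (condSO 𝒪 p Smin ∅)) (πO : Xso.T →ₐ[𝒪] 𝒪)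
    (S0 : Finset ℕ)
    (hSn : ∀ l : ℕ, l.Prime → l ∉ S0 → ¬ l ∣ Xn.N ∧ l ∉ Xn.S)
    (hS0 : ∀ l : ℕ, l.Prime → l ∉ S0 → ¬ l ∣ X0.N ∧ l ∉ X0.S)
    (hSso : ∀ l : ℕ, l.Prime → l ∉ S0 → ¬ l ∣ Xso.N ∧ l ∉ Xso.S) :
    PointsHyp (MvPolynomial.aeval (lamOf Xso πO S0 hSso) : MvPolynomial (PIdx S0) 𝒪 →ₐ[𝒪] 𝒪)
      (MvPolynomial.X : PIdx S0 → MvPolynomial (PIdx S0) 𝒪)
      (carrier X0 S0 hS0) (carrier Xn S0 hSn) :=
  pointsHyp_of_stage Xn X0 S0 hSn hS0 (pointRep Xso πO) (pointRep_residual Xso πO)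
    (fun q _ hq hqS => pointRep_unramified Xso πO q hq hqS) (lamOf Xso πO S0 hSso)
    (fun l P hP σ hσ =>
      pointRep_charpoly Xso πO l l.2.1 (hSso l l.2.1 l.2.2).1 (hSso l l.2.1 l.2.2).2 P hP σ hσ)

/-- **depth-ideal constancy, base point from the SO side**: for `𝕋 = 𝒪[X_l : l ∉ S0]`,
`g = aeval (lamOf Xso πO)`, `A₀`, `Aₙ` two `𝕋`-modules with carriers `X0.T` (faithful) and `Xn.T`
(generated by the `T_l`, `l ∉ S0`): `g (Ann_𝕋 A₀) ≤ g (Ann_𝕋 Aₙ)`. -/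
theorem map_annihilator_le_of_base
    (Xn : RTData ρbar (condFL 𝒪 p Smin Sg)) (X0 : RTData ρbar (condFL 𝒪 p Smin ∅))
    (Xso : RTData ρbar (condSO 𝒪 p Smin ∅)) (πO : Xso.T →ₐ[𝒪] 𝒪)
    (S0 : Finset ℕ)
    (hSn : ∀ l : ℕ, l.Prime → l ∉ S0 → ¬ l ∣ Xn.N ∧ l ∉ Xn.S)
    (hS0 : ∀ l : ℕ, l.Prime → l ∉ S0 → ¬ l ∣ X0.N ∧ l ∉ X0.S)
    (hSso : ∀ l : ℕ, l.Prime → l ∉ S0 → ¬ l ∣ Xso.N ∧ l ∉ Xso.S)
    (hπn : Function.Surjective (carrier Xn S0 hSn))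
    {A₀ Aₙ : Type*} [AddCommGroup A₀] [Module (MvPolynomial (PIdx S0) 𝒪) A₀]
    [AddCommGroup Aₙ] [Module (MvPolynomial (PIdx S0) 𝒪) Aₙ]
    (h₀ : ∀ s : MvPolynomial (PIdx S0) 𝒪, (∀ y : A₀, s • y = 0) → carrier X0 S0 hS0 s = 0)
    (hₙ : ∀ s : MvPolynomial (PIdx S0) 𝒪, carrier Xn S0 hSn s = 0 → ∀ y : Aₙ, s • y = 0) :
    Ideal.map ((MvPolynomial.aeval (lamOf Xso πO S0 hSso) : MvPolynomial (PIdx S0) 𝒪 →ₐ[𝒪] 𝒪) :
        MvPolynomial (PIdx S0) 𝒪 →+* 𝒪) (Module.annihilator (MvPolynomial (PIdx S0) 𝒪) A₀) ≤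
      Ideal.map ((MvPolynomial.aeval (lamOf Xso πO S0 hSso) : MvPolynomial (PIdx S0) 𝒪 →ₐ[𝒪] 𝒪) :
        MvPolynomial (PIdx S0) 𝒪 →+* 𝒪) (Module.annihilator (MvPolynomial (PIdx S0) 𝒪) Aₙ) :=
  map_annihilator_le_of_points _ _ _ _ (adjoin_X_eq_top S0) hπn
    (pointsHyp_of_base Xn X0 Xso πO S0 hSn hS0 hSso) h₀ hₙ

end SO

end Fermat.Agent.GE9.PNew.DepthBase
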