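/-
GATE-E / S59, RISK-4 = PNEW-STAGE (helper16): **the faithfulness binders `h₀`, `hₙ` of
`DepthPlug.map_annihilator_le_of_stage` / `DepthBase.map_annihilator_le_of_base`** for carriers
that are rings of endomorphisms of the stage modules (the image carriers `ImageRing.TQ` of the
engine).

`X' : RTData ρbar 𝒟`, `A` a module over `𝕋 = 𝒪[X_l : l ∉ S0]` (and over `𝒪`, compatibly), and
`ev : X'.T →ₐ[𝒪] Module.End 𝒪 A` with `ev (X'.π T_l) = (X_l • ·)`.  THEN

* `ev_carrier_apply`      : `ev (carrier X' S0 hS s) y = s • y` for every `s : 𝕋`;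
* `smul_eq_zero_of_carrier_eq_zero` : the binder `hₙ` (the action factors through the carrier);
* `carrier_eq_zero_of_smul_eq_zero` : the binder `h₀` when `ev` is injective (faithful carrier);
* `carrier_eq_zero_iff`.
-/
import Mathlib
import Fermat.Agent.GE9.PNew.DepthPlug

set_option autoImplicit false
set_option linter.unusedSectionVars false

namespace Fermat.Agent.GE9.PNew.DepthFaith

open IsLocalRing CuspForm Fermat.Agent.GE.Graph Fermat.Agent.GE9.PNew.DepthPlug

variable {𝒪 : Type} [CommRing 𝒪] [IsDomain 𝒪] [IsDiscreteValuationRing 𝒪]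
  [IsAdicComplete (maximalIdeal 𝒪) 𝒪]
  {ρbar : ResidualGaloisRep (ResidueField 𝒪)} {𝒟 : DefCondE 𝒪}
  (X' : RTData ρbar 𝒟) (S0 : Finset ℕ)
  (hS : ∀ l : ℕ, l.Prime → l ∉ S0 → ¬ l ∣ X'.N ∧ l ∉ X'.S)
  {A : Type*} [AddCommGroup A] [Module 𝒪 A] [Module (MvPolynomial (PIdx S0) 𝒪) A]
  [IsScalarTower 𝒪 (MvPolynomial (PIdx S0) 𝒪) A]
  (ev : X'.T →ₐ[𝒪] Module.End 𝒪 A)
  (hX : ∀ (l : PIdx S0) (y : A),
    ev (X'.π (heckeAlgebra.T l.2.1 (hS l l.2.1 l.2.2).1 (hS l l.2.1 l.2.2).2)) y =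
      (MvPolynomial.X l : MvPolynomial (PIdx S0) 𝒪) • y)

include hX in
/-- the carrier map computes the `𝕋`-action. -/
theorem ev_carrier_apply (s : MvPolynomial (PIdx S0) 𝒪) (y : A) :
    ev (carrier X' S0 hS s) y = s • y := by
  have : SMulCommClass (MvPolynomial (PIdx S0) 𝒪) 𝒪 A := IsScalarTower.to_smulCommClass'
  have h : ev.comp (carrier X' S0 hS) =
      Algebra.lsmul 𝒪 𝒪 A := by
    refine MvPolynomial.algHom_ext fun l => ?_
    refine LinearMap.ext fun y => ?_
    rw [AlgHom.comp_apply, carrier_X, hX l y]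
    rfl
  have h2 := congrArg (fun f : MvPolynomial (PIdx S0) 𝒪 →ₐ[𝒪] Module.End 𝒪 A => f s y) h
  exact h2

include hX in
/-- **`hₙ`**: the `𝕋`-action on `A` factors through the carrier. -/
theorem smul_eq_zero_of_carrier_eq_zero (s : MvPolynomial (PIdx S0) 𝒪)
    (hs : carrier X' S0 hS s = 0) (y : A) : s • y = 0 := by
  rw [← ev_carrier_apply X' S0 hS ev hX s y, hs, map_zero, LinearMap.zero_apply]

include hX in
/-- **`h₀`**: a faithful carrier. -/
theorem carrier_eq_zero_of_smul_eq_zero (hev : Function.Injective ev)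
    (s : MvPolynomial (PIdx S0) 𝒪) (hs : ∀ y : A, s • y = 0) : carrier X' S0 hS s = 0 := by
  apply hev
  rw [map_zero]
  refine LinearMap.ext fun y => ?_
  rw [ev_carrier_apply X' S0 hS ev hX s y, hs y, LinearMap.zero_apply]

include hX in
theorem carrier_eq_zero_iff (hev : Function.Injective ev) (s : MvPolynomial (PIdx S0) 𝒪) :
    carrier X' S0 hS s = 0 ↔ ∀ y : A, s • y = 0 :=
  ⟨fun hs y => smul_eq_zero_of_carrier_eq_zero X' S0 hS ev hX s hs y,
    carrier_eq_zero_of_smul_eq_zero X' S0 hS ev hX hev s⟩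

end Fermat.Agent.GE9.PNew.DepthFaith
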