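/-
GATE-E (S59) / RISK-4 = PNEW-STAGE, glue R4-C ⟹ R4-C' (helper19):
**`Depth.exists_point_mod_ideal` (helper16, Frobenius-charpoly form on `RTData`) delivers
`DepthAnn.PointsHyp` (helper87, carrier form)**, hence the depth-ideal constancy
`g (Ann_𝕋 A_∅) ≤ g (Ann_𝕋 A_n)` and the binder `hJ` of the `p`-new stage step
(`KerHecke.card_congMod_ker_growth_hecke`, `KerHeckeFree.card_congMod_ker_growth_free`,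
`KerHeckeProd.card_congMod_ker_growth_free_prod`).

Setting.  `X_n : RTData ρbar (condFL 𝒪 p Smin Sg)`, `X_0 : RTData ρbar (condFL 𝒪 p Smin ∅)`;
`𝕋` a commutative `𝒪`-algebra with a family `x i` (`i : ι`), each `x i` a Hecke operator `T_{ℓ i}`
at a prime `ℓ i` good for BOTH data: `π₀ (x i) = X_0.π T_{ℓ i}`, `πₙ (x i) = X_n.π T_{ℓ i}`; all
primes outside a finite set `B` occur among the `ℓ i`.  `g : 𝕋 →ₐ[𝒪] 𝒪` the eigencharacter of the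
base point and `ρ_g : GaloisRepAdic 𝒪` its Galois representation:
`charpoly ρ_g(Frob_{ℓ i}) = X² − g (x i) X + ℓ i`, `ρ_g` a lift of `ρbar`, unramified at `Sg ∖ Smin`.

* `pointsHyp_of_stage`            : `DepthAnn.PointsHyp g x π₀ πₙ` (every proper `c`, `c = ⊥` included);
* `map_annihilator_le_of_stage`   : `g (Ann_𝕋 A_∅) ≤ g (Ann_𝕋 A_n)`;
* `hJ_of_stage`                   : `g (Ann_𝕋 A_{n-1}) ≤ g (Ann_𝕋 A_n)` given `Ann A_{n-1} ≤ Ann A_∅`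
  (e.g. from a `𝕋`-equivariant surjection `A_{n-1} ↠ A_∅`: `DepthAnn.annihilator_le_of_surjective'`)
  — the binder `hJ` VERBATIM.
-/
import Fermat.Agent.GE9.PNew.Depth
import Fermat.Agent.GE9.PNew.DepthAnn
import Fermat.Agent.Lib.FrobeniusExists

set_option autoImplicit false

namespace Fermat.Agent.GE9.PNew.DepthGlue

open IsLocalRing Polynomial CuspForm Fermat.Agent.GE.Graph

/-- `G_ℚ`. -/
local notation "GQ" => (AlgebraicClosure ℚ ≃ₐ[ℚ] AlgebraicClosure ℚ)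

/-- `ℚ̄`. -/
local notation "Qb" => AlgebraicClosure ℚ

/-- the linear coefficient of `X² − aX + b`. -/
theorem coeff_one_quadratic {R : Type*} [CommRing R] (a b : R) :
    (X ^ 2 - C a * X + C b : R[X]).coeff 1 = -a := by
  simp [coeff_C]

/-- two monic quadratics which agree have the same trace. -/
theorem eq_of_quadratic_eq {R : Type*} [CommRing R] {a a' b b' : R}
    (h : (X ^ 2 - C a * X + C b : R[X]) = X ^ 2 - C a' * X + C b') : a = a' := by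
  have h1 := congrArg (fun f : R[X] => f.coeff 1) h
  simp only [coeff_one_quadratic] at h1
  exact neg_injective h1

section Glue

variable {𝒪 : Type} [CommRing 𝒪] [IsDomain 𝒪] [IsDiscreteValuationRing 𝒪]
  [IsAdicComplete (maximalIdeal 𝒪) 𝒪]
  {ρbar : ResidualGaloisRep (ResidueField 𝒪)} {p : ℕ} {Smin Sg : Finset ℕ}
  {𝕋 : Type*} [CommRing 𝕋] [Algebra 𝒪 𝕋]

/-- **R4-C ⟹ the carrier-form hypothesis of R4-C'.** -/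
theorem pointsHyp_of_stage
    (Xn : RTData ρbar (condFL 𝒪 p Smin Sg)) (X0 : RTData ρbar (condFL 𝒪 p Smin ∅))
    (ρg : GaloisRepAdic 𝒪)
    (hres : ρg.residual.IsEquiv (ρbar.baseChangeAlong (ResidueField.map (algebraMap 𝒪 𝒪))))
    (hunr : ∀ q ∈ Sg, q.Prime → q ∉ Smin → ρg.IsUnramifiedAt q)
    (g : 𝕋 →ₐ[𝒪] 𝒪) {ι : Type*} (x : ι → 𝕋) (ℓ : ι → ℕ) (hℓ : ∀ i, (ℓ i).Prime)
    (hN0 : ∀ i, ¬ ℓ i ∣ X0.N) (hS0 : ∀ i, ℓ i ∉ X0.S)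
    (hNn : ∀ i, ¬ ℓ i ∣ Xn.N) (hSn : ∀ i, ℓ i ∉ Xn.S)
    (π₀ : 𝕋 →ₐ[𝒪] X0.T) (πₙ : 𝕋 →ₐ[𝒪] Xn.T)
    (hπ₀ : ∀ i, π₀ (x i) = X0.π (heckeAlgebra.T (hℓ i) (hN0 i) (hS0 i)))
    (hπₙ : ∀ i, πₙ (x i) = Xn.π (heckeAlgebra.T (hℓ i) (hNn i) (hSn i)))
    (B : Finset ℕ) (hB : ∀ l : ℕ, l.Prime → l ∉ B → ∃ i, ℓ i = l)
    (hg : ∀ i, ∀ P : ValuationSubring Qb, P.LiesOverPrime (ℓ i) →
      ∀ σ : GQ, P.IsFrobeniusAt σ (ℓ i) →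
        LinearMap.charpoly (ρg.ρ σ) = X ^ 2 - C (g (x i)) * X + C ((ℓ i : 𝒪))) :
    DepthAnn.PointsHyp g x π₀ πₙ := by
  intro c hc φ hφ
  -- the charpoly of `ρ_g ⊗ 𝒪 ⧸ c` at `Frob_{ℓ i}`
  have hgc : ∀ i, ∀ P : ValuationSubring Qb, P.LiesOverPrime (ℓ i) →
      ∀ σ : GQ, P.IsFrobeniusAt σ (ℓ i) →
        (LinearMap.charpoly (ρg.ρ σ)).map (algebraMap 𝒪 (𝒪 ⧸ c)) =
          X ^ 2 - C (Ideal.Quotient.mk c (g (x i))) * X + C ((ℓ i : 𝒪 ⧸ c)) := by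
    intro i P hP σ hσ
    rw [hg i P hP σ hσ, Polynomial.map_add, Polynomial.map_sub, Polynomial.map_mul,
      Polynomial.map_pow, Polynomial.map_X, Polynomial.map_C, Polynomial.map_C, map_natCast]
    rfl
  obtain ⟨ψ, hψ⟩ := Depth.exists_point_mod_ideal Xn X0 c hc ρg hres hunr φ B
    (fun l hl hlB => by
      obtain ⟨i, rfl⟩ := hB l hl hlB
      exact ⟨hNn i, hSn i⟩)
    (fun l hl hlN hlS hlB P hP σ hσ => by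
      obtain ⟨i, rfl⟩ := hB l hl hlB
      rw [hgc i P hP σ hσ, ← hφ i, hπₙ i])
  refine ⟨ψ, fun i => ?_⟩
  obtain ⟨P, hP, σ, hσ⟩ := Fermat.Agent.Lib.Frob.exists_valuationSubring_isFrobeniusAt (hℓ i)
  have h1 := hψ (ℓ i) (hℓ i) (hN0 i) (hS0 i) P hP σ hσ
  rw [hgc i P hP σ hσ] at h1
  rw [hπ₀ i]
  exact (eq_of_quadratic_eq h1).symm

variable {A₀ Aₙ : Type*} [AddCommGroup A₀] [Module 𝕋 A₀] [AddCommGroup Aₙ] [Module 𝕋 Aₙ]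

/-- **depth-ideal constancy at a flat stage**: `g (Ann_𝕋 A_∅) ≤ g (Ann_𝕋 A_n)`; `X_0.T` acts
faithfully on `A_∅` (`h₀`), the action on `A_n` factors through `X_n.T` (`hₙ`), `𝕋 ↠ X_n.T`. -/
theorem map_annihilator_le_of_stage
    (Xn : RTData ρbar (condFL 𝒪 p Smin Sg)) (X0 : RTData ρbar (condFL 𝒪 p Smin ∅))
    (ρg : GaloisRepAdic 𝒪)
    (hres : ρg.residual.IsEquiv (ρbar.baseChangeAlong (ResidueField.map (algebraMap 𝒪 𝒪))))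
    (hunr : ∀ q ∈ Sg, q.Prime → q ∉ Smin → ρg.IsUnramifiedAt q)
    (g : 𝕋 →ₐ[𝒪] 𝒪) {ι : Type*} (x : ι → 𝕋) (ℓ : ι → ℕ) (hℓ : ∀ i, (ℓ i).Prime)
    (hN0 : ∀ i, ¬ ℓ i ∣ X0.N) (hS0 : ∀ i, ℓ i ∉ X0.S)
    (hNn : ∀ i, ¬ ℓ i ∣ Xn.N) (hSn : ∀ i, ℓ i ∉ Xn.S)
    (π₀ : 𝕋 →ₐ[𝒪] X0.T) (πₙ : 𝕋 →ₐ[𝒪] Xn.T)
    (hπ₀ : ∀ i, π₀ (x i) = X0.π (heckeAlgebra.T (hℓ i) (hN0 i) (hS0 i)))
    (hπₙ : ∀ i, πₙ (x i) = Xn.π (heckeAlgebra.T (hℓ i) (hNn i) (hSn i)))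
    (B : Finset ℕ) (hB : ∀ l : ℕ, l.Prime → l ∉ B → ∃ i, ℓ i = l)
    (hg : ∀ i, ∀ P : ValuationSubring Qb, P.LiesOverPrime (ℓ i) →
      ∀ σ : GQ, P.IsFrobeniusAt σ (ℓ i) →
        LinearMap.charpoly (ρg.ρ σ) = X ^ 2 - C (g (x i)) * X + C ((ℓ i : 𝒪)))
    (hx : Algebra.adjoin 𝒪 (Set.range x) = ⊤) (hπₙs : Function.Surjective πₙ)
    (h₀ : ∀ s : 𝕋, (∀ y : A₀, s • y = 0) → π₀ s = 0)
    (hₙ : ∀ s : 𝕋, πₙ s = 0 → ∀ y : Aₙ, s • y = 0) :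
    Ideal.map (g : 𝕋 →+* 𝒪) (Module.annihilator 𝕋 A₀) ≤
      Ideal.map (g : 𝕋 →+* 𝒪) (Module.annihilator 𝕋 Aₙ) :=
  DepthAnn.map_annihilator_le_of_points g x π₀ πₙ hx hπₙs
    (pointsHyp_of_stage Xn X0 ρg hres hunr g x ℓ hℓ hN0 hS0 hNn hSn π₀ πₙ hπ₀ hπₙ B hB hg) h₀ hₙ

/-- **the binder `hJ` of the `p`-new stage step** (`J = Ann_𝕋 A_{n-1}`), VERBATIM. -/
theorem hJ_of_stage {Aₘ : Type*} [AddCommGroup Aₘ] [Module 𝕋 Aₘ]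
    (Xn : RTData ρbar (condFL 𝒪 p Smin Sg)) (X0 : RTData ρbar (condFL 𝒪 p Smin ∅))
    (ρg : GaloisRepAdic 𝒪)
    (hres : ρg.residual.IsEquiv (ρbar.baseChangeAlong (ResidueField.map (algebraMap 𝒪 𝒪))))
    (hunr : ∀ q ∈ Sg, q.Prime → q ∉ Smin → ρg.IsUnramifiedAt q)
    (g : 𝕋 →ₐ[𝒪] 𝒪) {ι : Type*} (x : ι → 𝕋) (ℓ : ι → ℕ) (hℓ : ∀ i, (ℓ i).Prime)
    (hN0 : ∀ i, ¬ ℓ i ∣ X0.N) (hS0 : ∀ i, ℓ i ∉ X0.S)
    (hNn : ∀ i, ¬ ℓ i ∣ Xn.N) (hSn : ∀ i, ℓ i ∉ Xn.S)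
    (π₀ : 𝕋 →ₐ[𝒪] X0.T) (πₙ : 𝕋 →ₐ[𝒪] Xn.T)
    (hπ₀ : ∀ i, π₀ (x i) = X0.π (heckeAlgebra.T (hℓ i) (hN0 i) (hS0 i)))
    (hπₙ : ∀ i, πₙ (x i) = Xn.π (heckeAlgebra.T (hℓ i) (hNn i) (hSn i)))
    (B : Finset ℕ) (hB : ∀ l : ℕ, l.Prime → l ∉ B → ∃ i, ℓ i = l)
    (hg : ∀ i, ∀ P : ValuationSubring Qb, P.LiesOverPrime (ℓ i) →
      ∀ σ : GQ, P.IsFrobeniusAt σ (ℓ i) →
        LinearMap.charpoly (ρg.ρ σ) = X ^ 2 - C (g (x i)) * X + C ((ℓ i : 𝒪)))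
    (hx : Algebra.adjoin 𝒪 (Set.range x) = ⊤) (hπₙs : Function.Surjective πₙ)
    (h₀ : ∀ s : 𝕋, (∀ y : A₀, s • y = 0) → π₀ s = 0)
    (hₙ : ∀ s : 𝕋, πₙ s = 0 → ∀ y : Aₙ, s • y = 0)
    (hm : Module.annihilator 𝕋 Aₘ ≤ Module.annihilator 𝕋 A₀) :
    Ideal.map (g : 𝕋 →+* 𝒪) (Module.annihilator 𝕋 Aₘ) ≤
      Ideal.map (g : 𝕋 →+* 𝒪) (Module.annihilator 𝕋 Aₙ) :=
  DepthAnn.hJ_of_depth g
    (map_annihilator_le_of_stage (A₀ := A₀) (Aₙ := Aₙ) Xn X0 ρg hres hunr g x ℓ hℓ hN0 hS0 hNn hSn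
      π₀ πₙ hπ₀ hπₙ B hB hg hx hπₙs h₀ hₙ) _ hm

end Glue

/-! ### the polynomial Hecke algebra `𝒪[T_l : l ∉ S0]` -/

section Poly

variable {𝒪 : Type} [CommRing 𝒪] [IsDomain 𝒪] [IsDiscreteValuationRing 𝒪]
  [IsAdicComplete (maximalIdeal 𝒪) 𝒪]
  {ρbar : ResidualGaloisRep (ResidueField 𝒪)} {p : ℕ} {Smin Sg : Finset ℕ}

/-- the index set of the anemic polynomial Hecke algebra: the primes outside `S0`. -/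
abbrev Idx (S0 : Finset ℕ) : Type := {l : ℕ // l.Prime ∧ l ∉ S0}

/-- the carrier map `𝒪[T_l : l ∉ S0] → X'.T`, `T_l ↦ X'.π T_l`, of an `R = T` datum whose bad primes
lie in `S0`. -/
noncomputable def carrierPoly {𝒟 : DefCondE 𝒪} (S0 : Finset ℕ) (X' : RTData ρbar 𝒟)
    (hX : ∀ l : ℕ, l.Prime → l ∉ S0 → ¬ l ∣ X'.N ∧ l ∉ X'.S) :
    MvPolynomial (Idx S0) 𝒪 →ₐ[𝒪] X'.T :=
  MvPolynomial.aeval fun l : Idx S0 =>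
    X'.π (heckeAlgebra.T l.2.1 (hX l.1 l.2.1 l.2.2).1 (hX l.1 l.2.1 l.2.2).2)

theorem carrierPoly_X {𝒟 : DefCondE 𝒪} (S0 : Finset ℕ) (X' : RTData ρbar 𝒟)
    (hX : ∀ l : ℕ, l.Prime → l ∉ S0 → ¬ l ∣ X'.N ∧ l ∉ X'.S) (l : Idx S0) :
    carrierPoly S0 X' hX (MvPolynomial.X l) =
      X'.π (heckeAlgebra.T l.2.1 (hX l.1 l.2.1 l.2.2).1 (hX l.1 l.2.1 l.2.2).2) := by
  rw [carrierPoly, MvPolynomial.aeval_X]

/-- the carrier map is onto when the `T_l`, `l ∉ S0`, generate `X'.T`. -/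
theorem carrierPoly_surjective {𝒟 : DefCondE 𝒪} (S0 : Finset ℕ) (X' : RTData ρbar 𝒟)
    (hX : ∀ l : ℕ, l.Prime → l ∉ S0 → ¬ l ∣ X'.N ∧ l ∉ X'.S)
    (hgen : Algebra.adjoin 𝒪 (Set.range fun l : Idx S0 =>
      X'.π (heckeAlgebra.T l.2.1 (hX l.1 l.2.1 l.2.2).1 (hX l.1 l.2.1 l.2.2).2)) = ⊤) :
    Function.Surjective (carrierPoly S0 X' hX) := by
  rw [← AlgHom.range_eq_top, carrierPoly, ← Algebra.adjoin_range_eq_range_aeval]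
  exact hgen

variable {A₀ Aₘ Aₙ : Type*} (S0 : Finset ℕ)
  [AddCommGroup A₀] [Module (MvPolynomial (Idx S0) 𝒪) A₀]
  [AddCommGroup Aₘ] [Module (MvPolynomial (Idx S0) 𝒪) Aₘ]
  [AddCommGroup Aₙ] [Module (MvPolynomial (Idx S0) 𝒪) Aₙ]

/-- **the binder `hJ` of the `p`-new stage step for `𝕋 = 𝒪[T_l : l ∉ S0]`, `g = eval lam`.**
`X_n`, `X_0` the flat `R = T` data at `Sg`, `∅` with bad primes in `S0`; `ρ_g` a lift of `ρbar`,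
unramified at `Sg ∖ Smin`, with `charpoly ρ_g(Frob_l) = X² − lam l X + l` for `l ∉ S0`;
`X_0.T` acts faithfully on `A_∅`, the action on `A_n` factors through `X_n.T`, the `T_l` (`l ∉ S0`)
generate `X_n.T`, and `Ann A_{n-1} ≤ Ann A_∅`. -/
theorem hJ_of_stage_poly
    (Xn : RTData ρbar (condFL 𝒪 p Smin Sg)) (X0 : RTData ρbar (condFL 𝒪 p Smin ∅))
    (hX0 : ∀ l : ℕ, l.Prime → l ∉ S0 → ¬ l ∣ X0.N ∧ l ∉ X0.S)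
    (hXn : ∀ l : ℕ, l.Prime → l ∉ S0 → ¬ l ∣ Xn.N ∧ l ∉ Xn.S)
    (ρg : GaloisRepAdic 𝒪)
    (hres : ρg.residual.IsEquiv (ρbar.baseChangeAlong (ResidueField.map (algebraMap 𝒪 𝒪))))
    (hunr : ∀ q ∈ Sg, q.Prime → q ∉ Smin → ρg.IsUnramifiedAt q)
    (lam : Idx S0 → 𝒪)
    (hg : ∀ l : Idx S0, ∀ P : ValuationSubring Qb, P.LiesOverPrime l.1 →
      ∀ σ : GQ, P.IsFrobeniusAt σ l.1 →
        LinearMap.charpoly (ρg.ρ σ) = X ^ 2 - C (lam l) * X + C ((l.1 : 𝒪)))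
    (hgen : Algebra.adjoin 𝒪 (Set.range fun l : Idx S0 =>
      Xn.π (heckeAlgebra.T l.2.1 (hXn l.1 l.2.1 l.2.2).1 (hXn l.1 l.2.1 l.2.2).2)) = ⊤)
    (h₀ : ∀ s : MvPolynomial (Idx S0) 𝒪, (∀ y : A₀, s • y = 0) → carrierPoly S0 X0 hX0 s = 0)
    (hₙ : ∀ s : MvPolynomial (Idx S0) 𝒪, carrierPoly S0 Xn hXn s = 0 → ∀ y : Aₙ, s • y = 0)
    (hm : Module.annihilator (MvPolynomial (Idx S0) 𝒪) Aₘ ≤
      Module.annihilator (MvPolynomial (Idx S0) 𝒪) A₀) :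
    Ideal.map ((MvPolynomial.aeval lam : MvPolynomial (Idx S0) 𝒪 →ₐ[𝒪] 𝒪) :
        MvPolynomial (Idx S0) 𝒪 →+* 𝒪) (Module.annihilator (MvPolynomial (Idx S0) 𝒪) Aₘ) ≤
      Ideal.map ((MvPolynomial.aeval lam : MvPolynomial (Idx S0) 𝒪 →ₐ[𝒪] 𝒪) :
        MvPolynomial (Idx S0) 𝒪 →+* 𝒪) (Module.annihilator (MvPolynomial (Idx S0) 𝒪) Aₙ) :=
  hJ_of_stage (A₀ := A₀) (Aₙ := Aₙ) (Aₘ := Aₘ) Xn X0 ρg hres hunr (MvPolynomial.aeval lam)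
    (fun l : Idx S0 => (MvPolynomial.X l : MvPolynomial (Idx S0) 𝒪)) (fun l => l.1)
    (fun l => l.2.1) (fun l => (hX0 l.1 l.2.1 l.2.2).1) (fun l => (hX0 l.1 l.2.1 l.2.2).2)
    (fun l => (hXn l.1 l.2.1 l.2.2).1) (fun l => (hXn l.1 l.2.1 l.2.2).2)
    (carrierPoly S0 X0 hX0) (carrierPoly S0 Xn hXn)
    (fun l => carrierPoly_X S0 X0 hX0 l) (fun l => carrierPoly_X S0 Xn hXn l)
    S0 (fun l hl hlS => ⟨⟨l, hl, hlS⟩, rfl⟩)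
    (fun l P hP σ hσ => by rw [MvPolynomial.aeval_X]; exact hg l P hP σ hσ)
    (MvPolynomial.adjoin_range_X) (carrierPoly_surjective S0 Xn hXn hgen) h₀ hₙ hm

end Poly

end Fermat.Agent.GE9.PNew.DepthGlue
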