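/-
GATE-E (S59) / RISK-4 = PNEW-STAGE (helper31, reader seat): **the binder
`hJ₀ : Ann_𝕋 A_{Sg} ≤ Ann_𝕋 A_∅` of `DepthAnn.hJ_of_depth` from the GALOIS side** — no modular
transfer chain `A_{Sg} ↠ A_∅` is needed.

`condFL 𝒪 p Smin ∅ ⊆ condFL 𝒪 p Smin Sg` (the condition is monotone in the set of unrestricted
primes), so the universal deformation of the BASE is a deformation of the STAGE type: the universal
property of `Xn.D` gives `f : Xn.D.R →ₐ[𝒪] X0.D.R`, hence (both `φ` bijective)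
`ψ : Xn.T →ₐ[𝒪] X0.T` with `ψ (Xn.π T_l) = X0.π T_l` at every `l` good for both data.

* `condFL_mono`                   : `condFL 𝒪 p Smin ∅ ρ → condFL 𝒪 p Smin Sg ρ`;
* `exists_algHom_stage_to_base`   : the `𝒪`-algebra map `ψ : Xn.T → X0.T`, `T_l ↦ T_l`;
* `exists_comp_carrier`           : `ψ ∘ carrier Xn = carrier X0` on `𝕋 = 𝒪[X_l : l ∉ S0]`;
* `carrier_eq_zero_of_stage`      : `carrier Xn s = 0 → carrier X0 s = 0`;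
* **`annihilator_le_of_stages`**  : `Ann_𝕋 A_{Sg} ≤ Ann_𝕋 A_∅` for `𝕋`-modules on which `𝕋` acts
  FAITHFULLY through `carrier Xn` (stage) and THROUGH `carrier X0` (base).
-/
import Mathlib
import Fermat.Agent.GE9.PNew.DepthPlug

set_option autoImplicit false
set_option linter.unusedSectionVars false
set_option linter.unusedVariables false

namespace Fermat.Agent.GE9.PNew.DepthMono

open IsLocalRing Polynomial CuspForm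
open Fermat.Agent.GE.Graph Fermat.Agent.GE9.PNew.DepthPlug

/-- `G_ℚ`. -/
local notation "GQ" => (AlgebraicClosure ℚ ≃ₐ[ℚ] AlgebraicClosure ℚ)
local notation "Qb" => AlgebraicClosure ℚ

section Cond

variable {𝒪 : Type} [CommRing 𝒪] {p : ℕ} {Smin Sg : Finset ℕ}
  {A : Type} [CommRing A] [IsLocalRing A] [Algebra 𝒪 A]

/-- `𝒟^{fl}_∅ ⊆ 𝒟^{fl}_{Sg}`. -/
theorem condFL_mono {ρ : GaloisRepAdic A} (h : condFL 𝒪 p Smin ∅ ρ) : condFL 𝒪 p Smin Sg ρ := by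
  refine ⟨⟨h.1.1, h.1.2.1, fun q hq hqS => h.1.2.2 q hq fun hmem => hqS ?_⟩, h.2⟩
  rw [Finset.union_empty] at hmem
  exact Finset.mem_union_left _ hmem

end Cond

variable {𝒪 : Type} [CommRing 𝒪] [IsDomain 𝒪] [IsDiscreteValuationRing 𝒪]
  [IsAdicComplete (maximalIdeal 𝒪) 𝒪]
  {ρbar : ResidualGaloisRep (ResidueField 𝒪)} {p : ℕ} {Smin Sg : Finset ℕ}

/-- the Eichler–Shimura polynomial of an `R = T` datum, read on the universal deformation. -/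
theorem charpoly_univ_map {𝒟 : DefCondE 𝒪} (X' : RTData ρbar 𝒟) (ℓ : ℕ) (hℓ : ℓ.Prime)
    (hℓN : ¬ ℓ ∣ X'.N) (hℓS : ℓ ∉ X'.S) (P : ValuationSubring Qb) (hP : P.LiesOverPrime ℓ)
    (σ : GQ) (hσ : P.IsFrobeniusAt σ ℓ) :
    (LinearMap.charpoly (X'.D.ρ.ρ σ)).map (X'.φ : X'.D.R →+* X'.T) =
      X ^ 2 - C (X'.π (heckeAlgebra.T hℓ hℓN hℓS)) * X + C ((ℓ : X'.T)) := by
  have h1 := X'.charpoly_frob ℓ hℓ hℓN hℓS P hP σ hσ
  rw [← charpoly_eq_of_isEquivE X'.φ_ρ σ, charpoly_baseChangeAlongE] at h1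
  exact h1

/-- **the stage-to-base map of the Hecke rings**: `ψ : Xn.T →ₐ[𝒪] X0.T`, `T_l ↦ T_l`. -/
theorem exists_algHom_stage_to_base
    (Xn : RTData ρbar (condFL 𝒪 p Smin Sg)) (X0 : RTData ρbar (condFL 𝒪 p Smin ∅)) :
    ∃ ψ : Xn.T →ₐ[𝒪] X0.T,
      ∀ (ℓ : ℕ) (hℓ : ℓ.Prime) (hℓN : ¬ ℓ ∣ Xn.N) (hℓS : ℓ ∉ Xn.S) (hℓN0 : ¬ ℓ ∣ X0.N)
        (hℓS0 : ℓ ∉ X0.S),
        ψ (Xn.π (heckeAlgebra.T hℓ hℓN hℓS)) = X0.π (heckeAlgebra.T hℓ hℓN0 hℓS0) := by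
  -- the universal deformation of the base is of the stage type
  have h𝒟 : condFL 𝒪 p Smin Sg X0.D.ρ := condFL_mono X0.D.isOfType
  obtain ⟨f, ⟨hf, hfe⟩, -⟩ :=
    Xn.D.universal X0.D.R X0.D.residue_surjective X0.D.ρ h𝒟 X0.D.residual_isEquiv
  let en : Xn.D.R ≃ₐ[𝒪] Xn.T := AlgEquiv.ofBijective Xn.φ Xn.φ_bijective
  refine ⟨(X0.φ.comp f).comp (en.symm : Xn.T →ₐ[𝒪] Xn.D.R), ?_⟩
  intro ℓ hℓ hℓN hℓS hℓN0 hℓS0
  obtain ⟨P, σ, hP, hσ⟩ := Fermat.Agent.Common_helper32.exists_isFrobeniusAt ℓ hℓ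
  -- the two Eichler–Shimura polynomials
  have hn := charpoly_univ_map Xn ℓ hℓ hℓN hℓS P hP σ hσ
  have h0 := charpoly_univ_map X0 ℓ hℓ hℓN0 hℓS0 P hP σ hσ
  -- `charpoly ρ₀^univ = f (charpoly ρ_n^univ)`
  have h1 : LinearMap.charpoly (X0.D.ρ.ρ σ) =
      (LinearMap.charpoly (Xn.D.ρ.ρ σ)).map (f : Xn.D.R →+* X0.D.R) := by
    rw [← charpoly_eq_of_isEquivE hfe σ, charpoly_baseChangeAlongE]
  set ψ : Xn.T →ₐ[𝒪] X0.T := (X0.φ.comp f).comp (en.symm : Xn.T →ₐ[𝒪] Xn.D.R) with hψdef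
  have hψ : ((X0.φ : X0.D.R →+* X0.T).comp (f : Xn.D.R →+* X0.D.R)) =
      (ψ : Xn.T →+* X0.T).comp (Xn.φ : Xn.D.R →+* Xn.T) := by
    ext x
    show X0.φ (f x) = X0.φ (f (en.symm (en x)))
    rw [AlgEquiv.symm_apply_apply]
  rw [h1, Polynomial.map_map, hψ, ← Polynomial.map_map, hn] at h0
  have hmapq : (X ^ 2 - C (Xn.π (heckeAlgebra.T hℓ hℓN hℓS)) * X + C ((ℓ : Xn.T)) : Xn.T[X]).map
      (ψ : Xn.T →+* X0.T) =
        X ^ 2 - C (ψ (Xn.π (heckeAlgebra.T hℓ hℓN hℓS))) * X + C ((ℓ : X0.T)) := by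
    simp only [Polynomial.map_sub, Polynomial.map_add, Polynomial.map_mul, Polynomial.map_pow,
      Polynomial.map_X, Polynomial.map_C, map_natCast, Polynomial.map_natCast, RingHom.coe_coe]
  rw [hmapq] at h0
  have h3 := congrArg (fun g : X0.T[X] => g.coeff 1) h0
  simp only [coeff_one_quadratic, neg_inj] at h3
  exact h3

/-- `ψ ∘ carrier Xn = carrier X0` on `𝕋 = 𝒪[X_l : l ∉ S0]`. -/
theorem exists_comp_carrier
    (Xn : RTData ρbar (condFL 𝒪 p Smin Sg)) (X0 : RTData ρbar (condFL 𝒪 p Smin ∅))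
    (S0 : Finset ℕ)
    (hSn : ∀ l : ℕ, l.Prime → l ∉ S0 → ¬ l ∣ Xn.N ∧ l ∉ Xn.S)
    (hS0 : ∀ l : ℕ, l.Prime → l ∉ S0 → ¬ l ∣ X0.N ∧ l ∉ X0.S) :
    ∃ ψ : Xn.T →ₐ[𝒪] X0.T, ψ.comp (carrier Xn S0 hSn) = carrier X0 S0 hS0 := by
  obtain ⟨ψ, hψ⟩ := exists_algHom_stage_to_base Xn X0
  refine ⟨ψ, MvPolynomial.algHom_ext fun l => ?_⟩
  rw [AlgHom.comp_apply, carrier_X, carrier_X]
  exact hψ l l.2.1 _ _ _ _

/-- the kernel of the stage carrier lies in the kernel of the base carrier. -/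
theorem carrier_eq_zero_of_stage
    (Xn : RTData ρbar (condFL 𝒪 p Smin Sg)) (X0 : RTData ρbar (condFL 𝒪 p Smin ∅))
    (S0 : Finset ℕ)
    (hSn : ∀ l : ℕ, l.Prime → l ∉ S0 → ¬ l ∣ Xn.N ∧ l ∉ Xn.S)
    (hS0 : ∀ l : ℕ, l.Prime → l ∉ S0 → ¬ l ∣ X0.N ∧ l ∉ X0.S)
    (s : MvPolynomial (PIdx S0) 𝒪) (hs : carrier Xn S0 hSn s = 0) : carrier X0 S0 hS0 s = 0 := by
  obtain ⟨ψ, hψ⟩ := exists_comp_carrier Xn X0 S0 hSn hS0
  rw [← hψ, AlgHom.comp_apply, hs, map_zero]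

/-- **`hJ₀`**: `Ann_𝕋 A_{Sg} ≤ Ann_𝕋 A_∅` for `𝕋`-modules on which `𝕋` acts faithfully through
`carrier Xn` (at the stage) and through `carrier X0` (at the base). -/
theorem annihilator_le_of_stages
    (Xn : RTData ρbar (condFL 𝒪 p Smin Sg)) (X0 : RTData ρbar (condFL 𝒪 p Smin ∅))
    (S0 : Finset ℕ)
    (hSn : ∀ l : ℕ, l.Prime → l ∉ S0 → ¬ l ∣ Xn.N ∧ l ∉ Xn.S)
    (hS0 : ∀ l : ℕ, l.Prime → l ∉ S0 → ¬ l ∣ X0.N ∧ l ∉ X0.S)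
    {A₀ Aₙ : Type*} [AddCommGroup A₀] [Module (MvPolynomial (PIdx S0) 𝒪) A₀]
    [AddCommGroup Aₙ] [Module (MvPolynomial (PIdx S0) 𝒪) Aₙ]
    (hfaith : ∀ s : MvPolynomial (PIdx S0) 𝒪, (∀ y : Aₙ, s • y = 0) → carrier Xn S0 hSn s = 0)
    (hfac : ∀ s : MvPolynomial (PIdx S0) 𝒪, carrier X0 S0 hS0 s = 0 → ∀ y : A₀, s • y = 0) :
    Module.annihilator (MvPolynomial (PIdx S0) 𝒪) Aₙ ≤
      Module.annihilator (MvPolynomial (PIdx S0) 𝒪) A₀ := by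
  intro s hs
  rw [Module.mem_annihilator] at hs ⊢
  exact hfac s (carrier_eq_zero_of_stage Xn X0 S0 hSn hS0 s (hfaith s hs))

end Fermat.Agent.GE9.PNew.DepthMono
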