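/-
GATE-E / RISK-4 PNEW-STAGE, leaf R4-C, second seat (helper31; first seat helper16 `GE9/PNew/Depth`):
**pushing the universal deformation of an `R = T` stage to an Artinian coefficient ring `B`
(e.g. `B = 𝒪 ⧸ c`) and transferring the point to ANOTHER `R = T` datum** — generic in the two
deformation conditions `𝒟` (the stage, e.g. `condFL 𝒪 p Smin Sg`) and `𝒟₀` (the base, e.g.
`condFL 𝒪 p Smin ∅`).

* `isOfType_push`   : `𝒟 (ρ^univ ⊗_q B)` for every SURJECTIVE `q : D.R →ₐ[𝒪] B` onto an Artinian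
  test algebra — ONE application of the frozen field `IsDeformationCondition.iff_forall_surjective`
  at `A := D.R` (so no atom-by-atom push of det / flat / unramified / unipotent);
* `isOfType_of_push_isEquiv` : the same for any `ρ'` equivalent to the push;
* `exists_algHom_of_push`    : if `ρ'` (equivalent to the push) is ALSO of type `𝒟₀`, the universal
  property of `D₀` gives `f : D₀.R →ₐ[𝒪] B` with `ρ₀^univ ⊗_f B ≃ ρ'`, and the characteristic
  polynomials match for EVERY `σ`;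
* **`exists_point_mod_of_push`** : the `RTData` form — `φ : X.T →ₐ[𝒪] B` onto, `ρ'` over `B` a lift
  of `ρbar` with the Eichler–Shimura polynomials `X² − φ(π T_ℓ) X + ℓ` off a finite set, and
  `𝒟 ρ' → 𝒟₀ ρ'`  ⟹  `∃ ψ : X₀.T →ₐ[𝒪] B` with `charpoly ρ'(Frob_ℓ) = X² − ψ(π₀ T_ℓ) X + ℓ` for every
  `ℓ ∤ N₀`, `ℓ ∉ S₀`.
* `isArtinianTestAlgebra_quot_of_ne_bot` : `𝒪 ⧸ c` is an Artinian test algebra for `c ≠ ⊥`.
-/
import Mathlib
import Fermat.Agent.GE9.CotGrowth.Same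
import Fermat.Agent.GP.Tan.UnivInj
import Fermat.Agent.S53.TestAlgBasic
import Fermat.Agent.S53.DictData

set_option autoImplicit false
set_option linter.unusedSectionVars false
set_option linter.unusedVariables false
set_option linter.style.haveILetI false

namespace Fermat.Agent.GE9.PNew.DepthPush

open IsLocalRing Polynomial GaloisRep CuspForm
open Fermat.Agent.GE.Graph

/-- `G_ℚ`. -/
local notation "GQ" => (AlgebraicClosure ℚ ≃ₐ[ℚ] AlgebraicClosure ℚ)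
local notation "Qb" => AlgebraicClosure ℚ

section Generic

variable {𝒪 : Type} [CommRing 𝒪] [IsDomain 𝒪] [IsDiscreteValuationRing 𝒪]
  [IsAdicComplete (maximalIdeal 𝒪) 𝒪]
  {ρbar : ResidualGaloisRep (ResidueField 𝒪)}
  {𝒟 𝒟₀ : ∀ ⦃A : Type⦄ [CommRing A] [IsLocalRing A] [Algebra 𝒪 A], GaloisRepAdic A → Prop}

/-- **the push of the universal deformation along a surjection onto an Artinian test algebra is
of type `𝒟`.** -/
theorem isOfType_push (h𝒟 : IsDeformationCondition 𝒪 𝒟) (D : DeformationRingData 𝒪 ρbar 𝒟)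
    {B : Type} [CommRing B] [IsLocalRing B] [Algebra 𝒪 B] (hB : IsArtinianTestAlgebra 𝒪 B)
    (q : D.R →ₐ[𝒪] B) (hq : IsLocalHom (q : D.R →+* B)) (hsurj : Function.Surjective q) :
    𝒟 (D.ρ.baseChangeAlong (q : D.R →+* B) hq) :=
  (h𝒟.iff_forall_surjective (A := D.R) inferInstance D.residue_surjective D.ρ).mp D.isOfType
    hB q hq hsurj

/-- the same for any representation equivalent to the push. -/
theorem isOfType_of_push_isEquiv (h𝒟 : IsDeformationCondition 𝒪 𝒟)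
    (D : DeformationRingData 𝒪 ρbar 𝒟)
    {B : Type} [CommRing B] [IsLocalRing B] [Algebra 𝒪 B] (hB : IsArtinianTestAlgebra 𝒪 B)
    (q : D.R →ₐ[𝒪] B) (hq : IsLocalHom (q : D.R →+* B)) (hsurj : Function.Surjective q)
    {ρ' : GaloisRepAdic B} (he : (D.ρ.baseChangeAlong (q : D.R →+* B) hq).IsEquiv ρ') : 𝒟 ρ' :=
  h𝒟.of_isEquiv hB he (isOfType_push h𝒟 D hB q hq hsurj)

/-- **transfer of a point**: if a representation `ρ'` over `B`, equivalent to the push of the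
universal deformation of `D`, is also of type `𝒟₀`, it is the push of the universal deformation
of `D₀` along some `f`; the characteristic polynomials match for every `σ`. -/
theorem exists_algHom_of_push (h𝒟 : IsDeformationCondition 𝒪 𝒟)
    (D : DeformationRingData 𝒪 ρbar 𝒟) (D₀ : DeformationRingData 𝒪 ρbar 𝒟₀)
    {B : Type} [CommRing B] [IsLocalRing B] [IsNoetherianRing B]
    [IsAdicComplete (maximalIdeal B) B] [Algebra 𝒪 B] [IsLocalHom (algebraMap 𝒪 B)]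
    (hB : IsArtinianTestAlgebra 𝒪 B)
    (q : D.R →ₐ[𝒪] B) (hq : IsLocalHom (q : D.R →+* B)) (hsurj : Function.Surjective q)
    {ρ' : GaloisRepAdic B} (he : (D.ρ.baseChangeAlong (q : D.R →+* B) hq).IsEquiv ρ')
    (hstep : 𝒟 ρ' → 𝒟₀ ρ') :
    ∃ (f : D₀.R →ₐ[𝒪] B) (hf : IsLocalHom (f : D₀.R →+* B)),
      (D₀.ρ.baseChangeAlong (f : D₀.R →+* B) hf).IsEquiv ρ' ∧
      ∀ σ : GQ, (LinearMap.charpoly (D₀.ρ.ρ σ)).map (f : D₀.R →+* B) =
        (LinearMap.charpoly (D.ρ.ρ σ)).map (q : D.R →+* B) := by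
  have h1 : 𝒟 ρ' := isOfType_of_push_isEquiv h𝒟 D hB q hq hsurj he
  have hres0 := Fermat.Agent.GP.Tan.UnivInj.residual_baseChangeAlong_univ D q hq
  have hres : ρ'.residual.IsEquiv
      (ρbar.baseChangeAlong (ResidueField.map (algebraMap 𝒪 B))) :=
    Fermat.Agent.S53.DictData.res_isEquiv_trans
      (Fermat.Agent.S53.DictData.residual_isEquiv_of_isEquiv
        (Fermat.Agent.S53.DictData.isEquiv_symm he)) hres0
  obtain ⟨f, ⟨hf, hfe⟩, -⟩ := D₀.universal B hB.residue_surjective ρ' (hstep h1) hres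
  refine ⟨f, hf, hfe, fun σ => ?_⟩
  rw [← charpoly_baseChangeAlongE (f : D₀.R →+* B) hf D₀.ρ σ,
    ← charpoly_baseChangeAlongE (q : D.R →+* B) hq D.ρ σ,
    charpoly_eq_of_isEquivE hfe σ, charpoly_eq_of_isEquivE he σ]

end Generic

section RT

variable {𝒪 : Type} [CommRing 𝒪] [IsDomain 𝒪] [IsDiscreteValuationRing 𝒪]
  [IsAdicComplete (maximalIdeal 𝒪) 𝒪]
  {ρbar : ResidualGaloisRep (ResidueField 𝒪)}
  {𝒟 𝒟₀ : DefCondE 𝒪}

/-- the Eichler–Shimura polynomial of an `R = T` datum, read on the universal deformation. -/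
theorem charpoly_univ_map (X' : RTData ρbar 𝒟) (ℓ : ℕ) (hℓ : ℓ.Prime) (hℓN : ¬ ℓ ∣ X'.N)
    (hℓS : ℓ ∉ X'.S) (P : ValuationSubring Qb) (hP : P.LiesOverPrime ℓ) (σ : GQ)
    (hσ : P.IsFrobeniusAt σ ℓ) :
    (LinearMap.charpoly (X'.D.ρ.ρ σ)).map (X'.φ : X'.D.R →+* X'.T) =
      X ^ 2 - C (X'.π (heckeAlgebra.T hℓ hℓN hℓS)) * X + C ((ℓ : X'.T)) := by
  have h1 := X'.charpoly_frob ℓ hℓ hℓN hℓS P hP σ hσ
  rw [← charpoly_eq_of_isEquivE X'.φ_ρ σ, charpoly_baseChangeAlongE] at h1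
  exact h1

/-- **R4-C, generic form**: a point `φ : X.T → B` of a stage `X` (type `𝒟`) with values in an
Artinian test algebra `B`, whose representation `ρ'` is also of type `𝒟₀`, comes from a point
`ψ : X₀.T → B` of the datum `X₀` (type `𝒟₀`). -/
theorem exists_point_mod_of_push (h𝒟 : IsDeformationCondition 𝒪 𝒟)
    (X' : RTData ρbar 𝒟) (X₀ : RTData ρbar 𝒟₀)
    {B : Type} [CommRing B] [IsLocalRing B] [IsNoetherianRing B]
    [IsAdicComplete (maximalIdeal B) B] [Algebra 𝒪 B] [IsLocalHom (algebraMap 𝒪 B)]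
    (hB : IsArtinianTestAlgebra 𝒪 B)
    (φ : X'.T →ₐ[𝒪] B) (hφ : Function.Surjective φ)
    (ρ' : GaloisRepAdic B)
    (hρ' : ρ'.residual.IsEquiv (ρbar.baseChangeAlong (ResidueField.map (algebraMap 𝒪 B))))
    (Bad : Finset ℕ) (hBad : ∀ ℓ : ℕ, ℓ.Prime → ℓ ∉ Bad → ¬ ℓ ∣ X'.N ∧ ℓ ∉ X'.S)
    (hfrob : ∀ (ℓ : ℕ) (hℓ : ℓ.Prime) (hℓB : ℓ ∉ Bad) (P : ValuationSubring Qb),
      P.LiesOverPrime ℓ → ∀ σ : GQ, P.IsFrobeniusAt σ ℓ →
        LinearMap.charpoly (ρ'.ρ σ) =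
          X ^ 2 - C (φ (X'.π (heckeAlgebra.T hℓ (hBad ℓ hℓ hℓB).1 (hBad ℓ hℓ hℓB).2))) * X +
            C ((ℓ : B)))
    (hstep : 𝒟 ρ' → 𝒟₀ ρ') :
    ∃ ψ : X₀.T →ₐ[𝒪] B,
      ∀ (ℓ : ℕ) (hℓ : ℓ.Prime) (hℓN : ¬ ℓ ∣ X₀.N) (hℓS : ℓ ∉ X₀.S) (P : ValuationSubring Qb),
        P.LiesOverPrime ℓ → ∀ σ : GQ, P.IsFrobeniusAt σ ℓ →
          LinearMap.charpoly (ρ'.ρ σ) =
            X ^ 2 - C (ψ (X₀.π (heckeAlgebra.T hℓ hℓN hℓS))) * X + C ((ℓ : B)) := by
  -- the composite `q : D.R → T → B`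
  set q : X'.D.R →ₐ[𝒪] B := φ.comp X'.φ with hqdef
  have hq : IsLocalHom (q : X'.D.R →+* B) :=
    Fermat.Agent.GP.Tan.UnivInj.isLocalHom_of_residue_cover hB.residue_surjective q
  have hqsurj : Function.Surjective q := by
    intro b
    obtain ⟨t, rfl⟩ := hφ b
    obtain ⟨r, rfl⟩ := X'.φ_bijective.2 t
    exact ⟨r, rfl⟩
  -- the push is equivalent to `ρ'` (Chebotarev + Carayol)
  have hres0 := Fermat.Agent.GP.Tan.UnivInj.residual_baseChangeAlong_univ X'.D q hq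
  have he : (X'.D.ρ.baseChangeAlong (q : X'.D.R →+* B) hq).IsEquiv ρ' := by
    refine Fermat.Agent.GE9.CotGrowth.isEquiv_of_charpoly_frob_eq _ _ ρbar X'.D.absIrr
      (ResidueField.map (algebraMap 𝒪 B)) hres0 hρ' Bad ?_
    intro ℓ hℓ hℓB P hP σ hσ
    rw [hfrob ℓ hℓ hℓB P hP σ hσ, charpoly_baseChangeAlongE]
    have h1 := charpoly_univ_map X' ℓ hℓ (hBad ℓ hℓ hℓB).1 (hBad ℓ hℓ hℓB).2 P hP σ hσ
    have h2 : (q : X'.D.R →+* B) = (φ : X'.T →+* B).comp (X'.φ : X'.D.R →+* X'.T) := rfl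
    rw [h2, ← Polynomial.map_map, h1]
    simp only [Polynomial.map_sub, Polynomial.map_add, Polynomial.map_mul, Polynomial.map_pow,
      Polynomial.map_X, Polynomial.map_C, map_natCast, Polynomial.map_natCast, RingHom.coe_coe]
  -- transfer to `D₀`
  obtain ⟨f, hf, hfe, -⟩ := exists_algHom_of_push h𝒟 X'.D X₀.D hB q hq hqsurj he hstep
  let e₀ : X₀.D.R ≃ₐ[𝒪] X₀.T := AlgEquiv.ofBijective X₀.φ X₀.φ_bijective
  refine ⟨f.comp (e₀.symm : X₀.T →ₐ[𝒪] X₀.D.R), fun ℓ hℓ hℓN hℓS P hP σ hσ => ?_⟩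
  have h1 := charpoly_univ_map X₀ ℓ hℓ hℓN hℓS P hP σ hσ
  have h2 : LinearMap.charpoly (ρ'.ρ σ) =
      (LinearMap.charpoly (X₀.D.ρ.ρ σ)).map (f : X₀.D.R →+* B) := by
    rw [← charpoly_eq_of_isEquivE hfe σ, charpoly_baseChangeAlongE]
  have h3 : (f : X₀.D.R →+* B) =
      ((f.comp (e₀.symm : X₀.T →ₐ[𝒪] X₀.D.R) : X₀.T →ₐ[𝒪] B) : X₀.T →+* B).comp
        (X₀.φ : X₀.D.R →+* X₀.T) := by
    ext x
    show f x = f (e₀.symm (e₀ x))
    rw [AlgEquiv.symm_apply_apply]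
  rw [h2, h3, ← Polynomial.map_map, h1]
  simp only [Polynomial.map_sub, Polynomial.map_add, Polynomial.map_mul, Polynomial.map_pow,
    Polynomial.map_X, Polynomial.map_C, map_natCast, Polynomial.map_natCast, RingHom.coe_coe]

end RT

section Quot

variable (𝒪 : Type) [CommRing 𝒪] [IsDomain 𝒪] [IsDiscreteValuationRing 𝒪]

/-- `𝒪 ⧸ c` is an Artinian test algebra for a nonzero ideal `c` of a discrete valuation ring. -/
theorem isArtinianTestAlgebra_quot_of_ne_bot (c : Ideal 𝒪) (hc : c ≠ ⊥)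
    [IsLocalRing (𝒪 ⧸ c)] : IsArtinianTestAlgebra 𝒪 (𝒪 ⧸ c) := by
  haveI : IsLocalHom (algebraMap 𝒪 𝒪) := ⟨fun _ h => h⟩
  refine Fermat.Agent.S53.isArtinianTestAlgebra_quotient 𝒪 (A := 𝒪) ?_ c ?_
  · intro y
    obtain ⟨x, rfl⟩ := residue_surjective y
    exact ⟨x, rfl⟩
  · obtain ⟨n, hn⟩ := (IsDiscreteValuationRing.ideal_eq_span_pow_irreducible hc
      (IsDiscreteValuationRing.exists_irreducible 𝒪).choose_spec)
    refine ⟨n, ?_⟩
    rw [hn, (IsDiscreteValuationRing.irreducible_iff_uniformizer _).mp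
      (IsDiscreteValuationRing.exists_irreducible 𝒪).choose_spec, Ideal.span_singleton_pow]

end Quot

end Fermat.Agent.GE9.PNew.DepthPush
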