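/-
GATE-E / S59, RISK-4 = PNEW-STAGE (helper16): **R4-C RELATIVE to an arbitrary smaller stage `Sg'`**
(answers helper31's seam report 7724 (α): the chain `hJ₀ : Ann A_{n-1} ≤ Ann A_∅` is NOT needed).

Same statements and proofs as `GE9/PNew/Depth` + `DepthPlug` + `DepthBase` with the minimal flat
datum `X_0 : RTData ρbar (condFL 𝒪 p Smin ∅)` replaced by ANY flat datum
`X' : RTData ρbar (condFL 𝒪 p Smin Sg')`; `ρ_g` is asked to be unramified at the primes of `Sg`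
outside `Smin ∪ Sg'`.  With `Sg' := Σ_{n-1}`, `Sg := Σ_n` the conclusion
`g (Ann_𝕋 A_{n-1}) ≤ g (Ann_𝕋 A_n)` is the binder `hJ` of `KerHecke.card_congMod_ker_growth_hecke`
for `J := Ann_𝕋 A_{n-1}` DIRECTLY (`DepthAnn.hJ_of_depth _ this J le_rfl`).

* `condFL_of_unramified`;
* `exists_hom_of_univ_rel`, `exists_point_mod_of_stage_rel`, `exists_point_mod_ideal_rel`;
* `pointAt_of_stage_rel`, `pointsHyp_of_stage_rel`, `map_annihilator_le_of_stage_rel`;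
* **`pointsHyp_of_base_rel`**, **`map_annihilator_le_of_base_rel`** (base point from the SO datum).
-/
import Mathlib
import Fermat.Agent.GE9.PNew.DepthBase

set_option autoImplicit false
set_option linter.unusedSectionVars false
set_option linter.style.haveILetI false

namespace Fermat.Agent.GE9.PNew.DepthRel

open IsLocalRing Polynomial CuspForm Fermat.Agent.GE.Graph Fermat.Agent.GE9.CotGrowth
  Fermat.Agent.GE9.PNew.Depth Fermat.Agent.GE9.PNew.DepthAnn Fermat.Agent.GE9.PNew.DepthPlug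
  Fermat.Agent.GE9.PNew.DepthBase

/-- `G_ℚ`. -/
local notation "GQ" => (AlgebraicClosure ℚ ≃ₐ[ℚ] AlgebraicClosure ℚ)

/-- `ℚ̄`. -/
local notation "Qb" => AlgebraicClosure ℚ

section Cond

variable {𝒪 : Type} [CommRing 𝒪] {p : ℕ} {Smin Sg Sg' : Finset ℕ}
  {A : Type} [CommRing A] [IsLocalRing A] [Algebra 𝒪 A]

/-- `𝒟^{fl}_{Sg}` + unramified at `Sg ∖ (Smin ∪ Sg')` ⟹ `𝒟^{fl}_{Sg'}`. -/
theorem condFL_of_unramified {ρ : GaloisRepAdic A} (h : condFL 𝒪 p Smin Sg ρ)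
    (hunr : ∀ q ∈ Sg, q.Prime → q ∉ Smin → q ∉ Sg' → ρ.IsUnramifiedAt q) :
    condFL 𝒪 p Smin Sg' ρ := by
  refine ⟨⟨h.1.1, h.1.2.1, fun q hq hqS => ?_⟩, h.2⟩
  have hq1 : q ∉ Smin := fun h1 => hqS (Finset.mem_union_left _ h1)
  have hq2 : q ∉ Sg' := fun h1 => hqS (Finset.mem_union_right _ h1)
  by_cases hqSg : q ∈ Sg
  · exact hunr q hqSg hq hq1 hq2
  · refine h.1.2.2 q hq fun hmem => ?_
    rcases Finset.mem_union.mp hmem with h1 | h1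
    · exact hq1 h1
    · exact hqSg h1

end Cond

/-! ### universal rings and `R = T` data -/

section Core

variable {𝒪 : Type} [CommRing 𝒪] [IsDomain 𝒪] [IsDiscreteValuationRing 𝒪]
  [IsAdicComplete (maximalIdeal 𝒪) 𝒪]
  {ρbar : ResidualGaloisRep (ResidueField 𝒪)} {p : ℕ} {Smin Sg Sg' : Finset ℕ}
  {A : Type} [CommRing A] [IsLocalRing A] [IsNoetherianRing A]
  [IsAdicComplete (maximalIdeal A) A] [Algebra 𝒪 A] [IsLocalHom (algebraMap 𝒪 A)]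

/-- **R4-C on universal rings, relative form.** -/
theorem exists_hom_of_univ_rel
    (Dn : GaloisRep.DeformationRingData 𝒪 ρbar (condFL 𝒪 p Smin Sg))
    (D' : GaloisRep.DeformationRingData 𝒪 ρbar (condFL 𝒪 p Smin Sg'))
    (hA : Function.Surjective (algebraMap 𝒪 A))
    (ρg : GaloisRepAdic 𝒪)
    (hres : ρg.residual.IsEquiv (ρbar.baseChangeAlong (ResidueField.map (algebraMap 𝒪 𝒪))))
    (hunr : ∀ q ∈ Sg, q.Prime → q ∉ Smin → q ∉ Sg' → ρg.IsUnramifiedAt q)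
    (f : Dn.R →ₐ[𝒪] A) (hf : IsLocalHom (f : Dn.R →+* A)) (B : Finset ℕ)
    (hfrob : ∀ ℓ : ℕ, ℓ.Prime → ℓ ∉ B → ∀ P : ValuationSubring Qb, P.LiesOverPrime ℓ →
      ∀ σ : GQ, P.IsFrobeniusAt σ ℓ →
        LinearMap.charpoly ((Dn.ρ.baseChangeAlong (f : Dn.R →+* A) hf).ρ σ) =
          (LinearMap.charpoly (ρg.ρ σ)).map (algebraMap 𝒪 A)) :
    ∃ (f0 : D'.R →ₐ[𝒪] A) (hf0 : IsLocalHom (f0 : D'.R →+* A)),
      (D'.ρ.baseChangeAlong (f0 : D'.R →+* A) hf0).IsEquiv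
        (ρg.baseChangeAlong (algebraMap 𝒪 A) inferInstance) := by
  have hAres := residue_cover_of_surjective (𝒪 := 𝒪) (A := A) hA
  have hresA := residual_baseChange_point (A := A) ρg hres
  have hresf := Fermat.Agent.GP.Tan.UnivInj.residual_baseChangeAlong_univ Dn f hf
  have heq : (Dn.ρ.baseChangeAlong (f : Dn.R →+* A) hf).IsEquiv
      (ρg.baseChangeAlong (algebraMap 𝒪 A) inferInstance) := by
    refine isEquiv_of_charpoly_frob_eq _ _ ρbar Dn.absIrr (ResidueField.map (algebraMap 𝒪 A))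
      hresf hresA B fun ℓ hℓ hℓB P hP σ hσ => ?_
    rw [hfrob ℓ hℓ hℓB P hP σ hσ, charpoly_baseChangeAlongE]
  have hfs : Function.Surjective (f : Dn.R →+* A) := fun a => by
    obtain ⟨x, rfl⟩ := hA a
    exact ⟨algebraMap 𝒪 Dn.R x, f.commutes x⟩
  have h𝒟n : condFL 𝒪 p Smin Sg (Dn.ρ.baseChangeAlong (f : Dn.R →+* A) hf) :=
    condFL_baseChangeAlong_of_surjective (f : Dn.R →+* A) hf hfs Dn.isOfType
  have h𝒟g : condFL 𝒪 p Smin Sg (ρg.baseChangeAlong (algebraMap 𝒪 A) inferInstance) :=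
    condFL_of_isEquiv heq h𝒟n
  have h𝒟0 : condFL 𝒪 p Smin Sg' (ρg.baseChangeAlong (algebraMap 𝒪 A) inferInstance) :=
    condFL_of_unramified h𝒟g fun q hq hqp hqS hqS' =>
      Fermat.Agent.GP.Tan.isUnramifiedAt_baseChangeAlong _ _ (hunr q hq hqp hqS hqS')
  obtain ⟨f0, ⟨hf0, he0⟩, -⟩ := D'.universal A hAres _ h𝒟0 hresA
  exact ⟨f0, hf0, he0⟩

/-- **R4-C, relative form**: `X_n` at `Sg`, `X'` at `Sg'`. -/
theorem exists_point_mod_of_stage_rel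
    (Xn : RTData ρbar (condFL 𝒪 p Smin Sg)) (X' : RTData ρbar (condFL 𝒪 p Smin Sg'))
    (hA : Function.Surjective (algebraMap 𝒪 A))
    (ρg : GaloisRepAdic 𝒪)
    (hres : ρg.residual.IsEquiv (ρbar.baseChangeAlong (ResidueField.map (algebraMap 𝒪 𝒪))))
    (hunr : ∀ q ∈ Sg, q.Prime → q ∉ Smin → q ∉ Sg' → ρg.IsUnramifiedAt q)
    (φ : Xn.T →ₐ[𝒪] A) (B : Finset ℕ)
    (hB : ∀ ℓ : ℕ, ℓ.Prime → ℓ ∉ B → ¬ ℓ ∣ Xn.N ∧ ℓ ∉ Xn.S)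
    (hφ : ∀ (ℓ : ℕ) (hℓ : ℓ.Prime) (hℓN : ¬ ℓ ∣ Xn.N) (hℓS : ℓ ∉ Xn.S), ℓ ∉ B →
      ∀ P : ValuationSubring Qb, P.LiesOverPrime ℓ → ∀ σ : GQ, P.IsFrobeniusAt σ ℓ →
        (LinearMap.charpoly (ρg.ρ σ)).map (algebraMap 𝒪 A) =
          X ^ 2 - C (φ (Xn.π (heckeAlgebra.T hℓ hℓN hℓS))) * X + C ((ℓ : A))) :
    ∃ ψ : X'.T →ₐ[𝒪] A,
      ∀ (ℓ : ℕ) (hℓ : ℓ.Prime) (hℓN : ¬ ℓ ∣ X'.N) (hℓS : ℓ ∉ X'.S),
        ∀ P : ValuationSubring Qb, P.LiesOverPrime ℓ → ∀ σ : GQ, P.IsFrobeniusAt σ ℓ →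
          (LinearMap.charpoly (ρg.ρ σ)).map (algebraMap 𝒪 A) =
            X ^ 2 - C (ψ (X'.π (heckeAlgebra.T hℓ hℓN hℓS))) * X + C ((ℓ : A)) := by
  have hAres := residue_cover_of_surjective (𝒪 := 𝒪) (A := A) hA
  have hf : IsLocalHom ((φ.comp Xn.φ : Xn.D.R →ₐ[𝒪] A) : Xn.D.R →+* A) :=
    Fermat.Agent.GP.Tan.UnivInj.isLocalHom_of_residue_cover hAres _
  obtain ⟨f0, hf0, he0⟩ := exists_hom_of_univ_rel Xn.D X'.D hA ρg hres hunr (φ.comp Xn.φ) hf B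
    (fun ℓ hℓ hℓB P hP σ hσ => by
      obtain ⟨hℓN, hℓS⟩ := hB ℓ hℓ hℓB
      rw [charpoly_point Xn φ hf ℓ hℓ hℓN hℓS P hP σ hσ, hφ ℓ hℓ hℓN hℓS hℓB P hP σ hσ])
  let e0 : X'.D.R ≃ₐ[𝒪] X'.T := AlgEquiv.ofBijective X'.φ X'.φ_bijective
  let ψ : X'.T →ₐ[𝒪] A := f0.comp (e0.symm : X'.T →ₐ[𝒪] X'.D.R)
  have hψφ : ψ.comp X'.φ = f0 := by
    ext x
    show f0 (e0.symm (e0 x)) = f0 x
    rw [AlgEquiv.symm_apply_apply]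
  have hψ : IsLocalHom ((ψ.comp X'.φ : X'.D.R →ₐ[𝒪] A) : X'.D.R →+* A) := by
    rw [hψφ]; exact hf0
  refine ⟨ψ, fun ℓ hℓ hℓN hℓS P hP σ hσ => ?_⟩
  rw [← charpoly_point X' ψ hψ ℓ hℓ hℓN hℓS P hP σ hσ]
  have h1 : LinearMap.charpoly ((X'.D.ρ.baseChangeAlong
      ((ψ.comp X'.φ : X'.D.R →ₐ[𝒪] A) : X'.D.R →+* A) hψ).ρ σ) =
      LinearMap.charpoly ((X'.D.ρ.baseChangeAlong (f0 : X'.D.R →+* A) hf0).ρ σ) := by
    rw [charpoly_baseChangeAlongE, charpoly_baseChangeAlongE, hψφ]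
  rw [h1, charpoly_eq_of_isEquivE he0 σ, charpoly_baseChangeAlongE]

end Core

section Ideal

variable {𝒪 : Type} [CommRing 𝒪] [IsDomain 𝒪] [IsDiscreteValuationRing 𝒪]
  [IsAdicComplete (maximalIdeal 𝒪) 𝒪]
  {ρbar : ResidualGaloisRep (ResidueField 𝒪)} {p : ℕ} {Smin Sg Sg' : Finset ℕ}

/-- **R4-C, relative form, at `A = 𝒪 ⧸ c`**, `c` a proper ideal. -/
theorem exists_point_mod_ideal_rel
    (Xn : RTData ρbar (condFL 𝒪 p Smin Sg)) (X' : RTData ρbar (condFL 𝒪 p Smin Sg'))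
    (c : Ideal 𝒪) (hc : c ≠ ⊤)
    (ρg : GaloisRepAdic 𝒪)
    (hres : ρg.residual.IsEquiv (ρbar.baseChangeAlong (ResidueField.map (algebraMap 𝒪 𝒪))))
    (hunr : ∀ q ∈ Sg, q.Prime → q ∉ Smin → q ∉ Sg' → ρg.IsUnramifiedAt q)
    (φ : Xn.T →ₐ[𝒪] 𝒪 ⧸ c) (B : Finset ℕ)
    (hB : ∀ ℓ : ℕ, ℓ.Prime → ℓ ∉ B → ¬ ℓ ∣ Xn.N ∧ ℓ ∉ Xn.S)
    (hφ : ∀ (ℓ : ℕ) (hℓ : ℓ.Prime) (hℓN : ¬ ℓ ∣ Xn.N) (hℓS : ℓ ∉ Xn.S), ℓ ∉ B →
      ∀ P : ValuationSubring Qb, P.LiesOverPrime ℓ → ∀ σ : GQ, P.IsFrobeniusAt σ ℓ →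
        (LinearMap.charpoly (ρg.ρ σ)).map (algebraMap 𝒪 (𝒪 ⧸ c)) =
          X ^ 2 - C (φ (Xn.π (heckeAlgebra.T hℓ hℓN hℓS))) * X + C ((ℓ : 𝒪 ⧸ c))) :
    ∃ ψ : X'.T →ₐ[𝒪] 𝒪 ⧸ c,
      ∀ (ℓ : ℕ) (hℓ : ℓ.Prime) (hℓN : ¬ ℓ ∣ X'.N) (hℓS : ℓ ∉ X'.S),
        ∀ P : ValuationSubring Qb, P.LiesOverPrime ℓ → ∀ σ : GQ, P.IsFrobeniusAt σ ℓ →
          (LinearMap.charpoly (ρg.ρ σ)).map (algebraMap 𝒪 (𝒪 ⧸ c)) =
            X ^ 2 - C (ψ (X'.π (heckeAlgebra.T hℓ hℓN hℓS))) * X + C ((ℓ : 𝒪 ⧸ c)) := by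
  haveI : IsLocalRing (𝒪 ⧸ c) := Fermat.Agent.S53_helper15.isLocalRing_quotient c hc
  haveI : IsAdicComplete (maximalIdeal (𝒪 ⧸ c)) (𝒪 ⧸ c) :=
    Fermat.Agent.S53_helper15.isAdicComplete_quotient c
  haveI : IsLocalHom (algebraMap 𝒪 (𝒪 ⧸ c)) :=
    Fermat.Agent.S53_helper15.isLocalHom_quotient_mk c hc
  exact exists_point_mod_of_stage_rel Xn X' Ideal.Quotient.mk_surjective ρg hres hunr φ B hB hφ

/-- **R4-C ⟹ `PointAt`, relative form.** -/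
theorem pointAt_of_stage_rel
    (Xn : RTData ρbar (condFL 𝒪 p Smin Sg)) (X' : RTData ρbar (condFL 𝒪 p Smin Sg'))
    (S0 : Finset ℕ)
    (hSn : ∀ l : ℕ, l.Prime → l ∉ S0 → ¬ l ∣ Xn.N ∧ l ∉ Xn.S)
    (hS' : ∀ l : ℕ, l.Prime → l ∉ S0 → ¬ l ∣ X'.N ∧ l ∉ X'.S)
    (ρg : GaloisRepAdic 𝒪)
    (hres : ρg.residual.IsEquiv (ρbar.baseChangeAlong (ResidueField.map (algebraMap 𝒪 𝒪))))
    (hunr : ∀ q ∈ Sg, q.Prime → q ∉ Smin → q ∉ Sg' → ρg.IsUnramifiedAt q)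
    (lam : PIdx S0 → 𝒪)
    (hlam : ∀ (l : PIdx S0) (P : ValuationSubring Qb), P.LiesOverPrime l → ∀ σ : GQ,
      P.IsFrobeniusAt σ l →
        LinearMap.charpoly (ρg.ρ σ) = X ^ 2 - C (lam l) * X + C (((l : ℕ) : 𝒪)))
    (c : Ideal 𝒪) (hc : c ≠ ⊤) :
    PointAt (MvPolynomial.aeval lam : MvPolynomial (PIdx S0) 𝒪 →ₐ[𝒪] 𝒪)
      (MvPolynomial.X : PIdx S0 → MvPolynomial (PIdx S0) 𝒪)
      (carrier X' S0 hS') (carrier Xn S0 hSn) c := by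
  intro φ hφ
  have hmap : ∀ (l : PIdx S0) (P : ValuationSubring Qb), P.LiesOverPrime l → ∀ σ : GQ,
      P.IsFrobeniusAt σ l →
        (LinearMap.charpoly (ρg.ρ σ)).map (algebraMap 𝒪 (𝒪 ⧸ c)) =
          X ^ 2 - C (Ideal.Quotient.mk c (lam l)) * X + C (((l : ℕ) : 𝒪 ⧸ c)) := by
    intro l P hP σ hσ
    rw [hlam l P hP σ hσ]
    simp only [Polynomial.map_sub, Polynomial.map_add, Polynomial.map_mul, Polynomial.map_pow,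
      Polynomial.map_X, Polynomial.map_C, map_natCast, Polynomial.map_natCast,
      Ideal.Quotient.algebraMap_eq]
  obtain ⟨ψ, hψ⟩ := exists_point_mod_ideal_rel Xn X' c hc ρg hres hunr φ S0 hSn
    (fun ℓ hℓ hℓN hℓS hℓB P hP σ hσ => by
      have h1 := hmap ⟨ℓ, hℓ, hℓB⟩ P hP σ hσ
      have h2 := hφ ⟨ℓ, hℓ, hℓB⟩
      rw [carrier_X, MvPolynomial.aeval_X] at h2
      rw [h1, ← h2])
  refine ⟨ψ, fun l => ?_⟩
  obtain ⟨P, σ, hP, hσ⟩ := Fermat.Agent.Common_helper32.exists_isFrobeniusAt l l.2.1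
  have h1 := hmap l P hP σ hσ
  have h2 := hψ l l.2.1 (hS' l l.2.1 l.2.2).1 (hS' l l.2.1 l.2.2).2 P hP σ hσ
  rw [h1] at h2
  have h3 := congrArg (fun f : (𝒪 ⧸ c)[X] => f.coeff 1) h2
  simp only [coeff_one_quadratic, neg_inj] at h3
  rw [carrier_X, MvPolynomial.aeval_X]
  exact h3.symm

/-- **R4-C ⟹ `PointsHyp`, relative form.** -/
theorem pointsHyp_of_stage_rel
    (Xn : RTData ρbar (condFL 𝒪 p Smin Sg)) (X' : RTData ρbar (condFL 𝒪 p Smin Sg'))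
    (S0 : Finset ℕ)
    (hSn : ∀ l : ℕ, l.Prime → l ∉ S0 → ¬ l ∣ Xn.N ∧ l ∉ Xn.S)
    (hS' : ∀ l : ℕ, l.Prime → l ∉ S0 → ¬ l ∣ X'.N ∧ l ∉ X'.S)
    (ρg : GaloisRepAdic 𝒪)
    (hres : ρg.residual.IsEquiv (ρbar.baseChangeAlong (ResidueField.map (algebraMap 𝒪 𝒪))))
    (hunr : ∀ q ∈ Sg, q.Prime → q ∉ Smin → q ∉ Sg' → ρg.IsUnramifiedAt q)
    (lam : PIdx S0 → 𝒪)
    (hlam : ∀ (l : PIdx S0) (P : ValuationSubring Qb), P.LiesOverPrime l → ∀ σ : GQ,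
      P.IsFrobeniusAt σ l →
        LinearMap.charpoly (ρg.ρ σ) = X ^ 2 - C (lam l) * X + C (((l : ℕ) : 𝒪))) :
    PointsHyp (MvPolynomial.aeval lam : MvPolynomial (PIdx S0) 𝒪 →ₐ[𝒪] 𝒪)
      (MvPolynomial.X : PIdx S0 → MvPolynomial (PIdx S0) 𝒪)
      (carrier X' S0 hS') (carrier Xn S0 hSn) :=
  fun c hc => pointAt_of_stage_rel Xn X' S0 hSn hS' ρg hres hunr lam hlam c hc

/-- **depth-ideal monotonicity between two stages**: `g (Ann_𝕋 A') ≤ g (Ann_𝕋 Aₙ)`. -/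
theorem map_annihilator_le_of_stage_rel
    (Xn : RTData ρbar (condFL 𝒪 p Smin Sg)) (X' : RTData ρbar (condFL 𝒪 p Smin Sg'))
    (S0 : Finset ℕ)
    (hSn : ∀ l : ℕ, l.Prime → l ∉ S0 → ¬ l ∣ Xn.N ∧ l ∉ Xn.S)
    (hS' : ∀ l : ℕ, l.Prime → l ∉ S0 → ¬ l ∣ X'.N ∧ l ∉ X'.S)
    (ρg : GaloisRepAdic 𝒪)
    (hres : ρg.residual.IsEquiv (ρbar.baseChangeAlong (ResidueField.map (algebraMap 𝒪 𝒪))))
    (hunr : ∀ q ∈ Sg, q.Prime → q ∉ Smin → q ∉ Sg' → ρg.IsUnramifiedAt q)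
    (lam : PIdx S0 → 𝒪)
    (hlam : ∀ (l : PIdx S0) (P : ValuationSubring Qb), P.LiesOverPrime l → ∀ σ : GQ,
      P.IsFrobeniusAt σ l →
        LinearMap.charpoly (ρg.ρ σ) = X ^ 2 - C (lam l) * X + C (((l : ℕ) : 𝒪)))
    (hπn : Function.Surjective (carrier Xn S0 hSn))
    {A' Aₙ : Type*} [AddCommGroup A'] [Module (MvPolynomial (PIdx S0) 𝒪) A']
    [AddCommGroup Aₙ] [Module (MvPolynomial (PIdx S0) 𝒪) Aₙ]
    (h' : ∀ s : MvPolynomial (PIdx S0) 𝒪, (∀ y : A', s • y = 0) → carrier X' S0 hS' s = 0)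
    (hₙ : ∀ s : MvPolynomial (PIdx S0) 𝒪, carrier Xn S0 hSn s = 0 → ∀ y : Aₙ, s • y = 0) :
    Ideal.map ((MvPolynomial.aeval lam : MvPolynomial (PIdx S0) 𝒪 →ₐ[𝒪] 𝒪) :
        MvPolynomial (PIdx S0) 𝒪 →+* 𝒪) (Module.annihilator (MvPolynomial (PIdx S0) 𝒪) A') ≤
      Ideal.map ((MvPolynomial.aeval lam : MvPolynomial (PIdx S0) 𝒪 →ₐ[𝒪] 𝒪) :
        MvPolynomial (PIdx S0) 𝒪 →+* 𝒪) (Module.annihilator (MvPolynomial (PIdx S0) 𝒪) Aₙ) :=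
  map_annihilator_le_of_points _ _ _ _ (adjoin_X_eq_top S0) hπn
    (pointsHyp_of_stage_rel Xn X' S0 hSn hS' ρg hres hunr lam hlam) h' hₙ

/-- **R4-C ⟹ `PointsHyp`, relative form, base point from the SO side.** -/
theorem pointsHyp_of_base_rel
    (Xn : RTData ρbar (condFL 𝒪 p Smin Sg)) (X' : RTData ρbar (condFL 𝒪 p Smin Sg'))
    (Xso : RTData ρbar (condSO 𝒪 p Smin ∅)) (πO : Xso.T →ₐ[𝒪] 𝒪)
    (S0 : Finset ℕ)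
    (hSn : ∀ l : ℕ, l.Prime → l ∉ S0 → ¬ l ∣ Xn.N ∧ l ∉ Xn.S)
    (hS' : ∀ l : ℕ, l.Prime → l ∉ S0 → ¬ l ∣ X'.N ∧ l ∉ X'.S)
    (hSso : ∀ l : ℕ, l.Prime → l ∉ S0 → ¬ l ∣ Xso.N ∧ l ∉ Xso.S) :
    PointsHyp (MvPolynomial.aeval (lamOf Xso πO S0 hSso) : MvPolynomial (PIdx S0) 𝒪 →ₐ[𝒪] 𝒪)
      (MvPolynomial.X : PIdx S0 → MvPolynomial (PIdx S0) 𝒪)
      (carrier X' S0 hS') (carrier Xn S0 hSn) :=
  pointsHyp_of_stage_rel Xn X' S0 hSn hS' (pointRep Xso πO) (pointRep_residual Xso πO)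
    (fun q _ hq hqS _ => pointRep_unramified Xso πO q hq hqS) (lamOf Xso πO S0 hSso)
    (fun l P hP σ hσ =>
      pointRep_charpoly Xso πO l l.2.1 (hSso l l.2.1 l.2.2).1 (hSso l l.2.1 l.2.2).2 P hP σ hσ)

/-- **`hJ` DIRECTLY** (`A' := A_{n-1}`, `Aₙ := A_n`): `g (Ann_𝕋 A_{n-1}) ≤ g (Ann_𝕋 A_n)`,
base point from the SO side; no chain `Ann A_{n-1} ≤ Ann A_∅` is needed. -/
theorem map_annihilator_le_of_base_rel
    (Xn : RTData ρbar (condFL 𝒪 p Smin Sg)) (X' : RTData ρbar (condFL 𝒪 p Smin Sg'))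
    (Xso : RTData ρbar (condSO 𝒪 p Smin ∅)) (πO : Xso.T →ₐ[𝒪] 𝒪)
    (S0 : Finset ℕ)
    (hSn : ∀ l : ℕ, l.Prime → l ∉ S0 → ¬ l ∣ Xn.N ∧ l ∉ Xn.S)
    (hS' : ∀ l : ℕ, l.Prime → l ∉ S0 → ¬ l ∣ X'.N ∧ l ∉ X'.S)
    (hSso : ∀ l : ℕ, l.Prime → l ∉ S0 → ¬ l ∣ Xso.N ∧ l ∉ Xso.S)
    (hπn : Function.Surjective (carrier Xn S0 hSn))
    {A' Aₙ : Type*} [AddCommGroup A'] [Module (MvPolynomial (PIdx S0) 𝒪) A']
    [AddCommGroup Aₙ] [Module (MvPolynomial (PIdx S0) 𝒪) Aₙ]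
    (h' : ∀ s : MvPolynomial (PIdx S0) 𝒪, (∀ y : A', s • y = 0) → carrier X' S0 hS' s = 0)
    (hₙ : ∀ s : MvPolynomial (PIdx S0) 𝒪, carrier Xn S0 hSn s = 0 → ∀ y : Aₙ, s • y = 0) :
    Ideal.map ((MvPolynomial.aeval (lamOf Xso πO S0 hSso) : MvPolynomial (PIdx S0) 𝒪 →ₐ[𝒪] 𝒪) :
        MvPolynomial (PIdx S0) 𝒪 →+* 𝒪) (Module.annihilator (MvPolynomial (PIdx S0) 𝒪) A') ≤
      Ideal.map ((MvPolynomial.aeval (lamOf Xso πO S0 hSso) : MvPolynomial (PIdx S0) 𝒪 →ₐ[𝒪] 𝒪) :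
        MvPolynomial (PIdx S0) 𝒪 →+* 𝒪) (Module.annihilator (MvPolynomial (PIdx S0) 𝒪) Aₙ) :=
  map_annihilator_le_of_points _ _ _ _ (adjoin_X_eq_top S0) hπn
    (pointsHyp_of_base_rel Xn X' Xso πO S0 hSn hS' hSso) h' hₙ

end Ideal

end Fermat.Agent.GE9.PNew.DepthRel
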