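/-
GATE-E / S59, RISK-4 = PNEW-STAGE (helper16): **R4-C with the base point taken from the CURRENT
strict-ordinary stage** (not from the base stage `Σ = ∅`).

The step supplier of the strict-ordinary chain (`GE/Engine/StepSO.StepSupplySO`, helper33) is
quantified over an ABSTRACT stage `Y : RTNum ρbar (condSO 𝒪 p Smin Sg) d` with the engine's
invariant (`pointChar Y (T_ℓ) = lam ℓ`); the base stage `Y₀` is not in its context.  The depth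
argument only needs a lift `ρ_g` of `ρbar` which is unramified at the NEW prime `q`, with the
Frobenius characteristic polynomials `X² − lam ℓ X + ℓ`: the point of `Y` itself
(`DepthBase.pointRep Y.rt Y.πO`, of type `𝒟^{so}_{Sg}`, `q ∉ Smin ∪ Sg`) does it.

* `pointRep_unramified_stage` : the point of a datum of type `𝒟^{so}_Σ` is unramified outside
  `Smin ∪ Σ`;
* `pointsHyp_of_soStage_rel`, `map_annihilator_le_of_soStage_rel` : `DepthRel.…_of_base_rel` with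
  `Xso : RTData ρbar (condSO 𝒪 p Smin Sig)` for ANY `Sig` disjoint from `Sg ∖ (Smin ∪ Sg')`, and an
  EXPLICIT eigenvalue function `lam` (`hlam : πO (Xso.π T_l) = lam l`);
* **`map_annihilator_le_of_step`** : the step `Sg → insert q Sg` (`X'` at `Sg`, `Xn` at
  `insert q Sg`, `Xso` at `Sg`): `g (Ann_𝕋 A_{Sg}) ≤ g (Ann_𝕋 A_{insert q Sg})` = the binder `hJ` of
  `KerHecke.card_congMod_ker_growth_hecke`;
* **`card_congMod_ker_growth_of_step`** : helper31's `StepGlueRel.card_congMod_ker_growth_of_base_rel`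
  in this form (`#Ω(K_{insert q Sg}) = #Ω(K_{Sg}) · #(𝒪 ⧸ c) ^ d`, `g = aeval lam`).
-/
import Mathlib
import Fermat.Agent.GE9.PNew.DepthRel
import Fermat.Agent.GE9.Eta.KerHeckeProd

set_option autoImplicit false
set_option linter.unusedSectionVars false
set_option linter.unusedVariables false
set_option linter.style.haveILetI false

namespace Fermat.Agent.GE9.PNew.DepthStage

open IsLocalRing Polynomial CuspForm Module Submodule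
open Fermat.Agent.GE.Graph Fermat.Agent.GE9.CotGrowth Fermat.Agent.GE9.Eta
  Fermat.Agent.GE9.PNew.Depth Fermat.Agent.GE9.PNew.DepthAnn Fermat.Agent.GE9.PNew.DepthPlug
  Fermat.Agent.GE9.PNew.DepthBase Fermat.Agent.GE9.PNew.DepthRel

/-- `G_ℚ`. -/
local notation "GQ" => (AlgebraicClosure ℚ ≃ₐ[ℚ] AlgebraicClosure ℚ)

/-- `ℚ̄`. -/
local notation "Qb" => AlgebraicClosure ℚ

variable {𝒪 : Type} [CommRing 𝒪] [IsDomain 𝒪] [IsDiscreteValuationRing 𝒪]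
  [IsAdicComplete (maximalIdeal 𝒪) 𝒪]
  {ρbar : ResidualGaloisRep (ResidueField 𝒪)} {p : ℕ} {Smin Sg Sg' Sig : Finset ℕ}

/-- the point of a datum of type `𝒟^{so}_Σ` is unramified outside `Smin ∪ Σ`. -/
theorem pointRep_unramified_stage (Xso : RTData ρbar (condSO 𝒪 p Smin Sig))
    (πO : Xso.T →ₐ[𝒪] 𝒪) (q : ℕ) (hq : q.Prime) (hqS : q ∉ Smin ∪ Sig) :
    (pointRep Xso πO).IsUnramifiedAt q :=
  (condSO_pointRep Xso πO).1.2.2 q hq hqS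

/-- **R4-C ⟹ `PointsHyp`, relative form, point of ANY strict-ordinary stage**, explicit
eigenvalues. -/
theorem pointsHyp_of_soStage_rel
    (Xn : RTData ρbar (condFL 𝒪 p Smin Sg)) (X' : RTData ρbar (condFL 𝒪 p Smin Sg'))
    (Xso : RTData ρbar (condSO 𝒪 p Smin Sig)) (πO : Xso.T →ₐ[𝒪] 𝒪)
    (S0 : Finset ℕ)
    (hSn : ∀ l : ℕ, l.Prime → l ∉ S0 → ¬ l ∣ Xn.N ∧ l ∉ Xn.S)
    (hS' : ∀ l : ℕ, l.Prime → l ∉ S0 → ¬ l ∣ X'.N ∧ l ∉ X'.S)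
    (hSso : ∀ l : ℕ, l.Prime → l ∉ S0 → ¬ l ∣ Xso.N ∧ l ∉ Xso.S)
    (hdisj : ∀ q ∈ Sg, q.Prime → q ∉ Smin → q ∉ Sg' → q ∉ Sig)
    (lam : PIdx S0 → 𝒪)
    (hlam : ∀ l : PIdx S0, πO (Xso.π (heckeAlgebra.T l.2.1 (hSso l l.2.1 l.2.2).1
      (hSso l l.2.1 l.2.2).2)) = lam l) :
    PointsHyp (MvPolynomial.aeval lam : MvPolynomial (PIdx S0) 𝒪 →ₐ[𝒪] 𝒪)
      (MvPolynomial.X : PIdx S0 → MvPolynomial (PIdx S0) 𝒪)
      (carrier X' S0 hS') (carrier Xn S0 hSn) :=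
  pointsHyp_of_stage_rel Xn X' S0 hSn hS' (pointRep Xso πO) (pointRep_residual Xso πO)
    (fun q hqSg hq hqS hqSg' => pointRep_unramified_stage Xso πO q hq (fun hmem => by
      rcases Finset.mem_union.mp hmem with h1 | h1
      · exact hqS h1
      · exact hdisj q hqSg hq hqS hqSg' h1)) lam
    (fun l P hP σ hσ => by
      rw [← hlam l]
      exact pointRep_charpoly Xso πO l l.2.1 (hSso l l.2.1 l.2.2).1 (hSso l l.2.1 l.2.2).2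
        P hP σ hσ)

/-- **depth-ideal monotonicity, point of ANY strict-ordinary stage.** -/
theorem map_annihilator_le_of_soStage_rel
    (Xn : RTData ρbar (condFL 𝒪 p Smin Sg)) (X' : RTData ρbar (condFL 𝒪 p Smin Sg'))
    (Xso : RTData ρbar (condSO 𝒪 p Smin Sig)) (πO : Xso.T →ₐ[𝒪] 𝒪)
    (S0 : Finset ℕ)
    (hSn : ∀ l : ℕ, l.Prime → l ∉ S0 → ¬ l ∣ Xn.N ∧ l ∉ Xn.S)
    (hS' : ∀ l : ℕ, l.Prime → l ∉ S0 → ¬ l ∣ X'.N ∧ l ∉ X'.S)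
    (hSso : ∀ l : ℕ, l.Prime → l ∉ S0 → ¬ l ∣ Xso.N ∧ l ∉ Xso.S)
    (hdisj : ∀ q ∈ Sg, q.Prime → q ∉ Smin → q ∉ Sg' → q ∉ Sig)
    (lam : PIdx S0 → 𝒪)
    (hlam : ∀ l : PIdx S0, πO (Xso.π (heckeAlgebra.T l.2.1 (hSso l l.2.1 l.2.2).1
      (hSso l l.2.1 l.2.2).2)) = lam l)
    (hπn : Function.Surjective (carrier Xn S0 hSn))
    {A' Aₙ : Type*} [AddCommGroup A'] [Module (MvPolynomial (PIdx S0) 𝒪) A']
    [AddCommGroup Aₙ] [Module (MvPolynomial (PIdx S0) 𝒪) Aₙ]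
    (h' : ∀ s : MvPolynomial (PIdx S0) 𝒪, (∀ y : A', s • y = 0) → carrier X' S0 hS' s = 0)
    (hₙ : ∀ s : MvPolynomial (PIdx S0) 𝒪, carrier Xn S0 hSn s = 0 → ∀ y : Aₙ, s • y = 0) :
    Ideal.map ((MvPolynomial.aeval lam : MvPolynomial (PIdx S0) 𝒪 →ₐ[𝒪] 𝒪) :
        MvPolynomial (PIdx S0) 𝒪 →+* 𝒪) (Module.annihilator (MvPolynomial (PIdx S0) 𝒪) A') ≤
      Ideal.map ((MvPolynomial.aeval lam : MvPolynomial (PIdx S0) 𝒪 →ₐ[𝒪] 𝒪) :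
        MvPolynomial (PIdx S0) 𝒪 →+* 𝒪) (Module.annihilator (MvPolynomial (PIdx S0) 𝒪) Aₙ) :=
  map_annihilator_le_of_points _ _ _ _ (adjoin_X_eq_top S0) hπn
    (pointsHyp_of_soStage_rel Xn X' Xso πO S0 hSn hS' hSso hdisj lam hlam) h' hₙ

/-- **`hJ` AT A STEP `Sg → insert q Sg`**: `X'` the flat datum at `Sg`, `Xn` the flat datum at
`insert q Sg`, `Xso` the CURRENT strict-ordinary datum (at `Sg`) with its point `πO` of eigenvalues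
`lam`: `g (Ann_𝕋 A_{Sg}) ≤ g (Ann_𝕋 A_{insert q Sg})`, `g = aeval lam`. -/
theorem map_annihilator_le_of_step {Sg : Finset ℕ} {q : ℕ}
    (Xn : RTData ρbar (condFL 𝒪 p Smin (insert q Sg))) (X' : RTData ρbar (condFL 𝒪 p Smin Sg))
    (Xso : RTData ρbar (condSO 𝒪 p Smin Sg)) (πO : Xso.T →ₐ[𝒪] 𝒪)
    (S0 : Finset ℕ)
    (hSn : ∀ l : ℕ, l.Prime → l ∉ S0 → ¬ l ∣ Xn.N ∧ l ∉ Xn.S)
    (hS' : ∀ l : ℕ, l.Prime → l ∉ S0 → ¬ l ∣ X'.N ∧ l ∉ X'.S)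
    (hSso : ∀ l : ℕ, l.Prime → l ∉ S0 → ¬ l ∣ Xso.N ∧ l ∉ Xso.S)
    (lam : PIdx S0 → 𝒪)
    (hlam : ∀ l : PIdx S0, πO (Xso.π (heckeAlgebra.T l.2.1 (hSso l l.2.1 l.2.2).1
      (hSso l l.2.1 l.2.2).2)) = lam l)
    (hπn : Function.Surjective (carrier Xn S0 hSn))
    {A' Aₙ : Type*} [AddCommGroup A'] [Module (MvPolynomial (PIdx S0) 𝒪) A']
    [AddCommGroup Aₙ] [Module (MvPolynomial (PIdx S0) 𝒪) Aₙ]
    (h' : ∀ s : MvPolynomial (PIdx S0) 𝒪, (∀ y : A', s • y = 0) → carrier X' S0 hS' s = 0)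
    (hₙ : ∀ s : MvPolynomial (PIdx S0) 𝒪, carrier Xn S0 hSn s = 0 → ∀ y : Aₙ, s • y = 0) :
    Ideal.map ((MvPolynomial.aeval lam : MvPolynomial (PIdx S0) 𝒪 →ₐ[𝒪] 𝒪) :
        MvPolynomial (PIdx S0) 𝒪 →+* 𝒪) (Module.annihilator (MvPolynomial (PIdx S0) 𝒪) A') ≤
      Ideal.map ((MvPolynomial.aeval lam : MvPolynomial (PIdx S0) 𝒪 →ₐ[𝒪] 𝒪) :
        MvPolynomial (PIdx S0) 𝒪 →+* 𝒪) (Module.annihilator (MvPolynomial (PIdx S0) 𝒪) Aₙ) :=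
  map_annihilator_le_of_soStage_rel Xn X' Xso πO S0 hSn hS' hSso
    (fun _ _ _ _ h => h) lam hlam hπn h' hₙ

section Glue

variable [Finite (ResidueField 𝒪)]

/-- **the `p`-new stage step `Sg → insert q Sg` in ONE call**, base point = the point of the
CURRENT strict-ordinary stage:

  `#Ω(K_{insert q Sg}) = #Ω(K_{Sg}) · #(𝒪 ⧸ c) ^ d`

(`map_annihilator_le_of_step` fed to `KerHeckeProd.card_congMod_ker_growth_free_prod`, over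
`𝕋 = 𝒪[X_l : l ∉ S0]`, `g = aeval lam`). -/
theorem card_congMod_ker_growth_of_step {Sg : Finset ℕ} {q : ℕ}
    -- the two adjacent flat `R = T` data and the current SO datum with its point
    (Xn : RTData ρbar (condFL 𝒪 p Smin (insert q Sg))) (X' : RTData ρbar (condFL 𝒪 p Smin Sg))
    (Xso : RTData ρbar (condSO 𝒪 p Smin Sg)) (πO : Xso.T →ₐ[𝒪] 𝒪)
    (S0 : Finset ℕ)
    (hSn : ∀ l : ℕ, l.Prime → l ∉ S0 → ¬ l ∣ Xn.N ∧ l ∉ Xn.S)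
    (hS' : ∀ l : ℕ, l.Prime → l ∉ S0 → ¬ l ∣ X'.N ∧ l ∉ X'.S)
    (hSso : ∀ l : ℕ, l.Prime → l ∉ S0 → ¬ l ∣ Xso.N ∧ l ∉ Xso.S)
    (lam : PIdx S0 → 𝒪)
    (hlam : ∀ l : PIdx S0, πO (Xso.π (heckeAlgebra.T l.2.1 (hSso l l.2.1 l.2.2).1
      (hSso l l.2.1 l.2.2).2)) = lam l)
    (hπn : Function.Surjective (carrier Xn S0 hSn))
    -- the modules: `A₀` (stage `Sg`, carrier `X'.T`), `A₀'` (stage `insert q Sg`, carrier `Xn.T`)
    {A₀ A₀' L L' K₀ K₀' : Type*}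
    [AddCommGroup L] [Module 𝒪 L] [AddCommGroup L'] [Module 𝒪 L']
    [AddCommGroup K₀] [Module 𝒪 K₀] [AddCommGroup K₀'] [Module 𝒪 K₀']
    [AddCommGroup A₀] [Module 𝒪 A₀] [AddCommGroup A₀'] [Module 𝒪 A₀']
    [Module (MvPolynomial (PIdx S0) 𝒪) L'] [IsScalarTower 𝒪 (MvPolynomial (PIdx S0) 𝒪) L']
    [Module (MvPolynomial (PIdx S0) 𝒪) A₀'] [IsScalarTower 𝒪 (MvPolynomial (PIdx S0) 𝒪) A₀']
    [Module (MvPolynomial (PIdx S0) 𝒪) A₀] [IsScalarTower 𝒪 (MvPolynomial (PIdx S0) 𝒪) A₀]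
    (h' : ∀ s : MvPolynomial (PIdx S0) 𝒪, (∀ y : A₀, s • y = 0) → carrier X' S0 hS' s = 0)
    (hₙ : ∀ s : MvPolynomial (PIdx S0) 𝒪, carrier Xn S0 hSn s = 0 → ∀ y : A₀', s • y = 0)
    -- freeness (R4-D) over carriers `T1` (stage `insert q Sg`), `T2` (stage `Sg`)
    {T1 T2 : Type*} [CommRing T1] [CommRing T2] [Algebra (MvPolynomial (PIdx S0) 𝒪) T1]
    [Algebra (MvPolynomial (PIdx S0) 𝒪) T2]
    [Module T1 A₀'] [IsScalarTower (MvPolynomial (PIdx S0) 𝒪) T1 A₀'] [Module T2 A₀]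
    [IsScalarTower (MvPolynomial (PIdx S0) 𝒪) T2 A₀]
    (h1 : Function.Surjective (algebraMap (MvPolynomial (PIdx S0) 𝒪) T1)) {r : ℕ}
    (b1 : Basis (Fin r) T1 A₀') (b2 : Basis (Fin r) T2 A₀)
    -- the modular binders of the step
    (B : L →ₗ[𝒪] L →ₗ[𝒪] 𝒪) (B' : L' →ₗ[𝒪] L' →ₗ[𝒪] 𝒪)
    (ι : K₀ →ₗ[𝒪] L) (ι' : K₀' →ₗ[𝒪] L') {d : ℕ} (b : Fin d → L) (b' : Fin d → L')
    (bK : Fin d → K₀) (bK' : Fin d → K₀') (hbK : ∀ i, ι (bK i) = b i)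
    (hbK' : ∀ i, ι' (bK' i) = b' i) (c : 𝒪) (hc : c ≠ 0) (hdet : (gram B b).det ≠ 0)
    (h : ∀ i j, B' (b' i) (b' j) = c * B (b i) (b j))
    (t : L' →ₗ[𝒪] L) (ht : Function.Surjective t)
    (hadj : ∀ i y, B' (b' i) y = B (b i) (t y))
    (β : L →ₗ[𝒪] A₀ × A₀) (β' : L' →ₗ[𝒪] A₀' × A₀') (hβ' : Function.Surjective β')
    (tN : A₀' →ₗ[𝒪] A₀)
    (hcomm : ∀ y, β (t y) = (tN (β' y).1, tN (β' y).2))
    (hι : LinearMap.range ι = LinearMap.ker β) (hι' : LinearMap.range ι' = LinearMap.ker β')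
    (hβ'eq : ∀ (s : MvPolynomial (PIdx S0) 𝒪) (m : L'), β' (s • m) = s • β' m)
    (hB'adj : ∀ (s : MvPolynomial (PIdx S0) 𝒪) (x y : L'), B' (s • x) y = B' x (s • y))
    (hg : ∀ (s : MvPolynomial (PIdx S0) 𝒪) (i : Fin d),
      s • b' i = (MvPolynomial.aeval lam : MvPolynomial (PIdx S0) 𝒪 →ₐ[𝒪] 𝒪) s • b' i)
    (htNeq : ∀ (s : MvPolynomial (PIdx S0) 𝒪) (y : A₀'), tN (s • y) = s • tN y)
    (htN : Function.Surjective tN) :
    Nat.card (CongMod (B'.compl₁₂ ι' ι') (span 𝒪 (Set.range bK'))) =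
      Nat.card (CongMod (B.compl₁₂ ι ι) (span 𝒪 (Set.range bK))) *
        Nat.card (𝒪 ⧸ Ideal.span {c}) ^ d :=
  Fermat.Agent.GE9.Eta.KerHeckeProd.card_congMod_ker_growth_free_prod B B' ι ι' b b' bK bK' hbK
    hbK' c hc hdet h t ht hadj β β' hβ' tN hcomm hι hι' hβ'eq hB'adj
    (MvPolynomial.aeval lam : MvPolynomial (PIdx S0) 𝒪 →ₐ[𝒪] 𝒪) hg htNeq htN
    h1 b1 b2
    (map_annihilator_le_of_step Xn X' Xso πO S0 hSn hS' hSso lam hlam hπn h' hₙ)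

end Glue

end Fermat.Agent.GE9.PNew.DepthStage
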