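/-
GATE-E (S59) / RISK-4 = PNEW-STAGE (helper31, reader seat): **the seam R4-D ⟶ R4-C / R4-I:
`ModForm.stage_free` run at a CONCRETE carrier against an ABSTRACT stage `Y : RTNum ρbar 𝒟 d`.**

The chain (`GE9/Asm/Chain2`, `GE/Engine/FLStages`) hands the instance layer an abstract
`Y : RTNum ρbar 𝒟 d` (`Y.rt.T` opaque) with the invariant `Y.w = #Ω`.  The instance layer has a
CONCRETE carrier `T'` (image of the anemic Hecke algebra in `End_𝒪 A_Σ`), the raw fields of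
`RawFL.exists_raw_of_defRing` / `RawSOBase.exists_rawSO_gen` at `D' := Y.rt.D`
(`φ' : Y.rt.D.R ↠ T'`, `ρT'`, Eichler–Shimura, `η ≠ 0`), a modular point `πO' : T' → 𝒪` with the
eigenvalues of `Y`, and the Hecke module `L = A_Σ` with its pairing.  `RTNum` has no field for
`L`, so freeness of `L` over `T'` has to be re-derived at the concrete carrier:

* `aug_comp_eq_of_hecke` : `πO' ∘ φ' = Y.πO ∘ Y.rt.φ` on `Y.rt.D.R` (Chebotarev + Carayol =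
  `CotGrowth.hsame_of_hecke`, then the uniqueness clause of the universal property =
  `UnivInj.algHom_eq_of_isEquiv`) — so the two stages have THE SAME cotangent space;
* **`stage_free_of_rtNum`** : `ModForm.stage_free` with `a := etaCard Y.πO`
  (`hgrow` from `Y.tan_eq`, `hw` from `Y.w_eq` and `Y.w ≤ #Ω_L`, presentation re-centred by
  `Ind.recenter`) ⟹ `φ'` bijective, `#(𝒪/η_{T'}) = #(𝒪/η_Y)`, `#Ω_L = Y.w`, the dual of `T'` is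
  generated by one element, and `L ≅ T'^d`;
  With `hbij` the call `DepthCarrier.rtDataOfRaw Y.rt.D π' ρT' hcp' φ' hbij φ'_local φ'_ρ` is the
  `R = T` datum at the concrete carrier = the `X0` / `Xn` of
  `DepthRel.map_annihilator_le_of_base_rel` / `StepGlueRel.card_congMod_ker_growth_of_base_rel`.

Nothing here mentions `condFL` / `condSO`: `𝒟` is any deformation condition
(`GB.Def.Cond.isDeformationCondition_FL/SO` at the call site).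
-/
import Mathlib
import Fermat.Agent.GE9.CotGrowth.Same
import Fermat.Agent.GE9.NumCrit.ModForm.StageFree

set_option autoImplicit false
set_option linter.unusedSectionVars false
set_option linter.unusedVariables false
set_option linter.style.haveILetI false

namespace Fermat.Agent.GE9.PNew.StageFreeRT

open IsLocalRing Polynomial CuspForm Submodule Function
open Fermat.Agent.GE.Graph Fermat.Agent.GE9.Ind Fermat.Agent.GE9.NumCrit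
  Fermat.Agent.GE9.NumCrit.ModForm Fermat.Agent.GE9.CotGrowth

/-- `G_ℚ`. -/
local notation "GQ" => (AlgebraicClosure ℚ ≃ₐ[ℚ] AlgebraicClosure ℚ)

variable {𝒪 : Type} [CommRing 𝒪] [IsDomain 𝒪] [IsDiscreteValuationRing 𝒪]
  [IsAdicComplete (maximalIdeal 𝒪) 𝒪]
  {ρbar : ResidualGaloisRep (ResidueField 𝒪)} {𝒟 : DefCondE 𝒪}

/-- **the two augmentations of the universal ring coincide**: a second Hecke ring `T'` receiving
`Y.rt.D.R` with a modular point having the eigenvalues of the modular point of `Y`. -/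
theorem aug_comp_eq_of_hecke (h𝒟 : GaloisRep.IsDeformationCondition 𝒪 𝒟) {d : ℕ}
    (Y : RTNum ρbar 𝒟 d)
    {N' : ℕ} [NeZero N'] {S' : Set ℕ} {T' : Type} [CommRing T'] [IsLocalRing T'] [Algebra 𝒪 T']
    (π' : heckeAlgebra N' 2 S' →+* T') (ρT' : GaloisRepAdic T')
    (hcp' : ∀ (r : ℕ) (hr : r.Prime) (hrN : ¬ r ∣ N') (hrS : r ∉ S'),
      ∀ A : ValuationSubring (AlgebraicClosure ℚ), A.LiesOverPrime r →
        ∀ σ : GQ, A.IsFrobeniusAt σ r →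
          LinearMap.charpoly (ρT'.ρ σ) =
            X ^ 2 - C (π' (heckeAlgebra.T hr hrN hrS)) * X + C ((r : T')))
    (φ' : Y.rt.D.R →ₐ[𝒪] T') (φ'_local : IsLocalHom (φ' : Y.rt.D.R →+* T'))
    (φ'_ρ : (Y.rt.D.ρ.baseChangeAlong (φ' : Y.rt.D.R →+* T') φ'_local).IsEquiv ρT')
    (πO' : T' →ₐ[𝒪] 𝒪) (B : Finset ℕ)
    (hB : ∀ ℓ : ℕ, ℓ.Prime → ℓ ∉ B → ¬ ℓ ∣ Y.rt.N ∧ ℓ ∉ Y.rt.S ∧ ¬ ℓ ∣ N' ∧ ℓ ∉ S')
    (heig : ∀ (ℓ : ℕ) (hℓ : ℓ.Prime) (hℓN : ¬ ℓ ∣ Y.rt.N) (hℓS : ℓ ∉ Y.rt.S) (hℓN' : ¬ ℓ ∣ N')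
      (hℓS' : ℓ ∉ S'), ℓ ∉ B →
        πO' (π' (heckeAlgebra.T hℓ hℓN' hℓS')) = Y.πO (Y.rt.π (heckeAlgebra.T hℓ hℓN hℓS))) :
    πO'.comp φ' = Y.πO.comp Y.rt.φ := by
  have hπO : IsLocalHom (Y.πO : Y.rt.T →+* 𝒪) :=
    Fermat.Agent.GP.Tan.UnivInj.isLocalHom_of_residue_cover residue_cover_self Y.πO
  have hπO' : IsLocalHom (πO' : T' →+* 𝒪) :=
    Fermat.Agent.GP.Tan.UnivInj.isLocalHom_of_residue_cover residue_cover_self πO'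
  have hsame := hsame_of_hecke Y Y.rt.D π' ρT' hcp' φ' φ'_local φ'_ρ πO' hπO hπO' B hB heig
  have hloc : IsLocalHom ((Y.πO.comp Y.rt.φ : Y.rt.D.R →ₐ[𝒪] 𝒪) : Y.rt.D.R →+* 𝒪) :=
    Fermat.Agent.GP.Top.isLocalHom_comp' (Y.rt.φ : Y.rt.D.R →+* Y.rt.T) Y.rt.φ_local
      (Y.πO : Y.rt.T →+* 𝒪) hπO
  have hloc' : IsLocalHom ((πO'.comp φ' : Y.rt.D.R →ₐ[𝒪] 𝒪) : Y.rt.D.R →+* 𝒪) :=
    Fermat.Agent.GP.Top.isLocalHom_comp' (φ' : Y.rt.D.R →+* T') φ'_local (πO' : T' →+* 𝒪) hπO'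
  have hloc𝒪 : IsLocalHom (algebraMap 𝒪 𝒪) := ⟨fun _ h => h⟩
  have hπs : Surjective (Y.πO.comp Y.rt.φ) := fun x =>
    ⟨algebraMap 𝒪 Y.rt.D.R x, by rw [AlgHom.commutes]; rfl⟩
  have hρ₀ : 𝒟
      (Y.rt.D.ρ.baseChangeAlong ((Y.πO.comp Y.rt.φ : Y.rt.D.R →ₐ[𝒪] 𝒪) : Y.rt.D.R →+* 𝒪) hloc) :=
    Fermat.Agent.GE2.AugQuot.of_surjective_baseChange h𝒟 Y.rt.D.instIsLocalHom
      Y.rt.D.residue_surjective hloc𝒪 residue_cover_self (Y.πO.comp Y.rt.φ) hloc hπs Y.rt.D.ρ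
      Y.rt.D.isOfType
  exact Fermat.Agent.GP.Tan.UnivInj.algHom_eq_of_isEquiv Y.rt.D residue_cover_self
    (πO'.comp φ') (Y.πO.comp Y.rt.φ) hloc' hloc hρ₀
    (isEquiv_point Y.rt.D.ρ Y.rt.ρT Y.rt.D.ρ ρT' Y.rt.φ Y.rt.φ_local Y.rt.φ_ρ φ' φ'_local φ'_ρ
      Y.πO hπO πO' hπO' hsame hloc hloc')

variable [Finite (ResidueField 𝒪)]

/-- **`stage_free` at a concrete carrier, against an abstract stage.**  `Y` = the stage delivered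
by the chain; `(T', π', ρT', φ', πO')` = the raw fields at the concrete carrier with `D' := Y.rt.D`;
`(L, Bf, b)` = the Hecke module with its `T'`-adjoint pairing and a basis of `L[𝔭]`;
`hw : Y.w ≤ #Ω_L` (the engine invariant: `Y.w = wf Σ = #Ω_L`); `hrank` = R4-J. -/
theorem stage_free_of_rtNum (h𝒟 : GaloisRep.IsDeformationCondition 𝒪 𝒟) {d : ℕ} (hd : d ≠ 0)
    (Y : RTNum ρbar 𝒟 d)
    {N' : ℕ} [NeZero N'] {S' : Set ℕ} {T' : Type} [CommRing T'] [IsLocalRing T'] [Algebra 𝒪 T']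
    [Module.Finite 𝒪 T'] [Module.Free 𝒪 T']
    (π' : heckeAlgebra N' 2 S' →+* T') (ρT' : GaloisRepAdic T')
    (hcp' : ∀ (r : ℕ) (hr : r.Prime) (hrN : ¬ r ∣ N') (hrS : r ∉ S'),
      ∀ A : ValuationSubring (AlgebraicClosure ℚ), A.LiesOverPrime r →
        ∀ σ : GQ, A.IsFrobeniusAt σ r →
          LinearMap.charpoly (ρT'.ρ σ) =
            X ^ 2 - C (π' (heckeAlgebra.T hr hrN hrS)) * X + C ((r : T')))
    (φ' : Y.rt.D.R →ₐ[𝒪] T') (hφ' : Surjective φ')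
    (φ'_local : IsLocalHom (φ' : Y.rt.D.R →+* T'))
    (φ'_ρ : (Y.rt.D.ρ.baseChangeAlong (φ' : Y.rt.D.R →+* T') φ'_local).IsEquiv ρT')
    (πO' : T' →ₐ[𝒪] 𝒪) (hη' : etaIdeal πO' ≠ ⊥)
    {m : ℕ} (γ : MvPowerSeries (Fin m) 𝒪 →ₐ[𝒪] Y.rt.D.R) (hγ : Surjective γ)
    (B : Finset ℕ)
    (hB : ∀ ℓ : ℕ, ℓ.Prime → ℓ ∉ B → ¬ ℓ ∣ Y.rt.N ∧ ℓ ∉ Y.rt.S ∧ ¬ ℓ ∣ N' ∧ ℓ ∉ S')
    (heig : ∀ (ℓ : ℕ) (hℓ : ℓ.Prime) (hℓN : ¬ ℓ ∣ Y.rt.N) (hℓS : ℓ ∉ Y.rt.S) (hℓN' : ¬ ℓ ∣ N')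
      (hℓS' : ℓ ∉ S'), ℓ ∉ B →
        πO' (π' (heckeAlgebra.T hℓ hℓN' hℓS')) = Y.πO (Y.rt.π (heckeAlgebra.T hℓ hℓN hℓS)))
    {L : Type*} [AddCommGroup L] [Module 𝒪 L] [Module T' L] [IsScalarTower 𝒪 T' L]
    [Module.Finite 𝒪 L] [Module.Free 𝒪 L]
    (Bf : L →ₗ[𝒪] L →ₗ[𝒪] 𝒪) (hadj : ∀ (t : T') (x y : L), Bf (t • x) y = Bf x (t • y))
    (hnd : ∀ w : L, (∀ z : L, Bf z w = 0) → w = 0)
    (b : Fin d → L) (hli : LinearIndependent 𝒪 b)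
    (hspan : span 𝒪 (Set.range b) = torPO πO' L)
    (hw : Y.w ≤ Nat.card (Fermat.Agent.GE9.Eta.CongMod Bf (span 𝒪 (Set.range b))))
    (hrank : Module.finrank 𝒪 L ≤ d * Module.finrank 𝒪 T') :
    Bijective φ' ∧ πO'.comp φ' = Y.πO.comp Y.rt.φ ∧ etaCard πO' = etaCard Y.πO ∧
      Nat.card (Fermat.Agent.GE9.Eta.CongMod Bf (span 𝒪 (Set.range b))) = Y.w ∧
      (∃ ω : T' →ₗ[𝒪] 𝒪, ∀ g : T' →ₗ[𝒪] 𝒪, ∃ t : T', ∀ x, g x = ω (t * x)) ∧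
      Nonempty ((Fin d → T') ≃ₗ[T'] L) := by
  have haug : πO'.comp φ' = Y.πO.comp Y.rt.φ :=
    aug_comp_eq_of_hecke h𝒟 Y π' ρT' hcp' φ' φ'_local φ'_ρ πO' B hB heig
  haveI : Finite (RingHom.ker (πO'.comp φ')).Cotangent := by
    rw [haug]
    exact Y.fin_cot
  obtain ⟨τ, hτsurj, hτε⟩ := recenter (πO'.comp φ') γ hγ
  have hgrow : tanCard (πO'.comp φ') ≤ etaCard Y.πO := by
    rw [haug, Y.tan_eq]
  have hw' : etaCard Y.πO ^ d ≤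
      Nat.card (Fermat.Agent.GE9.Eta.CongMod Bf (span 𝒪 (Set.range b))) := by
    rw [← Y.w_eq]
    exact hw
  obtain ⟨hbij, -, h3, h4, h5, hω, hfree⟩ :=
    stage_free φ' hφ' πO'
      (γ.comp (τ : MvPowerSeries (Fin m) 𝒪 →ₐ[𝒪] MvPowerSeries (Fin m) 𝒪)) hτsurj
      (fun u => hτε u) hη' hd (etaCard Y.πO) hgrow Bf hadj hnd b hli hspan hw' hrank
  have heta : etaCard πO' = etaCard Y.πO := h3.symm.trans h4
  refine ⟨hbij, haug, heta, ?_, hω, hfree⟩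
  rw [h5, heta, ← Y.w_eq]

end Fermat.Agent.GE9.PNew.StageFreeRT
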