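/-
GATE-E (S59) / RISK-4 (e9) (helper31): **one flat stage at its CONCRETE image carrier, in ONE call**
— `Stage/RawFLGen.exists_rawFL_same` (raw fields at `D' := Y.rt.D`) + `PNew/CarrierExp.exposed_fields`
(point, `η ≠ 0`, adjointness, `span b = L[𝔭]`) + `PNew/StageFreeRT.stage_free_of_rtNum` (R4-D).

Input: an abstract flat stage `Y : RTNum ρbar (condFL 𝒪 p Smin Sig) d` (from the chain:
`Chain2Sub.exists_rtNum_condFL_pair'` / `FLStages`), the level `N'` (`Y.rt.N ∣ N'`, in practice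
`N' = Y.rt.N`) and the constant Hecke set `S0` with the level clauses of `RawFL`, the Hecke module
`L` (finite free over `𝒪`) with the anemic action `tw : 𝕋_{S0}(N') →+* End_𝒪 L`, `LocHyp`, a
`tw`-self-adjoint right non-degenerate pairing, `d` independent joint eigenvectors `b` with the
eigenvalues of the modular point of `Y`, OldQ (`hold`), the engine invariant `Y.w ≤ #Ω_L` and the
rank bound (R4-J).

Output, at `T' := ImageRing.TQ 𝒪 θ tw`, `π' := chi 𝒪 θ tw`, module structure `CarrierExp.moduleTQ`: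
the raw fields with `φ' : Y.rt.D.R →ₐ[𝒪] T'` BIJECTIVE (so
`DepthCarrier.rtDataOfRaw Y.rt.D (chi 𝒪 θ tw) ρT' hcp' φ' hbij φ'_local φ'_ρ` is the `R = T` datum at
the concrete carrier), the point `πO'` with `πO' ∘ φ' = Y.πO ∘ Y.rt.φ`, `#Ω_L = Y.w`,
`#(𝒪/η_{T'}) = #(𝒪/η_Y)` and **`L ≅ T'^d`**.
-/
import Mathlib
import Fermat.Agent.GE9.Stage.RawFLGen
import Fermat.Agent.GE9.PNew.StageFreeRT
import Fermat.Agent.GE9.PNew.CarrierExp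

set_option autoImplicit false
set_option linter.unusedSectionVars false
set_option linter.unusedVariables false
set_option linter.style.haveILetI false

noncomputable section

namespace Fermat.Agent.GE9.PNew.FLStagePack

open CuspForm IsLocalRing Polynomial GaloisRep Submodule
open Fermat.Agent.GE.Graph Fermat.Agent.GE9.Ind Fermat.Agent.GE9.NumCrit
  Fermat.Agent.GE9.NumCrit.ModForm Fermat.Agent.GE9.Stage.RawFL
  Fermat.Agent.GB.B4.Datum.ImageRing Fermat.Agent.GE9.PNew.CarrierExp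

local notation "GQ" => (AlgebraicClosure ℚ ≃ₐ[ℚ] AlgebraicClosure ℚ)
local notation "Qb" => AlgebraicClosure ℚ

variable {𝒪 : Type} [CommRing 𝒪] [IsDomain 𝒪] [IsDiscreteValuationRing 𝒪]
  [IsAdicComplete (maximalIdeal 𝒪) 𝒪] [Finite (ResidueField 𝒪)] [CharZero 𝒪]
  {ρbar : ResidualGaloisRep (ResidueField 𝒪)} {p : ℕ} [Fact p.Prime]
  [Algebra (ZMod p) (ResidueField 𝒪)]
  {Smin Sig : Finset ℕ} {d : ℕ}

set_option maxHeartbeats 1000000 in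
/-- **one flat stage at its concrete image carrier**: R4-D with every binder discharged from the
module side. -/
theorem exists_flStage_pack (hd : d ≠ 0) (Y : RTNum ρbar (condFL 𝒪 p Smin Sig) d)
    (hp2 : p ≠ 2) (hp𝒪 : (p : 𝒪) ∈ maximalIdeal 𝒪) (hpSmin : p ∈ Smin)
    (hmin : ∀ r : ℕ, r.Prime → r ≠ p → (r ∈ Smin ↔ ¬ ρbar.IsUnramifiedAt r))
    (S0 : Finset ℕ) (hYS : Y.rt.S ⊆ (↑S0 : Set ℕ))
    {N' : ℕ} [NeZero N'] (hNN' : Y.rt.N ∣ N') (hpN' : ¬ p ∣ N') (hpS : p ∈ S0)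
    (hNS : ∀ r : ℕ, r.Prime → r ∣ N' → r ∈ S0)
    (hNT : ∀ r : ℕ, r.Prime → r ∣ N' → r ∈ Smin ∪ Sig)
    (hSminN' : ∀ r ∈ Smin, r.Prime → r ≠ p → r ∣ N' ∧ ¬ r ^ 2 ∣ N')
    -- the Hecke module with the anemic action
    {L : Type} [AddCommGroup L] [Module 𝒪 L] [Module.Finite 𝒪 L] [Module.Free 𝒪 L] [Nontrivial L]
    (θ : heckeAlgebra N' 2 (↑S0 : Set ℕ) →+* ResidueField 𝒪)
    (tw : heckeAlgebra N' 2 (↑S0 : Set ℕ) →+* Module.End 𝒪 L) [Fact (LocHyp 𝒪 θ tw)]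
    (Bf : L →ₗ[𝒪] L →ₗ[𝒪] 𝒪)
    (hsa : ∀ (t : heckeAlgebra N' 2 (↑S0 : Set ℕ)) (x y : L), Bf (tw t x) y = Bf x (tw t y))
    (hnd : ∀ w : L, (∀ z : L, Bf z w = 0) → w = 0)
    (b : Fin d → L) (hli : LinearIndependent 𝒪 b)
    (χ : heckeAlgebra N' 2 (↑S0 : Set ℕ) → 𝒪)
    (hb : ∀ (t : heckeAlgebra N' 2 (↑S0 : Set ℕ)) (i : Fin d), tw t (b i) = χ t • b i)
    (hold : ∀ x : L, (∀ t : heckeAlgebra N' 2 (↑S0 : Set ℕ), tw t x = χ t • x) →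
      x ∈ span 𝒪 (Set.range b))
    (heig : ∀ (ℓ : ℕ) (hℓ : ℓ.Prime) (hℓN : ¬ ℓ ∣ Y.rt.N) (hℓS : ℓ ∉ Y.rt.S) (hℓN' : ¬ ℓ ∣ N')
      (hℓS' : ℓ ∉ (↑S0 : Set ℕ)),
        χ (heckeAlgebra.T hℓ hℓN' hℓS') = Y.πO (Y.rt.π (heckeAlgebra.T hℓ hℓN hℓS)))
    (hw : Y.w ≤ Nat.card (Fermat.Agent.GE9.Eta.CongMod Bf (span 𝒪 (Set.range b))))
    (hrank : Module.finrank 𝒪 L ≤ d * Module.finrank 𝒪 (TQ 𝒪 θ tw)) :
    letI := moduleTQ 𝒪 θ tw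
    ∃ (ρT' : GaloisRepAdic (TQ 𝒪 θ tw)) (φ' : Y.rt.D.R →ₐ[𝒪] TQ 𝒪 θ tw)
      (φ'_local : IsLocalHom (φ' : Y.rt.D.R →+* TQ 𝒪 θ tw))
      (πO' : TQ 𝒪 θ tw →ₐ[𝒪] 𝒪),
      (∀ (r : ℕ) (hr : r.Prime) (hrN : ¬ r ∣ N') (hrS : r ∉ (↑S0 : Set ℕ)),
        ∀ A : ValuationSubring Qb, A.LiesOverPrime r → ∀ σ : GQ, A.IsFrobeniusAt σ r →
          LinearMap.charpoly (ρT'.ρ σ) =
            X ^ 2 - C (chi 𝒪 θ tw (heckeAlgebra.T hr hrN hrS)) * X + C ((r : TQ 𝒪 θ tw))) ∧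
      Function.Bijective φ' ∧
      (Y.rt.D.ρ.baseChangeAlong (φ' : Y.rt.D.R →+* TQ 𝒪 θ tw) φ'_local).IsEquiv ρT' ∧
      (∀ t : heckeAlgebra N' 2 (↑S0 : Set ℕ), πO' (chi 𝒪 θ tw t) = χ t) ∧
      πO'.comp φ' = Y.πO.comp Y.rt.φ ∧ etaCard πO' = etaCard Y.πO ∧
      Nat.card (Fermat.Agent.GE9.Eta.CongMod Bf (span 𝒪 (Set.range b))) = Y.w ∧
      Nonempty ((Fin d → TQ 𝒪 θ tw) ≃ₗ[TQ 𝒪 θ tw] L) := by
  letI := moduleTQ 𝒪 θ tw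
  haveI := isScalarTower_TQ 𝒪 θ tw
  have hp : p.Prime := Fact.out
  haveI : IsReduced ↥(heckeAlgebra N' 2 (↑S0 : Set ℕ)) :=
    Fermat.Agent.GS.Pet.isReduced_heckeAlgebra N' 2 (↑S0 : Set ℕ)
      (fun r hr hrN => Finset.mem_coe.mpr (hNS r hr hrN))
  -- the exposed fields of the carrier
  obtain ⟨πO', hpt, hη, hadj, hspan, -⟩ :=
    exposed_fields θ tw Bf hsa hnd hd b hli χ hb hold
  -- the raw fields at `D' := Y.rt.D`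
  have heig' : ∀ (ℓ : ℕ) (hℓ : ℓ.Prime) (hℓN : ¬ ℓ ∣ Y.rt.N) (hℓS : ℓ ∉ Y.rt.S)
      (hℓN' : ¬ ℓ ∣ N') (hℓS' : ℓ ∉ (↑S0 : Set ℕ)),
        πO' (chi 𝒪 θ tw (heckeAlgebra.T hℓ hℓN' hℓS')) =
          Y.πO (Y.rt.π (heckeAlgebra.T hℓ hℓN hℓS)) :=
    fun ℓ hℓ hℓN hℓS hℓN' hℓS' => (hpt _).trans (heig ℓ hℓ hℓN hℓS hℓN' hℓS')
  obtain ⟨ρT', φ', φ'_local, m, γ, hcp', hφ', φ'_ρ, hη', hγ, hB, heigB⟩ :=
    Fermat.Agent.GE9.Stage.RawFLGen.exists_rawFL_same Y hp2 hp𝒪 hpSmin hmin S0 hYS hNN' hpN' hpS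
      hNS hNT hSminN' (chi 𝒪 θ tw) (adjoin_range_chi 𝒪 θ tw) πO' heig'
  -- R4-D
  have h𝒟 : GaloisRep.IsDeformationCondition 𝒪 (condFL 𝒪 p Smin Sig) :=
    Fermat.Agent.GB.Def.Cond.Atom.isDeformationCondition_FL_of_flat p
      (Fermat.Agent.GB.Def.CondFlat.isDeformationCondition_isFlatAt p 𝒪) (Smin ∪ Sig) Smin
  obtain ⟨hbij, haug, heta, hcard, -, hfree⟩ :=
    Fermat.Agent.GE9.PNew.StageFreeRT.stage_free_of_rtNum h𝒟 hd Y (chi 𝒪 θ tw) ρT' hcp' φ' hφ'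
      φ'_local φ'_ρ πO' hη γ hγ (badSet S0 N') hB heigB Bf hadj hnd b hli hspan hw hrank
  exact ⟨ρT', φ', φ'_local, πO', hcp', hbij, φ'_ρ, hpt, haug, heta, hcard, hfree⟩

end Fermat.Agent.GE9.PNew.FLStagePack
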