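/-
GATE-E / RISK-4 PNEW-STAGE, instance layer (I-b), lemma (U) of helper80 (board 7597) — helper23,
Mathlib only.

`U_q` at level `N q²` acts on the image of `α₃` through the `3 × 3` matrix
`U3 = [[τ, q, 0], [−1, 0, q], [0, 0, 0]]` (`τ = T_q`, `GE9/Eta/LocLamU.uq_alpha3O`), of characteristic
polynomial `x (x² − τ x + q)`.  On the adjoint side (`β₃ = α₃^†` for the cup forms, `W α₃ = α₃ ∘ rev ∘ W`)
`β₃ ∘ U_q = U3♯ ∘ β₃` with `U3♯ = rev · U3ᵀ · rev = [[0, q, 0], [0, 0, q], [0, −1, τ]]`.  For each of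
the three matrices `A ∈ {U3, U3ᵀ, U3♯}` and `q` a unit:

* `A (A² − τ A + q) = 0`, and `A² − τ A + q = q • e` with an EXPLICIT idempotent `e`
  (`e3`, `e3t`, `e3s`; no `q⁻¹` in the formulas), `A e = e A = 0`, `ker A = range e`:
    `ker U3 = {x • (q, −τ, 1)}`,  `ker U3ᵀ = {(0, 0, x)}`,  `ker U3♯ = {(x, 0, 0)}`;
* (`Cubic`) abstractly: `A ^ n u = 0 → A u = 0`, and the TOPOLOGICAL form
  `(∀ k, ∃ n, A ^ n u ∈ I ^ k • ⊤) → (⨅ k, I ^ k • ⊤ = ⊥) → A u = 0`;
* (`Transfer`) `β : X → V` with `β ∘ U = A ∘ β`, `ε : X → X` with `U` topologically nilpotent on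
  `range ε` and `y − ε y ∈ range U` for all `y` ⟹ `β ∘ ε = e ∘ β`; so `β (range ε) = ker A` when `β`
  is onto;
* (`Pair`) for `v = (q, −a, 1)` (helper2's `v3 q a`): `v · e3s u = q • (u₀ − τ u₁ + q u₂)`,
  `v · e3t u = q u₀ − τ u₁ + u₂`; on the `U_q`-nilpotent part `t = Σ v_m (β₃)_m = q • (β₃)_0`, and
  `(β₃)_0`, `t` are ONTO from `range ε` (`exists_beta_single`, `exists_dot_eq`);
* SUBMODULE forms (`L' ⊔ C = ⊤`, `U` onto on `C`, topologically nilpotent on `L'`; helper37's request):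
  `exists_pow_mem_of_pow_le`, `apply_beta_eq_zero_of_mem`, `exists_mem_beta_eq`,
  `exists_mem_beta_single`, `exists_mem_dot_vqr_eq` (BW convention `t = q β₂ − a β₁ + β₀`, unit `1`),
  `exists_mem_dot_vq_eq` (lamB convention, unit `q`).
-/
import Mathlib

set_option autoImplicit false
set_option linter.unusedSectionVars false
set_option linter.unusedSimpArgs false
set_option linter.unnecessarySeqFocus false
set_option linter.unreachableTactic false
set_option linter.unusedTactic false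

namespace Fermat.Agent.GE9.PNew.KerPair

/-! ## 0. cancelling a unit scalar -/

theorem smul_cancel_of_isUnit {R N : Type*} [CommRing R] [AddCommGroup N] [Module R N] {q : R}
    (hq : IsUnit q) {x y : N} (h : q • x = q • y) : x = y := by
  have h1 := congrArg (fun z => ((hq.unit⁻¹ : Rˣ) : R) • z) h
  simp only [smul_smul, IsUnit.val_inv_mul, one_smul] at h1
  exact h1

theorem eq_zero_of_smul_of_isUnit {R N : Type*} [CommRing R] [AddCommGroup N] [Module R N] {q : R}
    (hq : IsUnit q) {x : N} (h : q • x = 0) : x = 0 :=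
  smul_cancel_of_isUnit hq (by rw [h, smul_zero])

/-! ## 1. the abstract cubic -/

section Cubic

variable {R : Type*} [CommRing R] {V : Type*} [AddCommGroup V] [Module R V]

/-- the quadratic factor `A² − τ A + q`. -/
def quad (A : Module.End R V) (τ q : R) : Module.End R V := A * A - τ • A + q • 1

theorem quad_apply (A : Module.End R V) (τ q : R) (u : V) :
    quad A τ q u = A (A u) - τ • A u + q • u := by
  simp [quad, Module.End.mul_apply]

variable {A e : Module.End R V} {τ q : R}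

theorem commute_quad (A : Module.End R V) (τ q : R) : Commute A (quad A τ q) := by
  unfold quad
  refine ((Commute.refl A).mul_right (Commute.refl A)).sub_right ?_ |>.add_right ?_
  · exact (Commute.refl A).smul_right τ
  · exact (Commute.one_right A).smul_right q

section Basic

variable (hq : IsUnit q) (hA : A * quad A τ q = 0) (he : quad A τ q = q • e)
include hq hA he

theorem mul_e : A * e = 0 := by
  apply eq_zero_of_smul_of_isUnit hq
  rw [← mul_smul_comm, ← he, hA]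

theorem e_mul : e * A = 0 := by
  apply eq_zero_of_smul_of_isUnit hq
  rw [← smul_mul_assoc, ← he, ← (commute_quad A τ q).eq, hA]

theorem e_mul_e : e * e = e := by
  apply smul_cancel_of_isUnit hq
  calc q • (e * e) = (q • e) * e := (smul_mul_assoc q e e).symm
    _ = quad A τ q * e := by rw [he]
    _ = (A * A - τ • A + q • 1) * e := rfl
    _ = q • e := by
      rw [add_mul, sub_mul, mul_assoc, mul_e hq hA he, mul_zero, smul_mul_assoc, mul_e hq hA he,
        smul_zero, sub_zero, zero_add, smul_mul_assoc, one_mul]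

theorem apply_e (u : V) : A (e u) = 0 := by
  rw [← Module.End.mul_apply, mul_e hq hA he, LinearMap.zero_apply]

theorem e_apply_A (u : V) : e (A u) = 0 := by
  rw [← Module.End.mul_apply, e_mul hq hA he, LinearMap.zero_apply]

theorem e_apply_e (u : V) : e (e u) = e u := by
  rw [← Module.End.mul_apply, e_mul_e hq hA he]

/-- `ker A = range e`, pointwise. -/
theorem apply_eq_zero_iff (u : V) : A u = 0 ↔ e u = u := by
  constructor
  · intro h
    apply smul_cancel_of_isUnit hq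
    have h1 : quad A τ q u = q • u := by
      rw [quad_apply, h, map_zero, smul_zero, sub_zero, zero_add]
    rw [he, LinearMap.smul_apply] at h1
    exact h1
  · intro h
    rw [← h]
    exact apply_e hq hA he u

theorem ker_eq_range : LinearMap.ker A = LinearMap.range e := by
  ext u
  rw [LinearMap.mem_ker, apply_eq_zero_iff hq hA he, LinearMap.mem_range]
  constructor
  · intro h
    exact ⟨u, h⟩
  · rintro ⟨w, rfl⟩
    exact e_apply_e hq hA he w

/-- `A (τ − A) = q (1 − e)`. -/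
theorem mul_compl : A * (τ • 1 - A) = q • (1 - e) := by
  have h1 : A * (τ • 1 - A) = q • 1 - quad A τ q := by
    unfold quad
    rw [mul_sub, mul_smul_comm, mul_one]
    abel
  rw [h1, he, smul_sub]

theorem compl_pow_mul_pow (n : ℕ) :
    (τ • (1 : Module.End R V) - A) ^ n * A ^ n = q ^ n • (1 - e) ^ n := by
  have hc : Commute (τ • (1 : Module.End R V) - A) A :=
    ((Commute.one_left A).smul_left τ).sub_left (Commute.refl A)
  rw [← hc.mul_pow, hc.eq, mul_compl hq hA he, smul_pow]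

theorem one_sub_e_pow (n : ℕ) (hn : n ≠ 0) : ((1 : Module.End R V) - e) ^ n = 1 - e := by
  have hid : IsIdempotentElem ((1 : Module.End R V) - e) :=
    (show IsIdempotentElem e from e_mul_e hq hA he).one_sub
  obtain ⟨m, rfl⟩ := Nat.exists_eq_succ_of_ne_zero hn
  exact hid.pow_succ_eq m

/-- **nilpotent ⟹ killed** : `0` is a simple root. -/
theorem apply_eq_zero_of_pow (u : V) (n : ℕ) (h : (A ^ n) u = 0) : A u = 0 := by
  rcases Nat.eq_zero_or_pos n with rfl | hn
  · rw [pow_zero, Module.End.one_apply] at h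
    rw [h, map_zero]
  have h1 : ((τ • (1 : Module.End R V) - A) ^ n * A ^ n) u = 0 := by
    rw [Module.End.mul_apply, h, map_zero]
  rw [compl_pow_mul_pow hq hA he, one_sub_e_pow hq hA he n hn.ne', LinearMap.smul_apply] at h1
  have h2 : ((1 : Module.End R V) - e) u = 0 := eq_zero_of_smul_of_isUnit (hq.pow n) h1
  rw [LinearMap.sub_apply, Module.End.one_apply, sub_eq_zero] at h2
  exact (apply_eq_zero_iff hq hA he u).2 h2.symm

omit hq hA he in
/-- linear maps preserve `I ^ k • ⊤`. -/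
theorem map_mem_smul_top {W : Type*} [AddCommGroup W] [Module R W] (f : V →ₗ[R] W) (J : Ideal R)
    {u : V} (hu : u ∈ (J • ⊤ : Submodule R V)) : f u ∈ (J • ⊤ : Submodule R W) := by
  have h1 : f u ∈ Submodule.map f (J • ⊤ : Submodule R V) := Submodule.mem_map_of_mem hu
  rw [Submodule.map_smul''] at h1
  exact Submodule.smul_mono le_rfl le_top h1

/-- **topologically nilpotent ⟹ killed**, in an `I`-adically separated module. -/
theorem apply_eq_zero_of_tendsto (I : Ideal R)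
    (hsep : (⨅ k : ℕ, (I ^ k • ⊤ : Submodule R V)) = ⊥) (u : V)
    (h : ∀ k : ℕ, ∃ n : ℕ, (A ^ n) u ∈ (I ^ k • ⊤ : Submodule R V)) : A u = 0 := by
  have h2 : ((1 : Module.End R V) - e) u = 0 := by
    have hmem : ((1 : Module.End R V) - e) u ∈ (⨅ k : ℕ, (I ^ k • ⊤ : Submodule R V)) := by
      rw [Submodule.mem_iInf]
      intro k
      obtain ⟨n, hn⟩ := h k
      rcases Nat.eq_zero_or_pos n with rfl | hn0
      · rw [pow_zero, Module.End.one_apply] at hn
        exact map_mem_smul_top _ _ hn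
      have h1 : ((τ • (1 : Module.End R V) - A) ^ n * A ^ n) u ∈ (I ^ k • ⊤ : Submodule R V) := by
        rw [Module.End.mul_apply]
        exact map_mem_smul_top _ _ hn
      rw [compl_pow_mul_pow hq hA he, one_sub_e_pow hq hA he n hn0.ne', LinearMap.smul_apply] at h1
      have h3 := (I ^ k • ⊤ : Submodule R V).smul_mem (((hq.pow n).unit⁻¹ : Rˣ) : R) h1
      rwa [smul_smul, IsUnit.val_inv_mul, one_smul] at h3
    rw [hsep] at hmem
    exact (Submodule.mem_bot R).1 hmem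
  rw [LinearMap.sub_apply, Module.End.one_apply, sub_eq_zero] at h2
  exact (apply_eq_zero_iff hq hA he u).2 h2.symm

end Basic

/-! ## 2. the transfer through an intertwining surjection -/

section Transfer

variable {X : Type*} [AddCommGroup X] [Module R X]
variable (hq : IsUnit q) (hA : A * quad A τ q = 0) (he : quad A τ q = q • e)
variable (β : X →ₗ[R] V) (U ε : Module.End R X) (hβ : ∀ y, β (U y) = A (β y))
include hq hA he hβ

omit hq hA he in
theorem beta_pow (n : ℕ) (y : X) : β ((U ^ n) y) = (A ^ n) (β y) := by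
  induction n generalizing y with
  | zero => simp
  | succ n ih => rw [pow_succ, Module.End.mul_apply, ih, hβ, pow_succ, Module.End.mul_apply]

/-- **`β ∘ ε = e ∘ β`** : the `U`-nilpotent part goes to `ker A`, the `U`-invertible part to
`ker e`. -/
theorem beta_eps (I : Ideal R) (hsep : (⨅ k : ℕ, (I ^ k • ⊤ : Submodule R V)) = ⊥)
    (hnil : ∀ (y : X) (k : ℕ), ∃ n : ℕ, (U ^ n) (ε y) ∈ (I ^ k • ⊤ : Submodule R X))
    (hinv : ∀ y : X, ∃ z : X, y - ε y = U z) (y : X) : β (ε y) = e (β y) := by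
  have h1 : A (β (ε y)) = 0 := by
    refine apply_eq_zero_of_tendsto hq hA he I hsep _ fun k => ?_
    obtain ⟨n, hn⟩ := hnil y k
    refine ⟨n, ?_⟩
    rw [← beta_pow β U hβ]
    exact map_mem_smul_top β _ hn
  have h2 : e (β (ε y)) = β (ε y) := (apply_eq_zero_iff hq hA he _).1 h1
  obtain ⟨z, hz⟩ := hinv y
  have h3 : e (β (y - ε y)) = 0 := by
    rw [hz, hβ, e_apply_A hq hA he]
  rw [map_sub, map_sub, sub_eq_zero] at h3
  rw [h3, h2]

/-- `β` maps `range ε` ONTO `ker A` when `β` is onto. -/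
theorem exists_beta_eps_eq (I : Ideal R) (hsep : (⨅ k : ℕ, (I ^ k • ⊤ : Submodule R V)) = ⊥)
    (hnil : ∀ (y : X) (k : ℕ), ∃ n : ℕ, (U ^ n) (ε y) ∈ (I ^ k • ⊤ : Submodule R X))
    (hinv : ∀ y : X, ∃ z : X, y - ε y = U z) (hsurj : Function.Surjective β)
    (v : V) (hv : A v = 0) : ∃ y : X, β (ε y) = v := by
  obtain ⟨y, rfl⟩ := hsurj v
  exact ⟨y, by rw [beta_eps hq hA he β U ε hβ I hsep hnil hinv,
    (apply_eq_zero_iff hq hA he _).1 hv]⟩

end Transfer

/-! ## 2'. the transfer, SUBMODULE form (`L' ⊔ C = ⊤`, the shape of `isCompl_locPart_awayPart`) -/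

section Sub

variable {X : Type*} [AddCommGroup X] [Module R X]
variable (hq : IsUnit q) (hA : A * quad A τ q = 0) (he : quad A τ q = q • e)
variable (β : X →ₗ[R] V) (U : Module.End R X) (hβ : ∀ y, β (U y) = A (β y))
variable (L' C : Submodule R X)

omit [Module R V] in
/-- from ONE exponent: `U ^ m L' ⊆ I • L'` ⟹ `U` is topologically nilpotent on `L'`. -/
theorem exists_pow_mem_of_pow_le (I : Ideal R) (m : ℕ)
    (hm : ∀ y ∈ L', (U ^ m) y ∈ (I • L' : Submodule R X)) :
    ∀ y ∈ L', ∀ k : ℕ, ∃ n : ℕ, (U ^ n) y ∈ (I ^ k • ⊤ : Submodule R X) := by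
  have hstep : ∀ k : ℕ, ∀ z ∈ (I ^ k • L' : Submodule R X),
      (U ^ m) z ∈ (I ^ (k + 1) • L' : Submodule R X) := by
    intro k z hz
    refine Submodule.smul_induction_on hz ?_ ?_
    · intro r hr l hl
      rw [map_smul, pow_succ, mul_smul]
      exact Submodule.smul_mem_smul hr (hm l hl)
    · intro x y hx hy
      rw [map_add]
      exact add_mem hx hy
  have hall : ∀ k : ℕ, ∀ y ∈ L', (U ^ (m * k)) y ∈ (I ^ k • L' : Submodule R X) := by
    intro k
    induction k with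
    | zero =>
      intro y hy
      rw [Nat.mul_zero, pow_zero, pow_zero, Ideal.one_eq_top, Submodule.top_smul,
        Module.End.one_apply]
      exact hy
    | succ k ih =>
      intro y hy
      have h3 := hstep k _ (ih y hy)
      have h4 : (U ^ (m * (k + 1))) y = (U ^ m) ((U ^ (m * k)) y) := by
        rw [← Module.End.mul_apply, ← pow_add]
        congr 2
        ring
      rw [h4]
      exact h3
  intro y hy k
  exact ⟨m * k, Submodule.smul_mono le_rfl le_top (hall k y hy)⟩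

include hq hA he hβ

/-- `β (L') ⊆ ker A`. -/
theorem apply_beta_eq_zero_of_mem (I : Ideal R)
    (hsep : (⨅ k : ℕ, (I ^ k • ⊤ : Submodule R V)) = ⊥)
    (hnil : ∀ y ∈ L', ∀ k : ℕ, ∃ n : ℕ, (U ^ n) y ∈ (I ^ k • ⊤ : Submodule R X))
    {y : X} (hy : y ∈ L') : A (β y) = 0 := by
  refine apply_eq_zero_of_tendsto hq hA he I hsep _ fun k => ?_
  obtain ⟨n, hn⟩ := hnil y hy k
  refine ⟨n, ?_⟩
  rw [← beta_pow β U hβ]
  exact map_mem_smul_top β _ hn

/-- `β (C) ⊆ ker e` when `U` is onto on `C`. -/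
theorem e_beta_eq_zero_of_mem (hC : ∀ c ∈ C, ∃ z : X, U z = c) {c : X} (hc : c ∈ C) :
    e (β c) = 0 := by
  obtain ⟨z, rfl⟩ := hC c hc
  rw [hβ, e_apply_A hq hA he]

/-- **`β` maps `L'` ONTO `ker A`** when `β` is onto and `L' ⊔ C = ⊤`. -/
theorem exists_mem_beta_eq (I : Ideal R)
    (hsep : (⨅ k : ℕ, (I ^ k • ⊤ : Submodule R V)) = ⊥)
    (hnil : ∀ y ∈ L', ∀ k : ℕ, ∃ n : ℕ, (U ^ n) y ∈ (I ^ k • ⊤ : Submodule R X))
    (hC : ∀ c ∈ C, ∃ z : X, U z = c) (hsup : L' ⊔ C = ⊤)
    (hsurj : Function.Surjective β) (v : V) (hv : A v = 0) : ∃ y ∈ L', β y = v := by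
  obtain ⟨x, rfl⟩ := hsurj v
  have hx : x ∈ L' ⊔ C := by rw [hsup]; exact Submodule.mem_top
  obtain ⟨l, hl, c, hc, rfl⟩ := Submodule.mem_sup.1 hx
  refine ⟨l, hl, ?_⟩
  have h1 : e (β (l + c)) = β (l + c) := (apply_eq_zero_iff hq hA he _).1 hv
  have h2 : e (β l) = β l :=
    (apply_eq_zero_iff hq hA he _).1 (apply_beta_eq_zero_of_mem hq hA he β U hβ L' I hsep hnil hl)
  rw [map_add, map_add, h2, e_beta_eq_zero_of_mem hq hA he β U hβ C hC hc, add_zero] at h1
  rw [map_add]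
  exact h1

end Sub

end Cubic

/-! ## 3. the three explicit `3 × 3` matrices -/

section Explicit

variable {R : Type*} [CommRing R] {M : Type*} [AddCommGroup M] [Module R M]

/-- an endomorphism of `M³` from its three components. -/
def mk3 (f0 f1 f2 : (Fin 3 → M) →ₗ[R] M) : Module.End R (Fin 3 → M) :=
  LinearMap.pi ![f0, f1, f2]

theorem mk3_apply_zero (f0 f1 f2 : (Fin 3 → M) →ₗ[R] M) (u : Fin 3 → M) :
    mk3 f0 f1 f2 u 0 = f0 u := rfl
theorem mk3_apply_one (f0 f1 f2 : (Fin 3 → M) →ₗ[R] M) (u : Fin 3 → M) :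
    mk3 f0 f1 f2 u 1 = f1 u := rfl
theorem mk3_apply_two (f0 f1 f2 : (Fin 3 → M) →ₗ[R] M) (u : Fin 3 → M) :
    mk3 f0 f1 f2 u 2 = f2 u := rfl

/-- the `m`-th coordinate as a linear form. -/
abbrev pr (m : Fin 3) : (Fin 3 → M) →ₗ[R] M := LinearMap.proj m

variable (τ q : R)

/-- `U3 = [[τ, q, 0], [−1, 0, q], [0, 0, 0]]` : `U_q` on the image of `α₃`. -/
def u3 : Module.End R (Fin 3 → M) :=
  mk3 (τ • pr 0 + q • pr 1) (-pr 0 + q • pr 2) 0

/-- `U3ᵀ = [[τ, −1, 0], [q, 0, 0], [0, q, 0]]`. -/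
def u3t : Module.End R (Fin 3 → M) :=
  mk3 (τ • pr 0 - pr 1) (q • pr 0) (q • pr 1)

/-- `U3♯ = rev · U3ᵀ · rev = [[0, q, 0], [0, 0, q], [0, −1, τ]]` : `U_q` on `β₃`. -/
def u3s : Module.End R (Fin 3 → M) :=
  mk3 (q • pr 1) (q • pr 2) (-pr 1 + τ • pr 2)

/-- the idempotent of `U3` : `u ↦ u₂ • (q, −τ, 1)`. -/
def e3 : Module.End R (Fin 3 → M) :=
  mk3 (q • pr 2) (-(τ • pr 2)) (pr 2)

/-- the idempotent of `U3ᵀ` : `u ↦ (0, 0, q u₀ − τ u₁ + u₂)`. -/
def e3t : Module.End R (Fin 3 → M) :=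
  mk3 0 0 (q • pr 0 - τ • pr 1 + pr 2)

/-- the idempotent of `U3♯` : `u ↦ (u₀ − τ u₁ + q u₂, 0, 0)`. -/
def e3s : Module.End R (Fin 3 → M) :=
  mk3 (pr 0 - τ • pr 1 + q • pr 2) 0 0

theorem u3_apply (u : Fin 3 → M) :
    u3 τ q u = ![τ • u 0 + q • u 1, -u 0 + q • u 2, 0] := by
  funext i; fin_cases i <;> rfl

theorem u3t_apply (u : Fin 3 → M) :
    u3t τ q u = ![τ • u 0 - u 1, q • u 0, q • u 1] := by
  funext i; fin_cases i <;> rfl

theorem u3s_apply (u : Fin 3 → M) :
    u3s τ q u = ![q • u 1, q • u 2, -u 1 + τ • u 2] := by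
  funext i; fin_cases i <;> rfl

theorem e3_apply (u : Fin 3 → M) : e3 τ q u = ![q • u 2, -(τ • u 2), u 2] := by
  funext i; fin_cases i <;> rfl

theorem e3t_apply (u : Fin 3 → M) : e3t τ q u = ![0, 0, q • u 0 - τ • u 1 + u 2] := by
  funext i; fin_cases i <;> rfl

theorem e3s_apply (u : Fin 3 → M) : e3s τ q u = ![u 0 - τ • u 1 + q • u 2, 0, 0] := by
  funext i; fin_cases i <;> rfl

/-! ### the quadratic factor is `q • e` -/

theorem quad_u3 : quad (u3 (M := M) τ q) τ q = q • e3 τ q := by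
  refine LinearMap.ext fun u => ?_
  rw [quad_apply, LinearMap.smul_apply, u3_apply, u3_apply, e3_apply]
  funext i
  fin_cases i <;> simp [smul_add, smul_sub, smul_smul, mul_comm] <;> abel

theorem quad_u3t : quad (u3t (M := M) τ q) τ q = q • e3t τ q := by
  refine LinearMap.ext fun u => ?_
  rw [quad_apply, LinearMap.smul_apply, u3t_apply, u3t_apply, e3t_apply]
  funext i
  fin_cases i <;> simp [smul_add, smul_sub, smul_smul, mul_comm] <;> abel

theorem quad_u3s : quad (u3s (M := M) τ q) τ q = q • e3s τ q := by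
  refine LinearMap.ext fun u => ?_
  rw [quad_apply, LinearMap.smul_apply, u3s_apply, u3s_apply, e3s_apply]
  funext i
  fin_cases i <;> simp [smul_add, smul_sub, smul_smul, mul_comm] <;> abel

/-! ### the cubic -/

theorem u3_mul_e3 : u3 (M := M) τ q * e3 τ q = 0 := by
  refine LinearMap.ext fun u => ?_
  rw [Module.End.mul_apply, e3_apply, u3_apply]
  funext i
  fin_cases i <;> simp [smul_smul, mul_comm]

theorem u3t_mul_e3t : u3t (M := M) τ q * e3t τ q = 0 := by
  refine LinearMap.ext fun u => ?_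
  rw [Module.End.mul_apply, e3t_apply, u3t_apply]
  funext i
  fin_cases i <;> simp

theorem u3s_mul_e3s : u3s (M := M) τ q * e3s τ q = 0 := by
  refine LinearMap.ext fun u => ?_
  rw [Module.End.mul_apply, e3s_apply, u3s_apply]
  funext i
  fin_cases i <;> simp

theorem u3_cubic : u3 (M := M) τ q * quad (u3 τ q) τ q = 0 := by
  rw [quad_u3, mul_smul_comm, u3_mul_e3, smul_zero]

theorem u3t_cubic : u3t (M := M) τ q * quad (u3t τ q) τ q = 0 := by
  rw [quad_u3t, mul_smul_comm, u3t_mul_e3t, smul_zero]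

theorem u3s_cubic : u3s (M := M) τ q * quad (u3s τ q) τ q = 0 := by
  rw [quad_u3s, mul_smul_comm, u3s_mul_e3s, smul_zero]

/-! ### the kernels -/

variable {τ q}

/-- `ker U3 = {x • (q, −τ, 1)}`. -/
theorem u3_apply_eq_zero_iff (hq : IsUnit q) (u : Fin 3 → M) :
    u3 τ q u = 0 ↔ u = ![q • u 2, -(τ • u 2), u 2] := by
  rw [apply_eq_zero_iff hq (u3_cubic τ q) (quad_u3 τ q), e3_apply, eq_comm]

/-- `ker U3ᵀ = {(0, 0, x)}`. -/
theorem u3t_apply_eq_zero_iff (hq : IsUnit q) (u : Fin 3 → M) :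
    u3t τ q u = 0 ↔ u 0 = 0 ∧ u 1 = 0 := by
  rw [u3t_apply]
  constructor
  · intro h
    have h1 : q • u 0 = 0 := congrFun h 1
    have h2 : q • u 1 = 0 := congrFun h 2
    exact ⟨eq_zero_of_smul_of_isUnit hq h1, eq_zero_of_smul_of_isUnit hq h2⟩
  · rintro ⟨h0, h1⟩
    funext i
    fin_cases i <;> simp [h0, h1]

/-- `ker U3♯ = {(x, 0, 0)}`. -/
theorem u3s_apply_eq_zero_iff (hq : IsUnit q) (u : Fin 3 → M) :
    u3s τ q u = 0 ↔ u 1 = 0 ∧ u 2 = 0 := by
  rw [u3s_apply]
  constructor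
  · intro h
    have h1 : q • u 1 = 0 := congrFun h 0
    have h2 : q • u 2 = 0 := congrFun h 1
    exact ⟨eq_zero_of_smul_of_isUnit hq h1, eq_zero_of_smul_of_isUnit hq h2⟩
  · rintro ⟨h1, h2⟩
    funext i
    fin_cases i <;> simp [h1, h2]

variable (τ q)

theorem e3s_single (x : M) : e3s τ q ![x, 0, 0] = ![x, 0, 0] := by
  rw [e3s_apply]
  funext i
  fin_cases i <;> simp

theorem e3t_single (x : M) : e3t τ q ![0, 0, x] = ![0, 0, x] := by
  rw [e3t_apply]
  funext i
  fin_cases i <;> simp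

theorem u3s_single (x : M) : u3s τ q ![x, 0, 0] = 0 := by
  rw [u3s_apply]
  funext i
  fin_cases i <;> simp

theorem u3t_single (x : M) : u3t τ q ![0, 0, x] = 0 := by
  rw [u3t_apply]
  funext i
  fin_cases i <;> simp

/-! ### the pairing with `v = (q, −a, 1)` -/

/-- `v · u = Σ_m v_m • u_m`. -/
def dot (v : Fin 3 → R) : (Fin 3 → M) →ₗ[R] M := ∑ m : Fin 3, v m • pr m

theorem dot_apply (v : Fin 3 → R) (u : Fin 3 → M) :
    dot v u = v 0 • u 0 + v 1 • u 1 + v 2 • u 2 := by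
  simp [dot, Fin.sum_univ_three, LinearMap.sum_apply]

/-- helper2's vector `v3 q a = (q, −a, 1)`. -/
def vq (q a : R) : Fin 3 → R := ![q, -a, 1]

theorem dot_vq (a : R) (u : Fin 3 → M) : dot (vq q a) u = q • u 0 - a • u 1 + u 2 := by
  rw [dot_apply]
  simp [vq, sub_eq_add_neg]

/-- **on `ker U3♯` the pairing with `v` is multiplication by `q`.** -/
theorem dot_vq_e3s (a : R) (u : Fin 3 → M) :
    dot (vq q a) (e3s τ q u) = q • (u 0 - τ • u 1 + q • u 2) := by
  rw [dot_vq, e3s_apply]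
  simp

theorem dot_vq_single (a : R) (x : M) : dot (vq q a) (![x, 0, 0] : Fin 3 → M) = q • x := by
  rw [dot_vq]
  simp

/-- on `ker U3ᵀ` the pairing with `v` is the identity. -/
theorem dot_vq_e3t (a : R) (u : Fin 3 → M) :
    dot (vq q a) (e3t τ q u) = q • u 0 - τ • u 1 + u 2 := by
  rw [dot_vq, e3t_apply]
  simp

/-- on `ker U3` the pairing with `v` is `q² + a τ + 1` (no unit claim). -/
theorem dot_vq_e3 (a : R) (u : Fin 3 → M) :
    dot (vq q a) (e3 τ q u) = (q * q + a * τ + 1) • u 2 := by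
  rw [dot_vq, e3_apply]
  simp [add_smul, mul_smul, smul_neg, sub_eq_add_neg]

end Explicit

/-! ## 4. the corollary used by (I-b): `(β₃)_0` and `t = v · β₃` are onto from the `U_q`-nilpotent part -/

section Final

variable {R : Type*} [CommRing R] {M X : Type*} [AddCommGroup M] [Module R M]
  [AddCommGroup X] [Module R X] {τ q : R} (hq : IsUnit q)
  (β : X →ₗ[R] (Fin 3 → M)) (U ε : Module.End R X)
  (hβ : ∀ y, β (U y) = u3s τ q (β y))
  (I : Ideal R) (hsep : (⨅ k : ℕ, (I ^ k • ⊤ : Submodule R (Fin 3 → M))) = ⊥)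
  (hnil : ∀ (y : X) (k : ℕ), ∃ n : ℕ, (U ^ n) (ε y) ∈ (I ^ k • ⊤ : Submodule R X))
  (hinv : ∀ y : X, ∃ z : X, y - ε y = U z)
include hq hβ hsep hnil hinv

/-- on the `U`-nilpotent part `β = (β_0, 0, 0)`, with `β_0 (ε y) = β_0 y − τ β_1 y + q β_2 y`. -/
theorem beta_eps_s (y : X) :
    β (ε y) = ![β y 0 - τ • β y 1 + q • β y 2, 0, 0] := by
  rw [beta_eps hq (u3s_cubic τ q) (quad_u3s τ q) β U ε hβ I hsep hnil hinv, e3s_apply]

theorem beta_eps_one (y : X) : β (ε y) 1 = 0 := by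
  rw [beta_eps_s hq β U ε hβ I hsep hnil hinv]; rfl

theorem beta_eps_two (y : X) : β (ε y) 2 = 0 := by
  rw [beta_eps_s hq β U ε hβ I hsep hnil hinv]; rfl

/-- **`t = v · β` is `q • β_0` on the `U`-nilpotent part.** -/
theorem dot_beta_eps (a : R) (y : X) : dot (vq q a) (β (ε y)) = q • β (ε y) 0 := by
  rw [dot_vq, beta_eps_one hq β U ε hβ I hsep hnil hinv, beta_eps_two hq β U ε hβ I hsep hnil hinv,
    smul_zero, sub_zero, add_zero]

/-- **`β_0` is onto from the `U`-nilpotent part.** -/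
theorem exists_beta_single (hsurj : Function.Surjective β) (x : M) :
    ∃ y : X, β (ε y) = ![x, 0, 0] :=
  exists_beta_eps_eq hq (u3s_cubic τ q) (quad_u3s τ q) β U ε hβ I hsep hnil hinv hsurj _
    (u3s_single τ q x)

/-- **`t = v · β` is onto from the `U`-nilpotent part** (`v = (q, −a, 1)`, ANY `a`). -/
theorem exists_dot_eq (hsurj : Function.Surjective β) (a : R) (x : M) :
    ∃ y : X, dot (vq q a) (β (ε y)) = x := by
  obtain ⟨y, hy⟩ := exists_beta_single hq β U ε hβ I hsep hnil hinv hsurj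
    ((((hq.unit⁻¹ : Rˣ) : R)) • x)
  refine ⟨y, ?_⟩
  rw [hy, dot_vq_single, smul_smul, IsUnit.mul_val_inv, one_smul]

end Final

/-! ## 4'. the same in SUBMODULE form, and the BW convention `t = q β₂ − a β₁ + β₀` -/

section FinalSub

variable {R : Type*} [CommRing R] {M X : Type*} [AddCommGroup M] [Module R M]
  [AddCommGroup X] [Module R X] {τ q : R} (hq : IsUnit q)
  (β : X →ₗ[R] (Fin 3 → M)) (U : Module.End R X)
  (hβ : ∀ y, β (U y) = u3s τ q (β y)) (L' C : Submodule R X)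
  (I : Ideal R) (hsep : (⨅ k : ℕ, (I ^ k • ⊤ : Submodule R (Fin 3 → M))) = ⊥)
  (hnil : ∀ y ∈ L', ∀ k : ℕ, ∃ n : ℕ, (U ^ n) y ∈ (I ^ k • ⊤ : Submodule R X))

/-- the reversed vector `(1, −a, q)` : the BW-adjoint of `α₃ (v ⊗ ·)` is `q β₂ − a β₁ + β₀`. -/
def vqr (q a : R) : Fin 3 → R := ![1, -a, q]

omit [Module R X] in
theorem dot_vqr (a : R) (u : Fin 3 → M) : dot (vqr q a) u = u 0 - a • u 1 + q • u 2 := by
  rw [dot_apply]
  simp [vqr, sub_eq_add_neg]

omit [Module R X] in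
theorem dot_vqr_single (a : R) (x : M) : dot (vqr q a) (![x, 0, 0] : Fin 3 → M) = x := by
  rw [dot_vqr]
  simp

include hq hβ hsep hnil

/-- on `L'` : `β = (β_0, 0, 0)`. -/
theorem beta_one_of_mem {y : X} (hy : y ∈ L') : β y 1 = 0 :=
  ((u3s_apply_eq_zero_iff hq _).1 (apply_beta_eq_zero_of_mem hq (u3s_cubic τ q) (quad_u3s τ q)
    β U hβ L' I hsep hnil hy)).1

theorem beta_two_of_mem {y : X} (hy : y ∈ L') : β y 2 = 0 :=
  ((u3s_apply_eq_zero_iff hq _).1 (apply_beta_eq_zero_of_mem hq (u3s_cubic τ q) (quad_u3s τ q)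
    β U hβ L' I hsep hnil hy)).2

/-- `v · β = q • β_0` on `L'` (lamB convention, `v = (q, −a, 1)`). -/
theorem dot_vq_beta_of_mem (a : R) {y : X} (hy : y ∈ L') :
    dot (vq q a) (β y) = q • β y 0 := by
  rw [dot_vq, beta_one_of_mem hq β U hβ L' I hsep hnil hy,
    beta_two_of_mem hq β U hβ L' I hsep hnil hy, smul_zero, sub_zero, add_zero]

/-- `rev v · β = β_0` on `L'` (BW convention, `rev v = (1, −a, q)`). -/
theorem dot_vqr_beta_of_mem (a : R) {y : X} (hy : y ∈ L') :
    dot (vqr q a) (β y) = β y 0 := by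
  rw [dot_vqr, beta_one_of_mem hq β U hβ L' I hsep hnil hy,
    beta_two_of_mem hq β U hβ L' I hsep hnil hy, smul_zero, smul_zero, sub_zero, add_zero]

variable (hC : ∀ c ∈ C, ∃ z : X, U z = c) (hsup : L' ⊔ C = ⊤) (hsurj : Function.Surjective β)
include hC hsup hsurj

/-- **`β_0` is onto from `L'`** : every `(x, 0, 0)` is `β y` with `y ∈ L'`. -/
theorem exists_mem_beta_single (x : M) : ∃ y ∈ L', β y = ![x, 0, 0] :=
  exists_mem_beta_eq hq (u3s_cubic τ q) (quad_u3s τ q) β U hβ L' C I hsep hnil hC hsup hsurj _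
    (u3s_single τ q x)

/-- **`t = rev v · β` is onto from `L'`** (BW convention). -/
theorem exists_mem_dot_vqr_eq (a : R) (x : M) : ∃ y ∈ L', dot (vqr q a) (β y) = x := by
  obtain ⟨y, hy, hβy⟩ := exists_mem_beta_single hq β U hβ L' C I hsep hnil hC hsup hsurj x
  exact ⟨y, hy, by rw [hβy, dot_vqr_single]⟩

/-- **`t = v · β` is onto from `L'`** (lamB convention). -/
theorem exists_mem_dot_vq_eq (a : R) (x : M) : ∃ y ∈ L', dot (vq q a) (β y) = x := by
  obtain ⟨y, hy, hβy⟩ := exists_mem_beta_single hq β U hβ L' C I hsep hnil hC hsup hsurj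
    ((((hq.unit⁻¹ : Rˣ) : R)) • x)
  exact ⟨y, hy, by rw [hβy, dot_vq_single, smul_smul, IsUnit.mul_val_inv, one_smul]⟩

end FinalSub

end Fermat.Agent.GE9.PNew.KerPair
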