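/-
GATE-E / RISK-4 PNEW-STAGE, instance layer (I-b), SEAM FIX (helper25, board 7763): **helper23's
`GE9/PNew/KerPair` with `τ` an ENDOMORPHISM instead of a scalar.**

`KerPair` states the cubic `A (A² − τ A + q) = 0` and the transfer `β ∘ U = A ∘ β` for
`A = U3♯ = [[0, q, 0], [0, 0, q], [0, −1, τ]]` with `τ : R` a SCALAR of the base ring, `β` being
`R`-linear.  In the modular instance (helper5 `GE9/PNew/Inst/Beta3Uq.beta3O_uq`)

    β₀ U_q = q β₁,   β₁ U_q = q β₂,   β₂ U_q = T_q β₂ − β₁,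

`τ = T_q ⊗ O` is an endomorphism of `M = O ⊗ Λ_N` and the only rings over which `β₃ ⊗ O` is linear
(`O`, the polynomial Hecke algebra without `x_q`) do not contain it.  All of `KerPair` survives with
`τ • A` replaced by `T * A`, `T` an endomorphism COMMUTING with `A`:

* §1 `quadE A T q := A * A − T * A + q • 1`; for `q` a unit, `Commute T A`, `A * quadE = 0`,
  `quadE = q • e`: `mul_e`, `e_mul`, `e_mul_e`, `apply_eq_zero_iff : A u = 0 ↔ e u = u`,
  `mul_compl : A (T − A) = q (1 − e)`, `apply_eq_zero_of_pow`, `apply_eq_zero_of_tendsto`;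
* §2 the transfer in SUBMODULE form (`L' ⊔ C = ⊤`, `U` onto on `C`, topologically nilpotent on `L'`):
  `apply_beta_eq_zero_of_mem`, `e_beta_eq_zero_of_mem`, `exists_mem_beta_eq`;
* §3 the explicit matrices on `M³` for `τ : Module.End R M`: `u3sE`, `diag3`, `e3sE`;
* §4 FINAL, hypotheses in COMPONENT form (= `Beta3Uq.beO_uq_zero/one/two` verbatim):
  `beta_one_of_mem`, `beta_two_of_mem`, **`exists_mem_beta_single`**, **`exists_mem_beta_zero_eq`**,
  `exists_mem_dot_eq` (`t = c₀ β₀ + c₁ β₁ + c₂ β₂` with `c₀` a unit is onto from `L'`).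

Mathlib + `KerPair` (for its `τ`-free lemmas) only.
-/
import Mathlib
import Fermat.Agent.GE9.PNew.KerPair

set_option autoImplicit false
set_option linter.unusedSectionVars false
set_option linter.unusedSimpArgs false
set_option linter.unnecessarySeqFocus false
set_option linter.unreachableTactic false
set_option linter.unusedTactic false

namespace Fermat.Agent.GE9.PNew.KerPairEnd

open Fermat.Agent.GE9.PNew.KerPair

/-! ## 1. the abstract cubic, `τ` an endomorphism -/

section Cubic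

variable {R : Type*} [CommRing R] {V : Type*} [AddCommGroup V] [Module R V]

/-- the quadratic factor `A² − T A + q`, `T` an endomorphism. -/
def quadE (A T : Module.End R V) (q : R) : Module.End R V := A * A - T * A + q • 1

theorem quadE_apply (A T : Module.End R V) (q : R) (u : V) :
    quadE A T q u = A (A u) - T (A u) + q • u := by
  simp [quadE, Module.End.mul_apply]

variable {A e T : Module.End R V} {q : R}

theorem commute_quadE (hTA : Commute T A) (q : R) : Commute A (quadE A T q) := by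
  unfold quadE
  refine ((Commute.refl A).mul_right (Commute.refl A)).sub_right ?_ |>.add_right ?_
  · exact hTA.symm.mul_right (Commute.refl A)
  · exact (Commute.one_right A).smul_right q

section Basic

variable (hq : IsUnit q) (hTA : Commute T A) (hA : A * quadE A T q = 0)
  (he : quadE A T q = q • e)
include hq hTA hA he

theorem mul_e : A * e = 0 := by
  apply eq_zero_of_smul_of_isUnit hq
  rw [← mul_smul_comm, ← he, hA]

theorem e_mul : e * A = 0 := by
  apply eq_zero_of_smul_of_isUnit hq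
  rw [← smul_mul_assoc, ← he, ← (commute_quadE hTA q).eq, hA]

theorem e_mul_e : e * e = e := by
  apply smul_cancel_of_isUnit hq
  calc q • (e * e) = (q • e) * e := (smul_mul_assoc q e e).symm
    _ = quadE A T q * e := by rw [he]
    _ = (A * A - T * A + q • 1) * e := rfl
    _ = q • e := by
      rw [add_mul, sub_mul, mul_assoc, mul_e hq hTA hA he, mul_zero, mul_assoc,
        mul_e hq hTA hA he, mul_zero, sub_zero, zero_add, smul_mul_assoc, one_mul]

theorem apply_e (u : V) : A (e u) = 0 := by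
  rw [← Module.End.mul_apply, mul_e hq hTA hA he, LinearMap.zero_apply]

theorem e_apply_A (u : V) : e (A u) = 0 := by
  rw [← Module.End.mul_apply, e_mul hq hTA hA he, LinearMap.zero_apply]

theorem e_apply_e (u : V) : e (e u) = e u := by
  rw [← Module.End.mul_apply, e_mul_e hq hTA hA he]

/-- `ker A = range e`, pointwise. -/
theorem apply_eq_zero_iff (u : V) : A u = 0 ↔ e u = u := by
  constructor
  · intro h
    apply smul_cancel_of_isUnit hq
    have h1 : quadE A T q u = q • u := by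
      rw [quadE_apply, h, map_zero, map_zero, sub_zero, zero_add]
    rw [he, LinearMap.smul_apply] at h1
    exact h1
  · intro h
    rw [← h]
    exact apply_e hq hTA hA he u

theorem ker_eq_range : LinearMap.ker A = LinearMap.range e := by
  ext u
  rw [LinearMap.mem_ker, apply_eq_zero_iff hq hTA hA he, LinearMap.mem_range]
  constructor
  · intro h
    exact ⟨u, h⟩
  · rintro ⟨w, rfl⟩
    exact e_apply_e hq hTA hA he w

/-- `A (T − A) = q (1 − e)`. -/
theorem mul_compl : A * (T - A) = q • (1 - e) := by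
  have h1 : A * (T - A) = q • 1 - quadE A T q := by
    unfold quadE
    rw [mul_sub, ← hTA.eq]
    abel
  rw [h1, he, smul_sub]

theorem compl_pow_mul_pow (n : ℕ) : (T - A) ^ n * A ^ n = q ^ n • (1 - e) ^ n := by
  have hc : Commute (T - A) A := hTA.sub_left (Commute.refl A)
  rw [← hc.mul_pow, hc.eq, mul_compl hq hTA hA he, smul_pow]

theorem one_sub_e_pow (n : ℕ) (hn : n ≠ 0) : ((1 : Module.End R V) - e) ^ n = 1 - e := by
  have hid : IsIdempotentElem ((1 : Module.End R V) - e) :=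
    (show IsIdempotentElem e from e_mul_e hq hTA hA he).one_sub
  obtain ⟨m, rfl⟩ := Nat.exists_eq_succ_of_ne_zero hn
  exact hid.pow_succ_eq m

/-- **nilpotent ⟹ killed** : `0` is a simple root. -/
theorem apply_eq_zero_of_pow (u : V) (n : ℕ) (h : (A ^ n) u = 0) : A u = 0 := by
  rcases Nat.eq_zero_or_pos n with rfl | hn
  · rw [pow_zero, Module.End.one_apply] at h
    rw [h, map_zero]
  have h1 : ((T - A) ^ n * A ^ n) u = 0 := by
    rw [Module.End.mul_apply, h, map_zero]
  rw [compl_pow_mul_pow hq hTA hA he, one_sub_e_pow hq hTA hA he n hn.ne',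
    LinearMap.smul_apply] at h1
  have h2 : ((1 : Module.End R V) - e) u = 0 := eq_zero_of_smul_of_isUnit (hq.pow n) h1
  rw [LinearMap.sub_apply, Module.End.one_apply, sub_eq_zero] at h2
  exact (apply_eq_zero_iff hq hTA hA he u).2 h2.symm

/-- **topologically nilpotent ⟹ killed**, in an `I`-adically separated module. -/
theorem apply_eq_zero_of_tendsto (I : Ideal R)
    (hsep : (⨅ k : ℕ, (I ^ k • ⊤ : Submodule R V)) = ⊥) (u : V)
    (h : ∀ k : ℕ, ∃ n : ℕ, (A ^ n) u ∈ (I ^ k • ⊤ : Submodule R V)) : A u = 0 := by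
  have h2 : ((1 : Module.End R V) - e) u = 0 := by
    have hmem : ((1 : Module.End R V) - e) u ∈ (⨅ k : ℕ, (I ^ k • ⊤ : Submodule R V)) := by
      rw [Submodule.mem_iInf]
      intro k
      obtain ⟨n, hn⟩ := h k
      rcases Nat.eq_zero_or_pos n with rfl | hn0
      · rw [pow_zero, Module.End.one_apply] at hn
        exact map_mem_smul_top _ _ hn
      have h1 : ((T - A) ^ n * A ^ n) u ∈ (I ^ k • ⊤ : Submodule R V) := by
        rw [Module.End.mul_apply]
        exact map_mem_smul_top _ _ hn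
      rw [compl_pow_mul_pow hq hTA hA he, one_sub_e_pow hq hTA hA he n hn0.ne',
        LinearMap.smul_apply] at h1
      have h3 := (I ^ k • ⊤ : Submodule R V).smul_mem (((hq.pow n).unit⁻¹ : Rˣ) : R) h1
      rwa [smul_smul, IsUnit.val_inv_mul, one_smul] at h3
    rw [hsep] at hmem
    exact (Submodule.mem_bot R).1 hmem
  rw [LinearMap.sub_apply, Module.End.one_apply, sub_eq_zero] at h2
  exact (apply_eq_zero_iff hq hTA hA he u).2 h2.symm

end Basic

/-! ## 2. the transfer, SUBMODULE form -/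

section Sub

variable {X : Type*} [AddCommGroup X] [Module R X]
variable (hq : IsUnit q) (hTA : Commute T A) (hA : A * quadE A T q = 0)
  (he : quadE A T q = q • e)
variable (β : X →ₗ[R] V) (U : Module.End R X) (hβ : ∀ y, β (U y) = A (β y))
variable (L' C : Submodule R X)

include hq hTA hA he hβ

/-- `β (L') ⊆ ker A`. -/
theorem apply_beta_eq_zero_of_mem (I : Ideal R)
    (hsep : (⨅ k : ℕ, (I ^ k • ⊤ : Submodule R V)) = ⊥)
    (hnil : ∀ y ∈ L', ∀ k : ℕ, ∃ n : ℕ, (U ^ n) y ∈ (I ^ k • ⊤ : Submodule R X))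
    {y : X} (hy : y ∈ L') : A (β y) = 0 := by
  refine apply_eq_zero_of_tendsto hq hTA hA he I hsep _ fun k => ?_
  obtain ⟨n, hn⟩ := hnil y hy k
  refine ⟨n, ?_⟩
  rw [← beta_pow β U hβ]
  exact map_mem_smul_top β _ hn

/-- `β (C) ⊆ ker e` when `U` is onto on `C`. -/
theorem e_beta_eq_zero_of_mem (hC : ∀ c ∈ C, ∃ z : X, U z = c) {c : X} (hc : c ∈ C) :
    e (β c) = 0 := by
  obtain ⟨z, rfl⟩ := hC c hc
  rw [hβ, e_apply_A hq hTA hA he]

/-- **`β` maps `L'` ONTO `ker A`** when `β` is onto and `L' ⊔ C = ⊤`. -/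
theorem exists_mem_beta_eq (I : Ideal R)
    (hsep : (⨅ k : ℕ, (I ^ k • ⊤ : Submodule R V)) = ⊥)
    (hnil : ∀ y ∈ L', ∀ k : ℕ, ∃ n : ℕ, (U ^ n) y ∈ (I ^ k • ⊤ : Submodule R X))
    (hC : ∀ c ∈ C, ∃ z : X, U z = c) (hsup : L' ⊔ C = ⊤)
    (hsurj : Function.Surjective β) (v : V) (hv : A v = 0) : ∃ y ∈ L', β y = v := by
  obtain ⟨x, rfl⟩ := hsurj v
  have hx : x ∈ L' ⊔ C := by rw [hsup]; exact Submodule.mem_top
  obtain ⟨l, hl, c, hc, rfl⟩ := Submodule.mem_sup.1 hx
  refine ⟨l, hl, ?_⟩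
  have h1 : e (β (l + c)) = β (l + c) := (apply_eq_zero_iff hq hTA hA he _).1 hv
  have h2 : e (β l) = β l :=
    (apply_eq_zero_iff hq hTA hA he _).1
      (apply_beta_eq_zero_of_mem hq hTA hA he β U hβ L' I hsep hnil hl)
  rw [map_add, map_add, h2, e_beta_eq_zero_of_mem hq hTA hA he β U hβ C hC hc, add_zero] at h1
  rw [map_add]
  exact h1

end Sub

end Cubic

/-! ## 3. the explicit matrices on `M³`, `τ : Module.End R M` -/

section Explicit

variable {R : Type*} [CommRing R] {M : Type*} [AddCommGroup M] [Module R M]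
variable (τ : Module.End R M) (q : R)

/-- `U3♯ = [[0, q, 0], [0, 0, q], [0, −1, τ]]`, `τ` an endomorphism of `M`. -/
def u3sE : Module.End R (Fin 3 → M) :=
  mk3 (q • pr 1) (q • pr 2) (-pr 1 + τ ∘ₗ pr 2)

/-- `diag (τ, τ, τ)`. -/
def diag3 : Module.End R (Fin 3 → M) :=
  mk3 (τ ∘ₗ pr 0) (τ ∘ₗ pr 1) (τ ∘ₗ pr 2)

/-- the idempotent of `U3♯` : `u ↦ (u₀ − τ u₁ + q u₂, 0, 0)`. -/
def e3sE : Module.End R (Fin 3 → M) :=
  mk3 (pr 0 - τ ∘ₗ pr 1 + q • pr 2) 0 0

theorem u3sE_apply (u : Fin 3 → M) :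
    u3sE τ q u = ![q • u 1, q • u 2, -u 1 + τ (u 2)] := by
  funext i; fin_cases i <;> rfl

theorem diag3_apply (u : Fin 3 → M) : diag3 τ u = ![τ (u 0), τ (u 1), τ (u 2)] := by
  funext i; fin_cases i <;> rfl

theorem e3sE_apply (u : Fin 3 → M) : e3sE τ q u = ![u 0 - τ (u 1) + q • u 2, 0, 0] := by
  funext i; fin_cases i <;> rfl

theorem commute_diag3_u3sE : Commute (diag3 τ) (u3sE τ q) := by
  refine LinearMap.ext fun u => ?_
  rw [Module.End.mul_apply, Module.End.mul_apply, u3sE_apply, diag3_apply, diag3_apply, u3sE_apply]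
  funext i
  fin_cases i <;> simp [map_add, map_neg, map_smul]

theorem quadE_u3sE : quadE (u3sE τ q) (diag3 τ) q = q • e3sE τ q := by
  refine LinearMap.ext fun u => ?_
  rw [quadE_apply, LinearMap.smul_apply, u3sE_apply, u3sE_apply, diag3_apply, e3sE_apply]
  funext i
  fin_cases i <;>
    simp [smul_add, smul_sub, smul_smul, mul_comm, map_add, map_neg, map_smul, map_sub] <;> abel

theorem u3sE_mul_e3sE : u3sE τ q * e3sE τ q = 0 := by
  refine LinearMap.ext fun u => ?_
  rw [Module.End.mul_apply, e3sE_apply, u3sE_apply]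
  funext i
  fin_cases i <;> simp

theorem u3sE_cubic : u3sE τ q * quadE (u3sE τ q) (diag3 τ) q = 0 := by
  rw [quadE_u3sE, mul_smul_comm, u3sE_mul_e3sE, smul_zero]

variable {τ q}

/-- `ker U3♯ = {(x, 0, 0)}`. -/
theorem u3sE_apply_eq_zero_iff (hq : IsUnit q) (u : Fin 3 → M) :
    u3sE τ q u = 0 ↔ u 1 = 0 ∧ u 2 = 0 := by
  rw [u3sE_apply]
  constructor
  · intro h
    have h1 : q • u 1 = 0 := congrFun h 0
    have h2 : q • u 2 = 0 := congrFun h 1
    exact ⟨eq_zero_of_smul_of_isUnit hq h1, eq_zero_of_smul_of_isUnit hq h2⟩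
  · rintro ⟨h1, h2⟩
    funext i
    fin_cases i <;> simp [h1, h2]

variable (τ q)

theorem u3sE_single (x : M) : u3sE τ q ![x, 0, 0] = 0 := by
  rw [u3sE_apply]
  funext i
  fin_cases i <;> simp

end Explicit

/-! ## 4. FINAL: `β₃` on the `U_q`-nilpotent part, hypotheses in component form -/

section Final

variable {R : Type*} [CommRing R] {M X : Type*} [AddCommGroup M] [Module R M]
  [AddCommGroup X] [Module R X] {q : R} (hq : IsUnit q) (τ : Module.End R M)
  (β : X →ₗ[R] (Fin 3 → M)) (U : Module.End R X)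
  (hβ0 : ∀ y, β (U y) 0 = q • β y 1) (hβ1 : ∀ y, β (U y) 1 = q • β y 2)
  (hβ2 : ∀ y, β (U y) 2 = τ (β y 2) - β y 1)
  (L' C : Submodule R X)
  (I : Ideal R) (hsep : (⨅ k : ℕ, (I ^ k • ⊤ : Submodule R (Fin 3 → M))) = ⊥)
  (hnil : ∀ y ∈ L', ∀ k : ℕ, ∃ n : ℕ, (U ^ n) y ∈ (I ^ k • ⊤ : Submodule R X))

include hβ0 hβ1 hβ2 in
/-- the three component relations are `β ∘ U = U3♯ ∘ β`. -/
theorem beta_U (y : X) : β (U y) = u3sE τ q (β y) := by
  rw [u3sE_apply]
  funext i
  fin_cases i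
  · exact hβ0 y
  · exact hβ1 y
  · show β (U y) 2 = -β y 1 + τ (β y 2)
    rw [hβ2 y]
    abel

include hq hβ0 hβ1 hβ2 hsep hnil

/-- on `L'` : `β = (β_0, 0, 0)`. -/
theorem beta_one_of_mem {y : X} (hy : y ∈ L') : β y 1 = 0 :=
  ((u3sE_apply_eq_zero_iff hq _).1 (apply_beta_eq_zero_of_mem hq (commute_diag3_u3sE τ q)
    (u3sE_cubic τ q) (quadE_u3sE τ q) β U (beta_U τ β U hβ0 hβ1 hβ2) L' I hsep hnil hy)).1

theorem beta_two_of_mem {y : X} (hy : y ∈ L') : β y 2 = 0 :=
  ((u3sE_apply_eq_zero_iff hq _).1 (apply_beta_eq_zero_of_mem hq (commute_diag3_u3sE τ q)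
    (u3sE_cubic τ q) (quadE_u3sE τ q) β U (beta_U τ β U hβ0 hβ1 hβ2) L' I hsep hnil hy)).2

variable (hC : ∀ c ∈ C, ∃ z : X, U z = c) (hsup : L' ⊔ C = ⊤) (hsurj : Function.Surjective β)
include hC hsup hsurj

/-- **`β_0` is onto from `L'`** : every `(x, 0, 0)` is `β y` with `y ∈ L'`. -/
theorem exists_mem_beta_single (x : M) : ∃ y ∈ L', β y = ![x, 0, 0] :=
  exists_mem_beta_eq hq (commute_diag3_u3sE τ q) (u3sE_cubic τ q) (quadE_u3sE τ q) β U
    (beta_U τ β U hβ0 hβ1 hβ2) L' C I hsep hnil hC hsup hsurj _ (u3sE_single τ q x)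

/-- the same, componentwise. -/
theorem exists_mem_beta_zero_eq (x : M) : ∃ y ∈ L', β y 0 = x ∧ β y 1 = 0 ∧ β y 2 = 0 := by
  obtain ⟨y, hy, hβy⟩ :=
    exists_mem_beta_single hq τ β U hβ0 hβ1 hβ2 L' C I hsep hnil hC hsup hsurj x
  refine ⟨y, hy, ?_, ?_, ?_⟩
  · rw [hβy]; rfl
  · rw [hβy]; rfl
  · rw [hβy]; rfl

/-- **`t = c₀ β₀ + c₁ β₁ + c₂ β₂` with `c₀` a unit is onto from `L'`** (BW convention:
`c = (1, −a, q)`; lamB convention: `c = (q, −a, 1)`). -/
theorem exists_mem_dot_eq (c : Fin 3 → R) (hc : IsUnit (c 0)) (x : M) :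
    ∃ y ∈ L', c 0 • β y 0 + c 1 • β y 1 + c 2 • β y 2 = x := by
  obtain ⟨y, hy, h0, h1, h2⟩ :=
    exists_mem_beta_zero_eq hq τ β U hβ0 hβ1 hβ2 L' C I hsep hnil hC hsup hsurj
      ((((hc.unit⁻¹ : Rˣ) : R)) • x)
  refine ⟨y, hy, ?_⟩
  rw [h0, h1, h2, smul_zero, smul_zero, add_zero, add_zero, smul_smul, IsUnit.mul_val_inv,
    one_smul]

end Final

end Fermat.Agent.GE9.PNew.KerPairEnd
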