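/-
GATE-E / S59 pre-work, RISK-2 case (b) (helper16; answers helper80 board 7441 §3).
Mathlib + `GE9/Eta/Abstract` (helper2: `orth`, `CongMod`) only.

**The congruence module of a sub-lattice `K` of a lattice `L` with a pairing, and the obstruction
`o = #(L ⧸ (K ⊔ P^⊥))`.**

`L` an `O`-module with a bilinear form `B`, `P ≤ K ≤ L` submodules (application: `L = M_Σ` the
level-`N_Σ p` module, `K = ker β_p` its `p`-new part, `P = L[𝔭_g] = K[𝔭_g]` the eigen-part of the
fixed `p`-new base form `g`).  `B_K` = the restriction of `B` to `K`.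

* `orth_restrict`          : `P^⊥` computed in `(K, B_K)` is `K ∩ P^⊥`;
* `card_congMod_eq_mul`    : **`#Ω(L) = #Ω(K) · #(L ⧸ (K ⊔ P^⊥))`** (pure lattice algebra);
* `card_obstruction_dvd`   : **(U)** `X ≤ P^⊥ ⟹ #(L ⧸ (K ⊔ P^⊥)) ∣ #(L ⧸ (K ⊔ X))`
  (used with `X = K^⊥ ⊔ 𝔭 L`);
* `range_le_orth_ker`      : `𝔭 L ≤ (L[𝔭])^⊥` for a family of `B`-self-adjoint operators;
* `orth_orth_of_saturated` : over a PID, `B` right-perfect and reflexive, `X` saturated in the finite
  free `L` ⟹ `X^⊥⊥ = X`;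
* `orth_eq_of_saturated`   : **(E)** if `X ≤ P^⊥`, `X^⊥ ≤ P` and `X` is saturated then `P^⊥ = X`,
  hence `#(L ⧸ (K ⊔ P^⊥)) = #(L ⧸ (K ⊔ X))` (`card_obstruction_eq`).

In the application `X = K^⊥ ⊔ 𝔭 L`: `X^⊥ = K ∩ L[𝔭] = P`, and `L ⧸ X = K^* ⧸ 𝔭 K^*` is torsion-free
as soon as `K` is free over a Gorenstein Hecke ring (the output of the numerical criterion at the
previous stage).
-/
import Fermat.Agent.GE9.Eta.Abstract

set_option autoImplicit false

namespace Fermat.Agent.GE9.PNew.OBound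

open Module Submodule Fermat.Agent.GE9.Eta

/-! ### the chain `P ⊔ P^⊥ ≤ K ⊔ P^⊥ ≤ L` -/

section Chain

variable {O : Type*} [CommRing O] {L : Type*} [AddCommGroup L] [Module O L]
  (B : L →ₗ[O] L →ₗ[O] O) (K P : Submodule O L)

/-- the restriction of `B` to `K`. -/
def restr : K →ₗ[O] K →ₗ[O] O := B.domRestrict₁₂ K K

theorem restr_apply (x y : K) : restr B K x y = B x y := rfl

/-- `P` as a submodule of `K`. -/
abbrev sub : Submodule O K := P.comap K.subtype

/-- the orthogonal of `P` inside `(K, B_K)` is `K ∩ P^⊥`. -/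
theorem orth_restrict (hPK : P ≤ K) :
    orth (restr B K) (sub K P) = (orth B P).comap K.subtype := by
  ext x
  rw [mem_orth, Submodule.mem_comap, mem_orth]
  constructor
  · intro h y hy
    exact h ⟨y, hPK hy⟩ hy
  · intro h y hy
    exact h y hy

/-- modular law: `K ∩ (P + P^⊥) = P + K ∩ P^⊥` for `P ≤ K`. -/
theorem comap_sup (hPK : P ≤ K) :
    sub K P ⊔ (orth B P).comap K.subtype = (P ⊔ orth B P).comap K.subtype := by
  apply le_antisymm
  · exact sup_le (Submodule.comap_mono le_sup_left) (Submodule.comap_mono le_sup_right)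
  · intro x hx
    rw [Submodule.mem_comap, Submodule.mem_sup] at hx
    obtain ⟨a, ha, b, hb, hab⟩ := hx
    have hbK : b ∈ K := by
      have : b = K.subtype x - a := by rw [← hab]; abel
      rw [this]
      exact K.sub_mem x.2 (hPK ha)
    rw [Submodule.mem_sup]
    refine ⟨⟨a, hPK ha⟩, ha, ⟨b, hbK⟩, hb, ?_⟩
    apply Subtype.ext
    exact hab

/-- **`#Ω(L) = #Ω(K) · #(L ⧸ (K ⊔ P^⊥))`.** -/
theorem card_congMod_eq_mul (hPK : P ≤ K) :
    Nat.card (CongMod B P) =
      Nat.card (CongMod (restr B K) (sub K P)) * Nat.card (L ⧸ (K ⊔ orth B P)) := by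
  have e1 : Nat.card (CongMod B P) = (P ⊔ orth B P).toAddSubgroup.index := rfl
  have e2 : Nat.card (L ⧸ (K ⊔ orth B P)) = (K ⊔ orth B P).toAddSubgroup.index := rfl
  have hle : (P ⊔ orth B P).toAddSubgroup ≤ (K ⊔ orth B P).toAddSubgroup := by
    intro x hx
    exact (sup_le_sup_right hPK (orth B P)) hx
  have e3 : (K ⊔ orth B P).toAddSubgroup = K.toAddSubgroup ⊔ (P ⊔ orth B P).toAddSubgroup := by
    rw [← Submodule.sup_toAddSubgroup]
    congr 1
    rw [← sup_assoc, sup_eq_left.2 hPK]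
  have e4 : (P ⊔ orth B P).toAddSubgroup.relIndex (K ⊔ orth B P).toAddSubgroup =
      Nat.card (CongMod (restr B K) (sub K P)) := by
    rw [e3, AddSubgroup.relIndex_sup_right]
    show ((P ⊔ orth B P).toAddSubgroup.addSubgroupOf K.toAddSubgroup).index = _
    have : Nat.card (CongMod (restr B K) (sub K P)) =
        (sub K P ⊔ orth (restr B K) (sub K P)).toAddSubgroup.index := rfl
    rw [this, orth_restrict B K P hPK, comap_sup B K P hPK]
    rfl
  rw [e1, e2, ← e4]
  exact (AddSubgroup.relIndex_mul_index hle).symm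

/-- **(U)**: every `X ≤ P^⊥` bounds the obstruction from above (divisibility form). -/
theorem card_obstruction_dvd {X : Submodule O L} (hX : X ≤ orth B P) :
    Nat.card (L ⧸ (K ⊔ orth B P)) ∣ Nat.card (L ⧸ (K ⊔ X)) := by
  have e1 : Nat.card (L ⧸ (K ⊔ orth B P)) = (K ⊔ orth B P).toAddSubgroup.index := rfl
  have e2 : Nat.card (L ⧸ (K ⊔ X)) = (K ⊔ X).toAddSubgroup.index := rfl
  rw [e1, e2]
  apply AddSubgroup.index_dvd_of_le
  intro x hx
  exact (sup_le_sup_left hX K) hx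

/-- **(U)**, inequality form. -/
theorem card_obstruction_le {X : Submodule O L} (hX : X ≤ orth B P)
    (hfin : Nat.card (L ⧸ (K ⊔ X)) ≠ 0) :
    Nat.card (L ⧸ (K ⊔ orth B P)) ≤ Nat.card (L ⧸ (K ⊔ X)) :=
  Nat.le_of_dvd (Nat.pos_of_ne_zero hfin) (card_obstruction_dvd B K P hX)

end Chain

/-! ### self-adjoint operators -/

section SelfAdjoint

variable {O : Type*} [CommRing O] {L : Type*} [AddCommGroup L] [Module O L]
  (B : L →ₗ[O] L →ₗ[O] O) {ι : Type*} (s : ι → Module.End O L)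

/-- `𝔭 L`: the span of the images of the operators `s i`. -/
def imS : Submodule O L := ⨆ i, LinearMap.range (s i)

/-- `L[𝔭]`: the common kernel of the operators `s i`. -/
def kerS : Submodule O L := ⨅ i, LinearMap.ker (s i)

theorem mem_kerS {x : L} : x ∈ kerS s ↔ ∀ i, s i x = 0 := by
  unfold kerS
  rw [Submodule.mem_iInf]
  exact forall_congr' fun i => LinearMap.mem_ker

/-- `𝔭 L ≤ (L[𝔭])^⊥` for `B`-self-adjoint operators. -/
theorem imS_le_orth_kerS (hadj : ∀ i x y, B (s i x) y = B x (s i y)) :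
    imS s ≤ orth B (kerS s) := by
  unfold imS
  refine iSup_le fun i => ?_
  rintro _ ⟨x, rfl⟩ y hy
  rw [← hadj, (mem_kerS s).1 hy i, map_zero, LinearMap.zero_apply]

/-- `𝔭 L ≤ P^⊥` whenever `P ≤ L[𝔭]`. -/
theorem imS_le_orth (hadj : ∀ i x y, B (s i x) y = B x (s i y)) {P : Submodule O L}
    (hP : P ≤ kerS s) : imS s ≤ orth B P := by
  intro x hx y hy
  exact imS_le_orth_kerS B s hadj hx y (hP hy)

/-- `(𝔭 L)^⊥ ≤ L[𝔭]` when `B` is left-nondegenerate (`B y · = 0 ⟹ y = 0` is not needed; we use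
right nondegeneracy `∀ y, B y x = 0 ⟹ x = 0`). -/
theorem orth_imS_le_kerS (hadj : ∀ i x y, B (s i x) y = B x (s i y))
    (hnd : ∀ x : L, (∀ y, B y x = 0) → x = 0) : orth B (imS s) ≤ kerS s := by
  intro x hx
  rw [mem_kerS]
  intro i
  apply hnd
  intro y
  rw [← hadj]
  refine hx _ ?_
  unfold imS
  exact Submodule.mem_iSup_of_mem i ⟨y, rfl⟩

end SelfAdjoint

/-! ### double orthogonals over a PID -/

section Perfect

variable {O : Type*} [CommRing O] [IsDomain O] [IsPrincipalIdealRing O]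
  {L : Type*} [AddCommGroup L] [Module O L] [Module.Finite O L]
  (B : L →ₗ[O] L →ₗ[O] O)

omit [IsDomain O] [IsPrincipalIdealRing O] [Module.Finite O L] in
theorem orth_antitone {X Y : Submodule O L} (h : X ≤ Y) : orth B Y ≤ orth B X :=
  fun _ hx y hy => hx y (h hy)

omit [IsDomain O] [IsPrincipalIdealRing O] [Module.Finite O L] in
theorem orth_sup (X Y : Submodule O L) : orth B (X ⊔ Y) = orth B X ⊓ orth B Y := by
  apply le_antisymm
  · exact le_inf (orth_antitone B le_sup_left) (orth_antitone B le_sup_right)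
  · rintro x ⟨hx, hy⟩ z hz
    obtain ⟨a, ha, b, hb, rfl⟩ := Submodule.mem_sup.1 hz
    rw [map_add, LinearMap.add_apply, hx a ha, hy b hb, add_zero]

omit [IsDomain O] [IsPrincipalIdealRing O] [Module.Finite O L] in
/-- for a reflexive form, `X ≤ X^⊥⊥`. -/
theorem le_orth_orth (hrefl : ∀ x y, B x y = 0 → B y x = 0) (X : Submodule O L) :
    X ≤ orth B (orth B X) :=
  fun x hx _ hy => hrefl _ _ (hy x hx)

/-- **double orthogonal**: `B` right-perfect and reflexive, `X` saturated in the finitely generated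
`L` over a PID ⟹ `X^⊥⊥ = X`. -/
theorem orth_orth_of_saturated
    (hperf : ∀ φ : L →ₗ[O] O, ∃ x : L, ∀ y, B y x = φ y)
    (hrefl : ∀ x y, B x y = 0 → B y x = 0)
    (X : Submodule O L) (hsat : ∀ (c : O) (x : L), c ≠ 0 → c • x ∈ X → x ∈ X) :
    orth B (orth B X) = X := by
  classical
  refine le_antisymm ?_ (le_orth_orth B hrefl X)
  intro x hx
  by_contra hxX
  have : NoZeroSMulDivisors O (L ⧸ X) := by
    refine ⟨fun {c z} h => ?_⟩
    by_cases hc : c = 0
    · exact Or.inl hc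
    · right
      obtain ⟨y, rfl⟩ := X.mkQ_surjective z
      rw [← map_smul, Submodule.mkQ_apply, Submodule.Quotient.mk_eq_zero] at h
      rw [Submodule.mkQ_apply, Submodule.Quotient.mk_eq_zero]
      exact hsat c y hc h
  have hfree : Module.Free O (L ⧸ X) := Module.free_of_finite_type_torsion_free'
  have hne : X.mkQ x ≠ 0 := by
    rw [Submodule.mkQ_apply, Ne, Submodule.Quotient.mk_eq_zero]
    exact hxX
  let bs := Module.Free.chooseBasis O (L ⧸ X)
  have hcoord : ∃ i, bs.repr (X.mkQ x) i ≠ 0 := by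
    by_contra hall
    rw [not_exists] at hall
    apply hne
    apply bs.repr.injective
    ext i
    rw [map_zero, Finsupp.zero_apply]
    exact not_not.1 (hall i)
  obtain ⟨i, hi⟩ := hcoord
  obtain ⟨z, hz⟩ := hperf ((bs.coord i).comp X.mkQ)
  have hzX : z ∈ orth B X := by
    intro y hy
    rw [hz, LinearMap.comp_apply, Submodule.mkQ_apply, (Submodule.Quotient.mk_eq_zero X).2 hy,
      map_zero]
  have h1 : B x z ≠ 0 := by
    rw [hz, LinearMap.comp_apply]
    exact hi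
  exact h1 (hrefl _ _ (hx z hzX))

/-- **(E), abstract form**: a saturated `X` with `X ≤ P^⊥` and `X^⊥ ≤ P` IS `P^⊥`. -/
theorem orth_eq_of_saturated
    (hperf : ∀ φ : L →ₗ[O] O, ∃ x : L, ∀ y, B y x = φ y)
    (hrefl : ∀ x y, B x y = 0 → B y x = 0)
    {X P : Submodule O L} (hXP : X ≤ orth B P) (hPX : orth B X ≤ P)
    (hsat : ∀ (c : O) (x : L), c ≠ 0 → c • x ∈ X → x ∈ X) : orth B P = X := by
  refine le_antisymm ?_ hXP
  calc orth B P ≤ orth B (orth B X) := orth_antitone B hPX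
    _ = X := orth_orth_of_saturated B hperf hrefl X hsat

/-- **(E)**: under the hypotheses of `orth_eq_of_saturated` the obstruction is computed by `X`. -/
theorem card_obstruction_eq
    (hperf : ∀ φ : L →ₗ[O] O, ∃ x : L, ∀ y, B y x = φ y)
    (hrefl : ∀ x y, B x y = 0 → B y x = 0)
    (K : Submodule O L) {X P : Submodule O L} (hXP : X ≤ orth B P) (hPX : orth B X ≤ P)
    (hsat : ∀ (c : O) (x : L), c ≠ 0 → c • x ∈ X → x ∈ X) :
    Nat.card (L ⧸ (K ⊔ orth B P)) = Nat.card (L ⧸ (K ⊔ X)) := by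
  rw [orth_eq_of_saturated B hperf hrefl hXP hPX hsat]

/-- **(E), application form**: `K` saturated, `s` a family of `B`-self-adjoint operators,
`P = K ⊓ L[𝔭]`; if `K^⊥ ⊔ 𝔭 L` is saturated (e.g. `K^* ⧸ 𝔭 K^*` torsion-free: `K` free over a
Gorenstein Hecke ring) then `P^⊥ = K^⊥ ⊔ 𝔭 L`. -/
theorem orth_inf_kerS_eq
    (hperf : ∀ φ : L →ₗ[O] O, ∃ x : L, ∀ y, B y x = φ y)
    (hrefl : ∀ x y, B x y = 0 → B y x = 0)
    (hnd : ∀ x : L, (∀ y, B y x = 0) → x = 0)
    {ι : Type*} (s : ι → Module.End O L) (hadj : ∀ i x y, B (s i x) y = B x (s i y))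
    (K : Submodule O L) (hKsat : ∀ (c : O) (x : L), c ≠ 0 → c • x ∈ K → x ∈ K)
    (hsat : ∀ (c : O) (x : L), c ≠ 0 → c • x ∈ orth B K ⊔ imS s → x ∈ orth B K ⊔ imS s) :
    orth B (K ⊓ kerS s) = orth B K ⊔ imS s := by
  refine orth_eq_of_saturated B hperf hrefl ?_ ?_ hsat
  · exact sup_le (orth_antitone B inf_le_left) (imS_le_orth B s hadj inf_le_right)
  · rw [orth_sup, orth_orth_of_saturated B hperf hrefl K hKsat]
    exact inf_le_inf_left K (orth_imS_le_kerS B s hadj hnd)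

/-- **the stage inequality in lattice form.**  `L, L'` two levels with `P ≤ K ≤ L`,
`P' ≤ K' ≤ L'`; `X ≤ P^⊥` saturated with `X^⊥ ≤ P` at the lower level (E), `X' ≤ P'^⊥` at the
upper level (U), and `#(L' ⧸ (K' ⊔ X')) = #(L ⧸ (K ⊔ X))` (Q).  Then the obstruction does not
grow: `#(L' ⧸ (K' ⊔ P'^⊥)) ∣ #(L ⧸ (K ⊔ P^⊥))`. -/
theorem card_obstruction_dvd_of_stage
    (hperf : ∀ φ : L →ₗ[O] O, ∃ x : L, ∀ y, B y x = φ y)
    (hrefl : ∀ x y, B x y = 0 → B y x = 0)
    (K : Submodule O L) {X P : Submodule O L} (hXP : X ≤ orth B P) (hPX : orth B X ≤ P)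
    (hsat : ∀ (c : O) (x : L), c ≠ 0 → c • x ∈ X → x ∈ X)
    {L' : Type*} [AddCommGroup L'] [Module O L'] (B' : L' →ₗ[O] L' →ₗ[O] O)
    (K' : Submodule O L') {X' P' : Submodule O L'} (hXP' : X' ≤ orth B' P')
    (hQ : Nat.card (L' ⧸ (K' ⊔ X')) = Nat.card (L ⧸ (K ⊔ X))) :
    Nat.card (L' ⧸ (K' ⊔ orth B' P')) ∣ Nat.card (L ⧸ (K ⊔ orth B P)) := by
  rw [card_obstruction_eq B hperf hrefl K hXP hPX hsat, ← hQ]
  exact card_obstruction_dvd B' K' P' hXP'

end Perfect

end Fermat.Agent.GE9.PNew.OBound
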