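/-
GATE-E / S59 pre-work, RISK-4 = PNEW-STAGE (helper16): **(E) / (F2') at a FINISHED stage.**
Imports `GE9/PNew/OBound` (lattice algebra, mine) + `GE9/NumCrit/ModForm/Ann` (helper50: `torP`,
`AnnGen`, `annGen_of_dual`, `eq_zero_of_dual`).

`L` a finitely generated module over a PID `O` with a right-perfect form `B`, `K ≤ L` a saturated
sublattice (application: `K = ker β_p`, the `p`-new part of the level-`N_Σ p` module), `T` a finite
free commutative `O`-algebra acting on `K` (application: `T = T^new_Σ`), `π : T → O` the augmentation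
of the base point `g`.  `s i` (`i : ι`) a family of `B`-self-adjoint operators of `L` which restrict
on `K` to elements `τ i ∈ ker π` GENERATING `ker π` (application: `s_l = T_l − a_l(g)`).

OUTPUT OF THE NUMERICAL CRITERION at the stage just finished (`ModForm.free_of_card_le`):
`Φ : (Fin d → T) ≃ₗ[T] K`, and `T` Gorenstein: `ω` generates `T^∨`.  THEN

* `exists_repr_of_saturated` : every functional on `K` is `B · z` for some `z : L`;
* `exists_imS_repr`          : for `a ∈ ker π`, the functional `k ↦ ω (a * (Φ⁻¹ k) j)` is `B · y`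
                               with `y ∈ 𝔭 L = imS s`;
* **`orth_inf_kerS_eq_of_free`** : `(K ⊓ L[𝔭])^⊥ = K^⊥ ⊔ 𝔭 L`;
* `card_obstruction_eq_of_free` : `#(L ⧸ (K ⊔ P^⊥)) = #(L ⧸ (K ⊔ K^⊥ ⊔ 𝔭 L))`, `P = K ⊓ L[𝔭]`;
* `inf_kerS_eq_map_torP`        : `K ⊓ L[𝔭] = K[ker π]` (image of `torP π K` in `L`).

No saturation hypothesis on `K^⊥ ⊔ 𝔭 L` is needed: it is a consequence.
-/
import Fermat.Agent.GE9.PNew.OBound
import Fermat.Agent.GE9.NumCrit.ModForm.Ann

set_option autoImplicit false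

namespace Fermat.Agent.GE9.PNew.OFree

open Module Submodule Fermat.Agent.GE9.Eta Fermat.Agent.GE9.PNew.OBound
open Fermat.Agent.GE9.NumCrit Fermat.Agent.GE9.NumCrit.ModForm

section Repr

variable {O : Type*} [CommRing O] [IsDomain O] [IsPrincipalIdealRing O]
  {L : Type*} [AddCommGroup L] [Module O L] [Module.Finite O L]
  (B : L →ₗ[O] L →ₗ[O] O)

/-- a saturated submodule of a finitely generated module over a PID is a direct summand. -/
theorem exists_retraction_of_saturated (K : Submodule O L)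
    (hKsat : ∀ (c : O) (x : L), c ≠ 0 → c • x ∈ K → x ∈ K) :
    ∃ r : L →ₗ[O] K, ∀ k : K, r k = k := by
  classical
  have : NoZeroSMulDivisors O (L ⧸ K) := by
    refine ⟨fun {c z} h => ?_⟩
    by_cases hc : c = 0
    · exact Or.inl hc
    · right
      obtain ⟨y, rfl⟩ := K.mkQ_surjective z
      rw [← map_smul, Submodule.mkQ_apply, Submodule.Quotient.mk_eq_zero] at h
      rw [Submodule.mkQ_apply, Submodule.Quotient.mk_eq_zero]
      exact hKsat c y hc h
  have hfree : Module.Free O (L ⧸ K) := Module.free_of_finite_type_torsion_free'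
  obtain ⟨σ, hσ⟩ := Module.projective_lifting_property K.mkQ (LinearMap.id : (L ⧸ K) →ₗ[O] L ⧸ K)
    K.mkQ_surjective
  have hmem : ∀ x : L, ((LinearMap.id : L →ₗ[O] L) - σ.comp K.mkQ) x ∈ K := by
    intro x
    rw [← Submodule.Quotient.mk_eq_zero, LinearMap.sub_apply, LinearMap.id_apply,
      LinearMap.comp_apply, Submodule.Quotient.mk_sub, sub_eq_zero]
    have := LinearMap.congr_fun hσ (K.mkQ x)
    rw [LinearMap.comp_apply, LinearMap.id_apply] at this
    exact this.symm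
  refine ⟨LinearMap.codRestrict K ((LinearMap.id : L →ₗ[O] L) - σ.comp K.mkQ) hmem, fun k => ?_⟩
  apply Subtype.ext
  rw [LinearMap.codRestrict_apply, LinearMap.sub_apply, LinearMap.id_apply, LinearMap.comp_apply,
    Submodule.mkQ_apply, (Submodule.Quotient.mk_eq_zero K).2 k.2, map_zero, sub_zero]

/-- **every functional on a saturated `K` is `B · z`** (`B` right-perfect on `L`). -/
theorem exists_repr_of_saturated
    (hperf : ∀ φ : L →ₗ[O] O, ∃ x : L, ∀ y, B y x = φ y)
    (K : Submodule O L) (hKsat : ∀ (c : O) (x : L), c ≠ 0 → c • x ∈ K → x ∈ K)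
    (θ : K →ₗ[O] O) : ∃ z : L, ∀ k : K, B k z = θ k := by
  obtain ⟨r, hr⟩ := exists_retraction_of_saturated K hKsat
  obtain ⟨z, hz⟩ := hperf (θ.comp r)
  refine ⟨z, fun k => ?_⟩
  rw [hz, LinearMap.comp_apply, hr]

end Repr

section Free

variable {O : Type*} [CommRing O] [IsDomain O] [IsPrincipalIdealRing O]
  {L : Type*} [AddCommGroup L] [Module O L] [Module.Finite O L]
  (B : L →ₗ[O] L →ₗ[O] O)
  (K : Submodule O L)
  {T : Type*} [CommRing T] [Algebra O T]
  [Module T K] [IsScalarTower O T K]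
  (π : T →ₐ[O] O)
  {ι : Type*} (s : ι → Module.End O L) (τ : ι → T)
  {d : ℕ} (Φ : (Fin d → T) ≃ₗ[T] K)

/-- the coordinate functional `k ↦ ω (a * (Φ⁻¹ k) j)` on `K`. -/
noncomputable def coordFun (ω : T →ₗ[O] O) (a : T) (j : Fin d) : K →ₗ[O] O where
  toFun k := ω (a * Φ.symm k j)
  map_add' k k' := by
    rw [map_add, Pi.add_apply, mul_add, map_add]
  map_smul' c k := by
    have h1 : Φ.symm (c • k) = c • Φ.symm k := by
      rw [← algebraMap_smul T c k, map_smul, algebraMap_smul]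
    rw [h1, Pi.smul_apply, mul_smul_comm, map_smul, RingHom.id_apply]

omit [IsDomain O] [IsPrincipalIdealRing O] [Module.Finite O L] in
theorem coordFun_apply (ω : T →ₗ[O] O) (a : T) (j : Fin d) (k : K) :
    coordFun K Φ ω a j k = ω (a * Φ.symm k j) := rfl

omit [IsDomain O] [IsPrincipalIdealRing O] [Module.Finite O L] in
/-- `K ⊓ L[𝔭] = K[ker π]`: the joint kernel of the `s i` on `K` is `torP π K`. -/
theorem inf_kerS_eq_map_torP
    (hτ : ∀ (i : ι) (k : K), s i (k : L) = ((τ i • k : K) : L))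
    (hτπ : ∀ i, π (τ i) = 0)
    (hgen : ∀ a : T, π a = 0 → a ∈ Ideal.span (Set.range τ)) :
    K ⊓ kerS s = ((torP π K).restrictScalars O).map K.subtype := by
  ext x
  rw [Submodule.mem_inf, mem_kerS, Submodule.mem_map]
  constructor
  · rintro ⟨hxK, hx⟩
    refine ⟨⟨x, hxK⟩, ?_, rfl⟩
    show (⟨x, hxK⟩ : K) ∈ torP π K
    intro t ht
    have hmem := hgen t ht
    refine Submodule.span_induction (p := fun a _ => a • (⟨x, hxK⟩ : K) = 0) ?_ ?_ ?_ ?_ hmem
    · rintro _ ⟨i, rfl⟩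
      apply Subtype.ext
      rw [← hτ i ⟨x, hxK⟩]
      exact hx i
    · exact zero_smul _ _
    · intro a b _ _ ha hb
      rw [add_smul, ha, hb, add_zero]
    · intro r a _ ha
      rw [smul_eq_mul, mul_smul, ha, smul_zero]
  · rintro ⟨k, hk, rfl⟩
    refine ⟨k.2, fun i => ?_⟩
    have h1 : τ i • k = 0 := hk (τ i) (hτπ i)
    show s i ((k : K) : L) = 0
    rw [hτ i k, h1]
    rfl

variable (ω : T →ₗ[O] O)

/-- **Claim A**: for `a` in the ideal generated by the `τ i`, every coordinate functional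
`k ↦ ω (b * a * (Φ⁻¹ k) j)` is represented by an element of `𝔭 L = imS s`. -/
theorem exists_imS_repr
    (hperf : ∀ φ : L →ₗ[O] O, ∃ x : L, ∀ y, B y x = φ y)
    (hKsat : ∀ (c : O) (x : L), c ≠ 0 → c • x ∈ K → x ∈ K)
    (hadj : ∀ i x y, B (s i x) y = B x (s i y))
    (hτ : ∀ (i : ι) (k : K), s i (k : L) = ((τ i • k : K) : L))
    (j : Fin d) {a : T} (ha : a ∈ Ideal.span (Set.range τ)) :
    ∀ b : T, ∃ y ∈ imS s, ∀ k : K, B k y = ω (b * a * Φ.symm k j) := by
  refine Submodule.span_induction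
    (p := fun a _ => ∀ b : T, ∃ y ∈ imS s, ∀ k : K, B k y = ω (b * a * Φ.symm k j))
    ?_ ?_ ?_ ?_ ha
  · rintro _ ⟨i, rfl⟩ b
    obtain ⟨z, hz⟩ := exists_repr_of_saturated B hperf K hKsat (coordFun K Φ ω b j)
    refine ⟨s i z, ?_, fun k => ?_⟩
    · unfold imS
      exact Submodule.mem_iSup_of_mem i ⟨z, rfl⟩
    · rw [← hadj, hτ i k, hz, coordFun_apply, map_smul, Pi.smul_apply, smul_eq_mul, mul_assoc]
  · intro b
    refine ⟨0, Submodule.zero_mem _, fun k => ?_⟩
    rw [map_zero, mul_zero, zero_mul, map_zero]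
  · intro a a' _ _ ha ha' b
    obtain ⟨y, hy, hyk⟩ := ha b
    obtain ⟨y', hy', hyk'⟩ := ha' b
    refine ⟨y + y', Submodule.add_mem _ hy hy', fun k => ?_⟩
    rw [map_add, hyk, hyk', mul_add, add_mul, map_add]
  · intro r a _ ha b
    obtain ⟨y, hy, hyk⟩ := ha (b * r)
    refine ⟨y, hy, fun k => ?_⟩
    rw [hyk, smul_eq_mul, mul_assoc b r a]

variable [Module.Finite O T] [Module.Free O T]

include Φ in
/-- **(E) at a finished stage**: `K` free over the Gorenstein `T`
⟹ `(K ⊓ L[𝔭])^⊥ = K^⊥ ⊔ 𝔭 L`. -/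
theorem orth_inf_kerS_eq_of_free
    (hperf : ∀ φ : L →ₗ[O] O, ∃ x : L, ∀ y, B y x = φ y)
    (hKsat : ∀ (c : O) (x : L), c ≠ 0 → c • x ∈ K → x ∈ K)
    (hadj : ∀ i x y, B (s i x) y = B x (s i y))
    (hτ : ∀ (i : ι) (k : K), s i (k : L) = ((τ i • k : K) : L))
    (hτπ : ∀ i, π (τ i) = 0)
    (hgen : ∀ a : T, π a = 0 → a ∈ Ideal.span (Set.range τ))
    (hω : ∀ g : T →ₗ[O] O, ∃ a : T, ∀ x, g x = ω (a * x)) :
    orth B (K ⊓ kerS s) = orth B K ⊔ imS s := by
  classical
  refine le_antisymm ?_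
    (sup_le (orth_antitone B inf_le_left) (imS_le_orth B s hadj inf_le_right))
  obtain ⟨x₀, hx₀, hann⟩ := annGen_of_dual π ω hω
  intro x hx
  -- the coordinate functionals of `B · x` on `K`
  have hψ : ∀ j : Fin d, ∃ a : T, ∀ t : T, B ((Φ (Pi.single j t) : K) : L) x = ω (a * t) := by
    intro j
    let ψ : T →ₗ[O] O :=
      { toFun := fun t => B ((Φ (Pi.single j t) : K) : L) x
        map_add' := fun t t' => by
          rw [Pi.single_add, map_add, Submodule.coe_add, map_add, LinearMap.add_apply]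
        map_smul' := fun c t => by
          have h1 : (Pi.single j (c • t) : Fin d → T) = c • Pi.single j t := by
            rw [← Pi.single_smul]
          have h2 : Φ (c • (Pi.single j t : Fin d → T)) = c • Φ (Pi.single j t) := by
            rw [← algebraMap_smul T c (Pi.single j t : Fin d → T), map_smul, algebraMap_smul]
          rw [h1, h2, Submodule.coe_smul, map_smul, LinearMap.smul_apply, RingHom.id_apply] }
    obtain ⟨a, ha⟩ := hω ψ
    exact ⟨a, fun t => ha t⟩
  choose a ha using hψ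
  -- `π (a j) = 0`
  have hπa : ∀ j, π (a j) = 0 := by
    intro j
    rw [hx₀, mul_comm, ← ha j x₀]
    apply hx
    have hsm : Φ (Pi.single j x₀) = x₀ • Φ (Pi.single j (1 : T)) := by
      rw [← map_smul, ← Pi.single_smul, smul_eq_mul, mul_one]
    rw [inf_kerS_eq_map_torP K π s τ hτ hτπ hgen]
    refine Submodule.mem_map.2 ⟨Φ (Pi.single j x₀), ?_, rfl⟩
    show Φ (Pi.single j x₀) ∈ torP π K
    rw [hsm]
    exact hann.smul_mem_torP _
  -- representatives in `𝔭 L`
  have hy : ∀ j, ∃ y ∈ imS s, ∀ k : K, B k y = ω (a j * Φ.symm k j) := by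
    intro j
    obtain ⟨y, hy, hyk⟩ := exists_imS_repr B K s τ Φ ω hperf hKsat hadj hτ j
      (hgen (a j) (hπa j)) 1
    exact ⟨y, hy, fun k => by rw [hyk, one_mul]⟩
  choose y hyS hyk using hy
  have hsum : ∀ k : K, B k (∑ j, y j) = B k x := by
    intro k
    rw [map_sum]
    have h1 : ∀ j, B k (y j) = B ((Φ (Pi.single j (Φ.symm k j)) : K) : L) x := by
      intro j
      rw [hyk j k, ha j]
    rw [Finset.sum_congr rfl fun j _ => h1 j]
    have h2 : k = ∑ j, Φ (Pi.single j (Φ.symm k j)) := by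
      rw [← map_sum, Finset.univ_sum_single, LinearEquiv.apply_symm_apply]
    conv_rhs => rw [h2]
    rw [Submodule.coe_sum, map_sum, LinearMap.sum_apply]
  have hdiff : x - ∑ j, y j ∈ orth B K := by
    rw [mem_orth]
    intro k hk
    rw [map_sub, sub_eq_zero]
    exact (hsum ⟨k, hk⟩).symm
  have hx' : x = (x - ∑ j, y j) + ∑ j, y j := by abel
  rw [hx']
  exact Submodule.add_mem_sup hdiff (Submodule.sum_mem _ fun j _ => hyS j)

include Φ in
/-- **(E), cardinal form**: at a finished stage the obstruction `#(L ⧸ (K ⊔ P^⊥))`, `P = K ⊓ L[𝔭]`,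
is `#(L ⧸ (K ⊔ K^⊥ ⊔ 𝔭 L))` — the `𝔭`-coinvariants of the old–new congruence module. -/
theorem card_obstruction_eq_of_free
    (hperf : ∀ φ : L →ₗ[O] O, ∃ x : L, ∀ y, B y x = φ y)
    (hKsat : ∀ (c : O) (x : L), c ≠ 0 → c • x ∈ K → x ∈ K)
    (hadj : ∀ i x y, B (s i x) y = B x (s i y))
    (hτ : ∀ (i : ι) (k : K), s i (k : L) = ((τ i • k : K) : L))
    (hτπ : ∀ i, π (τ i) = 0)
    (hgen : ∀ a : T, π a = 0 → a ∈ Ideal.span (Set.range τ))
    (hω : ∀ g : T →ₗ[O] O, ∃ a : T, ∀ x, g x = ω (a * x)) :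
    Nat.card (L ⧸ (K ⊔ orth B (K ⊓ kerS s))) = Nat.card (L ⧸ (K ⊔ (orth B K ⊔ imS s))) := by
  rw [orth_inf_kerS_eq_of_free B K π s τ Φ ω hperf hKsat hadj hτ hτπ hgen hω]

end Free

end Fermat.Agent.GE9.PNew.OFree
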