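/-
GATE-E / RISK-4 (PNEW-STAGE), leaf R4-J, add-on to helper80's `GE9/PNew/RankBound` (helper60):
**generators suffice for the joint eigenspaces `eigΩ`.**

If `s ⊆ T` generates `T` as an `O`-algebra (for a Hecke carrier: the images of the `T_ℓ`), then for an
`O`-algebra hom `χ : T →ₐ[O] Ω` the joint eigenspace `eigΩ O L Ω χ` of ALL of `T` in `Ω ⊗[O] L` is
already cut out by the elements of `s`:

* `mem_eigΩ_of_adjoin` : `(∀ t ∈ s, actΩ t v = χ t • v) → v ∈ eigΩ O L Ω χ`;
* `eigΩ_eq_of_adjoin`  : `eigΩ O L Ω χ = ⨅ t ∈ s, eigenspace (actΩ O L Ω t) (χ t)`;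
* `eigΩ_eq_of_adjoin_range` : the same for a family `x : ι → T` with `adjoin O (range x) = ⊤`,
  as `⨅ i, eigenspace (actΩ O L Ω (x i)) (χ (x i))`.

So the binder `hmult` of `RankBound.finrank_le_mul_of_eigen` may be checked on generators only.
-/
import Mathlib
import Fermat.Agent.GE9.PNew.RankBound

set_option autoImplicit false

open Module TensorProduct

namespace Fermat.Agent.GE9.PNew.RankAdjoin

open Fermat.Agent.GE9.PNew.RankBound

variable {O T L Ω : Type*} [CommRing O] [CommRing T] [Algebra O T]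
  [AddCommGroup L] [Module O L] [Module T L] [IsScalarTower O T L]
  [Field Ω] [Algebra O Ω]

/-- a vector that is a `χ`-eigenvector of every element of a generating set is a joint
`χ`-eigenvector. -/
theorem mem_eigΩ_of_adjoin {s : Set T} (hs : Algebra.adjoin O s = ⊤) (χ : T →ₐ[O] Ω)
    {v : Ω ⊗[O] L} (hv : ∀ t ∈ s, actΩ O L Ω t v = χ t • v) :
    v ∈ eigΩ O L Ω (fun t => χ t) := by
  rw [mem_eigΩ]
  intro t
  have ht : t ∈ Algebra.adjoin O s := hs ▸ Algebra.mem_top
  induction ht using Algebra.adjoin_induction with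
  | mem x hx => exact hv x hx
  | algebraMap o =>
    rw [AlgHom.commutes, AlgHom.commutes, Module.algebraMap_end_apply, algebraMap_smul]
  | add x y _ _ hx hy => rw [map_add, map_add, LinearMap.add_apply, hx, hy, add_smul]
  | mul x y _ _ hx hy =>
    rw [map_mul, map_mul, Module.End.mul_apply, hy, map_smul, hx, smul_smul, mul_comm]

/-- **generators suffice.** -/
theorem eigΩ_eq_of_adjoin (s : Set T) (hs : Algebra.adjoin O s = ⊤) (χ : T →ₐ[O] Ω) :
    eigΩ O L Ω (fun t => χ t) = ⨅ t ∈ s, Module.End.eigenspace (actΩ O L Ω t) (χ t) := by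
  refine le_antisymm (le_iInf₂ fun t _ => iInf_le _ t) fun v hv => ?_
  refine mem_eigΩ_of_adjoin hs χ fun t ht => ?_
  have h1 := (Submodule.mem_iInf _).mp hv t
  exact Module.End.mem_eigenspace_iff.mp ((Submodule.mem_iInf _).mp h1 ht)

/-- the same for a generating family. -/
theorem eigΩ_eq_of_adjoin_range {ι : Type*} (x : ι → T)
    (hx : Algebra.adjoin O (Set.range x) = ⊤) (χ : T →ₐ[O] Ω) :
    eigΩ O L Ω (fun t => χ t) = ⨅ i, Module.End.eigenspace (actΩ O L Ω (x i)) (χ (x i)) := by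
  rw [eigΩ_eq_of_adjoin (Set.range x) hx χ]
  refine le_antisymm (le_iInf fun i => iInf₂_le (x i) ⟨i, rfl⟩) ?_
  refine le_iInf₂ fun t ht => ?_
  obtain ⟨i, rfl⟩ := ht
  exact iInf_le _ i

/-- membership form for a generating family. -/
theorem mem_eigΩ_iff_of_adjoin_range {ι : Type*} (x : ι → T)
    (hx : Algebra.adjoin O (Set.range x) = ⊤) (χ : T →ₐ[O] Ω) (v : Ω ⊗[O] L) :
    v ∈ eigΩ O L Ω (fun t => χ t) ↔ ∀ i, actΩ O L Ω (x i) v = χ (x i) • v := by
  rw [eigΩ_eq_of_adjoin_range x hx χ, Submodule.mem_iInf]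
  exact forall_congr' fun i => Module.End.mem_eigenspace_iff

end Fermat.Agent.GE9.PNew.RankAdjoin
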