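/-
GATE-E / RISK-4 (PNEW-STAGE), leaf R4-J instance, ALGEBRA half of (K3) (helper60, per helper81 7722).

`L` an `𝒪`-module, `U : L →ₗ[𝒪] L`, `Ω` a field over `𝒪`, `U' := U.baseChange Ω` on `Ω ⊗[𝒪] L`.
"`U` is topologically nilpotent on `L`" is used in the single form

  `UnitConstBij U : ∀ F : 𝒪[X], IsUnit (F.coeff 0) → Function.Bijective (aeval U F)`

(true on the `𝔪`-primary part `locPart 𝔪 X` for `U = (u • ·)`, `u ∈ 𝔪`: `unitConstBij_locSmul`).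
Consequences on `Ω ⊗[𝒪] L`, the coefficients of the polynomials being allowed to lie in `Ω`:

* `injective_aeval_of_dvd` : `Q ∈ Ω[X]` dividing (the image of) some `F ∈ 𝒪[X]` with unit constant
  term ⟹ `Q(U')` injective;
* `eq_zero_of_quad` : `a ∈ Ω` INTEGRAL over `𝒪`, `c ∈ 𝒪ˣ` ⟹ `U'² − a U' + c` injective (norm trick:
  `F := Σ gᵢ (X² + c)ⁱ X^(n−i)` for `G = Σ gᵢ Yⁱ` monic with `G(a) = 0`);
* `eq_zero_of_lin` : `u₁ ∈ Ω`, `u₁² = 1` ⟹ `U' − u₁` injective (`F := X² − 1`);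
* `apply_eq_zero_of_cub`, `apply_eq_zero_of_quadlin` : the shapes `U'(U'² − aU' + c) y = 0`, resp.
  `U'(U' − u₁) y = 0`, give `U' y = 0`  (types (Q) and (P′) of the OldQ pipeline at a prime of `Sg`).
-/
import Mathlib
import Fermat.Agent.GB.B3.Loc
import Fermat.Agent.GB.B3.Loc2

set_option autoImplicit false
set_option linter.unusedSectionVars false

open Polynomial TensorProduct

namespace Fermat.Agent.GE9.PNew.RankAlg

/-! ### the norm polynomial -/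

section Norm

variable {𝒪 : Type*} [CommRing 𝒪]

/-- `Σ_{i ≤ n} gᵢ (X² + c)ⁱ X^(n−i)`, `n = natDegree G`: "`Xⁿ G((X² + c)/X)`". -/
noncomputable def normPoly (G : 𝒪[X]) (c : 𝒪) : 𝒪[X] :=
  ∑ i ∈ Finset.range (G.natDegree + 1),
    C (G.coeff i) * (X ^ 2 + C c) ^ i * X ^ (G.natDegree - i)

theorem coeff_zero_normPoly (G : 𝒪[X]) (c : 𝒪) :
    (normPoly G c).coeff 0 = G.leadingCoeff * c ^ G.natDegree := by
  rw [coeff_zero_eq_eval_zero, normPoly, eval_finsetSum,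
    Finset.sum_eq_single G.natDegree]
  · rw [Nat.sub_self, pow_zero, mul_one, eval_mul, eval_C, eval_pow, eval_add, eval_pow, eval_X,
      eval_C, zero_pow two_ne_zero, zero_add]
    rfl
  · intro i hi hne
    have hlt : i < G.natDegree := lt_of_le_of_ne (Nat.lt_succ_iff.1 (Finset.mem_range.1 hi)) hne
    have hpos : G.natDegree - i ≠ 0 := Nat.sub_ne_zero_of_lt hlt
    simp [hpos]
  · intro h
    exact absurd (Finset.mem_range.2 (Nat.lt_succ_self _)) h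

/-- the key identity: if `x² + c = a x` in a commutative `𝒪`-algebra then
`normPoly G c (x) = xⁿ G(a)`. -/
theorem aeval_normPoly {S : Type*} [CommRing S] [Algebra 𝒪 S] (G : 𝒪[X]) (c : 𝒪) (a x : S)
    (hx : x * x + algebraMap 𝒪 S c = a * x) :
    aeval x (normPoly G c) = x ^ G.natDegree * aeval a G := by
  rw [normPoly, map_sum, aeval_eq_sum_range (p := G) a, Finset.mul_sum]
  refine Finset.sum_congr rfl fun i hi => ?_
  have hle : i ≤ G.natDegree := Nat.lt_succ_iff.1 (Finset.mem_range.1 hi)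
  have h1 : aeval x ((X : 𝒪[X]) ^ 2 + C c) = a * x := by
    rw [map_add, map_pow, aeval_X, aeval_C, pow_two, hx]
  rw [map_mul, map_mul, map_pow, h1, map_pow, aeval_X, aeval_C, mul_pow, Algebra.smul_def]
  have h2 : x ^ G.natDegree = x ^ i * x ^ (G.natDegree - i) := by
    rw [← pow_add, Nat.add_sub_cancel' hle]
  rw [h2]
  ring

end Norm

/-! ### abstract consequences on `Ω ⊗[𝒪] L` -/

section Abstract

variable {𝒪 : Type*} [CommRing 𝒪] {Ω : Type*} [Field Ω] [Algebra 𝒪 Ω]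
  {L : Type*} [AddCommGroup L] [Module 𝒪 L]

/-- "`U` is topologically nilpotent", in the only form used: every polynomial in `U` with unit
constant term is bijective. -/
def UnitConstBij (U : L →ₗ[𝒪] L) : Prop :=
  ∀ F : 𝒪[X], IsUnit (F.coeff 0) → Function.Bijective (aeval U F)

theorem bijective_baseChange_of_bijective {f : L →ₗ[𝒪] L} (hf : Function.Bijective f) :
    Function.Bijective (f.baseChange Ω) := by
  have h := (LinearEquiv.lTensor Ω (LinearEquiv.ofBijective f hf)).bijective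
  have h2 : ⇑(f.baseChange Ω) = ⇑(LinearEquiv.lTensor Ω (LinearEquiv.ofBijective f hf)) := by
    rw [LinearMap.baseChange_eq_ltensor]
    rfl
  rw [h2]
  exact h

theorem aeval_baseChange (U : L →ₗ[𝒪] L) (F : 𝒪[X]) :
    aeval (U.baseChange Ω) (F.map (algebraMap 𝒪 Ω)) = (aeval U F).baseChange Ω := by
  rw [aeval_map_algebraMap]
  exact aeval_algHom_apply (Module.End.baseChangeHom 𝒪 Ω L) U F

/-- **(A1)** -/
theorem injective_aeval_of_dvd {U : L →ₗ[𝒪] L} (hU : UnitConstBij U) (Q : (Polynomial Ω)) (F : 𝒪[X])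
    (hF : IsUnit (F.coeff 0)) (hQF : Q ∣ F.map (algebraMap 𝒪 Ω)) :
    Function.Injective (aeval (U.baseChange Ω) Q) := by
  obtain ⟨H, hH⟩ := hQF
  have hbij : Function.Bijective (aeval (U.baseChange Ω) (F.map (algebraMap 𝒪 Ω))) := by
    rw [aeval_baseChange]
    exact bijective_baseChange_of_bijective (hU F hF)
  rw [injective_iff_map_eq_zero]
  intro v hv
  apply hbij.1
  rw [map_zero, hH, mul_comm, map_mul, Module.End.mul_apply, hv, map_zero]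

/-- the quadratic `X² − aX + c` divides the norm polynomial. -/
theorem quad_dvd_normPoly (G : 𝒪[X]) (c : 𝒪) (a : Ω) (ha : aeval a G = 0) :
    (X ^ 2 - C a * X + C (algebraMap 𝒪 Ω c) : (Polynomial Ω)) ∣ (normPoly G c).map (algebraMap 𝒪 Ω) := by
  set Q : (Polynomial Ω) := X ^ 2 - C a * X + C (algebraMap 𝒪 Ω c) with hQ
  rw [← AdjoinRoot.mk_eq_zero, ← AdjoinRoot.aeval_eq, aeval_map_algebraMap]
  have hroot : AdjoinRoot.root Q * AdjoinRoot.root Q + algebraMap 𝒪 (AdjoinRoot Q) c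
      = AdjoinRoot.of Q a * AdjoinRoot.root Q := by
    have h0 : AdjoinRoot.mk Q Q = 0 := AdjoinRoot.mk_self
    rw [hQ] at h0
    rw [map_add, map_sub, map_mul, map_pow, AdjoinRoot.mk_X, AdjoinRoot.mk_C, AdjoinRoot.mk_C,
      ← hQ] at h0
    rw [IsScalarTower.algebraMap_apply 𝒪 Ω (AdjoinRoot Q), AdjoinRoot.algebraMap_eq]
    linear_combination h0
  rw [aeval_normPoly G c (AdjoinRoot.of Q a) (AdjoinRoot.root Q) hroot]
  have h3 : aeval (AdjoinRoot.of Q a) G = 0 := by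
    rw [← AdjoinRoot.algebraMap_eq, aeval_algebraMap_apply, ha, map_zero]
  rw [h3, mul_zero]

/-- **(A2)** `U'² − a U' + c` is injective on `Ω ⊗[𝒪] L` for `a ∈ Ω` integral over `𝒪`, `c ∈ 𝒪ˣ`. -/
theorem eq_zero_of_quad {U : L →ₗ[𝒪] L} (hU : UnitConstBij U) {a : Ω} (ha : IsIntegral 𝒪 a)
    {c : 𝒪} (hc : IsUnit c) (v : Ω ⊗[𝒪] L)
    (hv : U.baseChange Ω (U.baseChange Ω v) - a • U.baseChange Ω v
      + algebraMap 𝒪 Ω c • v = 0) : v = 0 := by
  obtain ⟨G, hGm, hGa⟩ := ha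
  have hGa' : aeval a G = 0 := hGa
  have hunit : IsUnit ((normPoly G c).coeff 0) := by
    rw [coeff_zero_normPoly, hGm.leadingCoeff, one_mul]
    exact hc.pow _
  have hinj := injective_aeval_of_dvd (Ω := Ω) hU _ _ hunit (quad_dvd_normPoly G c a hGa')
  apply hinj
  rw [map_zero, map_add, map_sub, map_mul, map_pow, aeval_X, aeval_C, aeval_C, pow_two,
    LinearMap.add_apply, LinearMap.sub_apply, Module.End.mul_apply, Module.End.mul_apply,
    Module.algebraMap_end_apply, Module.algebraMap_end_apply]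
  exact hv

/-- **(A3)** `U' − u₁` is injective on `Ω ⊗[𝒪] L` for `u₁² = 1`. -/
theorem eq_zero_of_lin {U : L →ₗ[𝒪] L} (hU : UnitConstBij U) {u₁ : Ω} (hu : u₁ * u₁ = 1)
    (v : Ω ⊗[𝒪] L) (hv : U.baseChange Ω v - u₁ • v = 0) : v = 0 := by
  have hunit : IsUnit (((X : 𝒪[X]) ^ 2 - 1).coeff 0) := by
    simp
  have hdvd : (X - C u₁ : (Polynomial Ω)) ∣ ((X : 𝒪[X]) ^ 2 - 1).map (algebraMap 𝒪 Ω) := by
    refine ⟨X + C u₁, ?_⟩
    have : (C u₁ : (Polynomial Ω)) * C u₁ = 1 := by rw [← C_mul, hu, C_1]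
    simp only [Polynomial.map_sub, Polynomial.map_pow, Polynomial.map_X, Polynomial.map_one]
    linear_combination this
  have hinj := injective_aeval_of_dvd (Ω := Ω) hU _ _ hunit hdvd
  apply hinj
  rw [map_zero, map_sub, aeval_X, aeval_C, LinearMap.sub_apply, Module.algebraMap_end_apply]
  exact hv

/-- type (Q) at a prime of `Sg`: `U'(U'² − aU' + c) y = 0 ⟹ U' y = 0`. -/
theorem apply_eq_zero_of_cub {U : L →ₗ[𝒪] L} (hU : UnitConstBij U) {a : Ω} (ha : IsIntegral 𝒪 a)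
    {c : 𝒪} (hc : IsUnit c) (y : Ω ⊗[𝒪] L)
    (hy : U.baseChange Ω (U.baseChange Ω (U.baseChange Ω y))
      - a • U.baseChange Ω (U.baseChange Ω y) + algebraMap 𝒪 Ω c • U.baseChange Ω y = 0) :
    U.baseChange Ω y = 0 :=
  eq_zero_of_quad hU ha hc _ hy

/-- type (P′) at a prime of `Sg`: `U'(U' − u₁) y = 0`, `u₁² = 1 ⟹ U' y = 0`. -/
theorem apply_eq_zero_of_quadlin {U : L →ₗ[𝒪] L} (hU : UnitConstBij U) {u₁ : Ω}
    (hu : u₁ * u₁ = 1) (y : Ω ⊗[𝒪] L)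
    (hy : U.baseChange Ω (U.baseChange Ω y) - u₁ • U.baseChange Ω y = 0) :
    U.baseChange Ω y = 0 :=
  eq_zero_of_lin hU hu _ hy

end Abstract

/-! ### integrality of the eigenvalues of a base-changed lattice endomorphism -/

section Integral

/-- **(A5)** an eigenvalue of `T.baseChange O` on `O ⊗[ℤ] Λ` (`Λ` a finite free `ℤ`-module, `O` a
domain) with a nonzero eigenvector is integral over `ℤ` (Cayley–Hamilton). -/
theorem isIntegral_of_baseChange_eigen {Λ : Type*} [AddCommGroup Λ] [Module.Free ℤ Λ]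
    [Module.Finite ℤ Λ] {O : Type*} [CommRing O] [IsDomain O] (T : Λ →ₗ[ℤ] Λ) (a : O)
    (y : O ⊗[ℤ] Λ) (hy : y ≠ 0) (h : T.baseChange O y = a • y) : IsIntegral ℤ a := by
  refine ⟨T.charpoly, LinearMap.charpoly_monic T, ?_⟩
  have h0 : aeval T T.charpoly = 0 := LinearMap.aeval_self_charpoly T
  have h1 : aeval (T.baseChange O) (T.charpoly.map (algebraMap ℤ O)) = 0 := by
    rw [aeval_map_algebraMap]
    have h1' := aeval_algHom_apply (Module.End.baseChangeHom ℤ O Λ) T T.charpoly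
    rw [h0, map_zero] at h1'
    exact h1'
  have h2 : aeval (T.baseChange O) (T.charpoly.map (algebraMap ℤ O)) y
      = (T.charpoly.map (algebraMap ℤ O)).eval a • y :=
    Module.End.aeval_apply_of_mem_apply_eq_smul h
  rw [h1, LinearMap.zero_apply, eval_map_algebraMap] at h2
  have h3 := smul_eq_zero.1 h2.symm
  exact h3.resolve_right hy

variable {𝒪 : Type*} [CommRing 𝒪] {Ω : Type*} [Field Ω] [Algebra 𝒪 Ω]
  {L : Type*} [AddCommGroup L] [Module 𝒪 L]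

/-- `apply_eq_zero_of_cub` with `a` integral over `ℤ` (as `isIntegral_of_baseChange_eigen` gives). -/
theorem apply_eq_zero_of_cub_int {U : L →ₗ[𝒪] L} (hU : UnitConstBij U) {a : Ω}
    (ha : IsIntegral ℤ a) {c : 𝒪} (hc : IsUnit c) (y : Ω ⊗[𝒪] L)
    (hy : U.baseChange Ω (U.baseChange Ω (U.baseChange Ω y))
      - a • U.baseChange Ω (U.baseChange Ω y) + algebraMap 𝒪 Ω c • U.baseChange Ω y = 0) :
    U.baseChange Ω y = 0 :=
  apply_eq_zero_of_cub hU (ha.tower_top (A := 𝒪)) hc y hy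

/-- `apply_eq_zero_of_cub_int` with `c = (q : ℕ)` a natural number which is a unit of `𝒪`: the shape
produced by `GE9/OldQ/Final.cub_old` over `O := Ω`. -/
theorem apply_eq_zero_of_cub_nat {U : L →ₗ[𝒪] L} (hU : UnitConstBij U) {a : Ω}
    (ha : IsIntegral ℤ a) {q : ℕ} (hq : IsUnit ((q : ℕ) : 𝒪)) (y : Ω ⊗[𝒪] L)
    (hy : U.baseChange Ω (U.baseChange Ω (U.baseChange Ω y))
      - a • U.baseChange Ω (U.baseChange Ω y) + ((q : ℕ) : Ω) • U.baseChange Ω y = 0) :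
    U.baseChange Ω y = 0 := by
  refine apply_eq_zero_of_cub_int hU ha hq y ?_
  rw [map_natCast]
  exact hy

end Integral

/-! ### the instance: `u ∈ 𝔪` acting on the `𝔪`-primary part -/

section LocPart

open Fermat.Agent.GB.B3.Loc

variable (𝒪 : Type) [CommRing 𝒪] [IsLocalRing 𝒪] [IsNoetherianRing 𝒪]
  [IsAdicComplete (IsLocalRing.maximalIdeal 𝒪) 𝒪]
variable {A : Type} [CommRing A] [Algebra 𝒪 A]
variable {M : Type*} [AddCommGroup M] [Module 𝒪 M] [Module A M] [IsScalarTower 𝒪 A M]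
  [Module.Finite 𝒪 M]
variable (𝔪 : Ideal A) [h𝔪 : 𝔪.IsMaximal]

/-- `u • ·` on the `𝔪`-primary part, as an `𝒪`-linear endomorphism. -/
noncomputable def locSmul (u : A) : ↥(locPart 𝔪 M) →ₗ[𝒪] ↥(locPart 𝔪 M) :=
  Algebra.lsmul 𝒪 𝒪 ↥(locPart 𝔪 M) u

theorem locSmul_apply (u : A) (x : locPart 𝔪 M) : locSmul 𝒪 𝔪 u x = u • x := rfl

theorem aeval_locSmul (u : A) (F : 𝒪[X]) :
    aeval (locSmul 𝒪 (M := M) 𝔪 u) F = locSmul 𝒪 𝔪 (aeval u F) :=
  aeval_algHom_apply (Algebra.lsmul 𝒪 𝒪 ↥(locPart 𝔪 M)) u F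

/-- a polynomial with unit constant term, evaluated at `u ∈ 𝔪`, is not in `𝔪`. -/
theorem aeval_notMem_of_mem {u : A} (hu : u ∈ 𝔪) (F : 𝒪[X]) (hF : IsUnit (F.coeff 0)) :
    aeval u F ∉ 𝔪 := by
  intro h
  obtain ⟨H, hH⟩ := (X_dvd_sub_C : (X : 𝒪[X]) ∣ F - C (F.coeff 0))
  have h1 : aeval u F - algebraMap 𝒪 A (F.coeff 0) = u * aeval u H := by
    have h0 := congrArg (aeval u) hH
    rwa [map_sub, aeval_C, map_mul, aeval_X] at h0
  have h2 : algebraMap 𝒪 A (F.coeff 0) ∈ 𝔪 := by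
    have h3 : algebraMap 𝒪 A (F.coeff 0) = aeval u F - u * aeval u H := by
      rw [← h1]; ring
    rw [h3]
    exact 𝔪.sub_mem h (𝔪.mul_mem_right _ hu)
  exact h𝔪.ne_top (Ideal.eq_top_of_isUnit_mem _ h2 (hF.map (algebraMap 𝒪 A)))

/-- **(A4)** `u ∈ 𝔪` is "topologically nilpotent" on the `𝔪`-primary part. -/
theorem unitConstBij_locSmul {u : A} (hu : u ∈ 𝔪) :
    UnitConstBij (locSmul 𝒪 (M := M) 𝔪 u) := by
  intro F hF
  rw [aeval_locSmul]
  exact bijective_smul_locPart 𝒪 𝔪 (aeval_notMem_of_mem 𝒪 𝔪 hu F hF)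

/-- **type (Q) on the `𝔪`-primary part**: `u ∈ 𝔪`, `U' := (u • ·) ⊗ Ω`, `a` integral over `ℤ`,
`q ∈ 𝒪ˣ`:  `U'³ y − a U'² y + q U' y = 0 ⟹ U' y = 0`. -/
theorem locSmul_apply_eq_zero_of_cub {Ω : Type*} [Field Ω] [Algebra 𝒪 Ω] {u : A} (hu : u ∈ 𝔪)
    {a : Ω} (ha : IsIntegral ℤ a) {q : ℕ} (hq : IsUnit ((q : ℕ) : 𝒪))
    (y : Ω ⊗[𝒪] ↥(locPart 𝔪 M))
    (hy : (locSmul 𝒪 𝔪 u).baseChange Ω ((locSmul 𝒪 𝔪 u).baseChange Ω
        ((locSmul 𝒪 𝔪 u).baseChange Ω y))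
      - a • (locSmul 𝒪 𝔪 u).baseChange Ω ((locSmul 𝒪 𝔪 u).baseChange Ω y)
      + ((q : ℕ) : Ω) • (locSmul 𝒪 𝔪 u).baseChange Ω y = 0) :
    (locSmul 𝒪 𝔪 u).baseChange Ω y = 0 :=
  apply_eq_zero_of_cub_nat (unitConstBij_locSmul 𝒪 𝔪 hu) ha hq y hy

/-- **type (P′) on the `𝔪`-primary part**: `u ∈ 𝔪`, `u₁² = 1`:
`U'² y − u₁ U' y = 0 ⟹ U' y = 0`. -/
theorem locSmul_apply_eq_zero_of_quadlin {Ω : Type*} [Field Ω] [Algebra 𝒪 Ω] {u : A}
    (hu : u ∈ 𝔪) {u₁ : Ω} (hu₁ : u₁ * u₁ = 1) (y : Ω ⊗[𝒪] ↥(locPart 𝔪 M))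
    (hy : (locSmul 𝒪 𝔪 u).baseChange Ω ((locSmul 𝒪 𝔪 u).baseChange Ω y)
      - u₁ • (locSmul 𝒪 𝔪 u).baseChange Ω y = 0) :
    (locSmul 𝒪 𝔪 u).baseChange Ω y = 0 :=
  apply_eq_zero_of_quadlin (unitConstBij_locSmul 𝒪 𝔪 hu) hu₁ y hy

theorem locSmul_baseChange_tmul {Ω : Type*} [Field Ω] [Algebra 𝒪 Ω] (u : A) (c : Ω)
    (x : locPart 𝔪 M) :
    (locSmul 𝒪 𝔪 u).baseChange Ω (c ⊗ₜ[𝒪] x) = c ⊗ₜ[𝒪] (u • x) := by
  rw [LinearMap.baseChange_tmul]
  rfl

end LocPart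

end Fermat.Agent.GE9.PNew.RankAlg
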