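/-
GATE-E (S59) / RISK-4 = PNEW-STAGE, reader seat (helper31): **plug-test of the seam
R4-C (`Depth`/`DepthPlug`, helper16) → R4-C' (`DepthAnn.hJ_of_depth`, helper87) →
the stage step (`KerHeckeProd.card_congMod_ker_growth_free_prod`, helper19/helper21)**
as ONE theorem over `𝕋 = 𝒪[X_l : l ∉ S0]`, `g = aeval lam`:

  `#Ω(K_n) = #Ω(K_{n-1}) · #(𝒪 ⧸ c) ^ d`

from the two flat `R = T` data `X0` (at `∅`), `Xn` (at `Sg`), the base point `ρ_g`, and the modular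
binders of the step.  The only binder not produced by a landed file is
`hJ₀ : Ann_𝕋 A_{n-1} ≤ Ann_𝕋 A_∅` (a `𝕋`-equivariant surjection `A_{n-1} ↠ A_∅`, or injection
`A_∅ ↪ A_{n-1}`: `DepthAnn.annihilator_le_of_surjective'` / `_injective'`).
-/
import Mathlib
import Fermat.Agent.GE9.PNew.DepthPlug
import Fermat.Agent.GE9.Eta.KerHeckeProd

set_option autoImplicit false
set_option linter.unusedSectionVars false
set_option linter.unusedVariables false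

namespace Fermat.Agent.GE9.PNew.StepGlue

open IsLocalRing Polynomial CuspForm Module Submodule
open Fermat.Agent.GE.Graph Fermat.Agent.GE9.Eta Fermat.Agent.GE9.PNew.DepthPlug

/-- `G_ℚ`. -/
local notation "GQ" => (AlgebraicClosure ℚ ≃ₐ[ℚ] AlgebraicClosure ℚ)
local notation "Qb" => AlgebraicClosure ℚ

variable {𝒪 : Type} [CommRing 𝒪] [IsDomain 𝒪] [IsDiscreteValuationRing 𝒪]
  [IsAdicComplete (maximalIdeal 𝒪) 𝒪] [Finite (ResidueField 𝒪)]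
  {ρbar : ResidualGaloisRep (ResidueField 𝒪)} {p : ℕ} {Smin Sg : Finset ℕ}

/-- **the `p`-new stage step from the two flat stages** (seam test). -/
theorem card_congMod_ker_growth_of_stages
    -- the flat `R = T` data and the base point
    (Xn : RTData ρbar (condFL 𝒪 p Smin Sg)) (X0 : RTData ρbar (condFL 𝒪 p Smin ∅))
    (S0 : Finset ℕ)
    (hSn : ∀ l : ℕ, l.Prime → l ∉ S0 → ¬ l ∣ Xn.N ∧ l ∉ Xn.S)
    (hS0 : ∀ l : ℕ, l.Prime → l ∉ S0 → ¬ l ∣ X0.N ∧ l ∉ X0.S)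
    (ρg : GaloisRepAdic 𝒪)
    (hres : ρg.residual.IsEquiv (ρbar.baseChangeAlong (ResidueField.map (algebraMap 𝒪 𝒪))))
    (hunr : ∀ q ∈ Sg, q.Prime → q ∉ Smin → ρg.IsUnramifiedAt q)
    (lam : PIdx S0 → 𝒪)
    (hlam : ∀ (l : PIdx S0) (P : ValuationSubring Qb), P.LiesOverPrime l → ∀ σ : GQ,
      P.IsFrobeniusAt σ l →
        LinearMap.charpoly (ρg.ρ σ) = X ^ 2 - C (lam l) * X + C (((l : ℕ) : 𝒪)))
    (hπn : Function.Surjective (carrier Xn S0 hSn))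
    -- the modules: `Ab` (base), `A₀` (stage `n-1`), `A₀'` (stage `n`, carrier `Xn.T`)
    {Ab A₀ A₀' L L' K₀ K₀' : Type*}
    [AddCommGroup Ab] [Module (MvPolynomial (PIdx S0) 𝒪) Ab]
    [AddCommGroup L] [Module 𝒪 L] [AddCommGroup L'] [Module 𝒪 L']
    [AddCommGroup K₀] [Module 𝒪 K₀] [AddCommGroup K₀'] [Module 𝒪 K₀']
    [AddCommGroup A₀] [Module 𝒪 A₀] [AddCommGroup A₀'] [Module 𝒪 A₀']
    [Module (MvPolynomial (PIdx S0) 𝒪) L'] [IsScalarTower 𝒪 (MvPolynomial (PIdx S0) 𝒪) L']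
    [Module (MvPolynomial (PIdx S0) 𝒪) A₀'] [IsScalarTower 𝒪 (MvPolynomial (PIdx S0) 𝒪) A₀']
    [Module (MvPolynomial (PIdx S0) 𝒪) A₀] [IsScalarTower 𝒪 (MvPolynomial (PIdx S0) 𝒪) A₀]
    (hb0 : ∀ s : MvPolynomial (PIdx S0) 𝒪, (∀ y : Ab, s • y = 0) → carrier X0 S0 hS0 s = 0)
    (hₙ : ∀ s : MvPolynomial (PIdx S0) 𝒪, carrier Xn S0 hSn s = 0 → ∀ y : A₀', s • y = 0)
    (hJ₀ : Module.annihilator (MvPolynomial (PIdx S0) 𝒪) A₀ ≤
      Module.annihilator (MvPolynomial (PIdx S0) 𝒪) Ab)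
    -- freeness (R4-D) over carriers `T1` (stage `n`), `T2` (stage `n-1`)
    {T1 T2 : Type*} [CommRing T1] [CommRing T2] [Algebra (MvPolynomial (PIdx S0) 𝒪) T1]
    [Algebra (MvPolynomial (PIdx S0) 𝒪) T2]
    [Module T1 A₀'] [IsScalarTower (MvPolynomial (PIdx S0) 𝒪) T1 A₀'] [Module T2 A₀]
    [IsScalarTower (MvPolynomial (PIdx S0) 𝒪) T2 A₀]
    (h1 : Function.Surjective (algebraMap (MvPolynomial (PIdx S0) 𝒪) T1)) {r : ℕ}
    (b1 : Basis (Fin r) T1 A₀') (b2 : Basis (Fin r) T2 A₀)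
    -- the modular binders of the step
    (B : L →ₗ[𝒪] L →ₗ[𝒪] 𝒪) (B' : L' →ₗ[𝒪] L' →ₗ[𝒪] 𝒪)
    (ι : K₀ →ₗ[𝒪] L) (ι' : K₀' →ₗ[𝒪] L') {d : ℕ} (b : Fin d → L) (b' : Fin d → L')
    (bK : Fin d → K₀) (bK' : Fin d → K₀') (hbK : ∀ i, ι (bK i) = b i)
    (hbK' : ∀ i, ι' (bK' i) = b' i) (c : 𝒪) (hc : c ≠ 0) (hdet : (gram B b).det ≠ 0)
    (h : ∀ i j, B' (b' i) (b' j) = c * B (b i) (b j))
    (t : L' →ₗ[𝒪] L) (ht : Function.Surjective t)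
    (hadj : ∀ i y, B' (b' i) y = B (b i) (t y))
    (β : L →ₗ[𝒪] A₀ × A₀) (β' : L' →ₗ[𝒪] A₀' × A₀') (hβ' : Function.Surjective β')
    (tN : A₀' →ₗ[𝒪] A₀)
    (hcomm : ∀ y, β (t y) = (tN (β' y).1, tN (β' y).2))
    (hι : LinearMap.range ι = LinearMap.ker β) (hι' : LinearMap.range ι' = LinearMap.ker β')
    (hβ'eq : ∀ (s : MvPolynomial (PIdx S0) 𝒪) (m : L'), β' (s • m) = s • β' m)
    (hB'adj : ∀ (s : MvPolynomial (PIdx S0) 𝒪) (x y : L'), B' (s • x) y = B' x (s • y))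
    (hg : ∀ (s : MvPolynomial (PIdx S0) 𝒪) (i : Fin d),
      s • b' i = (MvPolynomial.aeval lam : MvPolynomial (PIdx S0) 𝒪 →ₐ[𝒪] 𝒪) s • b' i)
    (htNeq : ∀ (s : MvPolynomial (PIdx S0) 𝒪) (y : A₀'), tN (s • y) = s • tN y)
    (htN : Function.Surjective tN) :
    Nat.card (CongMod (B'.compl₁₂ ι' ι') (span 𝒪 (Set.range bK'))) =
      Nat.card (CongMod (B.compl₁₂ ι ι) (span 𝒪 (Set.range bK))) *
        Nat.card (𝒪 ⧸ Ideal.span {c}) ^ d :=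
  Fermat.Agent.GE9.Eta.KerHeckeProd.card_congMod_ker_growth_free_prod B B' ι ι' b b' bK bK' hbK
    hbK' c hc hdet h t ht hadj β β' hβ' tN hcomm hι hι' hβ'eq hB'adj
    (MvPolynomial.aeval lam : MvPolynomial (PIdx S0) 𝒪 →ₐ[𝒪] 𝒪) hg htNeq htN h1 b1 b2
    (Fermat.Agent.GE9.PNew.DepthAnn.hJ_of_depth
      (MvPolynomial.aeval lam : MvPolynomial (PIdx S0) 𝒪 →ₐ[𝒪] 𝒪)
      (map_annihilator_le_of_stage Xn X0 S0 hSn hS0 ρg hres hunr lam hlam hπn hb0 hₙ)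
      (Module.annihilator (MvPolynomial (PIdx S0) 𝒪) A₀) hJ₀)

end Fermat.Agent.GE9.PNew.StepGlue
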