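/-
GATE-E / S59, RISK-4 = PNEW-STAGE (helper16): **the abstract core of the `p`-new step numerics**
(slices (e9) + (e10) of helper37's table 7832), Pkg-free and model-free.

At a step `Sg → insert q Sg` of the strict-ordinary chain of case (b) the instance layer has

* the two ABSTRACT flat stages `Y₂` (at `Sg`), `Y₁` (at `insert q Sg`) delivered by the flat engine
  (`GE9/Asm/Chain2Sub.exists_rtNum_condFL_pair'`), with the invariant `Yᵢ.w = #Ω(Aᵢ)`;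
* the CURRENT strict-ordinary stage `(Xso, πso)` (type `𝒟^{so}_{Sg}`) with eigenvalues `lam`;
* for `i = 1, 2` a CONCRETE carrier `Tᵢ` (image of the anemic Hecke algebra on the flat stage module
  `A₀'` resp. `A₀`) with the raw fields at `D' := Yᵢ.rt.D` and the module-side numerics — the binders
  of helper31's `StageFreeRT.stage_free_of_rtNum` VERBATIM;
* the polynomial Hecke algebra `𝕋 = 𝒪[X_l : l ∉ S0]` acting on `A₀`, `A₀'`, `L'` (any module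
  structures), tied to the carriers ONLY on the generators: `X_l • y = πᵢ (T_l) • y`;
* the modular binders of `KerHeckeProd.card_congMod_ker_growth_free_prod`, the `𝕋`-linear ones
  (`hβ'eq`, `hB'adj`, `hg`, `htNeq`) ONLY at the generators `s = X_l`.

Inside: `stage_free_of_rtNum` twice (`φᵢ` bijective, `Aᵢ ≅ Tᵢ^d`), `DepthCarrier.rtDataOfRaw` twice
(the `R = T` data `Xn`, `X'` at the concrete carriers), `Algebra 𝕋 Tᵢ := carrier`, the towers and the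
faithfulness binders `h'`, `hₙ` from freeness, `hπn` from `hgen₁`, the `𝕋`-linear binders by
`MvPolynomial.induction_on`, and finally `DepthStage.card_congMod_ker_growth_of_step`:

  `#Ω(K_{insert q Sg}) = #Ω(K_{Sg}) · #(𝒪 ⧸ c) ^ d`.

* `map_smul_of_X`, `adj_of_X`, `smul_eq_aeval_smul_of_X`, `smul_eq_algHom_smul_of_X` : generator
  forms ⟹ all of `𝒪[X_i]` (Mathlib only);
* **`card_congMod_ker_growth_of_flStages`** : the step.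
-/
import Mathlib
import Fermat.Agent.GE9.PNew.DepthStage
import Fermat.Agent.GE9.PNew.DepthCarrier
import Fermat.Agent.GE9.PNew.StageFreeRT

set_option autoImplicit false
set_option linter.unusedSectionVars false
set_option linter.unusedVariables false
set_option linter.style.haveILetI false

namespace Fermat.Agent.GE9.PNew.StepNewCore

open IsLocalRing Polynomial CuspForm Module Submodule Function
open Fermat.Agent.GE.Graph Fermat.Agent.GE9.Ind Fermat.Agent.GE9.NumCrit Fermat.Agent.GE9.Eta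
  Fermat.Agent.GE9.NumCrit.ModForm
  Fermat.Agent.GE9.PNew.DepthPlug Fermat.Agent.GE9.PNew.DepthCarrier
  Fermat.Agent.GE9.PNew.DepthStage Fermat.Agent.GE9.PNew.StageFreeRT

/-- `G_ℚ`. -/
local notation "GQ" => (AlgebraicClosure ℚ ≃ₐ[ℚ] AlgebraicClosure ℚ)

/-! ### from the generators to the polynomial algebra -/

section Gen

variable {O : Type*} [CommRing O] {σ : Type*}

/-- an `O`-linear map commuting with the `X_i` is `O[X_i]`-linear. -/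
theorem map_smul_of_X {M₁ M₂ : Type*} [AddCommGroup M₁] [Module O M₁]
    [Module (MvPolynomial σ O) M₁] [IsScalarTower O (MvPolynomial σ O) M₁]
    [AddCommGroup M₂] [Module O M₂] [Module (MvPolynomial σ O) M₂]
    [IsScalarTower O (MvPolynomial σ O) M₂] (f : M₁ →ₗ[O] M₂)
    (hX : ∀ (i : σ) (m : M₁), f ((MvPolynomial.X i : MvPolynomial σ O) • m) =
      (MvPolynomial.X i : MvPolynomial σ O) • f m)
    (s : MvPolynomial σ O) (m : M₁) : f (s • m) = s • f m := by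
  induction s using MvPolynomial.induction_on generalizing m with
  | C a => rw [← MvPolynomial.algebraMap_eq, algebraMap_smul, algebraMap_smul, map_smul]
  | add p₁ p₂ h₁ h₂ => rw [add_smul, add_smul, map_add, h₁, h₂]
  | mul_X p₁ i h₁ => rw [mul_smul, mul_smul, h₁, hX]

/-- a bilinear form for which the `X_i` are self-adjoint is `O[X_i]`-self-adjoint. -/
theorem adj_of_X {M : Type*} [AddCommGroup M] [Module O M] [Module (MvPolynomial σ O) M]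
    [IsScalarTower O (MvPolynomial σ O) M] (B : M →ₗ[O] M →ₗ[O] O)
    (hX : ∀ (i : σ) (x y : M), B ((MvPolynomial.X i : MvPolynomial σ O) • x) y =
      B x ((MvPolynomial.X i : MvPolynomial σ O) • y))
    (s : MvPolynomial σ O) (x y : M) : B (s • x) y = B x (s • y) := by
  induction s using MvPolynomial.induction_on generalizing x y with
  | C a =>
    rw [← MvPolynomial.algebraMap_eq, algebraMap_smul, algebraMap_smul, map_smul,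
      LinearMap.smul_apply, map_smul]
  | add p₁ p₂ h₁ h₂ =>
    rw [add_smul, add_smul, map_add, LinearMap.add_apply, map_add, h₁, h₂]
  | mul_X p₁ i h₁ => rw [mul_smul, h₁, hX, mul_comm p₁, mul_smul]

/-- a joint eigenvector of the `X_i` is an eigenvector of `O[X_i]`, with character `aeval lam`. -/
theorem smul_eq_aeval_smul_of_X {M : Type*} [AddCommGroup M] [Module O M]
    [Module (MvPolynomial σ O) M] [IsScalarTower O (MvPolynomial σ O) M] (lam : σ → O) (v : M)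
    (hX : ∀ i : σ, (MvPolynomial.X i : MvPolynomial σ O) • v = lam i • v)
    (s : MvPolynomial σ O) :
    s • v = (MvPolynomial.aeval lam : MvPolynomial σ O →ₐ[O] O) s • v := by
  induction s using MvPolynomial.induction_on with
  | C a =>
    rw [← MvPolynomial.algebraMap_eq, algebraMap_smul, AlgHom.commutes]
    rfl
  | add p₁ p₂ h₁ h₂ => rw [add_smul, map_add, add_smul, h₁, h₂]
  | mul_X p₁ i h₁ =>
    haveI : SMulCommClass (MvPolynomial σ O) O M := IsScalarTower.to_smulCommClass'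
    rw [mul_smul, hX, smul_comm, h₁, map_mul, MvPolynomial.aeval_X, smul_smul, mul_comm]

/-- if `X_i` acts as `f i ∈ T`, then `s ∈ O[X_i]` acts as `aeval f s`. -/
theorem smul_eq_algHom_smul_of_X {T : Type*} [CommRing T] [Algebra O T]
    {M : Type*} [AddCommGroup M] [Module O M] [Module (MvPolynomial σ O) M]
    [IsScalarTower O (MvPolynomial σ O) M] [Module T M] [IsScalarTower O T M] (f : σ → T)
    (hX : ∀ (i : σ) (y : M), (MvPolynomial.X i : MvPolynomial σ O) • y = f i • y)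
    (s : MvPolynomial σ O) (y : M) :
    s • y = (MvPolynomial.aeval f : MvPolynomial σ O →ₐ[O] T) s • y := by
  induction s using MvPolynomial.induction_on generalizing y with
  | C a => rw [← MvPolynomial.algebraMap_eq, algebraMap_smul, AlgHom.commutes, algebraMap_smul]
  | add p₁ p₂ h₁ h₂ => rw [add_smul, map_add, add_smul, h₁, h₂]
  | mul_X p₁ i h₁ => rw [mul_smul, hX, h₁, map_mul, MvPolynomial.aeval_X, mul_smul]

end Gen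

/-! ### the step -/

section Step

variable {𝒪 : Type} [CommRing 𝒪] [IsDomain 𝒪] [IsDiscreteValuationRing 𝒪]
  [IsAdicComplete (maximalIdeal 𝒪) 𝒪] [Finite (ResidueField 𝒪)]
  {ρbar : ResidualGaloisRep (ResidueField 𝒪)} {p : ℕ} {Smin : Finset ℕ}

/-- **the `p`-new stage step `Sg → insert q Sg` from the two abstract flat stages, their concrete
carriers and the current strict-ordinary stage**:
`#Ω(K_{insert q Sg}) = #Ω(K_{Sg}) · #(𝒪 ⧸ c) ^ d`. -/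
theorem card_congMod_ker_growth_of_flStages {Sg : Finset ℕ} {q : ℕ} {d : ℕ} (hd : d ≠ 0)
    (h𝒟₁ : GaloisRep.IsDeformationCondition 𝒪 (condFL 𝒪 p Smin (insert q Sg)))
    (h𝒟₂ : GaloisRep.IsDeformationCondition 𝒪 (condFL 𝒪 p Smin Sg))
    -- the abstract flat stages and the current strict-ordinary stage with its point
    (Y₁ : RTNum ρbar (condFL 𝒪 p Smin (insert q Sg)) d) (Y₂ : RTNum ρbar (condFL 𝒪 p Smin Sg) d)
    (Xso : RTData ρbar (condSO 𝒪 p Smin Sg)) (πso : Xso.T →ₐ[𝒪] 𝒪)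
    -- the concrete carrier of the stage `insert q Sg` (raw fields at `D' := Y₁.rt.D`)
    {N₁ : ℕ} [NeZero N₁] {S₁ : Set ℕ} {T1 : Type} [CommRing T1] [IsLocalRing T1] [Algebra 𝒪 T1]
    [Module.Finite 𝒪 T1] [Module.Free 𝒪 T1]
    (π₁ : heckeAlgebra N₁ 2 S₁ →+* T1) (hgen₁ : Algebra.adjoin 𝒪 (Set.range π₁) = ⊤)
    (ρT₁ : GaloisRepAdic T1)
    (hcp₁ : ∀ (r : ℕ) (hr : r.Prime) (hrN : ¬ r ∣ N₁) (hrS : r ∉ S₁),
      ∀ A : ValuationSubring (AlgebraicClosure ℚ), A.LiesOverPrime r →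
        ∀ σ : GQ, A.IsFrobeniusAt σ r →
          LinearMap.charpoly (ρT₁.ρ σ) =
            X ^ 2 - C (π₁ (heckeAlgebra.T hr hrN hrS)) * X + C ((r : T1)))
    (φ₁ : Y₁.rt.D.R →ₐ[𝒪] T1) (hφ₁ : Surjective φ₁)
    (φ₁_local : IsLocalHom (φ₁ : Y₁.rt.D.R →+* T1))
    (φ₁_ρ : (Y₁.rt.D.ρ.baseChangeAlong (φ₁ : Y₁.rt.D.R →+* T1) φ₁_local).IsEquiv ρT₁)
    (πO₁ : T1 →ₐ[𝒪] 𝒪) (hη₁ : etaIdeal πO₁ ≠ ⊥)
    {m₁ : ℕ} (γ₁ : MvPowerSeries (Fin m₁) 𝒪 →ₐ[𝒪] Y₁.rt.D.R) (hγ₁ : Surjective γ₁)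
    (Bad₁ : Finset ℕ)
    (hBad₁ : ∀ ℓ : ℕ, ℓ.Prime → ℓ ∉ Bad₁ → ¬ ℓ ∣ Y₁.rt.N ∧ ℓ ∉ Y₁.rt.S ∧ ¬ ℓ ∣ N₁ ∧ ℓ ∉ S₁)
    (heig₁ : ∀ (ℓ : ℕ) (hℓ : ℓ.Prime) (hℓN : ¬ ℓ ∣ Y₁.rt.N) (hℓS : ℓ ∉ Y₁.rt.S)
      (hℓN' : ¬ ℓ ∣ N₁) (hℓS' : ℓ ∉ S₁), ℓ ∉ Bad₁ →
        πO₁ (π₁ (heckeAlgebra.T hℓ hℓN' hℓS')) = Y₁.πO (Y₁.rt.π (heckeAlgebra.T hℓ hℓN hℓS)))
    -- the concrete carrier of the stage `Sg` (raw fields at `D' := Y₂.rt.D`)
    {N₂ : ℕ} [NeZero N₂] {S₂ : Set ℕ} {T2 : Type} [CommRing T2] [IsLocalRing T2] [Algebra 𝒪 T2]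
    [Module.Finite 𝒪 T2] [Module.Free 𝒪 T2]
    (π₂ : heckeAlgebra N₂ 2 S₂ →+* T2) (ρT₂ : GaloisRepAdic T2)
    (hcp₂ : ∀ (r : ℕ) (hr : r.Prime) (hrN : ¬ r ∣ N₂) (hrS : r ∉ S₂),
      ∀ A : ValuationSubring (AlgebraicClosure ℚ), A.LiesOverPrime r →
        ∀ σ : GQ, A.IsFrobeniusAt σ r →
          LinearMap.charpoly (ρT₂.ρ σ) =
            X ^ 2 - C (π₂ (heckeAlgebra.T hr hrN hrS)) * X + C ((r : T2)))
    (φ₂ : Y₂.rt.D.R →ₐ[𝒪] T2) (hφ₂ : Surjective φ₂)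
    (φ₂_local : IsLocalHom (φ₂ : Y₂.rt.D.R →+* T2))
    (φ₂_ρ : (Y₂.rt.D.ρ.baseChangeAlong (φ₂ : Y₂.rt.D.R →+* T2) φ₂_local).IsEquiv ρT₂)
    (πO₂ : T2 →ₐ[𝒪] 𝒪) (hη₂ : etaIdeal πO₂ ≠ ⊥)
    {m₂ : ℕ} (γ₂ : MvPowerSeries (Fin m₂) 𝒪 →ₐ[𝒪] Y₂.rt.D.R) (hγ₂ : Surjective γ₂)
    (Bad₂ : Finset ℕ)
    (hBad₂ : ∀ ℓ : ℕ, ℓ.Prime → ℓ ∉ Bad₂ → ¬ ℓ ∣ Y₂.rt.N ∧ ℓ ∉ Y₂.rt.S ∧ ¬ ℓ ∣ N₂ ∧ ℓ ∉ S₂)
    (heig₂ : ∀ (ℓ : ℕ) (hℓ : ℓ.Prime) (hℓN : ¬ ℓ ∣ Y₂.rt.N) (hℓS : ℓ ∉ Y₂.rt.S)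
      (hℓN' : ¬ ℓ ∣ N₂) (hℓS' : ℓ ∉ S₂), ℓ ∉ Bad₂ →
        πO₂ (π₂ (heckeAlgebra.T hℓ hℓN' hℓS')) = Y₂.πO (Y₂.rt.π (heckeAlgebra.T hℓ hℓN hℓS)))
    -- the flat stage modules `A₀'` (over `T1`), `A₀` (over `T2`) with their numerics
    {A₀ A₀' : Type*} [AddCommGroup A₀] [Module 𝒪 A₀] [AddCommGroup A₀'] [Module 𝒪 A₀']
    [Module T1 A₀'] [IsScalarTower 𝒪 T1 A₀'] [Module.Finite 𝒪 A₀'] [Module.Free 𝒪 A₀']
    [Module T2 A₀] [IsScalarTower 𝒪 T2 A₀] [Module.Finite 𝒪 A₀] [Module.Free 𝒪 A₀]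
    (Bf₁ : A₀' →ₗ[𝒪] A₀' →ₗ[𝒪] 𝒪)
    (hadj₁ : ∀ (t : T1) (x y : A₀'), Bf₁ (t • x) y = Bf₁ x (t • y))
    (hnd₁ : ∀ w : A₀', (∀ z : A₀', Bf₁ z w = 0) → w = 0)
    (bA₁ : Fin d → A₀') (hli₁ : LinearIndependent 𝒪 bA₁)
    (hspan₁ : span 𝒪 (Set.range bA₁) = torPO πO₁ A₀')
    (hw₁ : Y₁.w ≤ Nat.card (CongMod Bf₁ (span 𝒪 (Set.range bA₁))))
    (hrank₁ : Module.finrank 𝒪 A₀' ≤ d * Module.finrank 𝒪 T1)
    (Bf₂ : A₀ →ₗ[𝒪] A₀ →ₗ[𝒪] 𝒪)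
    (hadj₂ : ∀ (t : T2) (x y : A₀), Bf₂ (t • x) y = Bf₂ x (t • y))
    (hnd₂ : ∀ w : A₀, (∀ z : A₀, Bf₂ z w = 0) → w = 0)
    (bA₂ : Fin d → A₀) (hli₂ : LinearIndependent 𝒪 bA₂)
    (hspan₂ : span 𝒪 (Set.range bA₂) = torPO πO₂ A₀)
    (hw₂ : Y₂.w ≤ Nat.card (CongMod Bf₂ (span 𝒪 (Set.range bA₂))))
    (hrank₂ : Module.finrank 𝒪 A₀ ≤ d * Module.finrank 𝒪 T2)
    -- the constant Hecke set and the polynomial Hecke algebra `𝕋 = 𝒪[X_l : l ∉ S0]`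
    (S0 : Finset ℕ)
    (hS1 : ∀ l : ℕ, l.Prime → l ∉ S0 → ¬ l ∣ N₁ ∧ l ∉ S₁)
    (hS2 : ∀ l : ℕ, l.Prime → l ∉ S0 → ¬ l ∣ N₂ ∧ l ∉ S₂)
    (hSso : ∀ l : ℕ, l.Prime → l ∉ S0 → ¬ l ∣ Xso.N ∧ l ∉ Xso.S)
    (h1₁ : ∀ l : ℕ, l.Prime → ¬ l ∣ N₁ → l ∉ S₁ → l ∉ S0)
    (h2₁ : ∀ r : ℕ, r.Prime → r ∣ N₁ → r ∈ S₁)
    (lam : PIdx S0 → 𝒪)
    (hlam : ∀ l : PIdx S0, πso (Xso.π (heckeAlgebra.T l.2.1 (hSso l l.2.1 l.2.2).1
      (hSso l l.2.1 l.2.2).2)) = lam l)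
    [Module (MvPolynomial (PIdx S0) 𝒪) A₀'] [IsScalarTower 𝒪 (MvPolynomial (PIdx S0) 𝒪) A₀']
    [Module (MvPolynomial (PIdx S0) 𝒪) A₀] [IsScalarTower 𝒪 (MvPolynomial (PIdx S0) 𝒪) A₀]
    (hX₁ : ∀ (l : PIdx S0) (y : A₀'), (MvPolynomial.X l : MvPolynomial (PIdx S0) 𝒪) • y =
      π₁ (heckeAlgebra.T l.2.1 (hS1 l l.2.1 l.2.2).1 (hS1 l l.2.1 l.2.2).2) • y)
    (hX₂ : ∀ (l : PIdx S0) (y : A₀), (MvPolynomial.X l : MvPolynomial (PIdx S0) 𝒪) • y =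
      π₂ (heckeAlgebra.T l.2.1 (hS2 l l.2.1 l.2.2).1 (hS2 l l.2.1 l.2.2).2) • y)
    -- the level-`p` modules and the modular binders of the step
    {L L' K₀ K₀' : Type*} [AddCommGroup L] [Module 𝒪 L] [AddCommGroup L'] [Module 𝒪 L']
    [AddCommGroup K₀] [Module 𝒪 K₀] [AddCommGroup K₀'] [Module 𝒪 K₀']
    [Module (MvPolynomial (PIdx S0) 𝒪) L'] [IsScalarTower 𝒪 (MvPolynomial (PIdx S0) 𝒪) L']
    (B : L →ₗ[𝒪] L →ₗ[𝒪] 𝒪) (B' : L' →ₗ[𝒪] L' →ₗ[𝒪] 𝒪)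
    (ι : K₀ →ₗ[𝒪] L) (ι' : K₀' →ₗ[𝒪] L') (b : Fin d → L) (b' : Fin d → L')
    (bK : Fin d → K₀) (bK' : Fin d → K₀') (hbK : ∀ i, ι (bK i) = b i)
    (hbK' : ∀ i, ι' (bK' i) = b' i) (c : 𝒪) (hc : c ≠ 0) (hdet : (gram B b).det ≠ 0)
    (h : ∀ i j, B' (b' i) (b' j) = c * B (b i) (b j))
    (t : L' →ₗ[𝒪] L) (ht : Surjective t)
    (hadj : ∀ i y, B' (b' i) y = B (b i) (t y))
    (β : L →ₗ[𝒪] A₀ × A₀) (β' : L' →ₗ[𝒪] A₀' × A₀') (hβ' : Surjective β')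
    (tN : A₀' →ₗ[𝒪] A₀)
    (hcomm : ∀ y, β (t y) = (tN (β' y).1, tN (β' y).2))
    (hι : LinearMap.range ι = LinearMap.ker β) (hι' : LinearMap.range ι' = LinearMap.ker β')
    (hβ'X : ∀ (l : PIdx S0) (m : L'), β' ((MvPolynomial.X l : MvPolynomial (PIdx S0) 𝒪) • m) =
      (MvPolynomial.X l : MvPolynomial (PIdx S0) 𝒪) • β' m)
    (hB'X : ∀ (l : PIdx S0) (x y : L'),
      B' ((MvPolynomial.X l : MvPolynomial (PIdx S0) 𝒪) • x) y =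
        B' x ((MvPolynomial.X l : MvPolynomial (PIdx S0) 𝒪) • y))
    (hgX : ∀ (l : PIdx S0) (i : Fin d),
      (MvPolynomial.X l : MvPolynomial (PIdx S0) 𝒪) • b' i = lam l • b' i)
    (htNX : ∀ (l : PIdx S0) (y : A₀'), tN ((MvPolynomial.X l : MvPolynomial (PIdx S0) 𝒪) • y) =
      (MvPolynomial.X l : MvPolynomial (PIdx S0) 𝒪) • tN y)
    (htN : Surjective tN) :
    Nat.card (CongMod (B'.compl₁₂ ι' ι') (span 𝒪 (Set.range bK'))) =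
      Nat.card (CongMod (B.compl₁₂ ι ι) (span 𝒪 (Set.range bK))) *
        Nat.card (𝒪 ⧸ Ideal.span {c}) ^ d := by
  classical
  -- `R = T` and freeness at the two concrete carriers
  obtain ⟨hbij₁, -, -, -, -, ⟨e₁⟩⟩ := stage_free_of_rtNum h𝒟₁ hd Y₁ π₁ ρT₁ hcp₁ φ₁ hφ₁ φ₁_local
    φ₁_ρ πO₁ hη₁ γ₁ hγ₁ Bad₁ hBad₁ heig₁ Bf₁ hadj₁ hnd₁ bA₁ hli₁ hspan₁ hw₁ hrank₁
  obtain ⟨hbij₂, -, -, -, -, ⟨e₂⟩⟩ := stage_free_of_rtNum h𝒟₂ hd Y₂ π₂ ρT₂ hcp₂ φ₂ hφ₂ φ₂_local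
    φ₂_ρ πO₂ hη₂ γ₂ hγ₂ Bad₂ hBad₂ heig₂ Bf₂ hadj₂ hnd₂ bA₂ hli₂ hspan₂ hw₂ hrank₂
  let Xn : RTData ρbar (condFL 𝒪 p Smin (insert q Sg)) :=
    rtDataOfRaw Y₁.rt.D π₁ ρT₁ hcp₁ φ₁ hbij₁ φ₁_local φ₁_ρ
  let X' : RTData ρbar (condFL 𝒪 p Smin Sg) :=
    rtDataOfRaw Y₂.rt.D π₂ ρT₂ hcp₂ φ₂ hbij₂ φ₂_local φ₂_ρ
  let b1 : Basis (Fin d) T1 A₀' := Basis.ofEquivFun e₁.symm
  let b2 : Basis (Fin d) T2 A₀ := Basis.ofEquivFun e₂.symm
  -- the carrier maps as algebra structures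
  let c1 : MvPolynomial (PIdx S0) 𝒪 →ₐ[𝒪] T1 := carrier Xn S0 hS1
  let c2 : MvPolynomial (PIdx S0) 𝒪 →ₐ[𝒪] T2 := carrier X' S0 hS2
  letI alg1 : Algebra (MvPolynomial (PIdx S0) 𝒪) T1 := c1.toRingHom.toAlgebra
  letI alg2 : Algebra (MvPolynomial (PIdx S0) 𝒪) T2 := c2.toRingHom.toAlgebra
  have hs₁ : ∀ (s : MvPolynomial (PIdx S0) 𝒪) (y : A₀'), s • y = c1 s • y :=
    fun s y => smul_eq_algHom_smul_of_X _ hX₁ s y
  have hs₂ : ∀ (s : MvPolynomial (PIdx S0) 𝒪) (y : A₀), s • y = c2 s • y :=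
    fun s y => smul_eq_algHom_smul_of_X _ hX₂ s y
  haveI tow1 : IsScalarTower (MvPolynomial (PIdx S0) 𝒪) T1 A₀' := ⟨fun s t y => by
    rw [hs₁ s (t • y), Algebra.smul_def, mul_smul]
    rfl⟩
  haveI tow2 : IsScalarTower (MvPolynomial (PIdx S0) 𝒪) T2 A₀ := ⟨fun s t y => by
    rw [hs₂ s (t • y), Algebra.smul_def, mul_smul]
    rfl⟩
  -- faithfulness at the stage `Sg` (freeness of positive rank), factorisation at `insert q Sg`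
  have h' : ∀ s : MvPolynomial (PIdx S0) 𝒪, (∀ y : A₀, s • y = 0) → carrier X' S0 hS2 s = 0 := by
    intro s hs
    have h0 := hs (b2 ⟨0, Nat.pos_of_ne_zero hd⟩)
    rw [hs₂] at h0
    have h3 := congrArg b2.repr h0
    rw [map_smul, Basis.repr_self, map_zero, Finsupp.smul_single, smul_eq_mul, mul_one,
      Finsupp.single_eq_zero] at h3
    exact h3
  have hₙ : ∀ s : MvPolynomial (PIdx S0) 𝒪, carrier Xn S0 hS1 s = 0 → ∀ y : A₀', s • y = 0 := by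
    intro s hs y
    have hc1 : c1 s = 0 := hs
    rw [hs₁, hc1, zero_smul]
  have hπn : Surjective (carrier Xn S0 hS1) := carrier_surjective Xn S0 hS1 h1₁ h2₁ hgen₁
  have h1 : Surjective (algebraMap (MvPolynomial (PIdx S0) 𝒪) T1) := hπn
  -- the `𝕋`-linear binders from the generators
  have hβ'eq : ∀ (s : MvPolynomial (PIdx S0) 𝒪) (m : L'), β' (s • m) = s • β' m :=
    map_smul_of_X β' hβ'X
  have hB'adj : ∀ (s : MvPolynomial (PIdx S0) 𝒪) (x y : L'), B' (s • x) y = B' x (s • y) :=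
    adj_of_X B' hB'X
  have hg : ∀ (s : MvPolynomial (PIdx S0) 𝒪) (i : Fin d),
      s • b' i = (MvPolynomial.aeval lam : MvPolynomial (PIdx S0) 𝒪 →ₐ[𝒪] 𝒪) s • b' i :=
    fun s i => smul_eq_aeval_smul_of_X lam (b' i) (fun l => hgX l i) s
  have htNeq : ∀ (s : MvPolynomial (PIdx S0) 𝒪) (y : A₀'), tN (s • y) = s • tN y :=
    map_smul_of_X tN htNX
  exact card_congMod_ker_growth_of_step Xn X' Xso πso S0 hS1 hS2 hSso lam hlam hπn h' hₙ h1 b1 b2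
    B B' ι ι' b b' bK bK' hbK hbK' c hc hdet h t ht hadj β β' hβ' tN hcomm hι hι' hβ'eq hB'adj
    hg htNeq htN

end Step

end Fermat.Agent.GE9.PNew.StepNewCore
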