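/-
GATE-E / S59, RISK-4 = PNEW-STAGE (helper16): **the `p`-new step numerics from the MODULE SIDE only**
— helper31's `FLStagePack.exists_flStage_pack` (twice) plugged into
`StepNewPack.card_congMod_ker_growth_of_flPacks`.  No carrier, no raw field, no presentation in the
statement: the concrete carriers are the image rings `ImageRing.TQ 𝒪 θᵢ twᵢ` INSIDE.

Inputs at a step `Sg → insert q Sg`: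

* the abstract flat stages `Y₁` (at `insert q Sg`), `Y₂` (at `Sg`) and the current strict-ordinary
  stage `(Xso, πso)` with eigenvalues `lam`;
* for `i = 1, 2`: the level `Nᵢ` with the level clauses of `RawFL`, the flat stage module `Aᵢ` with
  the anemic action `twᵢ : 𝕋_{S0}(Nᵢ) →+* End_𝒪 Aᵢ`, `LocHyp`, pairing, eigenbasis, OldQ, the engine
  invariant `Yᵢ.w ≤ #Ω(Aᵢ)` and the rank bound — the binders of `exists_flStage_pack` VERBATIM;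
* `𝕋 = 𝒪[X_l : l ∉ S0]`-module structures on `A₀`, `A₀'`, `L'` with `X_l • y = twᵢ (T_l) y`;
* the modular binders of `KerHeckeProd` (the `𝕋`-linear ones at the generators only).

* `TX` : the Hecke operator `T_l ∈ 𝕋_{S0}(N)` of an index `l : PIdx S0`;
* **`card_congMod_ker_growth_of_flModules`** : `#Ω(K_{insert q Sg}) = #Ω(K_{Sg}) · #(𝒪 ⧸ c) ^ d`.
-/
import Mathlib
import Fermat.Agent.GE9.PNew.StepNewPack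
import Fermat.Agent.GE9.PNew.FLStagePack

set_option autoImplicit false
set_option linter.unusedSectionVars false
set_option linter.unusedVariables false
set_option linter.style.haveILetI false

namespace Fermat.Agent.GE9.PNew.StepNewFinal

open IsLocalRing Polynomial CuspForm Module Submodule Function
open Fermat.Agent.GE.Graph Fermat.Agent.GE9.Ind Fermat.Agent.GE9.NumCrit Fermat.Agent.GE9.Eta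
  Fermat.Agent.GE9.PNew.DepthPlug Fermat.Agent.GB.B4.Datum.ImageRing
  Fermat.Agent.GE9.PNew.CarrierExp Fermat.Agent.GE9.PNew.FLStagePack
  Fermat.Agent.GE9.PNew.StepNewPack

/-- `G_ℚ`. -/
local notation "GQ" => (AlgebraicClosure ℚ ≃ₐ[ℚ] AlgebraicClosure ℚ)

/-- the Hecke operator `T_l ∈ 𝕋_{S0}(N)` of an index `l ∉ S0`, when the primes of `N` lie in `S0`. -/
noncomputable def TX {N : ℕ} [NeZero N] (S0 : Finset ℕ)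
    (hNS : ∀ r : ℕ, r.Prime → r ∣ N → r ∈ S0) (l : PIdx S0) :
    heckeAlgebra N 2 (↑S0 : Set ℕ) :=
  heckeAlgebra.T l.2.1 (fun h => l.2.2 (hNS l l.2.1 h)) (fun h => l.2.2 (Finset.mem_coe.mp h))

variable {𝒪 : Type} [CommRing 𝒪] [IsDomain 𝒪] [IsDiscreteValuationRing 𝒪]
  [IsAdicComplete (maximalIdeal 𝒪) 𝒪] [Finite (ResidueField 𝒪)] [CharZero 𝒪]
  {ρbar : ResidualGaloisRep (ResidueField 𝒪)} {p : ℕ} [Fact p.Prime]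
  [Algebra (ZMod p) (ResidueField 𝒪)]
  {Smin : Finset ℕ} {d : ℕ}

set_option maxHeartbeats 1000000 in
/-- **the `p`-new stage step `Sg → insert q Sg` from the module side**:
`#Ω(K_{insert q Sg}) = #Ω(K_{Sg}) · #(𝒪 ⧸ c) ^ d`. -/
theorem card_congMod_ker_growth_of_flModules {Sg : Finset ℕ} {q : ℕ} (hd : d ≠ 0)
    -- the abstract flat stages and the current strict-ordinary stage with its point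
    (Y₁ : RTNum ρbar (condFL 𝒪 p Smin (insert q Sg)) d) (Y₂ : RTNum ρbar (condFL 𝒪 p Smin Sg) d)
    (Xso : RTData ρbar (condSO 𝒪 p Smin Sg)) (πso : Xso.T →ₐ[𝒪] 𝒪)
    (hp2 : p ≠ 2) (hp𝒪 : (p : 𝒪) ∈ maximalIdeal 𝒪) (hpSmin : p ∈ Smin)
    (hmin : ∀ r : ℕ, r.Prime → r ≠ p → (r ∈ Smin ↔ ¬ ρbar.IsUnramifiedAt r))
    (S0 : Finset ℕ) (hpS : p ∈ S0)
    -- the flat stage `insert q Sg`: level clauses and module side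
    (hYS₁ : Y₁.rt.S ⊆ (↑S0 : Set ℕ))
    {N₁ : ℕ} [NeZero N₁] (hNN₁ : Y₁.rt.N ∣ N₁) (hpN₁ : ¬ p ∣ N₁)
    (hNS₁ : ∀ r : ℕ, r.Prime → r ∣ N₁ → r ∈ S0)
    (hNT₁ : ∀ r : ℕ, r.Prime → r ∣ N₁ → r ∈ Smin ∪ insert q Sg)
    (hSminN₁ : ∀ r ∈ Smin, r.Prime → r ≠ p → r ∣ N₁ ∧ ¬ r ^ 2 ∣ N₁)
    {A₀' : Type} [AddCommGroup A₀'] [Module 𝒪 A₀'] [Module.Finite 𝒪 A₀'] [Module.Free 𝒪 A₀']
    [Nontrivial A₀']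
    (θ₁ : heckeAlgebra N₁ 2 (↑S0 : Set ℕ) →+* ResidueField 𝒪)
    (tw₁ : heckeAlgebra N₁ 2 (↑S0 : Set ℕ) →+* Module.End 𝒪 A₀') [Fact (LocHyp 𝒪 θ₁ tw₁)]
    (Bf₁ : A₀' →ₗ[𝒪] A₀' →ₗ[𝒪] 𝒪)
    (hsa₁ : ∀ (t : heckeAlgebra N₁ 2 (↑S0 : Set ℕ)) (x y : A₀'),
      Bf₁ (tw₁ t x) y = Bf₁ x (tw₁ t y))
    (hnd₁ : ∀ w : A₀', (∀ z : A₀', Bf₁ z w = 0) → w = 0)
    (bA₁ : Fin d → A₀') (hli₁ : LinearIndependent 𝒪 bA₁)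
    (χ₁ : heckeAlgebra N₁ 2 (↑S0 : Set ℕ) → 𝒪)
    (hb₁ : ∀ (t : heckeAlgebra N₁ 2 (↑S0 : Set ℕ)) (i : Fin d), tw₁ t (bA₁ i) = χ₁ t • bA₁ i)
    (hold₁ : ∀ x : A₀', (∀ t : heckeAlgebra N₁ 2 (↑S0 : Set ℕ), tw₁ t x = χ₁ t • x) →
      x ∈ span 𝒪 (Set.range bA₁))
    (heig₁ : ∀ (ℓ : ℕ) (hℓ : ℓ.Prime) (hℓN : ¬ ℓ ∣ Y₁.rt.N) (hℓS : ℓ ∉ Y₁.rt.S)
      (hℓN' : ¬ ℓ ∣ N₁) (hℓS' : ℓ ∉ (↑S0 : Set ℕ)),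
        χ₁ (heckeAlgebra.T hℓ hℓN' hℓS') = Y₁.πO (Y₁.rt.π (heckeAlgebra.T hℓ hℓN hℓS)))
    (hw₁ : Y₁.w ≤ Nat.card (CongMod Bf₁ (span 𝒪 (Set.range bA₁))))
    (hrank₁ : Module.finrank 𝒪 A₀' ≤ d * Module.finrank 𝒪 (TQ 𝒪 θ₁ tw₁))
    -- the flat stage `Sg`: level clauses and module side
    (hYS₂ : Y₂.rt.S ⊆ (↑S0 : Set ℕ))
    {N₂ : ℕ} [NeZero N₂] (hNN₂ : Y₂.rt.N ∣ N₂) (hpN₂ : ¬ p ∣ N₂)
    (hNS₂ : ∀ r : ℕ, r.Prime → r ∣ N₂ → r ∈ S0)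
    (hNT₂ : ∀ r : ℕ, r.Prime → r ∣ N₂ → r ∈ Smin ∪ Sg)
    (hSminN₂ : ∀ r ∈ Smin, r.Prime → r ≠ p → r ∣ N₂ ∧ ¬ r ^ 2 ∣ N₂)
    {A₀ : Type} [AddCommGroup A₀] [Module 𝒪 A₀] [Module.Finite 𝒪 A₀] [Module.Free 𝒪 A₀]
    [Nontrivial A₀]
    (θ₂ : heckeAlgebra N₂ 2 (↑S0 : Set ℕ) →+* ResidueField 𝒪)
    (tw₂ : heckeAlgebra N₂ 2 (↑S0 : Set ℕ) →+* Module.End 𝒪 A₀) [Fact (LocHyp 𝒪 θ₂ tw₂)]
    (Bf₂ : A₀ →ₗ[𝒪] A₀ →ₗ[𝒪] 𝒪)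
    (hsa₂ : ∀ (t : heckeAlgebra N₂ 2 (↑S0 : Set ℕ)) (x y : A₀),
      Bf₂ (tw₂ t x) y = Bf₂ x (tw₂ t y))
    (hnd₂ : ∀ w : A₀, (∀ z : A₀, Bf₂ z w = 0) → w = 0)
    (bA₂ : Fin d → A₀) (hli₂ : LinearIndependent 𝒪 bA₂)
    (χ₂ : heckeAlgebra N₂ 2 (↑S0 : Set ℕ) → 𝒪)
    (hb₂ : ∀ (t : heckeAlgebra N₂ 2 (↑S0 : Set ℕ)) (i : Fin d), tw₂ t (bA₂ i) = χ₂ t • bA₂ i)
    (hold₂ : ∀ x : A₀, (∀ t : heckeAlgebra N₂ 2 (↑S0 : Set ℕ), tw₂ t x = χ₂ t • x) →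
      x ∈ span 𝒪 (Set.range bA₂))
    (heig₂ : ∀ (ℓ : ℕ) (hℓ : ℓ.Prime) (hℓN : ¬ ℓ ∣ Y₂.rt.N) (hℓS : ℓ ∉ Y₂.rt.S)
      (hℓN' : ¬ ℓ ∣ N₂) (hℓS' : ℓ ∉ (↑S0 : Set ℕ)),
        χ₂ (heckeAlgebra.T hℓ hℓN' hℓS') = Y₂.πO (Y₂.rt.π (heckeAlgebra.T hℓ hℓN hℓS)))
    (hw₂ : Y₂.w ≤ Nat.card (CongMod Bf₂ (span 𝒪 (Set.range bA₂))))
    (hrank₂ : Module.finrank 𝒪 A₀ ≤ d * Module.finrank 𝒪 (TQ 𝒪 θ₂ tw₂))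
    -- the strict-ordinary point and the polynomial Hecke algebra `𝕋 = 𝒪[X_l : l ∉ S0]`
    (hSso : ∀ l : ℕ, l.Prime → l ∉ S0 → ¬ l ∣ Xso.N ∧ l ∉ Xso.S)
    (lam : PIdx S0 → 𝒪)
    (hlam : ∀ l : PIdx S0, πso (Xso.π (heckeAlgebra.T l.2.1 (hSso l l.2.1 l.2.2).1
      (hSso l l.2.1 l.2.2).2)) = lam l)
    [Module (MvPolynomial (PIdx S0) 𝒪) A₀'] [IsScalarTower 𝒪 (MvPolynomial (PIdx S0) 𝒪) A₀']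
    [Module (MvPolynomial (PIdx S0) 𝒪) A₀] [IsScalarTower 𝒪 (MvPolynomial (PIdx S0) 𝒪) A₀]
    (hX₁ : ∀ (l : PIdx S0) (y : A₀'), (MvPolynomial.X l : MvPolynomial (PIdx S0) 𝒪) • y =
      tw₁ (TX S0 hNS₁ l) y)
    (hX₂ : ∀ (l : PIdx S0) (y : A₀), (MvPolynomial.X l : MvPolynomial (PIdx S0) 𝒪) • y =
      tw₂ (TX S0 hNS₂ l) y)
    -- the level-`p` modules and the modular binders of the step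
    {L L' K₀ K₀' : Type*} [AddCommGroup L] [Module 𝒪 L] [AddCommGroup L'] [Module 𝒪 L']
    [AddCommGroup K₀] [Module 𝒪 K₀] [AddCommGroup K₀'] [Module 𝒪 K₀']
    [Module (MvPolynomial (PIdx S0) 𝒪) L'] [IsScalarTower 𝒪 (MvPolynomial (PIdx S0) 𝒪) L']
    (B : L →ₗ[𝒪] L →ₗ[𝒪] 𝒪) (B' : L' →ₗ[𝒪] L' →ₗ[𝒪] 𝒪)
    (ι : K₀ →ₗ[𝒪] L) (ι' : K₀' →ₗ[𝒪] L') (b : Fin d → L) (b' : Fin d → L')
    (bK : Fin d → K₀) (bK' : Fin d → K₀') (hbK : ∀ i, ι (bK i) = b i)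
    (hbK' : ∀ i, ι' (bK' i) = b' i) (c : 𝒪) (hc : c ≠ 0) (hdet : (gram B b).det ≠ 0)
    (h : ∀ i j, B' (b' i) (b' j) = c * B (b i) (b j))
    (t : L' →ₗ[𝒪] L) (ht : Surjective t)
    (hadj : ∀ i y, B' (b' i) y = B (b i) (t y))
    (β : L →ₗ[𝒪] A₀ × A₀) (β' : L' →ₗ[𝒪] A₀' × A₀') (hβ' : Surjective β')
    (tN : A₀' →ₗ[𝒪] A₀)
    (hcomm : ∀ y, β (t y) = (tN (β' y).1, tN (β' y).2))
    (hι : LinearMap.range ι = LinearMap.ker β) (hι' : LinearMap.range ι' = LinearMap.ker β')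
    (hβ'X : ∀ (l : PIdx S0) (m : L'), β' ((MvPolynomial.X l : MvPolynomial (PIdx S0) 𝒪) • m) =
      (MvPolynomial.X l : MvPolynomial (PIdx S0) 𝒪) • β' m)
    (hB'X : ∀ (l : PIdx S0) (x y : L'),
      B' ((MvPolynomial.X l : MvPolynomial (PIdx S0) 𝒪) • x) y =
        B' x ((MvPolynomial.X l : MvPolynomial (PIdx S0) 𝒪) • y))
    (hgX : ∀ (l : PIdx S0) (i : Fin d),
      (MvPolynomial.X l : MvPolynomial (PIdx S0) 𝒪) • b' i = lam l • b' i)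
    (htNX : ∀ (l : PIdx S0) (y : A₀'), tN ((MvPolynomial.X l : MvPolynomial (PIdx S0) 𝒪) • y) =
      (MvPolynomial.X l : MvPolynomial (PIdx S0) 𝒪) • tN y)
    (htN : Surjective tN) :
    Nat.card (CongMod (B'.compl₁₂ ι' ι') (span 𝒪 (Set.range bK'))) =
      Nat.card (CongMod (B.compl₁₂ ι ι) (span 𝒪 (Set.range bK))) *
        Nat.card (𝒪 ⧸ Ideal.span {c}) ^ d := by
  classical
  letI m1 : Module (TQ 𝒪 θ₁ tw₁) A₀' := moduleTQ 𝒪 θ₁ tw₁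
  letI m2 : Module (TQ 𝒪 θ₂ tw₂) A₀ := moduleTQ 𝒪 θ₂ tw₂
  haveI st1 : IsScalarTower 𝒪 (TQ 𝒪 θ₁ tw₁) A₀' := isScalarTower_TQ 𝒪 θ₁ tw₁
  haveI st2 : IsScalarTower 𝒪 (TQ 𝒪 θ₂ tw₂) A₀ := isScalarTower_TQ 𝒪 θ₂ tw₂
  obtain ⟨ρT₁, φ₁, φ₁_local, πO₁, hcp₁, hbij₁, φ₁_ρ, -, -, -, -, ⟨e₁⟩⟩ :=
    exists_flStage_pack hd Y₁ hp2 hp𝒪 hpSmin hmin S0 hYS₁ hNN₁ hpN₁ hpS hNS₁ hNT₁ hSminN₁ θ₁ tw₁
      Bf₁ hsa₁ hnd₁ bA₁ hli₁ χ₁ hb₁ hold₁ heig₁ hw₁ hrank₁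
  obtain ⟨ρT₂, φ₂, φ₂_local, πO₂, hcp₂, hbij₂, φ₂_ρ, -, -, -, -, ⟨e₂⟩⟩ :=
    exists_flStage_pack hd Y₂ hp2 hp𝒪 hpSmin hmin S0 hYS₂ hNN₂ hpN₂ hpS hNS₂ hNT₂ hSminN₂ θ₂ tw₂
      Bf₂ hsa₂ hnd₂ bA₂ hli₂ χ₂ hb₂ hold₂ heig₂ hw₂ hrank₂
  have hS1 : ∀ l : ℕ, l.Prime → l ∉ S0 → ¬ l ∣ N₁ ∧ l ∉ (↑S0 : Set ℕ) :=
    fun l hl hlS => ⟨fun hdv => hlS (hNS₁ l hl hdv), fun hm => hlS (Finset.mem_coe.mp hm)⟩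
  have hS2 : ∀ l : ℕ, l.Prime → l ∉ S0 → ¬ l ∣ N₂ ∧ l ∉ (↑S0 : Set ℕ) :=
    fun l hl hlS => ⟨fun hdv => hlS (hNS₂ l hl hdv), fun hm => hlS (Finset.mem_coe.mp hm)⟩
  exact card_congMod_ker_growth_of_flPacks hd Y₁.rt.D Y₂.rt.D Xso πso
    (chi 𝒪 θ₁ tw₁) (adjoin_range_chi 𝒪 θ₁ tw₁) ρT₁ hcp₁ φ₁ hbij₁ φ₁_local φ₁_ρ
    (chi 𝒪 θ₂ tw₂) ρT₂ hcp₂ φ₂ hbij₂ φ₂_local φ₂_ρ e₁ e₂ S0 hS1 hS2 hSso
    (fun l _ _ hlS hm => hlS (Finset.mem_coe.mpr hm))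
    (fun r hr hrN => Finset.mem_coe.mpr (hNS₁ r hr hrN)) lam hlam
    (fun l y => by rw [chi_smul]; exact hX₁ l y)
    (fun l y => by rw [chi_smul]; exact hX₂ l y)
    B B' ι ι' b b' bK bK' hbK hbK' c hc hdet h t ht hadj β β' hβ' tN hcomm hι hι' hβ'X hB'X hgX
    htNX htN

end Fermat.Agent.GE9.PNew.StepNewFinal
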