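/-
GATE-E / S59, RISK-4 = PNEW-STAGE (helper16): **`StepNewCore` in PACK form** — the same step
theorem with the OUTPUT of helper31's `FLStagePack.exists_flStage_pack` as input: for `i = 1, 2`
the concrete carrier `Tᵢ` comes with `φᵢ : Yᵢ.rt.D.R →ₐ[𝒪] Tᵢ` BIJECTIVE and an isomorphism
`eᵢ : (Fin d → Tᵢ) ≃ₗ[Tᵢ] Aᵢ` (no numerics, no presentation, no pairing on the flat side: they were
consumed by `stage_free_of_rtNum` inside the pack).  Everything else as in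
`StepNewCore.card_congMod_ker_growth_of_flStages` (generator-form binders).

* **`card_congMod_ker_growth_of_flPacks`** : `#Ω(K_{insert q Sg}) = #Ω(K_{Sg}) · #(𝒪 ⧸ c) ^ d`.
-/
import Mathlib
import Fermat.Agent.GE9.PNew.StepNewCore

set_option autoImplicit false
set_option linter.unusedSectionVars false
set_option linter.unusedVariables false
set_option linter.style.haveILetI false

namespace Fermat.Agent.GE9.PNew.StepNewPack

open IsLocalRing Polynomial CuspForm Module Submodule Function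
open Fermat.Agent.GE.Graph Fermat.Agent.GE9.Ind Fermat.Agent.GE9.NumCrit Fermat.Agent.GE9.Eta
  Fermat.Agent.GE9.PNew.DepthPlug Fermat.Agent.GE9.PNew.DepthCarrier
  Fermat.Agent.GE9.PNew.DepthStage Fermat.Agent.GE9.PNew.StepNewCore

/-- `G_ℚ`. -/
local notation "GQ" => (AlgebraicClosure ℚ ≃ₐ[ℚ] AlgebraicClosure ℚ)

variable {𝒪 : Type} [CommRing 𝒪] [IsDomain 𝒪] [IsDiscreteValuationRing 𝒪]
  [IsAdicComplete (maximalIdeal 𝒪) 𝒪] [Finite (ResidueField 𝒪)]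
  {ρbar : ResidualGaloisRep (ResidueField 𝒪)} {p : ℕ} {Smin : Finset ℕ}

/-- **the `p`-new stage step `Sg → insert q Sg`, pack form**: the two flat `R = T` isomorphisms at
the concrete carriers and the freeness of the flat stage modules are INPUTS. -/
theorem card_congMod_ker_growth_of_flPacks {Sg : Finset ℕ} {q : ℕ} {d : ℕ} (hd : d ≠ 0)
    -- the universal flat rings at the two stages and the current strict-ordinary stage
    (D₁ : GaloisRep.DeformationRingData 𝒪 ρbar (condFL 𝒪 p Smin (insert q Sg)))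
    (D₂ : GaloisRep.DeformationRingData 𝒪 ρbar (condFL 𝒪 p Smin Sg))
    (Xso : RTData ρbar (condSO 𝒪 p Smin Sg)) (πso : Xso.T →ₐ[𝒪] 𝒪)
    -- the concrete carrier of the stage `insert q Sg`
    {N₁ : ℕ} [NeZero N₁] {S₁ : Set ℕ} {T1 : Type} [CommRing T1] [IsLocalRing T1] [Algebra 𝒪 T1]
    (π₁ : heckeAlgebra N₁ 2 S₁ →+* T1) (hgen₁ : Algebra.adjoin 𝒪 (Set.range π₁) = ⊤)
    (ρT₁ : GaloisRepAdic T1)
    (hcp₁ : ∀ (r : ℕ) (hr : r.Prime) (hrN : ¬ r ∣ N₁) (hrS : r ∉ S₁),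
      ∀ A : ValuationSubring (AlgebraicClosure ℚ), A.LiesOverPrime r →
        ∀ σ : GQ, A.IsFrobeniusAt σ r →
          LinearMap.charpoly (ρT₁.ρ σ) =
            X ^ 2 - C (π₁ (heckeAlgebra.T hr hrN hrS)) * X + C ((r : T1)))
    (φ₁ : D₁.R →ₐ[𝒪] T1) (hbij₁ : Bijective φ₁)
    (φ₁_local : IsLocalHom (φ₁ : D₁.R →+* T1))
    (φ₁_ρ : (D₁.ρ.baseChangeAlong (φ₁ : D₁.R →+* T1) φ₁_local).IsEquiv ρT₁)
    -- the concrete carrier of the stage `Sg`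
    {N₂ : ℕ} [NeZero N₂] {S₂ : Set ℕ} {T2 : Type} [CommRing T2] [IsLocalRing T2] [Algebra 𝒪 T2]
    (π₂ : heckeAlgebra N₂ 2 S₂ →+* T2) (ρT₂ : GaloisRepAdic T2)
    (hcp₂ : ∀ (r : ℕ) (hr : r.Prime) (hrN : ¬ r ∣ N₂) (hrS : r ∉ S₂),
      ∀ A : ValuationSubring (AlgebraicClosure ℚ), A.LiesOverPrime r →
        ∀ σ : GQ, A.IsFrobeniusAt σ r →
          LinearMap.charpoly (ρT₂.ρ σ) =
            X ^ 2 - C (π₂ (heckeAlgebra.T hr hrN hrS)) * X + C ((r : T2)))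
    (φ₂ : D₂.R →ₐ[𝒪] T2) (hbij₂ : Bijective φ₂)
    (φ₂_local : IsLocalHom (φ₂ : D₂.R →+* T2))
    (φ₂_ρ : (D₂.ρ.baseChangeAlong (φ₂ : D₂.R →+* T2) φ₂_local).IsEquiv ρT₂)
    -- the flat stage modules, free of rank `d` over the carriers
    {A₀ A₀' : Type*} [AddCommGroup A₀] [Module 𝒪 A₀] [AddCommGroup A₀'] [Module 𝒪 A₀']
    [Module T1 A₀'] [IsScalarTower 𝒪 T1 A₀'] [Module T2 A₀] [IsScalarTower 𝒪 T2 A₀]
    (e₁ : (Fin d → T1) ≃ₗ[T1] A₀') (e₂ : (Fin d → T2) ≃ₗ[T2] A₀)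
    -- the constant Hecke set and the polynomial Hecke algebra `𝕋 = 𝒪[X_l : l ∉ S0]`
    (S0 : Finset ℕ)
    (hS1 : ∀ l : ℕ, l.Prime → l ∉ S0 → ¬ l ∣ N₁ ∧ l ∉ S₁)
    (hS2 : ∀ l : ℕ, l.Prime → l ∉ S0 → ¬ l ∣ N₂ ∧ l ∉ S₂)
    (hSso : ∀ l : ℕ, l.Prime → l ∉ S0 → ¬ l ∣ Xso.N ∧ l ∉ Xso.S)
    (h1₁ : ∀ l : ℕ, l.Prime → ¬ l ∣ N₁ → l ∉ S₁ → l ∉ S0)
    (h2₁ : ∀ r : ℕ, r.Prime → r ∣ N₁ → r ∈ S₁)
    (lam : PIdx S0 → 𝒪)
    (hlam : ∀ l : PIdx S0, πso (Xso.π (heckeAlgebra.T l.2.1 (hSso l l.2.1 l.2.2).1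
      (hSso l l.2.1 l.2.2).2)) = lam l)
    [Module (MvPolynomial (PIdx S0) 𝒪) A₀'] [IsScalarTower 𝒪 (MvPolynomial (PIdx S0) 𝒪) A₀']
    [Module (MvPolynomial (PIdx S0) 𝒪) A₀] [IsScalarTower 𝒪 (MvPolynomial (PIdx S0) 𝒪) A₀]
    (hX₁ : ∀ (l : PIdx S0) (y : A₀'), (MvPolynomial.X l : MvPolynomial (PIdx S0) 𝒪) • y =
      π₁ (heckeAlgebra.T l.2.1 (hS1 l l.2.1 l.2.2).1 (hS1 l l.2.1 l.2.2).2) • y)
    (hX₂ : ∀ (l : PIdx S0) (y : A₀), (MvPolynomial.X l : MvPolynomial (PIdx S0) 𝒪) • y =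
      π₂ (heckeAlgebra.T l.2.1 (hS2 l l.2.1 l.2.2).1 (hS2 l l.2.1 l.2.2).2) • y)
    -- the level-`p` modules and the modular binders of the step
    {L L' K₀ K₀' : Type*} [AddCommGroup L] [Module 𝒪 L] [AddCommGroup L'] [Module 𝒪 L']
    [AddCommGroup K₀] [Module 𝒪 K₀] [AddCommGroup K₀'] [Module 𝒪 K₀']
    [Module (MvPolynomial (PIdx S0) 𝒪) L'] [IsScalarTower 𝒪 (MvPolynomial (PIdx S0) 𝒪) L']
    (B : L →ₗ[𝒪] L →ₗ[𝒪] 𝒪) (B' : L' →ₗ[𝒪] L' →ₗ[𝒪] 𝒪)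
    (ι : K₀ →ₗ[𝒪] L) (ι' : K₀' →ₗ[𝒪] L') (b : Fin d → L) (b' : Fin d → L')
    (bK : Fin d → K₀) (bK' : Fin d → K₀') (hbK : ∀ i, ι (bK i) = b i)
    (hbK' : ∀ i, ι' (bK' i) = b' i) (c : 𝒪) (hc : c ≠ 0) (hdet : (gram B b).det ≠ 0)
    (h : ∀ i j, B' (b' i) (b' j) = c * B (b i) (b j))
    (t : L' →ₗ[𝒪] L) (ht : Surjective t)
    (hadj : ∀ i y, B' (b' i) y = B (b i) (t y))
    (β : L →ₗ[𝒪] A₀ × A₀) (β' : L' →ₗ[𝒪] A₀' × A₀') (hβ' : Surjective β')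
    (tN : A₀' →ₗ[𝒪] A₀)
    (hcomm : ∀ y, β (t y) = (tN (β' y).1, tN (β' y).2))
    (hι : LinearMap.range ι = LinearMap.ker β) (hι' : LinearMap.range ι' = LinearMap.ker β')
    (hβ'X : ∀ (l : PIdx S0) (m : L'), β' ((MvPolynomial.X l : MvPolynomial (PIdx S0) 𝒪) • m) =
      (MvPolynomial.X l : MvPolynomial (PIdx S0) 𝒪) • β' m)
    (hB'X : ∀ (l : PIdx S0) (x y : L'),
      B' ((MvPolynomial.X l : MvPolynomial (PIdx S0) 𝒪) • x) y =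
        B' x ((MvPolynomial.X l : MvPolynomial (PIdx S0) 𝒪) • y))
    (hgX : ∀ (l : PIdx S0) (i : Fin d),
      (MvPolynomial.X l : MvPolynomial (PIdx S0) 𝒪) • b' i = lam l • b' i)
    (htNX : ∀ (l : PIdx S0) (y : A₀'), tN ((MvPolynomial.X l : MvPolynomial (PIdx S0) 𝒪) • y) =
      (MvPolynomial.X l : MvPolynomial (PIdx S0) 𝒪) • tN y)
    (htN : Surjective tN) :
    Nat.card (CongMod (B'.compl₁₂ ι' ι') (span 𝒪 (Set.range bK'))) =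
      Nat.card (CongMod (B.compl₁₂ ι ι) (span 𝒪 (Set.range bK))) *
        Nat.card (𝒪 ⧸ Ideal.span {c}) ^ d := by
  classical
  let Xn : RTData ρbar (condFL 𝒪 p Smin (insert q Sg)) :=
    rtDataOfRaw D₁ π₁ ρT₁ hcp₁ φ₁ hbij₁ φ₁_local φ₁_ρ
  let X' : RTData ρbar (condFL 𝒪 p Smin Sg) :=
    rtDataOfRaw D₂ π₂ ρT₂ hcp₂ φ₂ hbij₂ φ₂_local φ₂_ρ
  let b1 : Basis (Fin d) T1 A₀' := Basis.ofEquivFun e₁.symm
  let b2 : Basis (Fin d) T2 A₀ := Basis.ofEquivFun e₂.symm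
  -- the carrier maps as algebra structures
  let c1 : MvPolynomial (PIdx S0) 𝒪 →ₐ[𝒪] T1 := carrier Xn S0 hS1
  let c2 : MvPolynomial (PIdx S0) 𝒪 →ₐ[𝒪] T2 := carrier X' S0 hS2
  letI alg1 : Algebra (MvPolynomial (PIdx S0) 𝒪) T1 := c1.toRingHom.toAlgebra
  letI alg2 : Algebra (MvPolynomial (PIdx S0) 𝒪) T2 := c2.toRingHom.toAlgebra
  have hs₁ : ∀ (s : MvPolynomial (PIdx S0) 𝒪) (y : A₀'), s • y = c1 s • y :=
    fun s y => smul_eq_algHom_smul_of_X _ hX₁ s y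
  have hs₂ : ∀ (s : MvPolynomial (PIdx S0) 𝒪) (y : A₀), s • y = c2 s • y :=
    fun s y => smul_eq_algHom_smul_of_X _ hX₂ s y
  haveI tow1 : IsScalarTower (MvPolynomial (PIdx S0) 𝒪) T1 A₀' := ⟨fun s t y => by
    rw [hs₁ s (t • y), Algebra.smul_def, mul_smul]
    rfl⟩
  haveI tow2 : IsScalarTower (MvPolynomial (PIdx S0) 𝒪) T2 A₀ := ⟨fun s t y => by
    rw [hs₂ s (t • y), Algebra.smul_def, mul_smul]
    rfl⟩
  -- faithfulness at the stage `Sg` (freeness of positive rank), factorisation at `insert q Sg`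
  have h' : ∀ s : MvPolynomial (PIdx S0) 𝒪, (∀ y : A₀, s • y = 0) → carrier X' S0 hS2 s = 0 := by
    intro s hs
    have h0 := hs (b2 ⟨0, Nat.pos_of_ne_zero hd⟩)
    rw [hs₂] at h0
    have h3 := congrArg b2.repr h0
    rw [map_smul, Basis.repr_self, map_zero, Finsupp.smul_single, smul_eq_mul, mul_one,
      Finsupp.single_eq_zero] at h3
    exact h3
  have hₙ : ∀ s : MvPolynomial (PIdx S0) 𝒪, carrier Xn S0 hS1 s = 0 → ∀ y : A₀', s • y = 0 := by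
    intro s hs y
    have hc1 : c1 s = 0 := hs
    rw [hs₁, hc1, zero_smul]
  have hπn : Surjective (carrier Xn S0 hS1) := carrier_surjective Xn S0 hS1 h1₁ h2₁ hgen₁
  have h1 : Surjective (algebraMap (MvPolynomial (PIdx S0) 𝒪) T1) := hπn
  -- the `𝕋`-linear binders from the generators
  have hβ'eq : ∀ (s : MvPolynomial (PIdx S0) 𝒪) (m : L'), β' (s • m) = s • β' m :=
    map_smul_of_X β' hβ'X
  have hB'adj : ∀ (s : MvPolynomial (PIdx S0) 𝒪) (x y : L'), B' (s • x) y = B' x (s • y) :=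
    adj_of_X B' hB'X
  have hg : ∀ (s : MvPolynomial (PIdx S0) 𝒪) (i : Fin d),
      s • b' i = (MvPolynomial.aeval lam : MvPolynomial (PIdx S0) 𝒪 →ₐ[𝒪] 𝒪) s • b' i :=
    fun s i => smul_eq_aeval_smul_of_X lam (b' i) (fun l => hgX l i) s
  have htNeq : ∀ (s : MvPolynomial (PIdx S0) 𝒪) (y : A₀'), tN (s • y) = s • tN y :=
    map_smul_of_X tN htNX
  exact card_congMod_ker_growth_of_step Xn X' Xso πso S0 hS1 hS2 hSso lam hlam hπn h' hₙ h1 b1 b2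
    B B' ι ι' b b' bK bK' hbK hbK' c hc hdet h t ht hadj β β' hβ' tN hcomm hι hι' hβ'eq hB'adj
    hg htNeq htN

end Fermat.Agent.GE9.PNew.StepNewPack
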