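/-
GATE-E (S59) / RISK-4 = PNEW-STAGE, leaf R4-J (UQ0) (helper19):
**`U_q` VANISHES on the `U_q`-topologically-nilpotent part of `O ⊗ Λ_{N q²}`** (`q ∤ N`, `q ∈ Oˣ`).

An OPERATOR proof (no eigenforms, no old/new trichotomy, no reference eigenvector):

1. MACKEY (`cores2_resD_comm`): for `q ∣ M`,
   `cores2_{M q² → M q} ∘ res_δ_{M q → M q²} = res_δ_{M → M q} ∘ cores2_{M q → M}` on `Hom(Γ₀(M q), A)`
   — the two composite coset systems have the representatives `δ t_j^{(M q)} = t_j^{(M)} δ`.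
2. with helper2's `Fricke.latT_eq_fr_of_dvd` (`U_q = W ∘ cores2 ∘ res_δ ∘ W`, through the level above)
   this factors `U_q` at the level `M q` THROUGH THE LEVEL `M` BELOW (`latT_eq_fr_down`):
   `U_q^{(M q)} = (W res_δ) ∘ (cores2 W) =: ρ ∘ τ`, and `τ ∘ ρ = cores2 ∘ res_δ = W U_q^{(M)} W`.
3. for `M = N q`, `q ∤ N`, `U₁ := U_q^{(N q)}` is QUASI-INVERTIBLE over `ℤ` (`latT_quasiInv`):
   `res ∘ cores = 1 + U₁ w` (GM/B5), `E := res ∘ cores`, `E² = (q + 1) E`, so `U₁ = (E − 1) w` and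
   `U₁' := w (E − q)` satisfies `U₁ U₁' = U₁' U₁ = q`.
4. ABSTRACT (`apply_eq_zero_of_tendsto`): `V = ρ τ`, `V₁' (τ ρ z) = c z` with `c` a unit; if
   `V^n x → 0` `I`-adically and `X₁` is `I`-adically separated then `V x = 0`
   (`τ V^n x = (τ ρ)^n τ x`, hence `c^n τ x → 0`, `τ x = 0`).

* **`latT_baseChange_eq_zero_of_tendsto`** : the statement over any `O` with `q ∈ Oˣ`, separation of
  `O ⊗ Λ_{N q}` as a hypothesis;
* `latT_baseChange_eq_zero_of_tendsto_local` : `O` noetherian local, `I = 𝔪_O` (Krull).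
-/
import Fermat.Agent.GE9.Fricke.Adjoint
import Fermat.Agent.GB.B8.LevelGamma0
import Fermat.Agent.GJ.J2.ZStruct

set_option autoImplicit false
set_option linter.unusedSectionVars false

open scoped MatrixGroups TensorProduct
open CongruenceSubgroup Matrix Matrix.SpecialLinearGroup ModularCurve.Period
open Fermat.Agent.S16_helper49 Fermat.Agent.GM.Amalgam Fermat.Agent.GM.B Fermat.Agent.GM.B5
  Fermat.Agent.GJ.J2.Lat Fermat.Agent.GM.Asm Fermat.Agent.GE9.Adj3 Fermat.Agent.GE9.Fricke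

namespace Fermat.Agent.GE9.PNew.UqZero

/-! ### the abstract lemma -/

section Abstract

variable {R : Type*} [CommRing R] {X₁ X₂ : Type*} [AddCommGroup X₁] [Module R X₁]
  [AddCommGroup X₂] [Module R X₂]

/-- `τ ∘ (ρ τ)^n = (τ ρ)^n ∘ τ`. -/
theorem comp_pow_apply (ρ : X₁ →ₗ[R] X₂) (τ : X₂ →ₗ[R] X₁) (n : ℕ) (x : X₂) :
    τ (((ρ ∘ₗ τ) ^ n) x) = ((τ ∘ₗ ρ) ^ n) (τ x) := by
  induction n generalizing x with
  | zero => simp
  | succ n ih =>
    rw [pow_succ, Module.End.mul_apply, ih, pow_succ, Module.End.mul_apply]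
    rfl

/-- a left quasi-inverse of `τ ρ` is a left quasi-inverse of its powers. -/
theorem quasiInv_pow (φ ψ : X₁ →ₗ[R] X₁) (c : R) (h : ∀ z, ψ (φ z) = c • z) (n : ℕ) (z : X₁) :
    (ψ ^ n) ((φ ^ n) z) = c ^ n • z := by
  induction n generalizing z with
  | zero => simp
  | succ n ih =>
    rw [pow_succ' φ, Module.End.mul_apply, pow_succ ψ, Module.End.mul_apply, h, map_smul, ih,
      smul_smul, pow_succ']

/-- a linear map sends `I^j • ⊤` into `I^j • ⊤`. -/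
theorem map_mem_smul_top (f : X₂ →ₗ[R] X₁) (J : Ideal R) {x : X₂}
    (hx : x ∈ J • (⊤ : Submodule R X₂)) : f x ∈ J • (⊤ : Submodule R X₁) := by
  have h1 : f x ∈ (J • (⊤ : Submodule R X₂)).map f := Submodule.mem_map_of_mem hx
  rw [Submodule.map_smul''] at h1
  exact Submodule.smul_mono le_rfl le_top h1

/-- **the abstract lemma**: `V = ρ τ`, `τ ρ` with a left quasi-inverse up to a unit, `X₁` separated:
`V^n x → 0` ⟹ `V x = 0`. -/
theorem apply_eq_zero_of_tendsto (ρ : X₁ →ₗ[R] X₂) (τ : X₂ →ₗ[R] X₁) (ψ : X₁ →ₗ[R] X₁) (c : R)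
    (hc : IsUnit c) (h1 : ∀ z, ψ (τ (ρ z)) = c • z) (I : Ideal R)
    (hsep : ⨅ j : ℕ, I ^ j • (⊤ : Submodule R X₁) = ⊥) (x : X₂)
    (h : ∀ j : ℕ, ∃ n : ℕ, ((ρ ∘ₗ τ) ^ n) x ∈ I ^ j • (⊤ : Submodule R X₂)) :
    ρ (τ x) = 0 := by
  have hτ : τ x = 0 := by
    have hmem : τ x ∈ ⨅ j : ℕ, I ^ j • (⊤ : Submodule R X₁) := by
      rw [Submodule.mem_iInf]
      intro j
      obtain ⟨n, hn⟩ := h j
      have h2 : ((τ ∘ₗ ρ) ^ n) (τ x) ∈ I ^ j • (⊤ : Submodule R X₁) := by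
        rw [← comp_pow_apply]
        exact map_mem_smul_top τ _ hn
      have h3 : (ψ ^ n) (((τ ∘ₗ ρ) ^ n) (τ x)) ∈ I ^ j • (⊤ : Submodule R X₁) :=
        map_mem_smul_top (ψ ^ n) _ h2
      rw [quasiInv_pow (τ ∘ₗ ρ) ψ c (fun z => h1 z) n] at h3
      obtain ⟨u, hu⟩ := hc.pow n
      have h4 : τ x = (↑u⁻¹ : R) • (c ^ n • τ x) := by
        rw [smul_smul, ← hu, Units.inv_mul, one_smul]
      rw [h4]
      exact Submodule.smul_mem _ _ h3
    rw [hsep] at hmem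
    exact (Submodule.mem_bot R).mp hmem
  rw [hτ, map_zero]

end Abstract

/-! ### the Mackey identity -/

section Mackey

variable {M q : ℕ} [Fact q.Prime] [NeZero M] [NeZero (M * q)]

/-- `δ t_j^{(M q)} = t_j^{(M)} δ`. -/
theorem dlt_mul_tRep (j : ℕ) : dlt q * embR (tRep (M * q) j) = embR (tRep M j) * dlt q := by
  have hq : q ≠ 0 := q_ne_zero'
  ext a b
  simp only [Matrix.GeneralLinearGroup.coe_mul, Matrix.mul_apply, Fin.sum_univ_two]
  fin_cases a <;> fin_cases b <;>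
    simp [hq, tRep, Matrix.SpecialLinearGroup.mapGL_coe_matrix]
  · ring

/-- **MACKEY**: `cores2 ∘ res_δ` (through the level `M q²`) `= res_δ ∘ cores2` (through the level
`M`), on `Hom(Γ₀(M q), A)`, `q ∣ M`. -/
theorem cores2_resD_comm (hqM : q ∣ M) {A : Type*} [AddCommGroup A]
    (ψ : Additive (Gamma0 (M * q)) →+ A) :
    cores2 A (Dvd.dvd.mul_left (dvd_refl q) M : q ∣ M * q) (resD A (M * q) q ψ)
      = resD A M q (cores2 A hqM ψ) := by
  show (coresSys2 (Dvd.dvd.mul_left (dvd_refl q) M : q ∣ M * q)).op A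
      ((resDSys (M * q) q).op A ψ) = (resDSys M q).op A ((coresSys2 hqM).op A ψ)
  rw [← CosetSys.op_comp, ← CosetSys.op_comp]
  refine Fermat.Agent.GB.B5.Betti.op_eq_of_reps ((coresSys2 hqM).comp (resDSys M q))
    ((resDSys (M * q) q).comp (coresSys2 (Dvd.dvd.mul_left (dvd_refl q) M : q ∣ M * q)))
    embR_injective (Equiv.prodComm _ _) 1 (fun x => by rw [one_mul, mul_one]) (fun _ => 1) ?_ ψ
  rintro ⟨(x : ZMod q), u⟩
  show dlt q * embR (tRep (M * q) x.val)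
    = 1 * embR (((1 : Gamma0 (M * q)) : SL(2, ℤ))) * (embR (tRep M x.val) * dlt q)
  rw [Subgroup.coe_one, map_one, one_mul, one_mul, dlt_mul_tRep]

end Mackey

/-! ### `U_q` at the level `M q` factors through the level `M` -/

section Down

variable {M q : ℕ} [Fact q.Prime] [NeZero M] [NeZero (M * q)] [NeZero (M * q * q)]

/-- **`U_q = W ∘ res_δ ∘ cores2 ∘ W`** on `Λ_{M q}`, `q ∣ M` (through the level `M` below). -/
theorem latT_eq_fr_down (hq : q.Prime) (hqM : q ∣ M) (x : Lam (M * q)) :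
    latT (M * q) (⟨q, hq⟩ : Nat.Primes) x
      = frP (M * q) ℤ (resDP ℤ M q (cores2P ℤ hqM (frP (M * q) ℤ x))) := by
  have : Fact ((⟨q, hq⟩ : Nat.Primes) : ℕ).Prime := ⟨hq⟩
  have : NeZero (M * q * ((⟨q, hq⟩ : Nat.Primes) : ℕ)) := ‹NeZero (M * q * q)›
  rw [latT_eq_fr_of_dvd (M := M * q) (⟨q, hq⟩ : Nat.Primes)
    (Dvd.dvd.mul_left (dvd_refl q) M : q ∣ M * q) x]
  congr 1
  apply Subtype.ext
  exact cores2_resD_comm hqM (frP (M * q) ℤ x).1

/-- `cores2 ∘ res_δ = W ∘ U_q ∘ W` on `Λ_M`, `q ∣ M` (helper2's `latT_eq_fr_of_dvd`, solved). -/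
theorem cores2P_resDP_eq (hq : q.Prime) (hqM : q ∣ M) (y : Lam M) :
    cores2P ℤ hqM (resDP ℤ M q y) = frP M ℤ (latT M (⟨q, hq⟩ : Nat.Primes) (frP M ℤ y)) := by
  have : Fact ((⟨q, hq⟩ : Nat.Primes) : ℕ).Prime := ⟨hq⟩
  have : NeZero (M * ((⟨q, hq⟩ : Nat.Primes) : ℕ)) := ‹NeZero (M * q)›
  rw [latT_eq_fr_of_dvd (M := M) (⟨q, hq⟩ : Nat.Primes) hqM (frP M ℤ y), frP_frP, frP_frP]

end Down

/-! ### `U_q` is quasi-invertible at the level `N q`, `q ∤ N` -/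

section Quasi

variable {N q : ℕ} [Fact q.Prime] [NeZero N] [NeZero (N * q)] (hqN : ¬ q ∣ N)

/-- `U_q = (res ∘ cores − 1) ∘ w` on `Λ_{N q}`. -/
theorem latT_eq_sub (hq : q.Prime) (z : Lam (N * q)) :
    latT (N * q) (⟨q, hq⟩ : Nat.Primes) z
      = resP ℤ N q (coresP ℤ hqN (wP hqN ℤ z)) - wP hqN ℤ z := by
  apply Subtype.ext
  have hdvd : (((⟨q, hq⟩ : Nat.Primes) : ℕ)) ∣ N * q := dvd_mul_self_right
  have h := Fermat.Agent.GB.B8.LevelGamma0.res_cores hqN (wOp hqN ℤ z.1)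
  rw [wOp_wOp] at h
  show cohGen (N * q) ℤ (⟨q, hq⟩ : Nat.Primes) z.1
    = res ℤ N q (cores ℤ hqN (wOp hqN ℤ z.1)) - wOp hqN ℤ z.1
  rw [cohGen_of_dvd (N * q) ℤ (⟨q, hq⟩ : Nat.Primes) hdvd, h]
  abel

/-- `cores ∘ res = q + 1` on the lattices. -/
theorem coresP_resP' (x : Lam N) : coresP ℤ hqN (resP ℤ N q x) = (q + 1) • x :=
  Subtype.ext (by rw [coresP_coe, resP_coe, cores_comp_res]; rfl)

/-- the quasi-inverse `w ∘ (res ∘ cores − q)` of `U_q` on `Λ_{N q}`. -/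
noncomputable def uInv : Lam (N * q) →+ Lam (N * q) :=
  (wP hqN ℤ).comp (((resP ℤ N q).comp (coresP ℤ hqN)) - (q : ℤ) • AddMonoidHom.id _)

theorem uInv_apply (y : Lam (N * q)) :
    uInv hqN y = wP hqN ℤ (resP ℤ N q (coresP ℤ hqN y) - (q : ℤ) • y) := rfl

/-- **`U₁' ∘ U₁ = q`** on `Λ_{N q}`, `q ∤ N`. -/
theorem uInv_latT (hq : q.Prime) (z : Lam (N * q)) :
    uInv hqN (latT (N * q) (⟨q, hq⟩ : Nat.Primes) z) = (q : ℤ) • z := by
  rw [uInv_apply, latT_eq_sub hqN hq z]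
  set a := wP hqN ℤ z with ha
  have hE : resP ℤ N q (coresP ℤ hqN (resP ℤ N q (coresP ℤ hqN a)))
      = ((q : ℤ) + 1) • resP ℤ N q (coresP ℤ hqN a) := by
    rw [coresP_resP' hqN, map_nsmul, ← natCast_zsmul]
    push_cast
    rfl
  have h1 : resP ℤ N q (coresP ℤ hqN (resP ℤ N q (coresP ℤ hqN a) - a))
      - (q : ℤ) • (resP ℤ N q (coresP ℤ hqN a) - a) = (q : ℤ) • a := by
    rw [map_sub, map_sub, hE, smul_sub, add_smul, one_smul]
    abel
  rw [h1, map_zsmul, ha, wP_wP]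

end Quasi

/-! ### the theorem -/

section Main

variable {N q : ℕ} [Fact q.Prime] [NeZero N] [NeZero (N * q)] [NeZero (N * q * q)]
  (O : Type*) [CommRing O]

/-- `ρ = W ∘ res_δ : Λ_{N q} → Λ_{N q²}`. -/
noncomputable def rhoZ : Lam (N * q) →ₗ[ℤ] Lam (N * q * q) :=
  ((frP (N * q * q) ℤ).comp (resDP ℤ (N * q) q)).toIntLinearMap

/-- `τ = cores2 ∘ W : Λ_{N q²} → Λ_{N q}`. -/
noncomputable def tauZ : Lam (N * q * q) →ₗ[ℤ] Lam (N * q) :=
  ((cores2P ℤ (Dvd.dvd.mul_left (dvd_refl q) N : q ∣ N * q)).comp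
    (frP (N * q * q) ℤ)).toIntLinearMap

/-- the left quasi-inverse `W ∘ U₁' ∘ W` of `τ ρ = W U₁ W`. -/
noncomputable def psiZ (hqN : ¬ q ∣ N) : Lam (N * q) →ₗ[ℤ] Lam (N * q) :=
  ((frP (N * q) ℤ).comp ((uInv hqN).comp (frP (N * q) ℤ))).toIntLinearMap

theorem rhoZ_tauZ (hq : q.Prime) (x : Lam (N * q * q)) :
    rhoZ (N := N) (q := q) (tauZ x) = latT (N * q * q) (⟨q, hq⟩ : Nat.Primes) x :=
  (latT_eq_fr_down (M := N * q) hq (Dvd.dvd.mul_left (dvd_refl q) N : q ∣ N * q) x).symm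

theorem psiZ_tauZ_rhoZ (hqN : ¬ q ∣ N) (hq : q.Prime) (z : Lam (N * q)) :
    psiZ hqN (tauZ (rhoZ (N := N) (q := q) z)) = (q : ℤ) • z := by
  show frP (N * q) ℤ (uInv hqN (frP (N * q) ℤ
    (cores2P ℤ (Dvd.dvd.mul_left (dvd_refl q) N : q ∣ N * q)
      (frP (N * q * q) ℤ (frP (N * q * q) ℤ (resDP ℤ (N * q) q z)))))) = (q : ℤ) • z
  rw [frP_frP, cores2P_resDP_eq (M := N * q) hq, frP_frP, uInv_latT hqN hq, map_zsmul, frP_frP]

/-- `ψ ∘ τ ∘ ρ = q` after base change. -/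
theorem psi_tau_rho_baseChange (hqN : ¬ q ∣ N) (hq : q.Prime) (z : O ⊗[ℤ] Lam (N * q)) :
    (psiZ hqN).baseChange O ((tauZ (N := N) (q := q)).baseChange O
      ((rhoZ (N := N) (q := q)).baseChange O z)) = ((q : ℕ) : O) • z := by
  induction z using TensorProduct.induction_on with
  | zero => simp
  | tmul a w =>
    rw [LinearMap.baseChange_tmul, LinearMap.baseChange_tmul, LinearMap.baseChange_tmul,
      psiZ_tauZ_rhoZ hqN hq w, TensorProduct.tmul_smul, ← Int.cast_smul_eq_zsmul O (q : ℤ),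
      Int.cast_natCast]
  | add y₁ y₂ h₁ h₂ => rw [map_add, map_add, map_add, h₁, h₂, smul_add]

/-- `ρ ∘ τ = U_q` after base change. -/
theorem rho_tau_baseChange (hq : q.Prime) (x : O ⊗[ℤ] Lam (N * q * q)) :
    (rhoZ (N := N) (q := q)).baseChange O ((tauZ (N := N) (q := q)).baseChange O x)
      = (latT (N * q * q) (⟨q, hq⟩ : Nat.Primes)).baseChange O x := by
  induction x using TensorProduct.induction_on with
  | zero => simp
  | tmul a w =>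
    rw [LinearMap.baseChange_tmul, LinearMap.baseChange_tmul, LinearMap.baseChange_tmul,
      rhoZ_tauZ hq w]
  | add y₁ y₂ h₁ h₂ => rw [map_add, map_add, map_add, h₁, h₂]

/-- **(UQ0)**: `q ∤ N`, `q ∈ Oˣ`, `O ⊗ Λ_{N q}` `I`-adically separated.  If the powers of
`U_q ⊗ O` tend to `0` at `x ∈ O ⊗ Λ_{N q²}` then `U_q x = 0`. -/
theorem latT_baseChange_eq_zero_of_tendsto (hqN : ¬ q ∣ N) (hq : q.Prime)
    (hqO : IsUnit ((q : ℕ) : O))
    (I : Ideal O)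
    (hsep : ⨅ j : ℕ, I ^ j • (⊤ : Submodule O (O ⊗[ℤ] Lam (N * q))) = ⊥)
    (x : O ⊗[ℤ] Lam (N * q * q))
    (h : ∀ j : ℕ, ∃ n : ℕ, (((latT (N * q * q) (⟨q, hq⟩ : Nat.Primes)).baseChange O) ^ n) x
      ∈ I ^ j • (⊤ : Submodule O (O ⊗[ℤ] Lam (N * q * q)))) :
    (latT (N * q * q) (⟨q, hq⟩ : Nat.Primes)).baseChange O x = 0 := by
  have hV : (latT (N * q * q) (⟨q, hq⟩ : Nat.Primes)).baseChange O
      = (rhoZ (N := N) (q := q)).baseChange O ∘ₗ (tauZ (N := N) (q := q)).baseChange O :=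
    LinearMap.ext fun y => (rho_tau_baseChange O hq y).symm
  rw [hV] at h ⊢
  exact apply_eq_zero_of_tendsto ((rhoZ (N := N) (q := q)).baseChange O)
    ((tauZ (N := N) (q := q)).baseChange O) ((psiZ hqN).baseChange O) (((q : ℕ) : O)) hqO
    (fun z => psi_tau_rho_baseChange O hqN hq z) I hsep x h

/-- **(UQ0), `O` noetherian local, `I = 𝔪_O`** (Krull's intersection theorem on the finite
`O`-module `O ⊗ Λ_{N q}`). -/
theorem latT_baseChange_eq_zero_of_tendsto_local [IsNoetherianRing O] [IsLocalRing O]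
    (hqN : ¬ q ∣ N) (hq : q.Prime) (hqO : IsUnit ((q : ℕ) : O)) (x : O ⊗[ℤ] Lam (N * q * q))
    (h : ∀ j : ℕ, ∃ n : ℕ, (((latT (N * q * q) (⟨q, hq⟩ : Nat.Primes)).baseChange O) ^ n) x
      ∈ IsLocalRing.maximalIdeal O ^ j • (⊤ : Submodule O (O ⊗[ℤ] Lam (N * q * q)))) :
    (latT (N * q * q) (⟨q, hq⟩ : Nat.Primes)).baseChange O x = 0 := by
  have : Module.Finite ℤ (Lam (N * q)) :=
    Fermat.Agent.GJ.J2.ZStruct.finite_parabolicHoms_int (N * q)
  exact latT_baseChange_eq_zero_of_tendsto O hqN hq hqO (IsLocalRing.maximalIdeal O)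
    (Ideal.iInf_pow_smul_eq_bot_of_isLocalRing _ Ideal.IsPrime.ne_top') x h

end Main

end Fermat.Agent.GE9.PNew.UqZero
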